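import Mathlib
import Fermat.Agent.BR.AnnulusRed
import Fermat.Agent.BR.Centre

/-!
# Phase 2 (S35), node (G4.E): Frobenius-twisted rotation of the angular reductions

Semilinear twin of `BR/AnnulusRed.lean` (`ubar_smul`).  `g : SemilinearAut K F` a semilinear
automorphism whose base automorphism `σ` preserves the valuation of `A` (a decomposition-group
element) and induces `φ` on the residue field; `u` an annulus coordinate with
`g • u = w * u`, `w` a function with value `cw` at `g • P`, `|cw| = 1`.

* `isValueAt_smul_of_unit` : `u(g • P) = σ (u(P)) / w(g • P)`;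
* `valuation_evalAt_smul_of_unit` : the circles `|u| = const` are preserved by `g`;
* `ubar_smul_frob` : if moreover `|cw - c| < 1` for a constant `c` (`w` has constant residue on the
  tube), then `ubar (g • P) = (res (σ a / a) / res c) * φ (ubar P)` : a `φ`-semilinear scaling of
  the exceptional component at the position `|a|`.
-/

set_option autoImplicit false

open IsLocalRing AlgebraicCurve

namespace Fermat.Agent.BR2.AnnulusFrob

open Fermat.Agent.Red Fermat.Agent.BR.InertiaRed Fermat.Agent.BR.AnnulusRed

variable {K F : Type*} [Field K] [Field F] [Algebra K F]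

/-- `u(g • P) = σ (u(P)) / w(g • P)` when `g • u = w * u`. -/
theorem isValueAt_smul_of_unit (g : SemilinearAut K F) {u w : F} (hu : g • u = w * u)
    {P : Place K F} {cu cw : K} (hcu : IsValueAt P u cu) (hcw : IsValueAt (g • P) w cw)
    (hcw0 : cw ≠ 0) : IsValueAt (g • P) u (SemilinearAut.baseAut g cu / cw) := by
  have h1 : IsValueAt (g • P) (g • u) (SemilinearAut.baseAut g cu) := isValueAt_smul g hcu
  have hw1 : (g • P).adicValuation w = 1 := hcw.adicValuation_eq_one hcw0
  have hw0 : w ≠ 0 := by
    rintro rfl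
    rw [map_zero] at hw1
    exact zero_ne_one hw1
  have h2 : u = (g • u) * w⁻¹ := by
    rw [hu]
    field_simp
  rw [h2, div_eq_mul_inv]
  exact h1.mul (Fermat.Agent.BR.Centre.IsValueAt.inv hcw hcw0)

variable {A : ValuationSubring K}

theorem ne_zero_of_valuation_eq_one {c : K} (hc : A.valuation c = 1) : c ≠ 0 := by
  rintro rfl
  rw [map_zero] at hc
  exact zero_ne_one hc

/-- The circles `|u| = const` are stable under `g`. -/
theorem valuation_evalAt_smul_of_unit (g : SemilinearAut K F)
    (hval : ∀ x : K, A.valuation (SemilinearAut.baseAut g x) = A.valuation x) {u w : F}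
    (hu : g • u = w * u) {P : Place K F} {cu cw : K} (hcu : IsValueAt P u cu)
    (hcw : IsValueAt (g • P) w cw) (hcw1 : A.valuation cw = 1) :
    A.valuation (evalAt (g • P) u) = A.valuation (evalAt P u) := by
  rw [evalAt_eq_of_isValueAt hcu,
    evalAt_eq_of_isValueAt (isValueAt_smul_of_unit g hu hcu hcw (ne_zero_of_valuation_eq_one hcw1)),
    map_div₀, hcw1, div_one, hval]

/-- A constant close to a unit constant is a unit with the same residue. -/
theorem valuation_eq_one_of_sub_lt {c cw : K} (hc : A.valuation c = 1)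
    (hcwc : A.valuation (cw - c) < 1) : A.valuation cw = 1 := by
  have h1 : cw = c + (cw - c) := by ring
  have h2 : A.valuation (cw - c) < A.valuation c := by rw [hc]; exact hcwc
  rw [h1, Valuation.map_add_eq_of_lt_left _ h2, hc]

theorem resOf_eq_of_sub_lt {c cw : K} (hc : A.valuation c = 1)
    (hcwc : A.valuation (cw - c) < 1) : resOf A cw = resOf A c := by
  have hcA : c ∈ A := mem_of_valuation_eq_one A hc
  have hdA : cw - c ∈ A := (A.valuation_le_one_iff _).mp hcwc.le
  have h1 : cw = (cw - c) + c := by ring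
  rw [h1, resOf_add A hdA hcA, resOf_eq_zero A hcwc, zero_add]

theorem resOf_inv {c : K} (hc : A.valuation c = 1) : resOf A c⁻¹ = (resOf A c)⁻¹ := by
  have hc0 : c ≠ 0 := ne_zero_of_valuation_eq_one hc
  have hcA : c ∈ A := mem_of_valuation_eq_one A hc
  have hc' : A.valuation c⁻¹ = 1 := by rw [map_inv₀, hc, inv_one]
  have hcA' : c⁻¹ ∈ A := mem_of_valuation_eq_one A hc'
  have h1 : resOf A c * resOf A c⁻¹ = 1 := by
    rw [← resOf_mul A hcA hcA', mul_inv_cancel₀ hc0, resOf_one]
  exact (eq_inv_of_mul_eq_one_right h1)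

/-- **Frobenius-twisted rotation of the reductions of annular points.** -/
theorem ubar_smul_frob (g : SemilinearAut K F)
    (hval : ∀ x : K, A.valuation (SemilinearAut.baseAut g x) = A.valuation x)
    (φ : ResidueField A ≃+* ResidueField A)
    (hφ : ∀ x : K, x ∈ A → resOf A (SemilinearAut.baseAut g x) = φ (resOf A x))
    {u w : F} (hu : g • u = w * u) {a : K} (ha : a ≠ 0) {P : Place K F} {cu cw c : K}
    (hcu : IsValueAt P u cu) (hv : A.valuation cu = A.valuation a)
    (hcw : IsValueAt (g • P) w cw) (hc : A.valuation c = 1) (hcwc : A.valuation (cw - c) < 1) :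
    ubar A u a (g • P) =
      (resOf A (SemilinearAut.baseAut g a / a) / resOf A c) * φ (ubar A u a P) := by
  have hcw1 : A.valuation cw = 1 := valuation_eq_one_of_sub_lt hc hcwc
  have hcw0 : cw ≠ 0 := ne_zero_of_valuation_eq_one hcw1
  set σ := SemilinearAut.baseAut g with hσ
  have hσa0 : σ a ≠ 0 := by
    intro h
    apply ha
    have := congrArg σ.symm h
    rwa [RingEquiv.symm_apply_apply, map_zero] at this
  unfold ubar angRes
  rw [evalAt_eq_of_isValueAt hcu,
    evalAt_eq_of_isValueAt (isValueAt_smul_of_unit g hu hcu hcw hcw0)]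
  -- the three unit factors
  have h1 : A.valuation (cu / a) = 1 := valuation_div_eq_one A ha hv
  have h1A : cu / a ∈ A := mem_of_valuation_eq_one A h1
  have h2 : A.valuation (σ a / a) = 1 := valuation_div_eq_one A ha (hval a)
  have h2A : σ a / a ∈ A := mem_of_valuation_eq_one A h2
  have h3 : A.valuation cw⁻¹ = 1 := by rw [map_inv₀, hcw1, inv_one]
  have h3A : cw⁻¹ ∈ A := mem_of_valuation_eq_one A h3
  have h4 : A.valuation (σ (cu / a)) = 1 := by rw [hval, h1]
  have h4A : σ (cu / a) ∈ A := mem_of_valuation_eq_one A h4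
  have e : σ cu / cw / a = (σ a / a) * cw⁻¹ * σ (cu / a) := by
    rw [map_div₀]
    field_simp
  rw [e, resOf_mul A (A.mul_mem _ _ h2A h3A) h4A, resOf_mul A h2A h3A, hφ _ h1A,
    resOf_inv hcw1, resOf_eq_of_sub_lt hc hcwc, div_eq_mul_inv (resOf A (σ a / a))]

end Fermat.Agent.BR2.AnnulusFrob
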