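/-
Phase 2 (S35), node (E7')(a) (helper15): the two degeneracy correspondences `E_α = α^* α_*`,
`E_β = β^* β_*` of the level `M q` (`q ∤ M`) on the lattice `Λ(M q) = Hom_par(Γ₀(M q), ℤ)`, as
transfers of ONE-group coset systems at the level `M q` (the shape consumed by the Kummer
equivariance of `Jac/KappaHecke.lean`).

Everything is built on Program M's degeneracy maps `A1L A2L : Λ(M) → Λ(M q)` (restriction, and
restriction twisted by the Atkin–Lehner automorphism `w_q`), `B1L B2L : Λ(M q) → Λ(M)`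
(corestrictions) of `LR/DegMain.lean`.

* `EalphaLam M q hq hqM := A1L ∘ B1L`, `EbetaLam M q hq hqM := A2L ∘ B2L : End (Λ(M q))`;
* `EalphaLam_TLam`, `EbetaLam_TLam` : they commute with `TLam (M q) l` for every prime `l ≠ q`;
* `Dalpha M q hq hqM`, `Dbeta M q hq hqM : CosetReps (embG (M q)) P¹(𝔽_q)` : the coset systems
  `Γ₀(M q) s_x` (`s_x ∈ Γ₀(M)` the representatives of `Γ₀(M q) \ Γ₀(M)`) and its conjugate
  `Γ₀(M q) W⁻¹ s_x W` by the Atkin–Lehner matrix `W = alGL`; both `IsRatPos`;
* `Dalpha_transfer : Dalpha.transfer φ = A1 (B1 φ)`, `Dbeta_transfer : Dbeta.transfer φ = A2 (B2 φ)`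
  (any coefficient group), `coe_EalphaLam`, `coe_EbetaLam` (the lattice form);
* `lift_intertwine` : a linear map intertwining two families of endomorphisms intertwines every
  noncommutative polynomial in them; `EalphaLam_comp_eq_zero`, `EbetaLam_comp_eq_zero` : if `P`
  (on `Λ(M q)`) and `P'` (on `Λ(M)`) are intertwined by `B1L` and `B2L` and `P' = 0`, then
  `E_α ∘ P = 0 = E_β ∘ P`; `lift_TLam_B1L`, `lift_TLam_B2L` : the intertwining for polynomials in
  the `TLam l`, `l ≠ q`.
-/
import Mathlib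
import Fermat.Agent.LR.DegMain
import Fermat.Agent.Jac.HeckeProd

set_option autoImplicit false
set_option linter.unusedSectionVars false
set_option linter.unusedSimpArgs false
set_option linter.style.haveILetI false
set_option linter.unusedVariables false

namespace Fermat.Agent.BR2.DegTransfer

open Matrix.SpecialLinearGroup CongruenceSubgroup ModularForm Fermat.Agent.Jac
open scoped MatrixGroups
open Fermat.Agent.LR Fermat.Agent.LR.Deg Fermat.Agent.LR.DegMain
open P2MW.S_ModularForm_heckeT_slash_eq_self_of_mem_Gamma0.ModularForm.HeckeSlashInvariance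

/-! ### The operators on the lattice -/

section Lattice

variable (M q : ℕ) [NeZero M] [NeZero (M * q)] (hq : q.Prime) (hqM : ¬ q ∣ M)

/-- `E_α = α^* α_* = res ∘ cores` on `Λ(M q)` -/
noncomputable def EalphaLam : Lam (M * q) →ₗ[ℤ] Lam (M * q) :=
  (A1L M q).comp (B1L M q hq hqM)

/-- `E_β = β^* β_*` on `Λ(M q)` (the conjugate of `E_α` by the Atkin–Lehner involution) -/
noncomputable def EbetaLam : Lam (M * q) →ₗ[ℤ] Lam (M * q) :=
  (A2L M q hq hqM).comp (B2L M q hq hqM)

theorem EalphaLam_apply (x : Lam (M * q)) :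
    EalphaLam M q hq hqM x = A1L M q (B1L M q hq hqM x) := rfl

theorem EbetaLam_apply (x : Lam (M * q)) :
    EbetaLam M q hq hqM x = A2L M q hq hqM (B2L M q hq hqM x) := rfl

/-- `E_α` commutes with `T_l`, `l ≠ q` -/
theorem EalphaLam_TLam (l : Nat.Primes) (hl : (l : ℕ) ≠ q) (x : Lam (M * q)) :
    EalphaLam M q hq hqM (TLam (M * q) l x) = TLam (M * q) l (EalphaLam M q hq hqM x) := by
  rw [EalphaLam_apply, EalphaLam_apply, B1L_TLam M q hq hqM l hl, A1L_TLam M q hq hqM l hl]

/-- `E_β` commutes with `T_l`, `l ≠ q` -/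
theorem EbetaLam_TLam (l : Nat.Primes) (hl : (l : ℕ) ≠ q) (x : Lam (M * q)) :
    EbetaLam M q hq hqM (TLam (M * q) l x) = TLam (M * q) l (EbetaLam M q hq hqM x) := by
  rw [EbetaLam_apply, EbetaLam_apply, B2L_TLam M q hq hqM l hl, A2L_TLam M q hq hqM l hl]

end Lattice

/-! ### Noncommutative polynomials in intertwined families -/

section Free

variable {ι V W : Type*} [AddCommGroup V] [AddCommGroup W]

/-- A linear map intertwining two families of endomorphisms intertwines every noncommutative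
polynomial in them. -/
theorem lift_intertwine (f : V →ₗ[ℤ] W) (TV : ι → Module.End ℤ V) (TW : ι → Module.End ℤ W)
    (h : ∀ i v, f (TV i v) = TW i (f v)) (p : FreeAlgebra ℤ ι) (v : V) :
    f (FreeAlgebra.lift ℤ TV p v) = FreeAlgebra.lift ℤ TW p (f v) := by
  induction p using FreeAlgebra.induction generalizing v with
  | grade0 r =>
    rw [AlgHom.commutes, AlgHom.commutes, Module.algebraMap_end_apply,
      Module.algebraMap_end_apply, map_smul]
  | grade1 i =>
    rw [FreeAlgebra.lift_ι_apply, FreeAlgebra.lift_ι_apply]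
    exact h i v
  | mul a b ha hb =>
    rw [map_mul, map_mul, Module.End.mul_apply, Module.End.mul_apply, ha, hb]
  | add a b ha hb =>
    rw [map_add, map_add, LinearMap.add_apply, LinearMap.add_apply, map_add, ha, hb]

end Free

section Related

variable (M q : ℕ) [NeZero M] [NeZero (M * q)] (hq : q.Prime) (hqM : ¬ q ∣ M)

/-- If `P` on `Λ(M q)` is intertwined by the corestriction `B1L` with an endomorphism `P'` of
`Λ(M)` which vanishes, then `E_α ∘ P = 0`. -/
theorem EalphaLam_comp_eq_zero (P : Module.End ℤ (Lam (M * q))) (P' : Module.End ℤ (Lam M))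
    (h1 : ∀ x, B1L M q hq hqM (P x) = P' (B1L M q hq hqM x)) (hP' : P' = 0)
    (x : Lam (M * q)) : EalphaLam M q hq hqM (P x) = 0 := by
  rw [EalphaLam_apply, h1, hP', LinearMap.zero_apply, map_zero]

/-- If `P` on `Λ(M q)` is intertwined by the second corestriction `B2L` with an endomorphism `P'`
of `Λ(M)` which vanishes, then `E_β ∘ P = 0`. -/
theorem EbetaLam_comp_eq_zero (P : Module.End ℤ (Lam (M * q))) (P' : Module.End ℤ (Lam M))
    (h2 : ∀ x, B2L M q hq hqM (P x) = P' (B2L M q hq hqM x)) (hP' : P' = 0)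
    (x : Lam (M * q)) : EbetaLam M q hq hqM (P x) = 0 := by
  rw [EbetaLam_apply, h2, hP', LinearMap.zero_apply, map_zero]

/-- the corestriction `B1L` intertwines every noncommutative polynomial in the `T_l`, `l ≠ q`
(index type: the primes different from `q`) -/
theorem lift_TLam_B1L (p : FreeAlgebra ℤ {l : Nat.Primes // (l : ℕ) ≠ q}) (x : Lam (M * q)) :
    B1L M q hq hqM (FreeAlgebra.lift ℤ (fun l : {l : Nat.Primes // (l : ℕ) ≠ q} =>
        TLam (M * q) l.1) p x) =
      FreeAlgebra.lift ℤ (fun l : {l : Nat.Primes // (l : ℕ) ≠ q} => TLam M l.1) p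
        (B1L M q hq hqM x) :=
  lift_intertwine (B1L M q hq hqM) _ _ (fun l v => B1L_TLam M q hq hqM l.1 l.2 v) p x

/-- the second corestriction `B2L` intertwines every noncommutative polynomial in the `T_l`,
`l ≠ q` -/
theorem lift_TLam_B2L (p : FreeAlgebra ℤ {l : Nat.Primes // (l : ℕ) ≠ q}) (x : Lam (M * q)) :
    B2L M q hq hqM (FreeAlgebra.lift ℤ (fun l : {l : Nat.Primes // (l : ℕ) ≠ q} =>
        TLam (M * q) l.1) p x) =
      FreeAlgebra.lift ℤ (fun l : {l : Nat.Primes // (l : ℕ) ≠ q} => TLam M l.1) p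
        (B2L M q hq hqM x) := by
  have h : ∀ (l : {l : Nat.Primes // (l : ℕ) ≠ q}) (v : Lam (M * q)),
      B2L M q hq hqM (TLam (M * q) l.1 v) = TLam M l.1 (B2L M q hq hqM v) :=
    fun l v => B2L_TLam M q hq hqM l.1 l.2 v
  generalize B2L M q hq hqM = f at h ⊢
  exact lift_intertwine f _ _ h p x

/-- **(E7')(a), the vanishing**: a noncommutative polynomial `p` in the `T_l` (`l ≠ q`) which
vanishes on `Λ(M)` is killed, at the level `M q`, by `E_α` and by `E_β`. -/
theorem Ealpha_Ebeta_lift_eq_zero (p : FreeAlgebra ℤ {l : Nat.Primes // (l : ℕ) ≠ q})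
    (hp : FreeAlgebra.lift ℤ (fun l : {l : Nat.Primes // (l : ℕ) ≠ q} => TLam M l.1) p = 0)
    (x : Lam (M * q)) :
    EalphaLam M q hq hqM (FreeAlgebra.lift ℤ (fun l : {l : Nat.Primes // (l : ℕ) ≠ q} =>
        TLam (M * q) l.1) p x) = 0 ∧
      EbetaLam M q hq hqM (FreeAlgebra.lift ℤ (fun l : {l : Nat.Primes // (l : ℕ) ≠ q} =>
        TLam (M * q) l.1) p x) = 0 :=
  ⟨EalphaLam_comp_eq_zero M q hq hqM _ _ (lift_TLam_B1L M q hq hqM p) hp x,
    EbetaLam_comp_eq_zero M q hq hqM _ _ (lift_TLam_B2L M q hq hqM p) hp x⟩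

end Related

/-! ### The coset systems at the level `M q` -/

section Systems

variable (M q : ℕ) [NeZero M] [NeZero q] (hq : q.Prime) (hqM : ¬ q ∣ M)

/-- **The coset system of `E_α`**: the cosets `Γ₀(M q) s_x`, `x : P¹(𝔽_q)`, whose union is
`Γ₀(M)`, as a one-group system at the level `M q`. -/
noncomputable def Dalpha : CosetReps (embG (M * q)) (OnePoint (ZMod q)) where
  rep x := embG M (sx M q hq hqM x)
  emb_injective := embG_injective (M * q)
  stable γ x := (corSys M q hq hqM).stable (inclHom M q γ) x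
  distinct := (corSys M q hq hqM).distinct

@[simp] theorem Dalpha_rep (x : OnePoint (ZMod q)) :
    (Dalpha M q hq hqM).rep x = embG M (sx M q hq hqM x) := rfl

theorem Dalpha_isRatPos : (Dalpha M q hq hqM).IsRatPos :=
  ⟨fun x => det_mapGL_pos _, fun x => mapGL_mem_ratGL _⟩

/-- the Atkin–Lehner matrix `W` of the level `M q` at `q` (for the Bezout datum chosen in
`LR/DegLam.lean`) -/
noncomputable def alW : GL (Fin 2) ℝ := ALQ.alGL (bez M q hq hqM)

theorem alW_eq : alW M q hq hqM = embG M (ALQ.gam0 (bez M q hq hqM)) * heckeDiagMatrix q :=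
  ALQ.alGL_eq_gam0_mul _

theorem det_alW_pos : 0 < (alW M q hq hqM).det.val := by
  rw [alW_eq, map_mul, Units.val_mul]
  have h1 : 0 < ((embG M (ALQ.gam0 (bez M q hq hqM))).det : ℝˣ).val := det_mapGL_pos _
  have h2 : 0 < ((heckeDiagMatrix q).det : ℝˣ).val := by
    rw [Matrix.GeneralLinearGroup.val_det_apply, val_heckeDiagMatrix (NeZero.ne q),
      Matrix.det_fin_two_of]
    have : (0 : ℝ) < q := Nat.cast_pos.mpr (NeZero.pos q)
    simpa using this
  exact mul_pos h1 h2

theorem alW_mem_ratGL : alW M q hq hqM ∈ ratGL := by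
  rw [alW_eq]
  exact ratGL.mul_mem (mapGL_mem_ratGL _) (heckeDiagMatrix_mem_ratGL q)

/-- **The coset system of `E_β`**: the cosets `Γ₀(M q) W⁻¹ s_x W`, the conjugate of `Dalpha` by
the inverse of the Atkin–Lehner matrix. -/
noncomputable def Dbeta : CosetReps (embG (M * q)) (OnePoint (ZMod q)) :=
  (Dalpha M q hq hqM).conj (ALQ.wq (bez M q hq hqM)).symm (alW M q hq hqM)⁻¹ (fun γ => by
    rw [inv_inv]
    exact ALQ.embG_wq_symm _ γ)

@[simp] theorem Dbeta_rep (x : OnePoint (ZMod q)) :
    (Dbeta M q hq hqM).rep x =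
      (alW M q hq hqM)⁻¹ * embG M (sx M q hq hqM x) * alW M q hq hqM := by
  show (alW M q hq hqM)⁻¹ * embG M (sx M q hq hqM x) * ((alW M q hq hqM)⁻¹)⁻¹ = _
  rw [inv_inv]

theorem Dbeta_isRatPos : (Dbeta M q hq hqM).IsRatPos := by
  refine ⟨fun x => ?_, fun x => ?_⟩
  · rw [Dbeta_rep]
    have h := det_conj_pos (w := (alW M q hq hqM)⁻¹) (det_mapGL_pos (sx M q hq hqM x : SL(2, ℤ)))
    rw [inv_inv] at h
    exact h
  · rw [Dbeta_rep]
    exact ratGL.mul_mem (ratGL.mul_mem (ratGL.inv_mem (alW_mem_ratGL M q hq hqM))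
      (mapGL_mem_ratGL _)) (alW_mem_ratGL M q hq hqM)

variable {A : Type*} [AddCommGroup A]

/-- **`Dalpha` computes `res ∘ cores`.** -/
theorem Dalpha_transfer (φ : Additive (Gamma0 (M * q)) →+ A) :
    (Dalpha M q hq hqM).transfer φ = A1 M q A (B1 M q hq hqM A φ) := by
  refine AddMonoidHom.ext fun γ' => ?_
  obtain ⟨γ, rfl⟩ := Additive.ofMul.surjective γ'
  rw [A1_apply, B1_eq, CosetFam.transfer_apply]
  exact (Dalpha M q hq hqM).transfer_apply_of_rel φ γ
    (fun x => (corFam M q hq hqM).coc (inclHom M q γ) x)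
    (fun x => (corFam M q hq hqM).next (inclHom M q γ) x)
    (fun x => (corFam M q hq hqM).rel (inclHom M q γ) x)

/-- a homomorphism to a commutative group does not see the difference between `w_q` and its
inverse -/
theorem apply_wq_symm' (φ : Additive (Gamma0 (M * q)) →+ A) (γ : Gamma0 (M * q)) :
    φ (Additive.ofMul ((ALQ.wq (bez M q hq hqM)).symm γ)) =
      φ (Additive.ofMul (ALQ.wq (bez M q hq hqM) γ)) := by
  set γ' := (ALQ.wq (bez M q hq hqM)).symm γ with hγ'
  have h1 : γ = ALQ.wq (bez M q hq hqM) γ' := by rw [hγ', MulEquiv.apply_symm_apply]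
  rw [h1, ALQ.wq_wq]
  simp only [ofMul_mul, ofMul_inv, map_add, map_neg]
  abel

/-- **`Dbeta` computes `A2 ∘ B2`** (for the Atkin–Lehner datum `alData M q hq hqM`). -/
theorem Dbeta_transfer (φ : Additive (Gamma0 (M * q)) →+ A) :
    (Dbeta M q hq hqM).transfer φ =
      (alData M q hq hqM).A2 A ((alData M q hq hqM).B2 hq hqM A φ) := by
  refine AddMonoidHom.ext fun γ' => ?_
  obtain ⟨γ, rfl⟩ := Additive.ofMul.surjective γ'
  set w := ALQ.wq (bez M q hq hqM) with hw
  -- the right hand side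
  have hR : (alData M q hq hqM).A2 A ((alData M q hq hqM).B2 hq hqM A φ) (Additive.ofMul γ) =
      (Dalpha M q hq hqM).transfer ((alData M q hq hqM).wOp A φ) (Additive.ofMul (w γ)) := by
    rw [ALData.A2_apply', ALData.B2_apply', ALData.wOp_apply, Dalpha_transfer]
    rfl
  rw [hR]
  -- the left hand side, through `transfer_conj`
  have hL := (Dalpha M q hq hqM).transfer_conj w.symm (alW M q hq hqM)⁻¹ (fun γ => by
    rw [inv_inv]
    exact ALQ.embG_wq_symm _ γ) φ (w γ)
  rw [MulEquiv.symm_apply_apply] at hL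
  have hφ : φ.comp (MonoidHom.toAdditive w.symm.toMonoidHom) = (alData M q hq hqM).wOp A φ := by
    refine AddMonoidHom.ext fun δ' => ?_
    obtain ⟨δ, rfl⟩ := Additive.ofMul.surjective δ'
    rw [ALData.wOp_apply]
    exact apply_wq_symm' M q hq hqM φ δ
  rw [hφ] at hL
  exact hL

end Systems

/-! ### The lattice form -/

section Coe

variable (M q : ℕ) [NeZero M] [NeZero (M * q)] [NeZero q] (hq : q.Prime) (hqM : ¬ q ∣ M)

/-- `E_α` on `Λ(M q)` is the transfer of `Dalpha`. -/
theorem coe_EalphaLam (x : Lam (M * q)) :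
    ((EalphaLam M q hq hqM x : Lam (M * q)) : Additive (Gamma0 (M * q)) →+ ℤ) =
      (Dalpha M q hq hqM).transfer (x : Additive (Gamma0 (M * q)) →+ ℤ) := by
  rw [Dalpha_transfer]
  rfl

/-- `E_β` on `Λ(M q)` is the transfer of `Dbeta`. -/
theorem coe_EbetaLam (x : Lam (M * q)) :
    ((EbetaLam M q hq hqM x : Lam (M * q)) : Additive (Gamma0 (M * q)) →+ ℤ) =
      (Dbeta M q hq hqM).transfer (x : Additive (Gamma0 (M * q)) →+ ℤ) := by
  rw [Dbeta_transfer]
  rfl

end Coe

end Fermat.Agent.BR2.DegTransfer
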