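import Fermat.Agent.Cheb.Cross.ChebExactMain
import Fermat.Agent.Cheb.FrobCompare
import Fermat.Agent.Pseudo.CycloAdic
import Fermat.Prelude.Def_GaloisRep_LocalConditions

/-!
# Phase 2 (S35, conjunct 2), node (D): the determinant of an adic Galois representation with the
expected Frobenius determinants is the cyclotomic character

`O` a local ring, complete for its maximal ideal, with `(p : O) ∈ 𝔪`, `ρ : GaloisRepAdic O` such that
`det ρ(φ) = ℓ` for every Frobenius element `φ` at a prime `ℓ` outside a finite set `T`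
(e.g. `charpoly ρ(φ) = X² - a_ℓ X + ℓ`: the first conjunct of `S30` / `S35`).

* `det_eq_cycR` : `det ρ(σ) = cycR σ` for EVERY `σ` (Chebotarev in exact form + adic continuity of
  `ρ` and of the cyclotomic character `Cyc.cycR` of `Pseudo/CycloAdic`);
* `det_frobenius_eq` : **`det ρ(σ) = q` for every Frobenius lift `σ` at a prime `q ≠ p`**, ramified
  or not, in `T` or not (input (D) of `TameLinAlg.charpoly_map_eq_or_of_tame`);
* `det_eq_one_of_mem_inertia` : `det ρ(τ) = 1` for `τ` in an inertia group at `q ≠ p`;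
* `detIsCyclotomic` : the Prelude's `GaloisRepAdic.DetIsCyclotomic ρ p`;
* `det_eq_natCast_of_charpoly_eq` : the hypothesis from the characteristic polynomials.
-/

set_option autoImplicit false
set_option linter.unusedSectionVars false

open IsLocalRing Polynomial

namespace Fermat.Agent.BR2

open Fermat.Agent.Cheb Fermat.Agent.Pseudo.Cyc Fermat.Agent.Pseudo.Cyclo

local notation "Qb" => AlgebraicClosure ℚ
local notation "GQ" => (AlgebraicClosure ℚ ≃ₐ[ℚ] AlgebraicClosure ℚ)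

section Det

variable {p : ℕ} [hp : Fact p.Prime] {O : Type} [CommRing O] [IsLocalRing O]
  [IsAdicComplete (maximalIdeal O) O]

/-- The determinant commutes with the reduction modulo an ideal. -/
theorem det_redHom (ρ : GaloisRepAdic O) (I : Ideal O) (σ : GQ) :
    LinearMap.det (redHom ρ I σ) = algebraMap O (O ⧸ I) (LinearMap.det (ρ.ρ σ)) := by
  rw [redHom_apply, LinearMap.det_baseChange]

/-- **The determinant is the cyclotomic character**: if `det ρ(φ) = ℓ` at the Frobenius elements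
of almost all primes `ℓ`, then `det ρ(σ) = cycR σ` for all `σ`. -/
theorem det_eq_cycR (hpO : (p : O) ∈ maximalIdeal O) (ρ : GaloisRepAdic O) (T : Finset ℕ)
    (hdet : ∀ ℓ : ℕ, ℓ.Prime → ℓ ∉ T → ∀ P : ValuationSubring Qb, P.LiesOverPrime ℓ →
      ∀ φ : GQ, P.IsFrobeniusAt φ ℓ → LinearMap.det (ρ.ρ φ) = (ℓ : O)) (σ : GQ) :
    LinearMap.det (ρ.ρ σ) = ((cycR (maximalIdeal O) hpO σ : Oˣ) : O) := by
  rw [← sub_eq_zero]
  refine IsHausdorff.haus (IsAdicComplete.toIsHausdorff (I := maximalIdeal O) (M := O)) _ fun m => ?_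
  rw [smul_eq_mul, Ideal.mul_top, SModEq.zero]
  -- a finite level for `ρ` and for the cyclotomic character modulo `𝔪 ^ m`
  obtain ⟨L₁, hL₁, h₁⟩ := ρ.isAdicContinuous m
  obtain ⟨L₂, hL₂, h₂⟩ := exists_finite_level_cycR (maximalIdeal O) hpO m
  have hfd : FiniteDimensional ℚ ↥(L₁ ⊔ L₂) := IntermediateField.finiteDimensional_sup L₁ L₂
  obtain ⟨ℓ, hℓ, hℓT, P, φ, hP, hφ, hσφ⟩ := chebExact (L₁ ⊔ L₂) hfd σ (insert p T)
  have hℓp : ℓ ≠ p := fun h => hℓT (h ▸ Finset.mem_insert_self p T)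
  have hℓT' : ℓ ∉ T := fun h => hℓT (Finset.mem_insert_of_mem h)
  set I : Ideal O := maximalIdeal O ^ m with hI
  -- `ρ σ ≡ ρ φ`
  have hfix : ∀ x ∈ L₁, (φ⁻¹ * σ) x = x := by
    intro x hx
    rw [AlgEquiv.mul_apply, hσφ x ((le_sup_left : L₁ ≤ L₁ ⊔ L₂) hx)]
    exact φ.symm_apply_apply x
  have e₁ : redHom ρ I σ = redHom ρ I φ := by
    have h1 : redHom ρ I (φ⁻¹ * σ) = 1 := baseChange_quotient_eq_one I _ (h₁ (φ⁻¹ * σ) hfix)
    have hdec : σ = φ * (φ⁻¹ * σ) := by group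
    conv_lhs => rw [hdec]
    rw [map_mul, h1, mul_one]
  have e₂ : LinearMap.det (ρ.ρ σ) - LinearMap.det (ρ.ρ φ) ∈ I := by
    rw [← Ideal.Quotient.eq, ← Ideal.Quotient.algebraMap_eq, ← det_redHom, ← det_redHom, e₁]
  -- `cycR σ ≡ cycR φ`
  have e₃ := h₂ σ φ fun x hx => hσφ x ((le_sup_right : L₂ ≤ L₁ ⊔ L₂) hx)
  rw [hdet ℓ hℓ hℓT' P hP φ hφ] at e₂
  rw [cycR_frobenius (maximalIdeal O) hpO hℓ hℓp P hP hφ] at e₃
  have : LinearMap.det (ρ.ρ σ) - ((cycR (maximalIdeal O) hpO σ : Oˣ) : O) =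
      (LinearMap.det (ρ.ρ σ) - (ℓ : O)) - (((cycR (maximalIdeal O) hpO σ : Oˣ) : O) - (ℓ : O)) := by
    ring
  rw [this]
  exact I.sub_mem e₂ e₃

/-- **(D)**: `det ρ(σ) = q` for every Frobenius lift `σ` at a prime `q ≠ p`. -/
theorem det_frobenius_eq (hpO : (p : O) ∈ maximalIdeal O) (ρ : GaloisRepAdic O) (T : Finset ℕ)
    (hdet : ∀ ℓ : ℕ, ℓ.Prime → ℓ ∉ T → ∀ P : ValuationSubring Qb, P.LiesOverPrime ℓ →
      ∀ φ : GQ, P.IsFrobeniusAt φ ℓ → LinearMap.det (ρ.ρ φ) = (ℓ : O))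
    {q : ℕ} (hq : q.Prime) (hqp : q ≠ p) (A : ValuationSubring Qb) (hA : A.LiesOverPrime q)
    {σ : GQ} (hσ : A.IsFrobeniusAt σ q) : LinearMap.det (ρ.ρ σ) = (q : O) := by
  rw [det_eq_cycR hpO ρ T hdet σ, cycR_frobenius (maximalIdeal O) hpO hq hqp A hA hσ]

/-- The determinant is trivial on the inertia groups at the primes `q ≠ p`. -/
theorem det_eq_one_of_mem_inertia (hpO : (p : O) ∈ maximalIdeal O) (ρ : GaloisRepAdic O)
    (T : Finset ℕ)
    (hdet : ∀ ℓ : ℕ, ℓ.Prime → ℓ ∉ T → ∀ P : ValuationSubring Qb, P.LiesOverPrime ℓ →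
      ∀ φ : GQ, P.IsFrobeniusAt φ ℓ → LinearMap.det (ρ.ρ φ) = (ℓ : O))
    {q : ℕ} (hq : q.Prime) (hqp : q ≠ p) (A : ValuationSubring Qb) (hA : A.LiesOverPrime q)
    {τ : GQ} (hτ : τ ∈ A.inertiaSubgroupIn ℚ) : LinearMap.det (ρ.ρ τ) = 1 := by
  rw [det_eq_cycR hpO ρ T hdet τ, cycR_eq_one_of_mem_inertia (maximalIdeal O) hpO hq hqp A hA hτ,
    Units.val_one]

/-- The hypothesis `det ρ(φ) = ℓ` from the characteristic polynomial `X² - a X + ℓ`. -/
theorem det_eq_of_charpoly_eq (ρ : GaloisRepAdic O) (φ : GQ) {a d : O}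
    (h : LinearMap.charpoly (ρ.ρ φ) = X ^ 2 - C a * X + C d) : LinearMap.det (ρ.ρ φ) = d := by
  rw [LinearMap.det_eq_sign_charpoly_coeff, ρ.finrank_eq, h]
  simp

/-- **The Prelude's `DetIsCyclotomic`** for an adic representation with the expected Frobenius
determinants. -/
theorem detIsCyclotomic (hpO : (p : O) ∈ maximalIdeal O) (ρ : GaloisRepAdic O) (T : Finset ℕ)
    (hdet : ∀ ℓ : ℕ, ℓ.Prime → ℓ ∉ T → ∀ P : ValuationSubring Qb, P.LiesOverPrime ℓ →
      ∀ φ : GQ, P.IsFrobeniusAt φ ℓ → LinearMap.det (ρ.ρ φ) = (ℓ : O)) :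
    ρ.DetIsCyclotomic p := by
  refine ⟨hpO, fun n σ a ha => ?_⟩
  rw [det_eq_cycR hpO ρ T hdet σ, coe_cycR]
  set x : ℤ_[p] := ((cycAdic p σ : ℤ_[p]ˣ) : ℤ_[p]) with hx
  have h1 : PadicInt.toZModPow n x = ((a : ℕ) : ZMod (p ^ n)) := by
    rw [hx, toZModPow_cycAdic]
    exact (natCast_eq_cycloN_of_forall (p ^ n) σ a ha).symm
  have h2 : x - (a : ℤ_[p]) ∈ Ideal.span {(p : ℤ_[p]) ^ n} := by
    rw [← PadicInt.ker_toZModPow, RingHom.mem_ker, map_sub, h1, map_natCast, sub_self]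
  obtain ⟨z, hz⟩ := Ideal.mem_span_singleton'.mp h2
  have h3 : zpTo (maximalIdeal O) hpO x - (a : O) =
      zpTo (maximalIdeal O) hpO z * ((p ^ n : ℕ) : O) := by
    have := congrArg (zpTo (maximalIdeal O) hpO) hz
    rw [map_mul, map_pow, map_natCast, map_sub, map_natCast] at this
    rw [← this]
    push_cast
    ring
  rw [h3]
  exact Ideal.mul_mem_left _ _ (Ideal.subset_span rfl)

end Det

end Fermat.Agent.BR2
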