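/-
Phase 2 (S35), node (E7')(b), analytic half (helper15): the RELATIVE Hecke product.

`F : CosetFam (embG N₁) (embG N₂) ι` a coset family between two levels (Program M's two-group
families: `rep i * γ = coc γ i * rep (next γ i)` for `γ ∈ Γ₀(N₂)`, `coc γ i ∈ Γ₀(N₁)`), all of whose
representatives are rational of positive determinant.  Generalising `Jac/HeckeProd.lean` (the case
`N₁ = N₂`):

* `transferMul F χ : Γ₀(N₂) →* ℂˣ`, `γ ↦ ∏ i, χ (coc γ i)`, for a character `χ` of `Γ₀(N₁)`;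
* `relProd hF A : CharForm N₂ (k * card ι) (transferMul F χ)` : the product `∏ i, A ∣[k] rep i` of the
  translates of a form `A : CharForm N₁ k χ`;
* `relProdMer F : MerH →* MerH`, `G ↦ ∏ i, G ∘ rep i`; `relProdMer_mer_div`;
* `isCharRatio_relProdMer` : `IsCharRatio N₁ G → IsCharRatio N₂ (relProdMer F G)`;
* `merComp_relProdMer` : if `G ∘ γ = χ γ • G` for `γ ∈ Γ₀(N₁)` then
  `relProdMer F G ∘ γ = transferMul F χ γ • relProdMer F G` for `γ ∈ Γ₀(N₂)`;
* `exists_thetaMer_eq_relProdMer` : **the relative product of a function of the level `N₁` is a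
  function of the level `N₂`**: `∃ y', thetaMer N₂ y' = relProdMer F (thetaMer N₁ w)`.
-/
import Mathlib
import Fermat.Agent.LR.CosetFam
import Fermat.Agent.Jac.HeckeProd
import Fermat.Agent.Jac.KappaHecke
import Fermat.Agent.Jac.HTheta

set_option autoImplicit false
set_option linter.unusedSectionVars false
set_option linter.style.haveILetI false

open UpperHalfPlane ModularForm CongruenceSubgroup Matrix.SpecialLinearGroup
open scoped MatrixGroups ModularForm Manifold

noncomputable section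

namespace Fermat.Agent.BR2.RelHeckeProd

open Fermat.Agent.X0 (HolH MerH)
open Fermat.Agent.Jac Fermat.Agent.LR

variable {N₁ N₂ : ℕ} {ι : Type*} [Fintype ι]

/-- All the elements of the family are rational of positive determinant. -/
structure IsRatPos (F : CosetFam (embG N₁) (embG N₂) ι) : Prop where
  pos : ∀ i, 0 < (F.rep i).det.val
  rat : ∀ i, F.rep i ∈ ratGL

/-- The relative transfer of a multiplicative character: `γ ↦ ∏ i, χ (coc γ i)`. -/
def transferMul (F : CosetFam (embG N₁) (embG N₂) ι) (χ : ↥(Gamma0 N₁) →* ℂˣ) :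
    ↥(Gamma0 N₂) →* ℂˣ where
  toFun γ := ∏ i, χ (F.coc γ i)
  map_one' := by simp [F.coc_one]
  map_mul' γ γ' := by
    simp only [F.coc_mul, map_mul, Finset.prod_mul_distrib]
    congr 1
    exact Equiv.prod_comp (F.nextEquiv γ) (fun i => χ (F.coc γ' i))

theorem transferMul_apply (F : CosetFam (embG N₁) (embG N₂) ι) (χ : ↥(Gamma0 N₁) →* ℂˣ)
    (γ : ↥(Gamma0 N₂)) : transferMul F χ γ = ∏ i, χ (F.coc γ i) := rfl

theorem transferMul_pow_apply (F : CosetFam (embG N₁) (embG N₂) ι) (χ : ↥(Gamma0 N₁) →* ℂˣ)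
    (m : ℕ) (γ : ↥(Gamma0 N₂)) : transferMul F (χ ^ m) γ = (transferMul F χ γ) ^ m := by
  rw [transferMul_apply, transferMul_apply, ← Finset.prod_pow]
  rfl

theorem transferMul_one_apply (F : CosetFam (embG N₁) (embG N₂) ι) (γ : ↥(Gamma0 N₂)) :
    transferMul F (1 : ↥(Gamma0 N₁) →* ℂˣ) γ = 1 := by
  rw [transferMul_apply]
  exact Finset.prod_eq_one fun i _ => rfl

theorem isOfFinOrder_transferMul (F : CosetFam (embG N₁) (embG N₂) ι)
    {χ : ↥(Gamma0 N₁) →* ℂˣ} (hχ : IsOfFinOrder χ) : IsOfFinOrder (transferMul F χ) := by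
  obtain ⟨m, hm, hχm⟩ := isOfFinOrder_iff_pow_eq_one.mp hχ
  refine isOfFinOrder_iff_pow_eq_one.mpr ⟨m, hm, ?_⟩
  ext γ
  rw [MonoidHom.pow_apply, ← transferMul_pow_apply, hχm, transferMul_one_apply]
  rfl

variable {F : CosetFam (embG N₁) (embG N₂) ι} {k : ℤ} {χ χ' : ↥(Gamma0 N₁) →* ℂˣ}

/-- The basic relation: `(A ∣ δ_i) ∣ γ = χ (γ_i) • A ∣ δ_{σ i}` (`γ ∈ Γ₀(N₂)`). -/
theorem slash_rep_slash (hF : IsRatPos F) (A : CharForm N₁ k χ) (γ : ↥(Gamma0 N₂)) (i : ι) :
    ((A : ℍ → ℂ) ∣[k] F.rep i) ∣[k] (γ : SL(2, ℤ)) =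
      ((χ (F.coc γ i) : ℂˣ) : ℂ) • ((A : ℍ → ℂ) ∣[k] F.rep (F.next γ i)) := by
  have h1 : ((A : ℍ → ℂ) ∣[k] F.rep i) ∣[k] (γ : SL(2, ℤ)) =
      (A : ℍ → ℂ) ∣[k] (F.rep i * embG N₂ γ) := by
    rw [SL_slash, SlashAction.slash_mul]
    rfl
  rw [h1, F.rel γ i, SlashAction.slash_mul]
  have h2 : (A : ℍ → ℂ) ∣[k] embG N₁ (F.coc γ i) =
      ((χ (F.coc γ i) : ℂˣ) : ℂ) • (A : ℍ → ℂ) := A.slash (F.coc γ i)
  rw [h2, smul_slash_of_det_pos (hF.pos _)]

/-- **The relative Hecke product of a form with character**: `∏ i, A ∣[k] δ_i` is a form of the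
level `N₂`, of weight `k * card ι`, with character the relative transfer of `χ`. -/
def relProd (hF : IsRatPos F) (A : CharForm N₁ k χ) :
    CharForm N₂ (k * (Finset.univ : Finset ι).card) (transferMul F χ) where
  toFun := ∏ i, (A : ℍ → ℂ) ∣[k] F.rep i
  holo' := mdifferentiable_finset_prod _ _ fun i _ => A.holo.slash k (F.rep i)
  slash' γ := by
    rw [finset_prod_slash_SL2]
    simp_rw [slash_rep_slash hF A γ]
    rw [Finset.prod_smul, transferMul_apply, Units.coe_prod]
    congr 1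
    exact Equiv.prod_comp (F.nextEquiv γ) (fun i => (A : ℍ → ℂ) ∣[k] F.rep i)
  bdd' σ := by
    rw [finset_prod_slash_SL2]
    exact isBoundedAtImInfty_finset_prod _ _ fun i _ =>
      isBoundedAtImInfty_slash_slash_of_mem_ratGL A.bdd (hF.rat i) σ

theorem hol_relProd (hF : IsRatPos F) (A : CharForm N₁ k χ) :
    (relProd hF A).hol = ∏ i, A.slashHol (F.rep i) := by
  apply Subtype.ext
  have h := map_prod HolH.subtype (fun i => A.slashHol (F.rep i)) Finset.univ
  exact h.symm

theorem mer_relProd (hF : IsRatPos F) (A : CharForm N₁ k χ) :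
    (relProd hF A).mer = ∏ i, algebraMap HolH MerH (A.slashHol (F.rep i)) := by
  rw [CharForm.mer, hol_relProd, map_prod]

theorem mer_relProd_ne_zero (hF : IsRatPos F) {A : CharForm N₁ k χ} (hA : A.mer ≠ 0) :
    (relProd hF A).mer ≠ 0 := by
  rw [mer_relProd, Finset.prod_ne_zero_iff]
  intro i _
  exact (map_ne_zero_iff _ (IsFractionRing.injective HolH MerH)).mpr (A.slashHol_ne_zero hA _)

variable (F)

/-- **The relative Hecke product** `G ↦ ∏ i, G ∘ δ_i` on meromorphic functions. -/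
def relProdMer : MerH →* MerH where
  toFun G := ∏ i, merComp (F.rep i) G
  map_one' := by simp
  map_mul' G G' := by simp [Finset.prod_mul_distrib]

theorem relProdMer_apply (G : MerH) : relProdMer F G = ∏ i, merComp (F.rep i) G := rfl

theorem relProdMer_ne_zero {G : MerH} (hG : G ≠ 0) : relProdMer F G ≠ 0 := by
  rw [relProdMer_apply, Finset.prod_ne_zero_iff]
  exact fun i _ => merComp_ne_zero _ hG

theorem relProdMer_zero [Nonempty ι] : relProdMer F 0 = 0 := by
  rw [relProdMer_apply]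
  exact Finset.prod_eq_zero (Finset.mem_univ (Classical.arbitrary ι)) (map_zero _)

variable {F}

/-- `H (A / B) = relProd A / relProd B` for two forms of the same weight. -/
theorem relProdMer_mer_div (hF : IsRatPos F) (A : CharForm N₁ k χ) {B : CharForm N₁ k χ'}
    (hB : B.mer ≠ 0) :
    relProdMer F (A.mer / B.mer) = (relProd hF A).mer / (relProd hF B).mer := by
  rw [relProdMer_apply, mer_relProd, mer_relProd, ← Finset.prod_div_distrib]
  exact Finset.prod_congr rfl fun i _ => CharForm.merComp_mer_div (hF.pos i) A hB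

/-- **The relative product preserves admissibility**, lowering the level from `N₁` to `N₂`. -/
theorem isCharRatio_relProdMer (hF : IsRatPos F) {G : MerH} (hG : IsCharRatio N₁ G) :
    IsCharRatio N₂ (relProdMer F G) := by
  obtain ⟨k, χ, χ', A, B, hχ, hχ', hB, e⟩ := hG
  have hG' : G = A.mer / B.mer := by rw [← e, mul_div_cancel_right₀ _ hB]
  rw [hG', relProdMer_mer_div hF A hB]
  exact CharForm.isCharRatio_div (isOfFinOrder_transferMul F hχ) (isOfFinOrder_transferMul F hχ')
    _ _ (mer_relProd_ne_zero hF hB)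

/-- **The character of the relative product**: if `G ∘ γ = χ γ • G` for all `γ ∈ Γ₀(N₁)` then
`H G ∘ γ = transferMul χ γ • H G` for all `γ ∈ Γ₀(N₂)`. -/
theorem merComp_relProdMer (hF : IsRatPos F) (χ : ↥(Gamma0 N₁) →* ℂˣ) {G : MerH}
    (hG : ∀ γ : ↥(Gamma0 N₁), merComp (embG N₁ γ) G = constMer ((χ γ : ℂˣ) : ℂ) * G)
    (γ : ↥(Gamma0 N₂)) :
    merComp (embG N₂ γ) (relProdMer F G) =
      constMer ((transferMul F χ γ : ℂˣ) : ℂ) * relProdMer F G := by
  have hγ₁ : ∀ γ' : ↥(Gamma0 N₁), 0 < (embG N₁ γ').det.val := fun γ' => det_mapGL_pos _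
  have hγ₂ : ∀ γ' : ↥(Gamma0 N₂), 0 < (embG N₂ γ').det.val := fun γ' => det_mapGL_pos _
  rw [relProdMer_apply, map_prod]
  have h1 : ∀ i, merComp (embG N₂ γ) (merComp (F.rep i) G) =
      constMer ((χ (F.coc γ i) : ℂˣ) : ℂ) * merComp (F.rep (F.next γ i)) G := by
    intro i
    rw [← merComp_mul_apply (hF.pos i) (hγ₂ γ), F.rel γ i,
      merComp_mul_apply (hγ₁ _) (hF.pos _), hG, map_mul, merComp_constMer]
  simp_rw [h1]
  rw [Finset.prod_mul_distrib, transferMul_apply, Units.coe_prod, map_prod]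
  congr 1
  exact Equiv.prod_comp (F.nextEquiv γ) (fun i => merComp (F.rep i) G)

/-- the relative product of a `Γ₀(N₁)`-invariant function is `Γ₀(N₂)`-invariant -/
theorem merComp_relProdMer_of_invariant (hF : IsRatPos F) {G : MerH}
    (hG : ∀ γ : ↥(Gamma0 N₁), merComp (embG N₁ γ) G = G) (γ : ↥(Gamma0 N₂)) :
    merComp (embG N₂ γ) (relProdMer F G) = relProdMer F G := by
  rw [merComp_relProdMer hF 1 (fun γ' => by
    rw [hG, MonoidHom.one_apply, Units.val_one, map_one, one_mul]) γ, transferMul_one_apply,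
    Units.val_one, map_one, one_mul]

/-- **The relative product of a function of the level `N₁` is a function of the level `N₂`.** -/
theorem exists_thetaMer_eq_relProdMer [NeZero N₁] [NeZero N₂] [Nonempty ι] (hF : IsRatPos F)
    (w : DictC.Fc N₁) : ∃ y' : DictC.Fc N₂, thetaMer N₂ y' = relProdMer F (thetaMer N₁ w) := by
  by_cases hw : w = 0
  · rw [hw, map_zero, relProdMer_zero]
    exact ⟨0, map_zero _⟩
  · have hG0 : thetaMer N₁ w ≠ 0 := (map_ne_zero (thetaMer N₁)).mpr hw
    refine exists_thetaMer_eq_of_smul_eq (relProdMer_ne_zero F hG0)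
      (isCharRatio_relProdMer hF (isCharRatio_of_mem_autoField (thetaMer_mem_autoField w)))
      (fun γ => ?_)
    rw [KH.subgroup_smul_eq_merComp]
    exact merComp_relProdMer_of_invariant hF
      (fun γ' => HTheta.merComp_embG_thetaMer N₁ γ' w) γ⁻¹

end Fermat.Agent.BR2.RelHeckeProd
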