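/-
Phase 2 (S35), node (E7')(b) (helper15): the Kummer homomorphism over `ℂ` at the level `M q`
(`q ∤ M` prime) intertwines the lattice operators `E_α = A1L ∘ B1L`, `E_β = A2L ∘ B2L` of
`BR2/DegTransfer.lean` with the correspondences `α^* α_*`, `β^* β_*` on `Pic⁰(X₀(M q)_ℂ)`
(`α = heckeAlphaBar ℂ M q`, `β = heckeBetaBar ℂ M q : Fc M → Fc (M q)`).

* `heckeProdMer_of_rel` : the generic `H_θ` for a finite map `ν : K → L` (`θ : L → MerH`) and a
  coset system `D` at the level `N₁` : `∏ i, (θ y) ∘ δ_i = θ (ν (Nm_ν y))`, from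
  `Jac/NormCosets.lean`;
* `famBeta` : the two-level family `W⁻¹ s_x` (`corFam` is the family `s_x`);
* `hTheta_alpha`, `hTheta_beta` : `H_θ` for `Dalpha`, `Dbeta`;
* `degHeckeData` : the `KummerData.HeckeData` with `T = ν^* ν_*` on divisors, `Nm = ν ∘ Nm_ν`;
* `EalphaC M q`, `EbetaC M q : Pic0 ℂ (Fc (M q)) →+ Pic0 ℂ (Fc (M q))` (`pic0Pull ∘ pic0Push`);
* **`kappaLamC_EalphaLam`, `kappaLamC_EbetaLam`** :
  `kappaLamC (E_α lam) = EalphaC (kappaLamC lam)`, `kappaLamC (E_β lam) = EbetaC (kappaLamC lam)`.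
-/
import Mathlib
import Fermat.Agent.BR2.DegTransfer
import Fermat.Agent.BR2.RelHeckeProd
import Fermat.Agent.Jac.KappaHecke
import Fermat.Agent.Jac.HTheta
import Fermat.Agent.Jac.NormCosets
import Fermat.Agent.Jac.Spec.BetaDegree
import Fermat.Agent.Hecke.AtkinLehner
import Fermat.Agent.BR.PicFunct

set_option autoImplicit false
set_option linter.unusedSectionVars false
set_option linter.unusedSimpArgs false
set_option linter.style.haveILetI false
set_option linter.unusedVariables false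

open UpperHalfPlane ModularForm CongruenceSubgroup Matrix.SpecialLinearGroup
open AlgebraicCurve ModularCurve IntermediateField
open scoped MatrixGroups ModularForm Manifold

noncomputable section

namespace Fermat.Agent.BR2.KappaDeg

open Fermat.Agent.X0 (HolH MerH)
open Fermat.Agent.Jac Fermat.Agent.Red Fermat.Agent.Hecke.Gen
open Fermat.Agent.LR Fermat.Agent.LR.Deg
open Fermat.Agent.BR2.DegTransfer Fermat.Agent.BR2.RelHeckeProd
open P2MW.S_ModularForm_heckeT_slash_eq_self_of_mem_Gamma0.ModularForm.HeckeSlashInvariance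

/-! ### The generic `H_θ` -/

section Generic

variable {K L : Type*} [Field K] [Field L] [Algebra ℂ K] [Algebra ℂ L]
  {N₁ : ℕ} {ι : Type*} [Fintype ι]

/-- **Generic `H_θ` for a finite map of function fields.**  `ν : K → L` finite of degree `card ι`,
`θ : L → MerH` an embedding which is the identity on the constants; `D` a coset system all of
whose elements fix the functions `θ (ν x)`; if every Hecke product `∏ i, (θ w) ∘ δ_i` is of the
form `θ (ν y')`, then it is `θ (ν (Nm_ν w))`. -/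
theorem heckeProdMer_of_rel (θL : L →+* MerH)
    (hθ : ∀ a : ℂ, θL (algebraMap ℂ L a) = constMer a) (ν : K →ₐ[ℂ] L)
    (hfin : FiniteAlong ℂ ν) (D : CosetReps (embG N₁) ι)
    (hcard : Fintype.card ι = finrankAlong ℂ ν)
    (hfix : ∀ (i : ι) (x : K), merComp (D.rep i) (θL (ν x)) = θL (ν x))
    (hR : ∀ w : L, ∃ y' : K, θL (ν y') = heckeProdMer D (θL w))
    (y : L) :
    heckeProdMer D (θL y) = θL (ν (normAlong ν y)) := by
  classical
  letI algF : Algebra K L := algebraAlong ν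
  haveI hfd : FiniteDimensional K L := hfin
  let θ : K →+* MerH := θL.comp ν.toRingHom
  let ψ : ι → L →+* MerH := fun i => (merComp (D.rep i)).comp θL
  have hψ : ∀ i, (ψ i).comp (algebraMap K L) = θ := by
    intro i
    ext x
    exact hfix i x
  have hcard' : Fintype.card ι = Module.finrank K L := hcard
  have hS : (Set.range (algebraMap ℂ K)).Infinite :=
    Set.infinite_range_of_injective (algebraMap ℂ K).injective
  have hP : ∃ Q : Polynomial K,
      Q.map θ = ∏ i, (Polynomial.X - Polynomial.C (ψ i y)) := by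
    refine NormCosets.exists_map_eq_of_eval_mem θ _ _ hS ?_
    rintro _ ⟨a, rfl⟩
    have h1 : (∏ i, (Polynomial.X - Polynomial.C (ψ i y))).eval (θ (algebraMap ℂ K a)) =
        heckeProdMer D (θL (algebraMap ℂ L a - y)) := by
      rw [Polynomial.eval_prod, heckeProdMer_apply]
      refine Finset.prod_congr rfl fun i _ => ?_
      rw [Polynomial.eval_sub, Polynomial.eval_X, Polynomial.eval_C, map_sub, map_sub]
      congr 1
      show θL (ν (algebraMap ℂ K a)) = merComp (D.rep i) (θL (algebraMap ℂ L a))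
      rw [AlgHom.commutes, hθ, merComp_constMer]
    rw [h1]
    obtain ⟨y', hy'⟩ := hR (algebraMap ℂ L a - y)
    exact ⟨y', hy'⟩
  have key := NormCosets.map_norm_eq_prod_of_poly θ ψ hψ hcard' y hP
  rw [heckeProdMer_apply]
  exact key.symm

end Generic

/-! ### The two families at the levels `M q → M` -/

section Families

variable (M q : ℕ) [NeZero M] [NeZero q] (hq : q.Prime) (hqM : ¬ q ∣ M)

theorem corFam_isRatPos : IsRatPos (corFam M q hq hqM) :=
  ⟨fun x => det_mapGL_pos _, fun x => mapGL_mem_ratGL _⟩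

/-- the two-level family `W⁻¹ s_x` (`x : P¹(𝔽_q)`), `W` the Atkin–Lehner matrix -/
def famBeta : CosetFam (embG (M * q)) (embG M) (OnePoint (ZMod q)) where
  rep x := (alW M q hq hqM)⁻¹ * embG M (sx M q hq hqM x)
  coc γ x := (ALQ.wq (bez M q hq hqM)).symm ((corFam M q hq hqM).coc γ x)
  next γ x := (corFam M q hq hqM).next γ x
  rel γ x := by
    have h := (corFam M q hq hqM).rel γ x
    rw [corFam_rep, corFam_rep] at h
    rw [mul_assoc, h, ALQ.embG_wq_symm]
    show _ = (alW M q hq hqM)⁻¹ * _ * alW M q hq hqM * _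
    simp only [mul_assoc, mul_inv_cancel_left]
  next_one := (corFam M q hq hqM).next_one
  next_mul := (corFam M q hq hqM).next_mul
  coc_mul γ γ' x := by rw [(corFam M q hq hqM).coc_mul, map_mul]

@[simp] theorem famBeta_rep (x : OnePoint (ZMod q)) :
    (famBeta M q hq hqM).rep x = (alW M q hq hqM)⁻¹ * embG M (sx M q hq hqM x) := rfl

theorem famBeta_isRatPos : IsRatPos (famBeta M q hq hqM) := by
  refine ⟨fun x => ?_, fun x => ?_⟩
  · rw [famBeta_rep]
    exact det_mul_pos (det_inv_pos (det_alW_pos M q hq hqM)) (det_mapGL_pos _)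
  · rw [famBeta_rep]
    exact ratGL.mul_mem (ratGL.inv_mem (alW_mem_ratGL M q hq hqM)) (mapGL_mem_ratGL _)

end Families

/-! ### `H_θ` for the two coset systems -/

section HTheta

variable (M q : ℕ) [NeZero M] [NeZero q] [NeZero (M * q)] (hq : q.Prime) (hqM : ¬ q ∣ M)

attribute [local instance] KH.hasPrincipalDivisorsFL KH.hasPrincipalDivisorsFc'
  KH.finiteDimensionalFL

theorem finiteAlong_alphaC : FiniteAlong ℂ (heckeAlphaBar ℂ M q) :=
  finiteAlong_heckeAlphaBar_of M q (jL ℂ (M * q)) (jL_transcendental ℂ M)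

theorem finiteAlong_betaC : FiniteAlong ℂ (heckeBetaBar ℂ M q) :=
  finiteAlong_heckeBetaBar_of M q (jL ℂ (M * q)) (jL_transcendental ℂ M)

include hq hqM in
theorem finrankAlong_betaC : finrankAlong ℂ (heckeBetaBar ℂ M q) = q + 1 := by
  rw [Fermat.Agent.Jac.Spec.finrankAlong_heckeBetaBar_complex M q]
  exact Fermat.Agent.Hecke.AL.finrankAlong_heckeBetaBar hq hqM

/-- **`H_θ` for `E_α`**: `∏_x (θ y) ∘ s_x = θ (α (Nm_α y))`. -/
theorem hTheta_alpha (y : DictC.Fc (M * q)) :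
    heckeProdMer (Dalpha M q hq hqM) (thetaMer (M * q) y) =
      thetaMer (M * q) (heckeAlphaBar ℂ M q (normAlong (heckeAlphaBar ℂ M q) y)) := by
  haveI : Nonempty (OnePoint (ZMod q)) := ⟨OnePoint.infty⟩
  refine heckeProdMer_of_rel (thetaMer (M * q)) (thetaMer_algebraMap (M * q))
    (heckeAlphaBar ℂ M q) (finiteAlong_alphaC M q) (Dalpha M q hq hqM)
    (by rw [RepsDecomp.card_onePoint_zmod, Fermat.Agent.ES.Gen.finrankAlong_heckeAlphaC hq hqM])
    (fun x c => ?_) (fun w => ?_) y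
  · rw [Dalpha_rep, HTheta.thetaMer_alpha, HTheta.merComp_embG_thetaMer]
  · obtain ⟨y', hy'⟩ := exists_thetaMer_eq_relProdMer (corFam_isRatPos M q hq hqM) w
    refine ⟨y', ?_⟩
    rw [HTheta.thetaMer_alpha, hy']
    rfl

/-- `(θ_M y') ∘ W = θ_{M q} (β y')` -/
theorem merComp_alW_thetaMer (y' : DictC.Fc M) :
    merComp (alW M q hq hqM) (thetaMer M y') = thetaMer (M * q) (heckeBetaBar ℂ M q y') := by
  have hγ : ∀ g : ↥(Gamma0 M), 0 < (embG M g).det.val := fun g => det_mapGL_pos _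
  rw [alW_eq, merComp_mul_apply (hγ _) (HTheta.det_heckeDiagMatrix_pos q),
    HTheta.merComp_embG_thetaMer, HTheta.thetaMer_beta]

/-- **`H_θ` for `E_β`**: `∏_x (θ y) ∘ (W⁻¹ s_x W) = θ (β (Nm_β y))`. -/
theorem hTheta_beta (y : DictC.Fc (M * q)) :
    heckeProdMer (Dbeta M q hq hqM) (thetaMer (M * q) y) =
      thetaMer (M * q) (heckeBetaBar ℂ M q (normAlong (heckeBetaBar ℂ M q) y)) := by
  haveI : Nonempty (OnePoint (ZMod q)) := ⟨OnePoint.infty⟩
  have hW := det_alW_pos M q hq hqM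
  have hWi := det_inv_pos hW
  have hs : ∀ x, 0 < (embG M (sx M q hq hqM x)).det.val := fun x => det_mapGL_pos _
  have hδ := HTheta.det_heckeDiagMatrix_pos q
  refine heckeProdMer_of_rel (thetaMer (M * q)) (thetaMer_algebraMap (M * q))
    (heckeBetaBar ℂ M q) (finiteAlong_betaC M q) (Dbeta M q hq hqM)
    (by rw [RepsDecomp.card_onePoint_zmod, finrankAlong_betaC M q hq hqM])
    (fun x c => ?_) (fun w => ?_) y
  · -- `δ · (W⁻¹ s_x W) = (γ₀⁻¹ s_x γ₀) · δ`
    have hγ : ∀ g : ↥(Gamma0 M), 0 < (embG M g).det.val := fun g => det_mapGL_pos _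
    have hmat : heckeDiagMatrix q * (Dbeta M q hq hqM).rep x =
        embG M ((ALQ.gam0 (bez M q hq hqM))⁻¹ * sx M q hq hqM x * ALQ.gam0 (bez M q hq hqM)) *
          heckeDiagMatrix q := by
      rw [Dbeta_rep, alW_eq, map_mul, map_mul, map_inv, mul_inv_rev]
      simp only [mul_assoc, mul_inv_cancel_left]
    have hpos : 0 < ((Dbeta M q hq hqM).rep x).det.val := (Dbeta_isRatPos M q hq hqM).pos x
    rw [HTheta.thetaMer_beta, ← merComp_mul_apply hδ hpos, hmat,
      merComp_mul_apply (hγ _) hδ, HTheta.merComp_embG_thetaMer]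
  · obtain ⟨y', hy'⟩ := exists_thetaMer_eq_relProdMer (famBeta_isRatPos M q hq hqM) w
    refine ⟨y', ?_⟩
    rw [← merComp_alW_thetaMer M q hq hqM, hy', relProdMer_apply, heckeProdMer_apply, map_prod]
    refine Finset.prod_congr rfl fun x _ => ?_
    rw [famBeta_rep, Dbeta_rep,
      ← merComp_mul_apply (det_mul_pos hWi (hs x)) hW]

end HTheta

/-! ### The Hecke data and the Kummer equivariance -/

section Kummer

variable {N₁ N₂ : ℕ} [NeZero N₁] [NeZero N₂] {ι : Type*} [Fintype ι]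

attribute [local instance] KH.hasPrincipalDivisorsFL KH.hasPrincipalDivisorsFc'
  KH.finiteDimensionalFL

/-- **The Hecke data of the correspondence `ν^* ν_*`** of a finite map `ν : Fc N₂ → Fc N₁`,
attached to a coset system `D` at the level `N₁` realising `ν ∘ Nm_ν` (`H_θ`). -/
def degHeckeData (hD4 : KH.HD4 N₁) (ν : DictC.Fc N₂ →ₐ[ℂ] DictC.Fc N₁)
    (hν : ν.toRingHom.IsIntegral) (hfin : FiniteAlong ℂ ν) (hN : NormFormulaAlong ℂ ν hfin)
    {D : CosetReps (embG N₁) ι} (hD : D.IsRatPos)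
    (hH : ∀ y : DictC.Fc N₁, heckeProdMer D (thetaMer N₁ y) = thetaMer N₁ (ν (normAlong ν y))) :
    (kummerDataC N₁ hD4).HeckeData where
  T := (Divisor.pullbackAlong ν hν).comp (Divisor.pushforwardAlong ν hν)
  Nm y := ν (normAlong ν y)
  T_divOf y hy := by
    rw [AddMonoidHom.comp_apply, pushforwardAlong_divOf ν hν hfin hN hy, pullbackAlong_divOf]
  H := heckeProdMer D
  H_pow G m := heckeProdMer_pow D G m
  H_θ y _ := hH y
  τ := D.transferMul
  isMF := by
    rintro χ G - ⟨hG0, hGa, hGχ⟩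
    refine ⟨heckeProdMer_ne_zero D hG0, IsCharRatio.heckeProdMer hD hGa, fun γ => ?_⟩
    rw [KH.subgroup_smul_eq_merComp, algebraMap_mer]
    refine merComp_inv_heckeProdMer hD χ (fun γ' => ?_) γ
    rw [← KH.subgroup_smul_eq_merComp, ← algebraMap_mer]
    exact hGχ γ'

/-- `ν^* ν_*` on `Pic⁰` -/
def corrPic0 (ν : DictC.Fc N₂ →ₐ[ℂ] DictC.Fc N₁) (hν : ν.toRingHom.IsIntegral)
    (hFI : FundamentalIdentityAlong ℂ ν hν) (hfin : FiniteAlong ℂ ν)
    (hN : NormFormulaAlong ℂ ν hfin) : Pic0 ℂ (DictC.Fc N₁) →+ Pic0 ℂ (DictC.Fc N₁) :=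
  (Fermat.Agent.BR.PicFunct.pic0Pull ν hν hFI).comp
    (Fermat.Agent.BR.PicFunct.pic0Push ν hν hfin hN)

/-- **Kummer equivariance for `ν^* ν_*`** (character form). -/
theorem corrPic0_kappa (hD4 : KH.HD4 N₁) (ν : DictC.Fc N₂ →ₐ[ℂ] DictC.Fc N₁)
    (hν : ν.toRingHom.IsIntegral) (hFI : FundamentalIdentityAlong ℂ ν hν)
    (hfin : FiniteAlong ℂ ν) (hN : NormFormulaAlong ℂ ν hfin)
    {D : CosetReps (embG N₁) ι} (hD : D.IsRatPos)
    (hH : ∀ y : DictC.Fc N₁, heckeProdMer D (thetaMer N₁ y) = thetaMer N₁ (ν (normAlong ν y)))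
    {m : ℕ} (hm : 0 < m) {χ : ↥(Gamma0 N₁) →* ℂˣ} (hχ : χ ∈ goodCharC N₁) (hχm : χ ^ m = 1) :
    corrPic0 ν hν hFI hfin hN ((kummerDataC N₁ hD4).kappa m χ) =
      (kummerDataC N₁ hD4).kappa m (D.transferMul χ) :=
  KummerData.kappa_hecke_pic0 (degHeckeData hD4 ν hν hfin hN hD hH) hm hχ hχm
    (corrPic0 ν hν hFI hfin hN) fun E => ⟨_, rfl⟩

/-- **Kummer equivariance for `ν^* ν_*`** (lattice form). -/
theorem kappaLamC_corr (hD4 : KH.HD4 N₁) (ν : DictC.Fc N₂ →ₐ[ℂ] DictC.Fc N₁)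
    (hν : ν.toRingHom.IsIntegral) (hFI : FundamentalIdentityAlong ℂ ν hν)
    (hfin : FiniteAlong ℂ ν) (hN : NormFormulaAlong ℂ ν hfin)
    {D : CosetReps (embG N₁) ι} (hD : D.IsRatPos)
    (hH : ∀ y : DictC.Fc N₁, heckeProdMer D (thetaMer N₁ y) = thetaMer N₁ (ν (normAlong ν y)))
    {m : ℕ} (hm : 0 < m) {ζ : ℂˣ} (hζ : IsPrimitiveRoot ζ m) (lam lam' : ↥(KC.Lam N₁))
    (h : (lam' : Additive ↥(Gamma0 N₁) →+ ℤ) = D.transfer (lam : Additive ↥(Gamma0 N₁) →+ ℤ)) :
    KC.kappaLamC N₁ hD4 hm hζ lam' =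
      corrPic0 ν hν hFI hfin hN (KC.kappaLamC N₁ hD4 hm hζ lam) := by
  rw [KC.kappaLamC_apply, KC.kappaLamC_apply, h, ← KH.transferMul_charOf,
    corrPic0_kappa hD4 ν hν hFI hfin hN hD hH hm
      (KC.charOf_mem_goodCharC hm hζ.pow_eq_one lam.2) (KC.charOf_pow_eq_one hζ.pow_eq_one _)]

end Kummer

/-! ### The two degeneracy correspondences at the level `M q` -/

section Final

variable (M q : ℕ) [NeZero M] [NeZero q] [NeZero (M * q)]

attribute [local instance] KH.hasPrincipalDivisorsFL KH.hasPrincipalDivisorsFc'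
  KH.finiteDimensionalFL

/-- `α^* α_*` on `Pic⁰(X₀(M q)_ℂ)`, `α = heckeAlphaBar ℂ M q` -/
def EalphaC : Pic0 ℂ (DictC.Fc (M * q)) →+ Pic0 ℂ (DictC.Fc (M * q)) :=
  corrPic0 (heckeAlphaBar ℂ M q) (KH.heckeAlphaIntegralC M q)
    (fundamentalIdentityAlong_alpha_of M q (jL ℂ (M * q)) (jL_transcendental ℂ M))
    (finiteAlong_alphaC M q)
    (normFormulaAlong_alpha_of M q (jL ℂ (M * q)) (jL_transcendental ℂ M))

/-- `β^* β_*` on `Pic⁰(X₀(M q)_ℂ)`, `β = heckeBetaBar ℂ M q` -/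
def EbetaC : Pic0 ℂ (DictC.Fc (M * q)) →+ Pic0 ℂ (DictC.Fc (M * q)) :=
  corrPic0 (heckeBetaBar ℂ M q) (KH.heckeBetaIntegralC M q)
    (fundamentalIdentityAlong_beta_of M q (jL ℂ (M * q)) (jL_transcendental ℂ M))
    (finiteAlong_betaC M q)
    (normFormulaAlong_beta_of M q (jL ℂ (M * q)) (jL_transcendental ℂ M))

theorem EalphaC_eq :
    EalphaC M q =
      (Fermat.Agent.BR.PicFunct.pic0Pull (heckeAlphaBar ℂ M q) (KH.heckeAlphaIntegralC M q)
        (fundamentalIdentityAlong_alpha_of M q (jL ℂ (M * q)) (jL_transcendental ℂ M))).comp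
      (Fermat.Agent.BR.PicFunct.pic0Push (heckeAlphaBar ℂ M q) (KH.heckeAlphaIntegralC M q)
        (finiteAlong_alphaC M q)
        (normFormulaAlong_alpha_of M q (jL ℂ (M * q)) (jL_transcendental ℂ M))) := rfl

theorem EbetaC_eq :
    EbetaC M q =
      (Fermat.Agent.BR.PicFunct.pic0Pull (heckeBetaBar ℂ M q) (KH.heckeBetaIntegralC M q)
        (fundamentalIdentityAlong_beta_of M q (jL ℂ (M * q)) (jL_transcendental ℂ M))).comp
      (Fermat.Agent.BR.PicFunct.pic0Push (heckeBetaBar ℂ M q) (KH.heckeBetaIntegralC M q)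
        (finiteAlong_betaC M q)
        (normFormulaAlong_beta_of M q (jL ℂ (M * q)) (jL_transcendental ℂ M))) := rfl

variable (hq : q.Prime) (hqM : ¬ q ∣ M)

/-- **(E7')(b) for `α`**: the Kummer homomorphism intertwines `E_α` on `Λ(M q)` with `α^* α_*`. -/
theorem kappaLamC_EalphaLam (hD4 : KH.HD4 (M * q)) {m : ℕ} (hm : 0 < m) {ζ : ℂˣ}
    (hζ : IsPrimitiveRoot ζ m) (lam : ↥(Lam (M * q))) :
    KC.kappaLamC (M * q) hD4 hm hζ (EalphaLam M q hq hqM lam) =
      EalphaC M q (KC.kappaLamC (M * q) hD4 hm hζ lam) :=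
  kappaLamC_corr hD4 _ _ _ _ _ (Dalpha_isRatPos M q hq hqM) (hTheta_alpha M q hq hqM) hm hζ lam
    (EalphaLam M q hq hqM lam) (coe_EalphaLam M q hq hqM lam)

/-- **(E7')(b) for `β`**: the Kummer homomorphism intertwines `E_β` on `Λ(M q)` with `β^* β_*`. -/
theorem kappaLamC_EbetaLam (hD4 : KH.HD4 (M * q)) {m : ℕ} (hm : 0 < m) {ζ : ℂˣ}
    (hζ : IsPrimitiveRoot ζ m) (lam : ↥(Lam (M * q))) :
    KC.kappaLamC (M * q) hD4 hm hζ (EbetaLam M q hq hqM lam) =
      EbetaC M q (KC.kappaLamC (M * q) hD4 hm hζ lam) :=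
  kappaLamC_corr hD4 _ _ _ _ _ (Dbeta_isRatPos M q hq hqM) (hTheta_beta M q hq hqM) hm hζ lam
    (EbetaLam M q hq hqM lam) (coe_EbetaLam M q hq hqM lam)

end Final

end Fermat.Agent.BR2.KappaDeg
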