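/-
Phase 2 (S35), node (E7')(d), part 1 (helper15): the Kummer maps at the literal level `M q`
(`q ∤ M` prime) with the two extra intertwinings for the degeneracy correspondences.

* `exists_kummerHomCE` : the complex Kummer homomorphism `κ : Λ(M q) →+ Pic⁰(X₀(M q)_ℂ)` with kernel
  `m Λ`, killed by `m`, equivariant for all `T_l`, AND `κ ∘ E_α^Λ = E_α^ℂ ∘ κ`,
  `κ ∘ E_β^Λ = E_β^ℂ ∘ κ` (`BR2/KappaDeg.lean`) — unconditional;
* `exists_rhoE` : composing with a specialization map `red : Pic⁰(X₀(M q)_ℂ) →+ J₀(M q)(ℚ̄)` (given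
  as DATA: injective on torsion, Hecke equivariant, intertwining `E_α^ℂ`, `E_β^ℂ` with endomorphisms
  `Eα`, `Eβ` of `J₀(M q)`) : `rho : Λ(M q) →+ J₀(M q)` with kernel `m Λ`, `T_l`-equivariant, and
  `rho ∘ E_α^Λ = Eα ∘ rho`, `rho ∘ E_β^Λ = Eβ ∘ rho`;
* `Ealpha_Ebeta_lift_eq_zero'` : the vanishing of `E_α^Λ ∘ P`, `E_β^Λ ∘ P` for a noncommutative
  polynomial `P = p(T_l)` (any index type of primes `≠ q`) with `p(T_l^{(M)}) = 0`;
* `rho_lift_eq_zero` : hence `Eα (rho (P x)) = 0 = Eβ (rho (P x))`.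
-/
import Mathlib
import Fermat.Agent.BR2.KappaDeg
import Fermat.Agent.Jac.HThetaGalReps
import Fermat.Agent.Jac.DictC.KummerDvd

set_option autoImplicit false
set_option linter.unusedSectionVars false
set_option linter.style.haveILetI false
set_option linter.unusedVariables false

open AlgebraicCurve ModularCurve CongruenceSubgroup

noncomputable section

namespace Fermat.Agent.BR2.KummerMapsE

open Fermat.Agent Fermat.Agent.Jac Fermat.Agent.LR.DegMain
open Fermat.Agent.BR2.DegTransfer Fermat.Agent.BR2.KappaDeg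

variable (M q : ℕ) [NeZero M] [NeZero q] [NeZero (M * q)] (hq : q.Prime) (hqM : ¬ q ∣ M)

/-- **The complex Kummer homomorphism at the level `M q` with the two extra intertwinings**,
unconditionally. -/
theorem exists_kummerHomCE {m : ℕ} (hm : 0 < m) :
    ∃ κ : ↥(Lam (M * q)) →+ Pic0 ℂ (DictC.Fc (M * q)),
      (∀ lam, κ lam = 0 ↔ ∃ lam' : ↥(Lam (M * q)), lam = m • lam') ∧ (∀ lam, m • κ lam = 0) ∧
      (∀ (l : Nat.Primes) (lam : ↥(Lam (M * q))), κ (TLam (M * q) l lam) =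
        (haveI : NeZero (l : ℕ) := ⟨l.2.ne_zero⟩; heckeOperatorAlong ℂ (M * q) l (κ lam))) ∧
      (∀ lam, κ (EalphaLam M q hq hqM lam) = EalphaC M q (κ lam)) ∧
      (∀ lam, κ (EbetaLam M q hq hqM lam) = EbetaC M q (κ lam)) := by
  obtain ⟨ζ, hζ⟩ := KC.exists_primitiveRoot_units hm
  have hD4 : KH.HD4 (M * q) := DictC.kummer_dvd (M * q)
  exact ⟨KC.kappaLamC (M * q) hD4 hm hζ, fun lam => KC.kappaLamC_eq_zero_iff hD4 hm hζ lam,
    fun lam => KC.nsmul_kappaLamC hD4 hm hζ lam,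
    fun l lam => HTh.kappaLamC_TLam hD4 l hm hζ lam,
    fun lam => kappaLamC_EalphaLam M q hq hqM hD4 hm hζ lam,
    fun lam => kappaLamC_EbetaLam M q hq hqM hD4 hm hζ lam⟩

/-- **Kummer maps with the two extra intertwinings**, from a specialization map given as data. -/
theorem exists_rhoE (red : Pic0 ℂ (DictC.Fc (M * q)) →+ JZero (M * q))
    (hinj : ∀ x, (∃ m : ℕ, m ≠ 0 ∧ m • x = 0) → red x = 0 → x = 0)
    (hH : ∀ (ℓ : Nat.Primes) (x : Pic0 ℂ (DictC.Fc (M * q))),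
      red ((haveI : NeZero (ℓ : ℕ) := ⟨ℓ.2.ne_zero⟩; heckeOperatorAlong ℂ (M * q) ℓ) x) =
        heckeOperatorBar (M * q) ℓ (red x))
    (Eα Eβ : JZero (M * q) →+ JZero (M * q))
    (hα : ∀ x, red (EalphaC M q x) = Eα (red x)) (hβ : ∀ x, red (EbetaC M q x) = Eβ (red x))
    {m : ℕ} (hm : 0 < m) :
    ∃ rho : ↥(Lam (M * q)) →+ JZero (M * q),
      (∀ lam : ↥(Lam (M * q)), rho lam = 0 ↔ ∃ y : ↥(Lam (M * q)), lam = m • y) ∧
      (∀ (l : Nat.Primes) (lam : ↥(Lam (M * q))),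
        rho (TLam (M * q) l lam) = heckeOperatorBar (M * q) l (rho lam)) ∧
      (∀ lam, rho (EalphaLam M q hq hqM lam) = Eα (rho lam)) ∧
      (∀ lam, rho (EbetaLam M q hq hqM lam) = Eβ (rho lam)) := by
  obtain ⟨κ, hker, htors, hT, hκα, hκβ⟩ := exists_kummerHomCE M q hq hqM hm
  refine ⟨red.comp κ, fun lam => ⟨fun h0 => ?_, fun h0 => ?_⟩, fun l lam => ?_, fun lam => ?_,
    fun lam => ?_⟩
  · refine (hker lam).mp (hinj (κ lam) ⟨m, hm.ne', htors lam⟩ ?_)
    simpa using h0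
  · rw [AddMonoidHom.comp_apply, (hker lam).mpr h0, map_zero]
  · rw [AddMonoidHom.comp_apply, AddMonoidHom.comp_apply, hT l lam]
    exact hH l (κ lam)
  · rw [AddMonoidHom.comp_apply, AddMonoidHom.comp_apply, hκα, hα]
  · rw [AddMonoidHom.comp_apply, AddMonoidHom.comp_apply, hκβ, hβ]

/-! ### The vanishing, for an arbitrary index type -/

section Vanishing

variable {ι : Type*} (pr : ι → Nat.Primes) (hpr : ∀ i, ((pr i : Nat.Primes) : ℕ) ≠ q)

include hpr in
/-- a noncommutative polynomial `p` in `T_{pr i}` (`pr i ≠ q`) which vanishes on `Λ(M)` is killed,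
at the level `M q`, by `E_α` and by `E_β` -/
theorem Ealpha_Ebeta_lift_eq_zero' (p : FreeAlgebra ℤ ι)
    (hp : FreeAlgebra.lift ℤ (fun i : ι => TLam M (pr i)) p = 0) (x : ↥(Lam (M * q))) :
    EalphaLam M q hq hqM (FreeAlgebra.lift ℤ (fun i : ι => TLam (M * q) (pr i)) p x) = 0 ∧
      EbetaLam M q hq hqM (FreeAlgebra.lift ℤ (fun i : ι => TLam (M * q) (pr i)) p x) = 0 := by
  have h1 : ∀ (i : ι) (v : ↥(Lam (M * q))),
      B1L M q hq hqM (TLam (M * q) (pr i) v) = TLam M (pr i) (B1L M q hq hqM v) :=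
    fun i v => B1L_TLam M q hq hqM (pr i) (hpr i) v
  have h2 : ∀ (i : ι) (v : ↥(Lam (M * q))),
      B2L M q hq hqM (TLam (M * q) (pr i) v) = TLam M (pr i) (B2L M q hq hqM v) :=
    fun i v => B2L_TLam M q hq hqM (pr i) (hpr i) v
  constructor
  · refine EalphaLam_comp_eq_zero M q hq hqM _ _ (fun y => ?_) hp x
    generalize B1L M q hq hqM = f at h1 ⊢
    exact lift_intertwine f _ _ h1 p y
  · refine EbetaLam_comp_eq_zero M q hq hqM _ _ (fun y => ?_) hp x
    generalize B2L M q hq hqM = f at h2 ⊢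
    exact lift_intertwine f _ _ h2 p y

include hpr in
/-- **(E7')(d), the vanishing on `J₀(M q)`**: if `rho` intertwines `E_α^Λ`, `E_β^Λ` with `Eα`, `Eβ`
and `p(T_l^{(M)}) = 0`, then `Eα` and `Eβ` kill `rho (p(T_l^{(M q)}) x)`. -/
theorem rho_lift_eq_zero {X : Type*} [AddCommGroup X] (rho : ↥(Lam (M * q)) →+ X)
    (Eα Eβ : X →+ X)
    (hα : ∀ lam, rho (EalphaLam M q hq hqM lam) = Eα (rho lam))
    (hβ : ∀ lam, rho (EbetaLam M q hq hqM lam) = Eβ (rho lam))
    (p : FreeAlgebra ℤ ι) (hp : FreeAlgebra.lift ℤ (fun i : ι => TLam M (pr i)) p = 0)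
    (x : ↥(Lam (M * q))) :
    Eα (rho (FreeAlgebra.lift ℤ (fun i : ι => TLam (M * q) (pr i)) p x)) = 0 ∧
      Eβ (rho (FreeAlgebra.lift ℤ (fun i : ι => TLam (M * q) (pr i)) p x)) = 0 := by
  obtain ⟨h1, h2⟩ := Ealpha_Ebeta_lift_eq_zero' M q hq hqM pr hpr p hp x
  rw [← hα, ← hβ, h1, h2, map_zero]
  exact ⟨rfl, rfl⟩

end Vanishing

/-- a homomorphism intertwining two families of endomorphisms intertwines every noncommutative
polynomial in them (additive form of `DegTransfer.lift_intertwine`) -/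
theorem lift_intertwine_addMonoidHom {ι V W : Type*} [AddCommGroup V] [AddCommGroup W]
    (f : V →+ W) (TV : ι → Module.End ℤ V) (TW : ι → Module.End ℤ W)
    (h : ∀ i v, f (TV i v) = TW i (f v)) (p : FreeAlgebra ℤ ι) (v : V) :
    f (FreeAlgebra.lift ℤ TV p v) = FreeAlgebra.lift ℤ TW p (f v) :=
  lift_intertwine f.toIntLinearMap TV TW h p v

end Fermat.Agent.BR2.KummerMapsE
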