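/-
Phase 2 (S35), node (E7')(d), part 2 (helper15): the output tuple (E7'-OUT) of the node (E7'),
from a Kummer map `rho : Λ(M q) →+ J` (Hecke equivariant, intertwining `E_α^Λ`, `E_β^Λ` with
endomorphisms `Eα`, `Eβ` of `J`: `BR2/KummerMapsE.lean`) and a noncommutative polynomial `p` in the
`T_l` (`l` in any index type of primes `≠ q`) vanishing on `Λ(M)` (`(E7)(e)`).

* `heckeEnd_lift` : `heckeEnd J` is multiplicative: it commutes with `FreeAlgebra.lift`;
* `lift_heckeGen_mem_adjoin` : `Q := lift (heckeGen ∘ pr) p ∈ Algebra.adjoin ℤ (range (heckeGen ∘ pr))`;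
* `intertwined_lift` : `Intertwined rho (lift (TLam ∘ pr) p) (heckeEnd J Q)`;
* `e7Out` : the bundle, with `Eα (Q • rho x) = 0 = Eβ (Q • rho x)`.
-/
import Mathlib
import Fermat.Agent.BR2.KummerMapsE
import Fermat.Agent.Pseudo.TraceGQ
import Fermat.Agent.Pseudo.TraceAbstract

set_option autoImplicit false
set_option linter.unusedSectionVars false
set_option linter.style.haveILetI false
set_option linter.unusedVariables false

open ModularCurve CongruenceSubgroup

noncomputable section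

namespace Fermat.Agent.BR2.E7Out

open Fermat.Agent Fermat.Agent.Jac Fermat.Agent.Pseudo Fermat.Agent.Pseudo.GQSys
open Fermat.Agent.BR2.DegTransfer Fermat.Agent.BR2.KummerMapsE

section Generic

variable {J : Type*} [AddCommGroup J] [Module HeckeAlg J] {ι : Type*}

/-- `heckeEnd J` commutes with the evaluation of noncommutative polynomials -/
theorem heckeEnd_lift (g : ι → HeckeAlg) (p : FreeAlgebra ℤ ι) :
    heckeEnd J (FreeAlgebra.lift ℤ g p) = FreeAlgebra.lift ℤ (fun i => heckeEnd J (g i)) p := by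
  induction p using FreeAlgebra.induction with
  | grade0 r =>
    rw [AlgHom.commutes, AlgHom.commutes]
    refine LinearMap.ext fun x => ?_
    rw [heckeEnd_apply, Module.algebraMap_end_apply, eq_intCast, Int.cast_smul_eq_zsmul]
  | grade1 i => rw [FreeAlgebra.lift_ι_apply, FreeAlgebra.lift_ι_apply]
  | mul a b ha hb =>
    rw [map_mul, map_mul, ← ha, ← hb]
    refine LinearMap.ext fun x => ?_
    rw [Module.End.mul_apply, heckeEnd_apply, heckeEnd_apply, heckeEnd_apply, mul_smul]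
  | add a b ha hb =>
    rw [map_add, map_add, ← ha, ← hb]
    refine LinearMap.ext fun x => ?_
    rw [LinearMap.add_apply, heckeEnd_apply, heckeEnd_apply, heckeEnd_apply, add_smul]

theorem lift_mem_adjoin (g : ι → HeckeAlg) (p : FreeAlgebra ℤ ι) :
    FreeAlgebra.lift ℤ g p ∈ Algebra.adjoin ℤ (Set.range g) := by
  rw [Algebra.adjoin_range_eq_range_freeAlgebra_lift]
  exact ⟨p, rfl⟩

end Generic

section Main

variable (M q : ℕ) [NeZero M] [NeZero q] [NeZero (M * q)] (hq : q.Prime) (hqM : ¬ q ∣ M)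
variable {J : Type*} [AddCommGroup J] [Module HeckeAlg J] {ι : Type*}
variable (pr : ι → Nat.Primes)

/-- the element of the Hecke algebra attached to `p` -/
def Qof (p : FreeAlgebra ℤ ι) : HeckeAlg := FreeAlgebra.lift ℤ (fun i => heckeGen (pr i)) p

/-- the endomorphism of `Λ(M q)` attached to `p` -/
def Pof (p : FreeAlgebra ℤ ι) : Module.End ℤ ↥(Lam (M * q)) :=
  FreeAlgebra.lift ℤ (fun i => TLam (M * q) (pr i)) p

theorem Qof_mem_adjoin (p : FreeAlgebra ℤ ι) :
    Qof pr p ∈ Algebra.adjoin ℤ (Set.range fun i => heckeGen (pr i)) :=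
  lift_mem_adjoin _ p

/-- `P = p(T_l)` belongs to every subalgebra containing the `T_{pr i}` -/
theorem Pof_mem (A : Subalgebra ℤ (Module.End ℤ ↥(Lam (M * q))))
    (hA : ∀ i, TLam (M * q) (pr i) ∈ A) (p : FreeAlgebra ℤ ι) : Pof M q pr p ∈ A := by
  have h : Algebra.adjoin ℤ (Set.range fun i => TLam (M * q) (pr i)) ≤ A :=
    Algebra.adjoin_le (by rintro _ ⟨i, rfl⟩; exact hA i)
  refine h ?_
  rw [Algebra.adjoin_range_eq_range_freeAlgebra_lift]
  exact ⟨p, rfl⟩

/-- **the intertwining** `rho ∘ P = Q ∘ rho` -/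
theorem intertwined_lift (rho : ↥(Lam (M * q)) →+ J)
    (hTL : ∀ (ℓ : Nat.Primes) (x : ↥(Lam (M * q))), rho (TLam (M * q) ℓ x) = heckeGen ℓ • rho x)
    (p : FreeAlgebra ℤ ι) :
    Intertwined rho (Pof M q pr p) (heckeEnd J (Qof pr p)) := by
  intro x
  rw [Qof, heckeEnd_lift]
  exact lift_intertwine_addMonoidHom rho _ _ (fun i v => hTL (pr i) v) p x

variable (hpr : ∀ i, ((pr i : Nat.Primes) : ℕ) ≠ q)

include hpr in
/-- **(E7'-OUT), the bundle** for one Kummer map `rho`. -/
theorem e7Out (rho : ↥(Lam (M * q)) →+ J)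
    (hTL : ∀ (ℓ : Nat.Primes) (x : ↥(Lam (M * q))), rho (TLam (M * q) ℓ x) = heckeGen ℓ • rho x)
    (Eα Eβ : J →+ J)
    (hα : ∀ lam, rho (EalphaLam M q hq hqM lam) = Eα (rho lam))
    (hβ : ∀ lam, rho (EbetaLam M q hq hqM lam) = Eβ (rho lam))
    (p : FreeAlgebra ℤ ι) (hp : FreeAlgebra.lift ℤ (fun i : ι => TLam M (pr i)) p = 0) :
    Qof pr p ∈ Algebra.adjoin ℤ (Set.range fun i => heckeGen (pr i)) ∧
      Intertwined rho (Pof M q pr p) (heckeEnd J (Qof pr p)) ∧
      ∀ x : ↥(Lam (M * q)), Eα (Qof pr p • rho x) = 0 ∧ Eβ (Qof pr p • rho x) = 0 := by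
  refine ⟨Qof_mem_adjoin pr p, intertwined_lift M q pr rho hTL p, fun x => ?_⟩
  have h := intertwined_lift M q pr rho hTL p x
  rw [heckeEnd_apply] at h
  rw [← h]
  exact rho_lift_eq_zero M q hq hqM pr hpr rho Eα Eβ hα hβ p hp x

end Main

end Fermat.Agent.BR2.E7Out
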