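import Mathlib
import Fermat.Agent.Jac.RedCorr
import Fermat.Agent.BR.PicFunct

/-!
# Phase 2, node (E7'c), abstract part: the reduction map commutes with `φ^* φ_*`

`R` a `RedSetup` for `F/K` with residue function field `Ft/k`; `φ : F₀ → F` and `φt : Ft₀ → Ft`
finite maps of function fields (so `F` is the big field).  The endomorphism `φ^* φ_*` of `Div(F)`
(`pullPushDiv`) is positive, multiplies degrees by `[F : F₀]` and sends `div y` to
`div (φ (Nm_φ y))`.  If the norm is compatible with the residue map on units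
(`hnorm : res (φ (Nm_φ y)) = φt (Nm_φt (res y))`), then

* `mapDomain_r_pullPush` : `r_* (φ^* φ_* D) = φt^* φt_* (r_* D)` for divisors of degree zero;
* `redPic0_pull_push` : `red ∘ (φ^* φ_*) = (φt^* φt_*) ∘ red` on `Pic⁰`.
-/

set_option autoImplicit false
set_option linter.style.haveILetI false
set_option linter.unusedSectionVars false

open AlgebraicCurve

namespace Fermat.Agent.BR2.SpecDeg

open Fermat.Agent.Red Fermat.Agent.Hecke Fermat.Agent.Jac Fermat.Agent.BR

section Div

variable {K F₀ F : Type*} [Field K] [Field F₀] [Field F] [Algebra K F₀] [Algebra K F]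
  [HasPrincipalDivisors K F₀] [HasPrincipalDivisors K F]
  (φ : F₀ →ₐ[K] F) (hφ : φ.toRingHom.IsIntegral)

/-- `φ^* φ_*` on the divisors of the big field. -/
noncomputable def pullPushDiv : Divisor K F →+ Divisor K F :=
  (Divisor.pullbackAlong φ hφ).comp (Divisor.pushforwardAlong φ hφ)

theorem pullPushDiv_apply (D : Divisor K F) :
    pullPushDiv φ hφ D = Divisor.pullbackAlong φ hφ (Divisor.pushforwardAlong φ hφ D) := rfl

theorem pullPushDiv_nonneg {D : Divisor K F} (hD : 0 ≤ D) : 0 ≤ pullPushDiv φ hφ D :=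
  pullbackAlong_nonneg φ hφ (pushforwardAlong_nonneg φ hφ hD)

theorem degree_pullPushDiv (hFI : FundamentalIdentityAlong K φ hφ) (D : Divisor K F) :
    Divisor.degree (pullPushDiv φ hφ D) = (finrankAlong K φ : ℤ) * Divisor.degree D := by
  rw [pullPushDiv_apply, Divisor.degree_pullbackAlong φ hφ hFI, Divisor.degree_pushforwardAlong]

theorem pullPushDiv_divOf (hfin : FiniteAlong K φ) (hN : NormFormulaAlong K φ hfin) {g : F}
    (hg : g ≠ 0) : pullPushDiv φ hφ (divOf K g) = divOf K (φ (normAlong φ g)) := by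
  rw [pullPushDiv_apply, pushforwardAlong_divOf φ hφ hfin hN hg, pullbackAlong_divOf]

theorem pullPushDiv_mem_degZero (hFI : FundamentalIdentityAlong K φ hφ) {D : Divisor K F}
    (hD : D ∈ Divisor.degZero (K := K) (F := F)) :
    pullPushDiv φ hφ D ∈ Divisor.degZero (K := K) (F := F) := by
  rw [Divisor.mem_degZero] at hD ⊢
  rw [degree_pullPushDiv φ hφ hFI, hD, mul_zero]

/-- `φ^* φ_*` on `Pic⁰` in terms of `pullPushDiv`. -/
theorem pic0Pull_pic0Push_mk (hFI : FundamentalIdentityAlong K φ hφ) (hfin : FiniteAlong K φ)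
    (hN : NormFormulaAlong K φ hfin) (D : Divisor.degZero (K := K) (F := F)) :
    PicFunct.pic0Pull φ hφ hFI (PicFunct.pic0Push φ hφ hfin hN (Pic0.mk D)) =
      Pic0.mk ⟨pullPushDiv φ hφ D, pullPushDiv_mem_degZero φ hφ hFI D.2⟩ := by
  rw [PicFunct.pic0Push_mk, PicFunct.pic0Pull_mk]
  rfl

end Div

variable {K F₀ F k Ft₀ Ft : Type*} [Field K] [Field F₀] [Field F] [Algebra K F₀] [Algebra K F]
  [Field k] [Field Ft₀] [Field Ft] [Algebra k Ft₀] [Algebra k Ft]
  {A : ValuationSubring K} {π : A →+* k} (S : RedSetup (F := F) (Ft := Ft) A π)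
  [HasPrincipalDivisors K F₀] [HasPrincipalDivisors K F] [HasPrincipalDivisors k Ft₀]
  [HasPrincipalDivisors k Ft]
  (hF : RiemannPkg K F) (hFt : RiemannPkg k Ft)
  (φ : F₀ →ₐ[K] F) (hφ : φ.toRingHom.IsIntegral)
  (hFI : FundamentalIdentityAlong K φ hφ) (hfin : FiniteAlong K φ)
  (hN : NormFormulaAlong K φ hfin)
  (φt : Ft₀ →ₐ[k] Ft) (hφt : φt.toRingHom.IsIntegral)
  (hFIt : FundamentalIdentityAlong k φt hφt) (hfint : FiniteAlong k φt)
  (hNt : NormFormulaAlong k φt hfint)

include hF hFt hFI hfin hN hFIt hfint hNt in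
/-- **The reduction of places commutes with `φ^* φ_*`** on divisors of degree zero. -/
theorem mapDomain_r_pullPush
    (hnorm : ∀ y : S.O, S.res y ≠ 0 →
      ∃ h : φ (normAlong φ (y : F)) ∈ S.O, S.res ⟨_, h⟩ = φt (normAlong φt (S.res y)))
    (D : Divisor K F) (hD : Divisor.degree D = 0) :
    Finsupp.mapDomain S.r (pullPushDiv φ hφ D) =
      pullPushDiv φt hφt (Finsupp.mapDomain S.r D) := by
  have key := mapDomain_r_eq_of_units' S hF hFt (pullPushDiv φ hφ)
    (fun D hD => pullPushDiv_nonneg φ hφ hD)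
    (pullPushDiv φt hφt) 0
    (fun E hE => pullPushDiv_nonneg φt hφt hE) (fun E _ => le_rfl)
    (finrankAlong k φt : ℤ) 0 (finrankAlong K φ : ℤ)
    (fun D => degree_pullPushDiv φ hφ hFI D)
    (fun E => degree_pullPushDiv φt hφt hFIt E)
    (fun E => by simp) ?_ D hD
  · simpa using key
  · intro y hy
    have hy0 : (y : F) ≠ 0 := by
      intro h
      apply hy
      have : y = 0 := Subtype.ext h
      rw [this, map_zero]
    obtain ⟨h, hres⟩ := hnorm y hy
    have hne : S.res ⟨_, h⟩ ≠ 0 := by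
      rw [hres]
      exact (map_ne_zero φt).mpr (normAlong_ne_zero φt hfint hy)
    rw [pullPushDiv_divOf φ hφ hfin hN hy0, AddMonoidHom.zero_apply, add_zero,
      pullPushDiv_divOf φt hφt hfint hNt hy, ← hres]
    have := pushPlaces_divOf_unit S ⟨_, h⟩ hne
    rw [pushPlaces_apply] at this
    exact this

include hF hFt in
/-- **The reduction map on `Pic⁰` commutes with `φ^* φ_*`.** -/
theorem redPic0_pull_push
    (hnorm : ∀ y : S.O, S.res y ≠ 0 →
      ∃ h : φ (normAlong φ (y : F)) ∈ S.O, S.res ⟨_, h⟩ = φt (normAlong φt (S.res y)))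
    (x : Pic0 K F) :
    redPic0 S (PicFunct.pic0Pull φ hφ hFI (PicFunct.pic0Push φ hφ hfin hN x)) =
      PicFunct.pic0Pull φt hφt hFIt (PicFunct.pic0Push φt hφt hfint hNt (redPic0 S x)) := by
  have key := redPic0_comm S (pullPushDiv φ hφ) (pullPushDiv φt hφt) 0
    (fun D hD => by
      rw [mapDomain_r_pullPush S hF hFt φ hφ hFI hfin hN φt hφt hFIt hfint hNt hnorm D hD]
      simp)
    ((PicFunct.pic0Pull φ hφ hFI).comp (PicFunct.pic0Push φ hφ hfin hN))
    ((PicFunct.pic0Pull φt hφt hFIt).comp (PicFunct.pic0Push φt hφt hfint hNt)) 0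
    (fun D => ⟨pullPushDiv_mem_degZero φ hφ hFI D.2, by
      rw [AddMonoidHom.comp_apply]
      exact pic0Pull_pic0Push_mk φ hφ hFI hfin hN D⟩)
    (fun E => ⟨pullPushDiv_mem_degZero φt hφt hFIt E.2, by
      rw [AddMonoidHom.comp_apply]
      exact pic0Pull_pic0Push_mk φt hφt hFIt hfint hNt E⟩)
    (fun E => ⟨by simp [Divisor.mem_degZero], by
      simp only [AddMonoidHom.zero_apply]
      symm
      rw [Pic0.mk, QuotientAddGroup.eq_zero_iff, AddSubgroup.mem_addSubgroupOf]
      exact (Divisor.principal (K := k) (F := Ft)).zero_mem⟩) x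
  simpa using key

end Fermat.Agent.BR2.SpecDeg
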