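import Mathlib
import Fermat.Agent.BR2.SpecDegAbs
import Fermat.Agent.Jac.RedHeckeC
import Fermat.Agent.Jac.Spec.HeckeEquivarianceH1
import Fermat.Agent.Jac.Spec.BetaDegree
import Fermat.Agent.Jac.DictC.HeckeGlue
import Fermat.Agent.BR.LevelTransfer

/-!
# Phase 2, node (E7'c): the specialization map commutes with `α^* α_*` and `β^* β_*`

Level `M * q` (literally), `α = heckeAlphaBar K M q`, `β = heckeBetaBar K M q : F_M → F_{Mq}` the two
degeneracy maps, over `K = ℂ` and `K = ℚ̄`.

* `EalphaC M q`, `EbetaC M q : Pic⁰(Fc (M q)) →+ Pic⁰(Fc (M q))` : `α^* α_*`, `β^* β_*` over `ℂ`;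
* `Ealpha M q = alphaUp ∘ alphaDown`, `Ebeta M q` : the same over `ℚ̄` on `JZero (M * q)`;
* `redPic0_EalphaC`, `redPic0_EbetaC` : for a Gauss `RedSetup` `R` at level `M q` and a Gauss
  constant reduction at level `M`, `red ∘ E_C = E ∘ red`;
* `specializationStatementE M q` : there is `red : Pic⁰(Fc (M q)) →+ JZero (M q)` injective on
  torsion, commuting with all `T_ℓ`, with `E_α` and with `E_β`.
-/

set_option autoImplicit false
set_option linter.style.haveILetI false
set_option linter.unusedSectionVars false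

open AlgebraicCurve ModularCurve

noncomputable section

namespace Fermat.Agent.BR2.SpecDeg

open Fermat.Agent.Red Fermat.Agent.Val Fermat.Agent.Hecke Fermat.Agent.Jac Fermat.Agent.X0
  Fermat.Agent.BR Fermat.Agent.Jac.RedHecke Fermat.Agent.Hecke.Gen

set_option synthInstance.maxHeartbeats 400000

variable (M q : ℕ) [NeZero M] [NeZero q]

/-! ### The inputs over `ℂ` -/

theorem hasPrincipalDivisorsC (N : ℕ) [NeZero N] : HasPrincipalDivisors ℂ (FL ℂ N) :=
  DictC.hasPrincipalDivisors_FL_C N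

attribute [local instance] hasPrincipalDivisorsC

theorem finiteAlong_alphaC : FiniteAlong ℂ (heckeAlphaBar ℂ M q) :=
  haveI := DictC.finiteDimensional_over_jL_C (M * q)
  finiteAlong_heckeAlphaBar_of M q (jL ℂ (M * q)) (jL_transcendental ℂ M)

theorem finiteAlong_betaC : FiniteAlong ℂ (heckeBetaBar ℂ M q) :=
  haveI := DictC.finiteDimensional_over_jL_C (M * q)
  finiteAlong_heckeBetaBar_of M q (jL ℂ (M * q)) (jL_transcendental ℂ M)

theorem integral_alphaC : HeckeAlphaBarIntegral ℂ M q :=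
  haveI := DictC.finiteDimensional_over_jL_C (M * q)
  heckeAlphaBarIntegral_of M q (jL ℂ (M * q)) (jL_transcendental ℂ M)

theorem integral_betaC : HeckeBetaBarIntegral ℂ M q :=
  haveI := DictC.finiteDimensional_over_jL_C (M * q)
  heckeBetaBarIntegral_of M q (jL ℂ (M * q)) (jL_transcendental ℂ M)

theorem fundamentalIdentity_alphaC :
    FundamentalIdentityAlong ℂ (heckeAlphaBar ℂ M q) (integral_alphaC M q) :=
  haveI := DictC.finiteDimensional_over_jL_C (M * q)
  fundamentalIdentityAlong_alpha_of M q (jL ℂ (M * q)) (jL_transcendental ℂ M)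

theorem fundamentalIdentity_betaC :
    FundamentalIdentityAlong ℂ (heckeBetaBar ℂ M q) (integral_betaC M q) :=
  haveI := DictC.finiteDimensional_over_jL_C (M * q)
  fundamentalIdentityAlong_beta_of M q (jL ℂ (M * q)) (jL_transcendental ℂ M)

theorem normFormula_alphaC :
    NormFormulaAlong ℂ (heckeAlphaBar ℂ M q) (finiteAlong_alphaC M q) :=
  haveI := DictC.finiteDimensional_over_jL_C (M * q)
  normFormulaAlong_alpha_of M q (jL ℂ (M * q)) (jL_transcendental ℂ M)

theorem normFormula_betaC :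
    NormFormulaAlong ℂ (heckeBetaBar ℂ M q) (finiteAlong_betaC M q) :=
  haveI := DictC.finiteDimensional_over_jL_C (M * q)
  normFormulaAlong_beta_of M q (jL ℂ (M * q)) (jL_transcendental ℂ M)

/-! ### The four endomorphisms -/

/-- `α^* α_*` on `Pic⁰(X₀(M q)_ℂ)`. -/
def EalphaC : Pic0 ℂ (FL ℂ (M * q)) →+ Pic0 ℂ (FL ℂ (M * q)) :=
  (PicFunct.pic0Pull (heckeAlphaBar ℂ M q) (integral_alphaC M q)
    (fundamentalIdentity_alphaC M q)).comp
  (PicFunct.pic0Push (heckeAlphaBar ℂ M q) (integral_alphaC M q) (finiteAlong_alphaC M q)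
    (normFormula_alphaC M q))

/-- `β^* β_*` on `Pic⁰(X₀(M q)_ℂ)`. -/
def EbetaC : Pic0 ℂ (FL ℂ (M * q)) →+ Pic0 ℂ (FL ℂ (M * q)) :=
  (PicFunct.pic0Pull (heckeBetaBar ℂ M q) (integral_betaC M q)
    (fundamentalIdentity_betaC M q)).comp
  (PicFunct.pic0Push (heckeBetaBar ℂ M q) (integral_betaC M q) (finiteAlong_betaC M q)
    (normFormula_betaC M q))

/-- `α^* α_*` on `J₀(M q)(ℚ̄)`. -/
def Ealpha : JZero (M * q) →+ JZero (M * q) :=
  (LevelTransfer.alphaUp M q).comp (LevelTransfer.alphaDown M q)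

/-- `β^* : J₀(M) → J₀(M q)`. -/
def betaUp : JZero M →+ JZero (M * q) :=
  PicFunct.pic0Pull (heckeBetaBar Kb M q) (heckeBetaBarIntegral M q)
    (fundamentalIdentityAlong_beta M q)

/-- `β_* : J₀(M q) → J₀(M)`. -/
def betaDown : JZero (M * q) →+ JZero M :=
  PicFunct.pic0Push (heckeBetaBar Kb M q) (heckeBetaBarIntegral M q)
    (finiteAlong_heckeBetaBar M q) (normFormulaAlong_beta M q)

/-- `β^* β_*` on `J₀(M q)(ℚ̄)`. -/
def Ebeta : JZero (M * q) →+ JZero (M * q) := (betaUp M q).comp (betaDown M q)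

/-! ### Norm and residue along `α` and `β` -/

section Gauss

variable {A : ValuationSubring ℂ} {π : A →+* Kb}
  {S : ConstRed (F := FL ℂ M) (Ft := FL Kb M) A π}
  {S' : ConstRed (F := FL ℂ (M * q)) (Ft := FL Kb (M * q)) A π}
  (hS : IsGauss S) (hS' : IsGauss S')

include hS hS'

/-- Compatibility of the two constant reductions along `β`. -/
theorem compat_beta :
    letI := algebraAlong (heckeBetaBar ℂ M q)
    letI := algebraAlong (heckeBetaBar Kb M q)
    NormRes.Compat S.res S'.res := by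
  letI := algebraAlong (heckeBetaBar ℂ M q)
  letI := algebraAlong (heckeBetaBar Kb M q)
  exact
    { res_eq_zero := fun x hx => (S.res_eq_zero_iff x).mpr hx
      map_mem := fun y => beta_mem M q hS hS' y
      res_map := fun y => res_beta M q hS hS' y }

/-- `res (α (Nm_α y)) = α (Nm_α (res y))` for `y` in the valuation ring at level `M q`. -/
theorem exists_res_alpha_norm (y : S'.O) :
    ∃ h : heckeAlphaBar ℂ M q (normAlong (heckeAlphaBar ℂ M q) (y : FL ℂ (M * q))) ∈ S'.O,
      S'.res ⟨_, h⟩ =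
        heckeAlphaBar Kb M q (normAlong (heckeAlphaBar Kb M q) (S'.res y)) := by
  letI := algebraAlong (heckeAlphaBar ℂ M q)
  letI := algebraAlong (heckeAlphaBar Kb M q)
  haveI : Module.Finite (FL ℂ M) (FL ℂ (M * q)) := finiteAlong_alphaC M q
  haveI : Module.Finite (FL Kb M) (FL Kb (M * q)) := finiteAlong_heckeAlphaBar M q
  have hc := compat_alpha M q hS hS'
  obtain ⟨h, hres⟩ := hc.exists_res_norm_eq S'.res_surjective
    (Spec.finrankAlong_heckeAlphaBar_complex M q) y
  refine ⟨alpha_mem M q hS hS' ⟨_, h⟩, ?_⟩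
  have h2 := res_alpha M q hS hS' ⟨_, h⟩
  rw [hres] at h2
  exact h2

/-- `res (β (Nm_β y)) = β (Nm_β (res y))` for `y` in the valuation ring at level `M q`. -/
theorem exists_res_beta_norm (y : S'.O) :
    ∃ h : heckeBetaBar ℂ M q (normAlong (heckeBetaBar ℂ M q) (y : FL ℂ (M * q))) ∈ S'.O,
      S'.res ⟨_, h⟩ =
        heckeBetaBar Kb M q (normAlong (heckeBetaBar Kb M q) (S'.res y)) := by
  letI := algebraAlong (heckeBetaBar ℂ M q)
  letI := algebraAlong (heckeBetaBar Kb M q)
  haveI : Module.Finite (FL ℂ M) (FL ℂ (M * q)) := finiteAlong_betaC M q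
  haveI : Module.Finite (FL Kb M) (FL Kb (M * q)) := finiteAlong_heckeBetaBar M q
  have hc := compat_beta M q hS hS'
  obtain ⟨h, hres⟩ := hc.exists_res_norm_eq S'.res_surjective
    (Spec.finrankAlong_heckeBetaBar_complex M q) y
  refine ⟨beta_mem M q hS hS' ⟨_, h⟩, ?_⟩
  have h2 := res_beta M q hS hS' ⟨_, h⟩
  rw [hres] at h2
  exact h2

end Gauss

/-! ### The reduction map commutes with `E_α`, `E_β` -/

section Red

variable {A : ValuationSubring ℂ} {π : A →+* Kb}
  (R : RedSetup (F := FL ℂ (M * q)) (Ft := FL Kb (M * q)) A π)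
  (S : ConstRed (F := FL ℂ M) (Ft := FL Kb M) A π)
  (hR : IsGauss R.toConstRed) (hS : IsGauss S)

include hR hS

theorem redPic0_EalphaC (x : Pic0 ℂ (FL ℂ (M * q))) :
    redPic0 R (EalphaC M q x) = Ealpha M q (redPic0 R x) :=
  redPic0_pull_push R (Descent.riemannPkg_Fc (M * q)) (riemannPkg_bar (M * q))
    (heckeAlphaBar ℂ M q) (integral_alphaC M q) (fundamentalIdentity_alphaC M q)
    (finiteAlong_alphaC M q) (normFormula_alphaC M q)
    (heckeAlphaBar Kb M q) (heckeAlphaBarIntegral M q) (fundamentalIdentityAlong_alpha M q)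
    (finiteAlong_heckeAlphaBar M q) (normFormulaAlong_alpha M q)
    (fun y _ => exists_res_alpha_norm M q hS hR y) x

theorem redPic0_EbetaC (x : Pic0 ℂ (FL ℂ (M * q))) :
    redPic0 R (EbetaC M q x) = Ebeta M q (redPic0 R x) :=
  redPic0_pull_push R (Descent.riemannPkg_Fc (M * q)) (riemannPkg_bar (M * q))
    (heckeBetaBar ℂ M q) (integral_betaC M q) (fundamentalIdentity_betaC M q)
    (finiteAlong_betaC M q) (normFormula_betaC M q)
    (heckeBetaBar Kb M q) (heckeBetaBarIntegral M q) (fundamentalIdentityAlong_beta M q)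
    (finiteAlong_heckeBetaBar M q) (normFormulaAlong_beta M q)
    (fun y _ => exists_res_beta_norm M q hS hR y) x

end Red

/-! ### The strengthened specialization statement -/

/-- The specialization statement at level `M * q` with the two extra equivariances. -/
def SpecializationStatementE : Prop :=
  ∃ red : Pic0 ℂ (FL ℂ (M * q)) →+ JZero (M * q),
    (∀ x, (∃ m : ℕ, m ≠ 0 ∧ m • x = 0) → red x = 0 → x = 0) ∧
    (∀ (ℓ : Nat.Primes) (x : Pic0 ℂ (FL ℂ (M * q))),
      red ((haveI : NeZero (ℓ : ℕ) := ⟨ℓ.2.ne_zero⟩; heckeOperatorAlong ℂ (M * q) ℓ) x) =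
        heckeOperatorBar (M * q) ℓ (red x)) ∧
    (∀ x, red (EalphaC M q x) = Ealpha M q (red x)) ∧
    (∀ x, red (EbetaC M q x) = Ebeta M q (red x))

/-- **(E7'c)** The specialization statement with `E_α`, `E_β`, unconditionally. -/
theorem specializationStatementE : SpecializationStatementE M q := by
  obtain ⟨A, π, hπs, hker, hA⟩ := Spec.exists_valuationSubring_complex
  have hπ : ∀ a : A, a ∈ IsLocalRing.maximalIdeal A → π a = 0 := fun a ha => (hker a).mpr ha
  obtain ⟨D, R, hDx, hDm, hR⟩ := Spec.exists_redSetupC (M * q) A π hπ hπs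
  obtain ⟨D₀, -, -⟩ := Spec.exists_orthoDataC M A π
  have hRG : IsGauss R.toConstRed := by
    rw [hR]
    exact isGauss_constRed D hπ hπs
  have hSG : IsGauss (D₀.constRed hπ hπs) := isGauss_constRed D₀ hπ hπs
  have hHecke := Spec.heckeEquivariance (M * q) A π hπ hπs hA D R hDx hDm hR
  refine ⟨Spec.redPic0 R, fun x hx hred => ?_, hHecke, fun x => ?_, fun x => ?_⟩
  · exact Spec.eq_zero_of_torsion_of_redPic0_eq_zero R inferInstance inferInstance hA
      (DictC.riemannPkg_C (M * q)) (Val.riemannPkg_bar (M * q))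
      (DictC.genusFF_C_eq_genusFF_bar (M * q)).symm x hx hred
  · rw [Spec.redPic0_eq_redPic0, Spec.redPic0_eq_redPic0]
    exact redPic0_EalphaC M q R (D₀.constRed hπ hπs) hRG hSG x
  · rw [Spec.redPic0_eq_redPic0, Spec.redPic0_eq_redPic0]
    exact redPic0_EbetaC M q R (D₀.constRed hπ hπs) hRG hSG x

end Fermat.Agent.BR2.SpecDeg

end
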