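/-
Phase 2 (S35), node (E7')(d) (helper9 + helper15): the Kummer maps at level `M q` intertwine
`E_α`, `E_β`, UNCONDITIONALLY.

`KummerMapsE M q hq hqM` : for every `m > 0` there is `rho : Lam (M q) →+ JZero (M q)` with kernel
`m Lam`, equivariant for all `TLam l` / `heckeOperatorBar l`, and with
`rho ∘ EalphaLam = Ealpha ∘ rho`, `rho ∘ EbetaLam = Ebeta ∘ rho`
(`EalphaLam`, `EbetaLam` of `BR2/DegTransfer.lean`; `Ealpha = alphaUp ∘ alphaDown`,
`Ebeta = betaUp ∘ betaDown` of `BR2/SpecDeg.lean`).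

Proof: `rho := red ∘ κ` with the SAME Kummer homomorphism `κ = KC.kappaLamC` over `ℂ`
(`BR2/KappaDeg.lean`: `κ ∘ E^Lam = E_C ∘ κ`) and the SAME specialization map `red`
(`BR2/SpecDeg.lean`: `red ∘ E_C = E ∘ red`), assembled by `BR2/KummerMapsE.exists_rhoE`.
-/
import Mathlib
import Fermat.Agent.BR2.SpecDeg
import Fermat.Agent.BR2.KummerMapsE
import Fermat.Agent.Jac.LamSupport

set_option autoImplicit false
set_option linter.style.haveILetI false
set_option linter.unusedSectionVars false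

open AlgebraicCurve ModularCurve

namespace Fermat.Agent.BR2.KummerE

open Fermat.Agent.Jac Fermat.Agent.BR2.DegTransfer Fermat.Agent.Hecke.Gen

variable (M q : ℕ) [NeZero M] [NeZero q] (hq : q.Prime) (hqM : ¬ q ∣ M)

/-- The two copies of `α^* α_*` over `ℂ` agree. -/
theorem EalphaC_eq_EalphaC : KappaDeg.EalphaC M q = SpecDeg.EalphaC M q := rfl

/-- The two copies of `β^* β_*` over `ℂ` agree. -/
theorem EbetaC_eq_EbetaC : KappaDeg.EbetaC M q = SpecDeg.EbetaC M q := rfl

/-- **`(K)` with `E_α`, `E_β`**: the statement of the strengthened Kummer maps. -/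
def KummerMapsE : Prop :=
  ∀ m : ℕ, 0 < m → ∃ rho : ↥(Lam (M * q)) →+ JZero (M * q),
    (∀ lam : ↥(Lam (M * q)), rho lam = 0 ↔ ∃ y : ↥(Lam (M * q)), lam = m • y) ∧
    (∀ (l : Nat.Primes) (lam : ↥(Lam (M * q))),
      rho (TLam (M * q) l lam) = heckeOperatorBar (M * q) l (rho lam)) ∧
    (∀ lam, rho (EalphaLam M q hq hqM lam) = SpecDeg.Ealpha M q (rho lam)) ∧
    (∀ lam, rho (EbetaLam M q hq hqM lam) = SpecDeg.Ebeta M q (rho lam))

/-- **(E7')(d)**: the strengthened Kummer maps, unconditionally. -/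
theorem kummerMapsE : KummerMapsE M q hq hqM := by
  intro m hm
  obtain ⟨red, hinj, hH, hEa, hEb⟩ := SpecDeg.specializationStatementE M q
  exact KummerMapsE.exists_rhoE M q hq hqM red hinj hH (SpecDeg.Ealpha M q) (SpecDeg.Ebeta M q)
    (fun x => by rw [EalphaC_eq_EalphaC]; exact hEa x)
    (fun x => by rw [EbetaC_eq_EbetaC]; exact hEb x) hm

/-- The strengthened statement implies the plain `(K)` at level `M q`. -/
theorem kummerMaps_of_kummerMapsE (h : KummerMapsE M q hq hqM) : KummerMaps (M * q) := by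
  intro m hm
  obtain ⟨rho, h1, h2, -, -⟩ := h m hm
  exact ⟨rho, h1, h2⟩

end Fermat.Agent.BR2.KummerE
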