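/-
Phase 2 (S35), node (E7')(d), the plug (helper15, shapes by helper25/helper9): the block (E7'-OUT)
of `BR2/GeoPlug.geoInputSpan_of_nodes` at the literal level `M q` (`q ∤ M` prime), from the output
`p` of the node (E7)(e): a noncommutative polynomial in the `T_ℓ`, `ℓ ∉ S'` (`q ∈ S'`), vanishing on
`Λ(M)` and with `χ' (Ψ (p(T_ℓ^{(M q)}))) ≠ 0`.

* `Ealpha_smul`, `Ebeta_smul` : `SpecDeg.Ealpha`, `SpecDeg.Ebeta` are `G_ℚ`-equivariant;
* `rhoE M q hq hqM K` : the Kummer maps (by choice from `KummerE.kummerMapsE`), `rhoE_spec`;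
* `e7Plug` : the tuple `(rho, A, hA, Ψ, P, Q)` with `hker`, `hTL`, `hΨ`, `hQ`, `hPQ`, `hχ`, `hE7`.
-/
import Mathlib
import Fermat.Agent.BR2.KummerMapsEFinal
import Fermat.Agent.BR2.E7Out
import Fermat.Agent.Jac.LamPsi
import Fermat.Agent.Jac.HeckeCommUncond
import Fermat.Agent.Jac.HeckeGalois

set_option autoImplicit false
set_option linter.unusedSectionVars false
set_option linter.style.haveILetI false
set_option linter.unusedVariables false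

open AlgebraicCurve ModularCurve CuspForm

noncomputable section

namespace Fermat.Agent.BR2.E7Plug

open Fermat.Agent Fermat.Agent.Jac Fermat.Agent.Hecke Fermat.Agent.BR
open Fermat.Agent.Pseudo Fermat.Agent.Pseudo.GQSys
open Fermat.Agent.BR2.DegTransfer Fermat.Agent.BR2.KummerE Fermat.Agent.BR2.E7Out

local notation "GQ" => (AlgebraicClosure ℚ ≃ₐ[ℚ] AlgebraicClosure ℚ)

variable (M q : ℕ) [NeZero M] [NeZero q]

/-! ### Galois equivariance of the two correspondences on `J₀(M q)` -/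

theorem Ealpha_smul (σ : GQ) (x : JZero (M * q)) :
    SpecDeg.Ealpha M q (σ • x) = σ • SpecDeg.Ealpha M q x := by
  show LevelTransfer.alphaUp M q (LevelTransfer.alphaDown M q (σ • x)) =
    σ • LevelTransfer.alphaUp M q (LevelTransfer.alphaDown M q x)
  rw [LevelTransfer.alphaDown_smul, LevelTransfer.alphaUp_smul]

theorem betaUp_smul (σ : GQ) (x : JZero M) :
    SpecDeg.betaUp M q (σ • x) = σ • SpecDeg.betaUp M q x :=
  PicFunct.pic0Pull_smul _ _ _ (galAut M σ) (galAut (M * q) σ)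
    (fun f => heckeBetaBar_galAut M q σ f) (Fermat.Agent.Val.riemannPkg_bar M)
    (Fermat.Agent.Val.riemannPkg_bar (M * q)) x

theorem betaDown_smul (σ : GQ) (y : JZero (M * q)) :
    SpecDeg.betaDown M q (σ • y) = σ • SpecDeg.betaDown M q y :=
  PicFunct.pic0Push_smul _ _ _ _ (galAut M σ) (galAut (M * q) σ)
    (fun f => heckeBetaBar_galAut M q σ f) (Fermat.Agent.Val.riemannPkg_bar M)
    (Fermat.Agent.Val.riemannPkg_bar (M * q)) y

theorem Ebeta_smul (σ : GQ) (x : JZero (M * q)) :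
    SpecDeg.Ebeta M q (σ • x) = σ • SpecDeg.Ebeta M q x := by
  show SpecDeg.betaUp M q (SpecDeg.betaDown M q (σ • x)) =
    σ • SpecDeg.betaUp M q (SpecDeg.betaDown M q x)
  rw [betaDown_smul, betaUp_smul]

/-! ### The Kummer maps as data -/

variable (hq : q.Prime) (hqM : ¬ q ∣ M)

/-- the Kummer maps `Λ(M q) →+ J₀(M q)` with the extra intertwinings, by choice -/
def rhoE (K : ℕ) : ↥(Lam (M * q)) →+ JZero (M * q) :=
  if h : 0 < K then (kummerMapsE M q hq hqM K h).choose else 0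

theorem rhoE_spec {K : ℕ} (hK : 0 < K) :
    (∀ lam : ↥(Lam (M * q)), rhoE M q hq hqM K lam = 0 ↔ ∃ y : ↥(Lam (M * q)), lam = K • y) ∧
    (∀ (l : Nat.Primes) (lam : ↥(Lam (M * q))),
      rhoE M q hq hqM K (TLam (M * q) l lam) =
        heckeOperatorBar (M * q) l (rhoE M q hq hqM K lam)) ∧
    (∀ lam, rhoE M q hq hqM K (EalphaLam M q hq hqM lam) =
      SpecDeg.Ealpha M q (rhoE M q hq hqM K lam)) ∧
    (∀ lam, rhoE M q hq hqM K (EbetaLam M q hq hqM lam) =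
      SpecDeg.Ebeta M q (rhoE M q hq hqM K lam)) := by
  unfold rhoE
  rw [dif_pos hK]
  exact (kummerMapsE M q hq hqM K hK).choose_spec

theorem rhoE_TLam {K : ℕ} (hK : 0 < K) (ℓ : Nat.Primes) (x : ↥(Lam (M * q))) :
    letI := heckeModuleBar (M * q)
    rhoE M q hq hqM K (TLam (M * q) ℓ x) = heckeGen ℓ • rhoE M q hq hqM K x := by
  letI := heckeModuleBar (M * q)
  rw [(rhoE_spec M q hq hqM hK).2.1 ℓ x]
  exact (heckeGen_smul_eq (M * q) ℓ _).symm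

/-! ### The plug -/

variable (S' : Finset ℕ)

/-- the index map `Idx S' → Nat.Primes` -/
abbrev prS : Idx S' → Nat.Primes := fun i => i.1

theorem Pof_mem_TLamAlg (p : FreeAlgebra ℤ (Idx S')) :
    Pof M q (prS S') p ∈ TLamAlg (M * q) (↑S' : Set ℕ) :=
  Pof_mem M q (prS S') (TLamAlg (M * q) (↑S' : Set ℕ))
    (fun i => TLam_mem_TLamAlg (M * q) (↑S' : Set ℕ) i.2) p

include hq hqM in
/-- **(E7'-OUT)**, in the literal shape of the first block of hypotheses of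
`BR2/GeoPlug.geoInputSpan_of_nodes` (with `EαM := SpecDeg.Ealpha M q`,
`EβM := SpecDeg.Ebeta M q`, equivariant by `Ealpha_smul`, `Ebeta_smul`). -/
theorem e7Plug (hqS' : q ∈ S') {O' : Type} [CommRing O']
    (χ' : heckeAlgebra (M * q) 2 (↑S' : Set ℕ) →+* O')
    (p : FreeAlgebra ℤ (Idx S'))
    (hp : FreeAlgebra.lift ℤ (fun i : Idx S' => TLam M i.1) p = 0)
    (hχ : χ' (lamPsi (M * q) (↑S' : Set ℕ) ⟨Pof M q (prS S') p, Pof_mem_TLamAlg M q S' p⟩) ≠ 0) :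
    letI := heckeModuleBar (M * q)
    ∃ (rho : ℕ → ↥(Lam (M * q)) →+ JZero (M * q))
      (A : Subalgebra ℤ (Module.End ℤ ↥(Lam (M * q))))
      (hA : ∀ i : Idx S', TLam (M * q) i.1 ∈ A)
      (Ψ : A →+* heckeAlgebra (M * q) 2 (↑S' : Set ℕ)) (P : A) (Q : HeckeAlg),
      (∀ K : ℕ, 0 < K → ∀ x, rho K x = 0 ↔ ∃ mu, x = K • mu) ∧
      (∀ K : ℕ, 0 < K → ∀ (ℓ : Nat.Primes) (x : ↥(Lam (M * q))),
        rho K (TLam (M * q) ℓ x) = heckeGen ℓ • rho K x) ∧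
      (∀ (ℓ : ℕ) (hℓ : ℓ.Prime) (hℓM : ¬ ℓ ∣ M * q) (hℓS : ℓ ∉ (↑S' : Set ℕ)),
        Ψ ⟨TLam (M * q) ⟨ℓ, hℓ⟩, hA ⟨⟨ℓ, hℓ⟩, hℓS⟩⟩ = heckeAlgebra.T hℓ hℓM hℓS) ∧
      Q ∈ Algebra.adjoin ℤ (heckeGen '' {ℓ : Nat.Primes | (ℓ : ℕ) ∉ S'}) ∧
      (∀ K : ℕ, 0 < K →
        Intertwined (rho K) (P : Module.End ℤ ↥(Lam (M * q))) (heckeEnd (JZero (M * q)) Q)) ∧
      χ' (Ψ P) ≠ 0 ∧
      ∀ K : ℕ, 0 < K → ∀ x : ↥(Lam (M * q)),
        SpecDeg.Ealpha M q (Q • rho K x) = 0 ∧ SpecDeg.Ebeta M q (Q • rho K x) = 0 := by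
  letI := heckeModuleBar (M * q)
  have hpr : ∀ i : Idx S', ((prS S' i : Nat.Primes) : ℕ) ≠ q := fun i h => i.2 (h ▸ hqS')
  have hout : ∀ K : ℕ, 0 < K → _ := fun K hK =>
    e7Out M q hq hqM (prS S') hpr (rhoE M q hq hqM K) (rhoE_TLam M q hq hqM hK)
      (SpecDeg.Ealpha M q) (SpecDeg.Ebeta M q) (rhoE_spec M q hq hqM hK).2.2.1
      (rhoE_spec M q hq hqM hK).2.2.2 p hp
  refine ⟨rhoE M q hq hqM, TLamAlg (M * q) (↑S' : Set ℕ),
    fun i => TLam_mem_TLamAlg (M * q) (↑S' : Set ℕ) i.2, lamPsi (M * q) (↑S' : Set ℕ),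
    ⟨Pof M q (prS S') p, Pof_mem_TLamAlg M q S' p⟩, Qof (prS S') p,
    fun K hK => (rhoE_spec M q hq hqM hK).1, fun K hK => rhoE_TLam M q hq hqM hK,
    fun ℓ hℓ hℓM hℓS => lamPsi_TLam_of_not_dvd (M * q) (↑S' : Set ℕ) (l := ⟨ℓ, hℓ⟩) hℓM hℓS,
    ?_, fun K hK => (hout K hK).2.1, hχ, fun K hK => (hout K hK).2.2⟩
  refine Algebra.adjoin_mono ?_ (Qof_mem_adjoin (prS S') p)
  rintro _ ⟨i, rfl⟩
  exact ⟨i.1, i.2, rfl⟩

end Fermat.Agent.BR2.E7Plug
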