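import Mathlib
import Fermat.Agent.S49.CommonEigen

/-!
# Phase 2, node (E7)(e1): a ring homomorphism on an integral commutative algebra of endomorphisms
is realised by an eigenvector

`V` a finite-dimensional complex vector space with a basis `b`, `𝕋` a commutative `ℤ`-subalgebra
of `End_ℂ V` preserving the lattice `span_ℤ (range b)`, `ψ : 𝕋 →+* ℂ` a ring homomorphism.  Then
there is `v ≠ 0` with `t v = ψ t • v` for all `t ∈ 𝕋` (`exists_eigenvector_of_ringHom`).

The integrality is essential (`ℤ[√2]` acting on `ℂ`).  Proof: by Cayley–Hamilton over `ℤ`, `ψ t`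
is an eigenvalue of `t` for every `t`; the eigenspace is `𝕋`-stable, hence contains a common
eigenvector, whose eigensystem `μ` satisfies `μ t = ψ t`.  There are only finitely many
eigensystems `μ`; if none of them were `ψ`, an integral combination `t` of separating elements
would satisfy `μ t ≠ ψ t` for all `μ` simultaneously.
-/

set_option autoImplicit false
set_option linter.style.haveILetI false

open Module Polynomial

namespace Fermat.Agent.BR2.EigenRingHom

variable {V : Type*} [AddCommGroup V] [Module ℂ V]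

/-! ### Integrality: `ψ t` is an eigenvalue of `t` -/

section Integral

variable {n : ℕ} (b : Basis (Fin n) ℂ V)

/-- An endomorphism preserving the lattice spanned by a basis has an integral matrix. -/
theorem exists_intMatrix {t : Module.End ℂ V}
    (ht : ∀ i, t (b i) ∈ Submodule.span ℤ (Set.range b)) :
    ∃ A : Matrix (Fin n) (Fin n) ℤ, LinearMap.toMatrix b b t = A.map (Int.castRingHom ℂ) := by
  have key : ∀ x ∈ Submodule.span ℤ (Set.range b), ∀ j, ∃ m : ℤ, b.repr x j = (m : ℂ) := by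
    intro x hx
    induction hx using Submodule.span_induction with
    | mem x hx =>
      obtain ⟨i, rfl⟩ := hx
      intro j
      classical
      by_cases hij : i = j
      · exact ⟨1, by rw [b.repr_self, hij, Finsupp.single_eq_same]; simp⟩
      · exact ⟨0, by rw [b.repr_self, Finsupp.single_eq_of_ne (Ne.symm hij)]; simp⟩
    | zero => intro j; exact ⟨0, by simp⟩
    | add x y _ _ hx hy =>
      intro j
      obtain ⟨m, hm⟩ := hx j
      obtain ⟨m', hm'⟩ := hy j
      exact ⟨m + m', by rw [map_add, Finsupp.add_apply, hm, hm']; push_cast; ring⟩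
    | smul a x _ hx =>
      intro j
      obtain ⟨m, hm⟩ := hx j
      exact ⟨a * m, by rw [map_zsmul, Finsupp.smul_apply, hm]; simp⟩
  choose A hA using fun i j => key (t (b j)) (ht j) i
  refine ⟨Matrix.of A, ?_⟩
  ext i j
  rw [LinearMap.toMatrix_apply, hA i j]
  simp

end Integral

section Main

variable {n : ℕ} (b : Basis (Fin n) ℂ V) (𝕋 : Subalgebra ℤ (Module.End ℂ V))
  (hcomm : ∀ s t : 𝕋, Commute (s : Module.End ℂ V) (t : Module.End ℂ V))
  (hint : ∀ (t : 𝕋) (i : Fin n), (t : Module.End ℂ V) (b i) ∈ Submodule.span ℤ (Set.range b))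
  (ψ : 𝕋 →+* ℂ)

include hint in
/-- **Integrality**: `ψ t` is an eigenvalue of `t`. -/
theorem hasEigenvalue_of_ringHom (t : 𝕋) :
    Module.End.HasEigenvalue (t : Module.End ℂ V) (ψ t) := by
  haveI : Module.Finite ℂ V := Module.Finite.of_basis b
  obtain ⟨A, hA⟩ := exists_intMatrix b (hint t)
  have hch : (t : Module.End ℂ V).charpoly = A.charpoly.map (Int.castRingHom ℂ) := by
    rw [← LinearMap.charpoly_toMatrix (t : Module.End ℂ V) b, hA, Matrix.charpoly_map]
  have h0 : A.charpoly.eval₂ (Int.castRingHom (Module.End ℂ V)) (t : Module.End ℂ V) = 0 := by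
    have h := LinearMap.aeval_self_charpoly (t : Module.End ℂ V)
    rw [hch, aeval_def, eval₂_map] at h
    have e : (algebraMap ℂ (Module.End ℂ V)).comp (Int.castRingHom ℂ) =
        Int.castRingHom (Module.End ℂ V) := Subsingleton.elim _ _
    rw [e] at h
    exact h
  have h1 : A.charpoly.eval₂ (Int.castRingHom 𝕋) t = 0 := by
    apply Subtype.ext
    have h := Polynomial.hom_eval₂ A.charpoly (Int.castRingHom 𝕋) (𝕋.val : 𝕋 →+* Module.End ℂ V) t
    have e : ((𝕋.val : 𝕋 →+* Module.End ℂ V)).comp (Int.castRingHom 𝕋) =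
        Int.castRingHom (Module.End ℂ V) := Subsingleton.elim _ _
    rw [e] at h
    have h' : ((A.charpoly.eval₂ (Int.castRingHom 𝕋) t : 𝕋) : Module.End ℂ V) =
        A.charpoly.eval₂ (Int.castRingHom (Module.End ℂ V)) (t : Module.End ℂ V) := h
    rw [h', h0]
    rfl
  have h2 : A.charpoly.eval₂ (Int.castRingHom ℂ) (ψ t) = 0 := by
    have h := Polynomial.hom_eval₂ A.charpoly (Int.castRingHom 𝕋) ψ t
    have e : ψ.comp (Int.castRingHom 𝕋) = Int.castRingHom ℂ := Subsingleton.elim _ _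
    rw [e, h1, map_zero] at h
    exact h.symm
  rw [Module.End.hasEigenvalue_iff_isRoot_charpoly, hch, IsRoot.def, eval_map]
  exact h2

/-- `μ : 𝕋 → ℂ` is the eigensystem of a common eigenvector. -/
def IsSystem (μ : 𝕋 → ℂ) : Prop :=
  ∃ v : V, v ≠ 0 ∧ ∀ t : 𝕋, (t : Module.End ℂ V) v = μ t • v

variable {𝕋}

theorem IsSystem.map_add {μ : 𝕋 → ℂ} (h : IsSystem 𝕋 μ) (s t : 𝕋) : μ (s + t) = μ s + μ t := by
  obtain ⟨v, hv, hμ⟩ := h
  have h1 := hμ (s + t)
  rw [Subalgebra.coe_add, LinearMap.add_apply, hμ s, hμ t, ← add_smul] at h1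
  exact (smul_left_injective ℂ hv h1).symm

theorem IsSystem.map_zsmul {μ : 𝕋 → ℂ} (h : IsSystem 𝕋 μ) (m : ℤ) (t : 𝕋) :
    μ (m • t) = (m : ℂ) * μ t := by
  obtain ⟨v, hv, hμ⟩ := h
  have h1 := hμ (m • t)
  rw [Subalgebra.coe_smul, LinearMap.smul_apply, hμ t, ← Int.cast_smul_eq_zsmul ℂ, smul_smul] at h1
  exact (smul_left_injective ℂ hv h1).symm

variable (𝕋)

include hcomm in
/-- Every eigenvalue of some `t` is the value at `t` of a common eigensystem. -/
theorem exists_isSystem_of_hasEigenvalue [FiniteDimensional ℂ V] (t : 𝕋) (c : ℂ)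
    (h : Module.End.HasEigenvalue (t : Module.End ℂ V) c) : ∃ μ, IsSystem 𝕋 μ ∧ μ t = c := by
  set W : Submodule ℂ V := Module.End.eigenspace (t : Module.End ℂ V) c with hW
  have hW0 : W ≠ ⊥ := h
  have hstab : ∀ s : 𝕋, ∀ x ∈ W, (s : Module.End ℂ V) x ∈ W := by
    intro s x hx
    rw [hW, Module.End.mem_eigenspace_iff] at hx ⊢
    have h1 : (t : Module.End ℂ V) ((s : Module.End ℂ V) x) =
        (s : Module.End ℂ V) ((t : Module.End ℂ V) x) := by
      have := (hcomm t s).eq
      exact LinearMap.congr_fun this x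
    rw [h1, hx, map_smul]
  obtain ⟨v, hvW, hv0, hv⟩ := Fermat.Agent.S49.exists_common_eigenvector
    (fun s : 𝕋 => (s : Module.End ℂ V)) (fun s s' => hcomm s s') (finrank ℂ W) W rfl hW0 hstab
  choose μ hμ using hv
  refine ⟨μ, ⟨v, hv0, hμ⟩, ?_⟩
  rw [hW, Module.End.mem_eigenspace_iff] at hvW
  rw [hμ t] at hvW
  exact smul_left_injective ℂ hv0 hvW

include hcomm in
/-- There are only finitely many common eigensystems. -/
theorem finite_isSystem [FiniteDimensional ℂ V] : {μ : 𝕋 → ℂ | IsSystem 𝕋 μ}.Finite := by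
  have hind := Module.End.independent_iInf_maxGenEigenspace_of_forall_mapsTo
    (fun s : 𝕋 => (s : Module.End ℂ V))
    (fun i j φ => Module.End.mapsTo_maxGenEigenspace_of_comm (hcomm j i) φ)
  refine (Submodule.finite_ne_bot_of_iSupIndep hind).subset ?_
  rintro μ ⟨v, hv0, hμ⟩
  show (⨅ s : 𝕋, Module.End.maxGenEigenspace (s : Module.End ℂ V) (μ s)) ≠ ⊥
  intro hbot
  apply hv0
  rw [← Submodule.mem_bot ℂ, ← hbot, Module.End.mem_iInf_maxGenEigenspace_iff]
  intro s
  refine ⟨1, ?_⟩
  rw [pow_one, LinearMap.sub_apply, hμ s, LinearMap.smul_apply, Module.End.one_apply, sub_self]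

omit [Module ℂ V] in
/-- Finitely many additive functions different from `ψ` are separated from `ψ` simultaneously. -/
theorem exists_separating {T : Type*} [AddCommGroup T] (ψ : T → ℂ)
    (hψadd : ∀ s t, ψ (s + t) = ψ s + ψ t) (hψsmul : ∀ (m : ℤ) t, ψ (m • t) = (m : ℂ) * ψ t)
    (Θ : Finset (T → ℂ))
    (hadd : ∀ μ ∈ Θ, ∀ s t, μ (s + t) = μ s + μ t)
    (hsmul : ∀ μ ∈ Θ, ∀ (m : ℤ) t, μ (m • t) = (m : ℂ) * μ t)
    (hne : ∀ μ ∈ Θ, μ ≠ ψ) : ∃ t : T, ∀ μ ∈ Θ, μ t ≠ ψ t := by
  classical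
  induction Θ using Finset.induction_on with
  | empty => exact ⟨0, fun μ hμ => absurd hμ (Finset.notMem_empty μ)⟩
  | insert μ₀ Θ' hμ₀ ih =>
    obtain ⟨t', ht'⟩ := ih (fun μ hμ => hadd μ (Finset.mem_insert_of_mem hμ))
      (fun μ hμ => hsmul μ (Finset.mem_insert_of_mem hμ))
      (fun μ hμ => hne μ (Finset.mem_insert_of_mem hμ))
    obtain ⟨t₀, ht₀⟩ := Function.ne_iff.mp (hne μ₀ (Finset.mem_insert_self μ₀ Θ'))
    -- the bad multipliers
    set B : Set ℤ := ⋃ ν ∈ (insert μ₀ Θ' : Finset (T → ℂ)),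
      {m : ℤ | (ν t' - ψ t') + (m : ℂ) * (ν t₀ - ψ t₀) = 0} with hB
    have hBfin : B.Finite := by
      refine Set.Finite.biUnion (Finset.finite_toSet _) fun ν hν => Set.Subsingleton.finite ?_
      intro m hm m' hm'
      simp only [Set.mem_ofPred_eq] at hm hm'
      by_cases he : ν t₀ - ψ t₀ = 0
      · rw [he, mul_zero, add_zero] at hm
        rcases Finset.mem_insert.mp hν with rfl | hν'
        · exact absurd (sub_eq_zero.mp he) ht₀
        · exact absurd (sub_eq_zero.mp hm) (ht' ν hν')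
      · have h3 : ((m : ℂ) - (m' : ℂ)) * (ν t₀ - ψ t₀) = 0 := by
          have := congrArg₂ (· - ·) hm hm'
          simp only [sub_self] at this
          linear_combination this
        rcases mul_eq_zero.mp h3 with h4 | h4
        · exact_mod_cast sub_eq_zero.mp h4
        · exact absurd h4 he
    obtain ⟨m, hm⟩ := hBfin.exists_notMem
    refine ⟨t' + m • t₀, fun ν hν hbad => hm ?_⟩
    rw [hB]
    refine Set.mem_biUnion hν ?_
    simp only [Set.mem_ofPred_eq]
    rw [hadd ν hν, hsmul ν hν, hψadd, hψsmul] at hbad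
    linear_combination hbad

include hcomm hint in
/-- **Lemma A.** A ring homomorphism on an integral commutative algebra of endomorphisms is the
eigensystem of a common eigenvector. -/
theorem exists_eigenvector_of_ringHom :
    ∃ v : V, v ≠ 0 ∧ ∀ t : 𝕋, (t : Module.End ℂ V) v = ψ t • v := by
  haveI : Module.Finite ℂ V := Module.Finite.of_basis b
  by_contra hcon
  have hψ : ¬ IsSystem 𝕋 (fun t => ψ t) := hcon
  set Θ : Finset (𝕋 → ℂ) := (finite_isSystem 𝕋 hcomm).toFinset with hΘ
  have hmem : ∀ μ, μ ∈ Θ ↔ IsSystem 𝕋 μ := fun μ => by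
    rw [hΘ, Set.Finite.mem_toFinset]
    rfl
  obtain ⟨t, ht⟩ := exists_separating (fun t : 𝕋 => ψ t) (fun s t => map_add ψ s t)
    (fun m t => by
      show ψ (m • t) = (m : ℂ) * ψ t
      rw [← Int.cast_smul_eq_zsmul 𝕋, smul_eq_mul, map_mul, map_intCast]) Θ
    (fun μ hμ => ((hmem μ).mp hμ).map_add) (fun μ hμ => ((hmem μ).mp hμ).map_zsmul)
    (fun μ hμ h => hψ (h ▸ (hmem μ).mp hμ))
  obtain ⟨μ, hμ, hμt⟩ := exists_isSystem_of_hasEigenvalue 𝕋 hcomm t (ψ t)
    (hasEigenvalue_of_ringHom b 𝕋 hint ψ t)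
  exact ht μ ((hmem μ).mpr hμ) hμt

end Main

end Fermat.Agent.BR2.EigenRingHom
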