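/-
Phase 2, node (E7)(e2) (helper22): a ℂ-basis of `S₂(Γ₀(N))` which is a ℤ-basis of the lattice of
cusp forms with integral `q`-expansion.

* `linearIndependent_complex_of_int` (generic): a finite family `b` of vectors of a complex vector
  space `V` which is ℤ-linearly independent and has INTEGRAL coordinates with respect to a jointly
  injective family of functionals `φ m : V →ₗ[ℂ] ℂ` is ℂ-linearly independent (rational structure:
  apply an arbitrary ℚ-linear form `ℂ → ℚ` to a relation);
* `exists_basis_span_int_eq_intLattice` : `∃ n (b : Module.Basis (Fin n) ℂ (CuspForm (Gamma0 N) 2)),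
  Submodule.span ℤ (Set.range b) = CuspForm.intLattice N 2` (the lattice is free of finite rank:
  Prelude `intLattice.moduleFinite/moduleFree`; it spans: `S23.result`; the functionals are the
  `q`-coefficients).
-/
import Mathlib
import Fermat.Agent.S23
import Fermat.Agent.S49.Forms
import Fermat.Prelude.Def_CuspForm_HeckeLocal

set_option autoImplicit false
set_option linter.style.haveILetI false

namespace Fermat.Agent.BR2.IntLatticeBasis

open CongruenceSubgroup

/-! ### the generic lemma -/

section Generic

variable {V : Type*} [AddCommGroup V] [Module ℂ V] {ι : Type*} [Fintype ι]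

/-- A ℤ-linearly independent finite family with integral coordinates with respect to a jointly
injective family of complex linear forms is ℂ-linearly independent. -/
theorem linearIndependent_complex_of_int (φ : ℕ → V →ₗ[ℂ] ℂ)
    (hφ : ∀ f : V, (∀ m, φ m f = 0) → f = 0) (b : ι → V) (hb : LinearIndependent ℤ b)
    (hint : ∀ i m, ∃ z : ℤ, φ m (b i) = (z : ℂ)) : LinearIndependent ℂ b := by
  classical
  letI : Module ℚ V := Module.compHom V (algebraMap ℚ ℂ)
  have hsmul : ∀ (r : ℚ) (v : V), r • v = ((r : ℚ) : ℂ) • v := fun r v => rfl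
  haveI : IsScalarTower ℤ ℚ V := AddCommGroup.intIsScalarTower
  have hbQ : LinearIndependent ℚ b := (LinearIndependent.iff_fractionRing ℤ ℚ).mp hb
  choose a ha using hint
  rw [Fintype.linearIndependent_iff]
  intro c hc i
  rw [← Module.forall_dual_apply_eq_zero_iff ℚ]
  intro ℓ
  -- the rational vector `r = ℓ ∘ c` is a ℚ-relation between the `b i`
  have hrel : ∑ j, ℓ (c j) • b j = 0 := by
    apply hφ
    intro m
    have h1 : φ m (∑ j, c j • b j) = 0 := by rw [hc, map_zero]
    rw [map_sum] at h1
    have h2 : ∑ j, c j * (a j m : ℂ) = 0 := by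
      rw [← h1]
      refine Finset.sum_congr rfl fun j _ => ?_
      rw [map_smul, ha j m, smul_eq_mul]
    have h3 : ℓ (∑ j, c j * (a j m : ℂ)) = 0 := by rw [h2, map_zero]
    rw [map_sum] at h3
    have h4 : ∀ j, ℓ (c j * (a j m : ℂ)) = (a j m : ℚ) * ℓ (c j) := by
      intro j
      have : c j * (a j m : ℂ) = (a j m : ℚ) • c j := by
        rw [Rat.smul_def]
        push_cast
        ring
      rw [this, map_smul, smul_eq_mul]
    simp only [h4] at h3
    rw [map_sum]
    have h5 : ∀ j, φ m (ℓ (c j) • b j) = ((ℓ (c j) : ℚ) : ℂ) * (a j m : ℂ) := by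
      intro j
      rw [hsmul, map_smul, ha j m, smul_eq_mul]
    simp only [h5]
    have h6 : (∑ j, ((ℓ (c j) : ℚ) : ℂ) * (a j m : ℂ)) =
        ((∑ j, (a j m : ℚ) * ℓ (c j) : ℚ) : ℂ) := by
      push_cast
      refine Finset.sum_congr rfl fun j _ => ?_
      ring
    rw [h6, h3]
    simp
  exact Fintype.linearIndependent_iff.mp hbQ (fun j => ℓ (c j)) hrel i

end Generic

/-! ### the integral basis of `S₂(Γ₀(N))` -/

open Fermat.Agent.S49 ModularFormClass in
/-- **(E7)(e2)**: a ℂ-basis of `S₂(Γ₀(N))` whose ℤ-span is the lattice of forms with integral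
`q`-expansion. -/
theorem exists_basis_span_int_eq_intLattice (N : ℕ) [NeZero N] :
    ∃ (n : ℕ) (b : Module.Basis (Fin n) ℂ (CuspForm (Gamma0 N) 2)),
      Submodule.span ℤ (Set.range b) = CuspForm.intLattice N 2 := by
  classical
  haveI := CuspForm.intLattice.moduleFinite N
  haveI := CuspForm.intLattice.moduleFree N
  set L : Submodule ℤ (CuspForm (Gamma0 N) 2) := CuspForm.intLattice N 2 with hL
  let bL := Module.finBasis ℤ ↥L
  set b₀ : Fin (Module.finrank ℤ ↥L) → CuspForm (Gamma0 N) 2 := fun i => (bL i : _) with hb₀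
  -- the `ℤ`-span of `b₀` is the lattice
  have hspanZ : Submodule.span ℤ (Set.range b₀) = L := by
    have h1 : Set.range b₀ = L.subtype '' Set.range bL := by
      rw [← Set.range_comp]
      rfl
    rw [h1, Submodule.span_image, bL.span_eq, Submodule.map_subtype_top]
  -- `ℤ`-linear independence
  have hliZ : LinearIndependent ℤ b₀ :=
    bL.linearIndependent.map' L.subtype (Submodule.ker_subtype L)
  -- `ℂ`-linear independence
  have hliC : LinearIndependent ℂ b₀ := by
    refine linearIndependent_complex_of_int (fun m => qCoeffLin N 2 m)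
      (fun f hf => eq_zero_of_qCoeff_eq_zero f hf) b₀ hliZ ?_
    intro i m
    exact (mem_intLattice_iff' (b₀ i)).mp (bL i).2 m
  -- `ℂ`-span
  have hspanC : ⊤ ≤ Submodule.span ℂ (Set.range b₀) := by
    have h1 : Submodule.span ℂ ((L : Submodule ℤ _) : Set (CuspForm (Gamma0 N) 2)) = ⊤ :=
      Fermat.Agent.S23.result N
    rw [← h1]
    refine Submodule.span_le.mpr ?_
    intro x hx
    have hx' : x ∈ Submodule.span ℤ (Set.range b₀) := by rw [hspanZ]; exact hx
    exact Submodule.span_le_restrictScalars ℤ ℂ _ hx'
  refine ⟨Module.finrank ℤ ↥L, Module.Basis.mk hliC hspanC, ?_⟩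
  rw [Module.Basis.coe_mk]
  exact hspanZ

end Fermat.Agent.BR2.IntLatticeBasis
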