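/-
Phase 2, node (E7)(e3) (helper22): a character of the ℤ-Hecke algebra of level `N` is the system of
eigenvalues of a normalised eigenform of level `N`.

* `heckeFam_commute_of_mem` : the full Hecke family `S49.heckeFam N ℓ` (`U_ℓ` for `ℓ ∣ N`, `T_ℓ`
  otherwise) commutes with every element of `heckeAlgebra N 2 S`;
* `eigenSub ψ` : the `ψ`-eigenspace `{v | ∀ t, t v = ψ t • v}` of a ring homomorphism
  `ψ : heckeAlgebra N 2 S →+* ℂ`, a `ℂ`-subspace stable under the full Hecke family;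
* `exists_eigenform_of_eigenvector` : a nonzero vector of `eigenSub ψ` gives a normalised eigenform
  `f` with `a_l(f) = ψ (T_l)` for all primes `l ∤ N`, `l ∉ S` (`S49.exists_common_eigenvector` inside
  `eigenSub ψ`, then `S49.exists_normalizedEigenform_of_eigenvector`);
* `LemmaA` : the statement of helper9's (e1) (a ring homomorphism on a commutative ℤ-algebra of
  endomorphisms preserving the ℤ-span of a ℂ-basis is realised by an eigenvector);
* `exists_eigenform_of_ringHom` : **(e3)** from `LemmaA` and the integral basis (e2).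
-/
import Mathlib
import Fermat.Agent.BR2.IntLatticeBasis
import Fermat.Agent.S49.Assemble
import Fermat.Agent.S49.CommonEigen

set_option autoImplicit false
set_option linter.style.haveILetI false
set_option linter.unusedSectionVars false

namespace Fermat.Agent.BR2.EigenformOfRingHom

open CongruenceSubgroup CuspForm ModularFormClass Fermat.Agent.S49

noncomputable section

variable {N : ℕ} [NeZero N] {S : Set ℕ}

/-! ### the full Hecke family commutes with the Hecke algebra -/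

theorem heckeFam_commute_generator (ℓ : Nat.Primes)
    {T : Module.End ℂ (CuspForm (Gamma0 N) 2)} (hT : T ∈ heckeGenerators N 2 S) :
    Commute (heckeFam N ℓ) T := by
  unfold heckeFam
  rcases hT with ⟨l, hl, hlN, -, rfl⟩ | ⟨q, hqN, -, -, rfl⟩
  · by_cases h : (ℓ : ℕ) ∣ N
    · rw [dif_pos h]
      exact (heckeTLin_heckeULin_comm 2 hl hlN h).symm
    · rw [dif_neg h]
      exact heckeTLin_comm 2 ℓ.2 h hl hlN
  · by_cases h : (ℓ : ℕ) ∣ N
    · rw [dif_pos h]
      exact heckeULin_comm 2 h hqN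
    · rw [dif_neg h]
      exact heckeTLin_heckeULin_comm 2 ℓ.2 h hqN

theorem heckeFam_commute_of_mem (ℓ : Nat.Primes)
    {t : Module.End ℂ (CuspForm (Gamma0 N) 2)} (ht : t ∈ heckeAlgebra N 2 S) :
    Commute (heckeFam N ℓ) t := by
  unfold heckeAlgebra at ht
  induction ht using Algebra.adjoin_induction with
  | mem T hT => exact heckeFam_commute_generator ℓ hT
  | algebraMap r => exact Algebra.commute_algebraMap_right r _
  | add a b _ _ ha hb => exact ha.add_right hb
  | mul a b _ _ ha hb => exact ha.mul_right hb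

/-! ### the eigenspace of a character -/

/-- The `ψ`-eigenspace of the Hecke algebra. -/
def eigenSub (ψ : heckeAlgebra N 2 S →+* ℂ) : Submodule ℂ (CuspForm (Gamma0 N) 2) where
  carrier := {v | ∀ t : heckeAlgebra N 2 S,
    (t : Module.End ℂ (CuspForm (Gamma0 N) 2)) v = ψ t • v}
  add_mem' := by
    intro a b ha hb t
    rw [map_add, ha t, hb t, smul_add]
  zero_mem' := by
    intro t
    rw [map_zero, smul_zero]
  smul_mem' := by
    intro c v hv t
    rw [map_smul, hv t, smul_comm]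

theorem mem_eigenSub {ψ : heckeAlgebra N 2 S →+* ℂ} {v : CuspForm (Gamma0 N) 2} :
    v ∈ eigenSub ψ ↔ ∀ t : heckeAlgebra N 2 S,
      (t : Module.End ℂ (CuspForm (Gamma0 N) 2)) v = ψ t • v := Iff.rfl

theorem heckeFam_mem_eigenSub (ψ : heckeAlgebra N 2 S →+* ℂ) (ℓ : Nat.Primes)
    {v : CuspForm (Gamma0 N) 2} (hv : v ∈ eigenSub ψ) : heckeFam N ℓ v ∈ eigenSub ψ := by
  intro t
  have hc : (t : Module.End ℂ (CuspForm (Gamma0 N) 2)) (heckeFam N ℓ v) =
      heckeFam N ℓ ((t : Module.End ℂ (CuspForm (Gamma0 N) 2)) v) := by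
    have := (heckeFam_commute_of_mem (S := S) ℓ t.2).eq
    exact (LinearMap.congr_fun this v).symm
  rw [hc, hv t, map_smul]

/-- for `l ∤ N` the Hecke family at `l` is the generator `T_l` of the Hecke algebra -/
theorem heckeFam_eq_T {l : ℕ} (hl : l.Prime) (hlN : ¬ l ∣ N) (hlS : l ∉ S) :
    heckeFam N ⟨l, hl⟩ =
      ((heckeAlgebra.T hl hlN hlS : heckeAlgebra N 2 S) :
        Module.End ℂ (CuspForm (Gamma0 N) 2)) := by
  unfold heckeFam
  rw [dif_neg (show ¬ ((⟨l, hl⟩ : Nat.Primes) : ℕ) ∣ N from hlN)]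
  rfl

/-- **From an eigenvector to a normalised eigenform.** -/
theorem exists_eigenform_of_eigenvector [FiniteDimensional ℂ (CuspForm (Gamma0 N) 2)]
    (ψ : heckeAlgebra N 2 S →+* ℂ) {v : CuspForm (Gamma0 N) 2} (hv0 : v ≠ 0)
    (hv : ∀ t : heckeAlgebra N 2 S,
      (t : Module.End ℂ (CuspForm (Gamma0 N) 2)) v = ψ t • v) :
    ∃ f : CuspForm (Gamma0 N) 2, f.IsNormalizedEigenform ∧
      ∀ (l : ℕ) (hl : l.Prime) (hlN : ¬ l ∣ N) (hlS : l ∉ S),
        qCoeff f l = ψ (heckeAlgebra.T hl hlN hlS) := by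
  have hW : eigenSub ψ ≠ ⊥ := fun h => hv0 ((Submodule.mem_bot ℂ).mp (h ▸ (show v ∈ eigenSub ψ from hv)))
  obtain ⟨w, hwW, hw0, hw⟩ := exists_common_eigenvector (K := ℂ) (heckeFam N)
    (fun ℓ ℓ' => heckeFam_commute ℓ ℓ') (Module.finrank ℂ (eigenSub ψ)) (eigenSub ψ) rfl hW
    (fun ℓ x hx => heckeFam_mem_eigenSub ψ ℓ hx)
  choose lam hlam using hw
  obtain ⟨g, hg, hgl⟩ := exists_normalizedEigenform_of_eigenvector w hw0 lam hlam
  refine ⟨g, hg, fun l hl hlN hlS => ?_⟩
  rw [show qCoeff (g : CuspForm (Gamma0 N) 2) l = qCoeff ⇑g ((⟨l, hl⟩ : Nat.Primes) : ℕ) from rfl,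
    hgl ⟨l, hl⟩]
  -- `lam l • w = T_l w = ψ (T_l) • w`
  have h1 : lam ⟨l, hl⟩ • w = ψ (heckeAlgebra.T hl hlN hlS) • w := by
    rw [← hlam ⟨l, hl⟩, heckeFam_eq_T hl hlN hlS]
    exact hwW _
  have h2 : (lam ⟨l, hl⟩ - ψ (heckeAlgebra.T hl hlN hlS)) • w = 0 := by
    rw [sub_smul, h1, sub_self]
  rcases smul_eq_zero.mp h2 with h | h
  · exact sub_eq_zero.mp h
  · exact absurd h hw0

/-! ### (e3) from Lemma A -/

/-- **Lemma A** (helper9's (e1), Mathlib only): a ring homomorphism on a commutative ℤ-algebra of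
endomorphisms of a complex vector space preserving the ℤ-span of a ℂ-basis is realised by an
eigenvector. -/
def LemmaA : Prop :=
  ∀ (V : Type) [AddCommGroup V] [Module ℂ V] (n : ℕ) (b : Module.Basis (Fin n) ℂ V)
    (𝕋 : Subalgebra ℤ (Module.End ℂ V)), (∀ s ∈ 𝕋, ∀ t ∈ 𝕋, Commute s t) →
    (∀ t ∈ 𝕋, ∀ i, t (b i) ∈ Submodule.span ℤ (Set.range b)) →
    ∀ ψ : 𝕋 →+* ℂ, ∃ v : V, v ≠ 0 ∧ ∀ t : 𝕋, (t : Module.End ℂ V) v = ψ t • v

/-- **(E7)(e3)**: every ring homomorphism `ψ : 𝕋 → ℂ` on the ℤ-Hecke algebra of level `N` is the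
system of eigenvalues of a normalised eigenform of level `N`. -/
theorem exists_eigenform_of_ringHom (hA : LemmaA) (ψ : heckeAlgebra N 2 S →+* ℂ) :
    ∃ f : CuspForm (Gamma0 N) 2, f.IsNormalizedEigenform ∧
      ∀ (l : ℕ) (hl : l.Prime) (hlN : ¬ l ∣ N) (hlS : l ∉ S),
        qCoeff f l = ψ (heckeAlgebra.T hl hlN hlS) := by
  obtain ⟨n, b, hb⟩ := IntLatticeBasis.exists_basis_span_int_eq_intLattice N
  haveI : FiniteDimensional ℂ (CuspForm (Gamma0 N) 2) := Module.Finite.of_basis b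
  obtain ⟨v, hv0, hv⟩ := hA (CuspForm (Gamma0 N) 2) n b (heckeAlgebra N 2 S)
    (fun s hs t ht => by
      have := mul_comm (⟨s, hs⟩ : heckeAlgebra N 2 S) ⟨t, ht⟩
      exact congrArg Subtype.val this)
    (fun t ht i => by
      rw [hb]
      apply mem_intLattice_of_mem_heckeAlgebra one_le_two ht
      rw [← hb]
      exact Submodule.subset_span ⟨i, rfl⟩) ψ
  exact exists_eigenform_of_eigenvector ψ hv0 hv

end

end Fermat.Agent.BR2.EigenformOfRingHom
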