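/-
Phase 2, node (E7)(e3), FINAL (helper22): every ring homomorphism on the ℤ-Hecke algebra of level
`N` is the system of eigenvalues of a normalised eigenform of level `N` — unconditional:
`EigenformOfRingHom.exists_eigenform_of_ringHom` fed with helper9's Lemma A
(`EigenRingHom.exists_eigenvector_of_ringHom`, `BR2/EigenOfRingHom` 07a39d1).

* `lemmaA : EigenformOfRingHom.LemmaA`;
* `exists_eigenform_of_ringHom_final (ψ : heckeAlgebra N 2 S →+* ℂ) : ∃ f : CuspForm (Gamma0 N) 2,
  f.IsNormalizedEigenform ∧ ∀ l (hl : l.Prime) (hlN : ¬ l ∣ N) (hlS : l ∉ S),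
  qCoeff f l = ψ (heckeAlgebra.T hl hlN hlS)`.
-/
import Mathlib
import Fermat.Agent.BR2.EigenformOfRingHom
import Fermat.Agent.BR2.EigenOfRingHom

set_option autoImplicit false

namespace Fermat.Agent.BR2.EigenformOfRingHom

open CongruenceSubgroup CuspForm ModularFormClass

/-- helper9's Lemma A in the shape `LemmaA`. -/
theorem lemmaA : LemmaA := by
  intro V _ _ n b 𝕋 hcomm hint ψ
  exact EigenRingHom.exists_eigenvector_of_ringHom (b := b) (𝕋 := 𝕋)
    (hcomm := fun s t => hcomm s s.2 t t.2) (hint := fun t i => hint t t.2 i) (ψ := ψ)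

/-- **(E7)(e3), unconditional**: every ring homomorphism `ψ : 𝕋 → ℂ` on the ℤ-Hecke algebra of
level `N` is the system of eigenvalues of a normalised eigenform of level `N`. -/
theorem exists_eigenform_of_ringHom_final {N : ℕ} [NeZero N] {S : Set ℕ}
    (ψ : heckeAlgebra N 2 S →+* ℂ) :
    ∃ f : CuspForm (Gamma0 N) 2, f.IsNormalizedEigenform ∧
      ∀ (l : ℕ) (hl : l.Prime) (hlN : ¬ l ∣ N) (hlS : l ∉ S),
        qCoeff f l = ψ (heckeAlgebra.T hl hlN hlS) :=
  exists_eigenform_of_ringHom lemmaA ψ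

end Fermat.Agent.BR2.EigenformOfRingHom
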