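import Fermat.Agent.BR2.LimitGQ

/-!
# Phase 2 (S35), node (LIM), `G_ℚ` layer, span form

`t_sq_eq_GQ_span` : the limit step `LimitGQ.t_sq_eq_GQ` with the kill hypothesis required ONLY on
the subgroup `W_m ≤ X` generated by the `G_ℚ`-translates of the image of the Kummer map
`rho (p ^ m)` (given together with its stability properties), so that the producer may use
properties of `rho` (e.g. its equivariance for the degeneracy correspondences `α^* α_*`,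
`β^* β_*`) to show that the Hecke operator `PX` maps `W_m` into the kernels of these
correspondences.
-/

set_option autoImplicit false
set_option linter.style.haveILetI false
set_option linter.unusedSectionVars false

open ModularCurve CuspForm

namespace Fermat.Agent.BR2.LimitGQ

open Fermat.Agent.Pseudo Fermat.Agent.Pseudo.GQSys Fermat.Agent.BR2.FrobSquare

local notation "Qb" => AlgebraicClosure ℚ
local notation "GQ" => (AlgebraicClosure ℚ ≃ₐ[ℚ] AlgebraicClosure ℚ)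

/-! ### The limit step, span form -/

section Main

variable {N p : ℕ} [NeZero N] [hp : Fact p.Prime] {S : Finset ℕ}
variable {X : Type*} [AddCommGroup X] [Module HeckeAlg X] [DistribMulAction GQ X]
  [SMulCommClass GQ HeckeAlg X]
variable {Lam : Type*} [AddCommGroup Lam] [Module.Free ℤ Lam] [Module.Finite ℤ Lam]
  {TLam : Nat.Primes → Module.End ℤ Lam}
variable {R : Type*} [CommRing R] [IsDomain R] (𝔞 : Ideal R) [IsAdicComplete 𝔞 R]

/-- **The limit step in `G_ℚ`-language, span form.** -/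
theorem t_sq_eq_GQ_span (hpS : p ∈ S) (hNS : ∀ q : ℕ, q.Prime → q ∣ N → q ∈ S)
    (hFQ : FrobeniusQuadratic (K := ℚ) (L := Qb) N p X)
    (hcheb : Fermat.Agent.Cheb.ChebExact)
    (hstab : ∀ x : X, ∃ L : IntermediateField ℚ Qb, FiniteDimensional ℚ L ∧
      ∀ σ : GQ, (∀ a ∈ L, σ a = a) → σ • x = x)
    (rho : ℕ → Lam →+ X)
    (hker : ∀ M : ℕ, 0 < M → ∀ lam, rho M lam = 0 ↔ ∃ mu, lam = M • mu)
    (hTL : ∀ M : ℕ, 0 < M → ∀ (ℓ : Nat.Primes) (lam : Lam),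
      rho M (TLam ℓ lam) = heckeGen ℓ • rho M lam)
    (A : Subalgebra ℤ (Module.End ℤ Lam)) (hA : ∀ i : Idx S, TLam i.1 ∈ A)
    (Ψ : A →+* heckeAlgebra N 2 (↑S : Set ℕ))
    (hΨ : ∀ (ℓ : ℕ) (hℓ : ℓ.Prime) (hℓN : ¬ ℓ ∣ N) (hℓS : ℓ ∉ (↑S : Set ℕ)),
      Ψ ⟨TLam ⟨ℓ, hℓ⟩, hA ⟨⟨ℓ, hℓ⟩, hℓS⟩⟩ = heckeAlgebra.T hℓ hℓN hℓS)
    (hp𝔞 : (p : R) ∈ 𝔞) (ξ : heckeAlgebra N 2 (↑S : Set ℕ) →+* R)
    (t : GQ → R)
    (ht_cont : ∀ n : ℕ, ∃ L : IntermediateField ℚ Qb, FiniteDimensional ℚ L ∧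
      ∀ g g' : GQ, (∀ x ∈ L, g x = g' x) → t g - t g' ∈ 𝔞 ^ n)
    (ht_frob : ∀ (ℓ : ℕ) (hℓ : ℓ.Prime) (hℓN : ¬ ℓ ∣ N) (hℓS : ℓ ∉ (↑S : Set ℕ))
      (V : ValuationSubring Qb), V.LiesOverPrime ℓ → ∀ φ : GQ, V.IsFrobeniusAt φ ℓ →
        t φ = ξ (heckeAlgebra.T hℓ hℓN hℓS))
    {q : ℕ} (hq : q.Prime) (hqp : q ≠ p) (B : ValuationSubring Qb) (hB : B.LiesOverPrime q)
    {σ : GQ} (hσ : B.IsFrobeniusAt σ q)
    (P : A) (PX : Module.End ℤ X)
    (hPX : ∀ M : ℕ, 0 < M → Intertwined (rho M) (P : Module.End ℤ Lam) PX)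
    (hPXG : ∀ (g : GQ) (x : X), PX (g • x) = g • PX x)
    (hΦP : ξ (Ψ P) ≠ 0) (e : ℕ) (he : (e : R) ≠ 0)
    (hkill : ∀ (m : ℕ) (W : AddSubgroup X),
      W = AddSubgroup.closure {x | ∃ (a : GQ) (l : Lam), x = a • rho (p ^ m) l} →
      (∀ (g : GQ), ∀ x ∈ W, g • x ∈ W) →
      (∀ i : Idx S, ∀ x ∈ W, heckeGen i.1 • x ∈ W) → (∀ x ∈ W, PX x ∈ W) →
      (∀ x ∈ W, (p ^ m) • x = 0) →
      ∀ i : Idx S, (∀ x ∈ W, σ • σ • x - heckeGen i.1 • (σ • x) + (q : ℤ) • x = 0) →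
      ∀ x ∈ W, e • bOp (heckeEnd X (heckeGen i.1)) (q : ℤ)
        (bOp (heckeEnd X (heckeGen i.1)) (q : ℤ) (PX x)) = 0) :
    t σ ^ 2 = ((q : R) + 1) ^ 2 := by
  have hfg := GQLimit.fg_top_of_moduleFinite Lam
  let Y : TraceSystem GQ Lam X (Idx S) :=
    traceSystemOfRho N p S X TLam hpS hNS hFQ hcheb hstab rho hker hTL hfg
  have htf : ∀ (n : ℕ) (x : heckeAlgebra N 2 (↑S : Set ℕ)), n ≠ 0 → n • x = 0 → x = 0 :=
    fun n x hn hx => nsmul_right_injective hn (by simpa using hx)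
  let D : TraceLimitInput Y R 𝔞 :=
    TraceLimitInput.ofHecke Y 𝔞 A hA Ψ ξ htf hp.out hp𝔞
      (fun g => ((Cyc.cycR 𝔞 hp𝔞 g : Rˣ) : R))
      (fun m g => Cyc.cycR_sub_cycloLift_mem 𝔞 hp𝔞 m g)
  -- the limit trace of `D` is `t`
  have htD : t σ = D.t σ := by
    refine trace_eq_of_frob 𝔞 hcheb t D.t ht_cont ?_ S ?_ σ
    · intro n
      obtain ⟨L, hL, h⟩ := exists_finite_of_mem_openSubgroups (Y.level_mem (n + D.c))
      exact ⟨L, hL, fun g g' hgg' => D.t_level n (h g g' hgg')⟩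
    · intro ℓ hℓ hℓS V hV φ hφ
      have hℓS' : ℓ ∉ (↑S : Set ℕ) := fun h => hℓS (Finset.mem_coe.mp h)
      have hℓN : ¬ ℓ ∣ N := fun h => hℓS (hNS ℓ hℓ h)
      have hF : Y.FrobAt φ ⟨⟨ℓ, hℓ⟩, hℓS'⟩ := ⟨V, hV, hφ⟩
      rw [ht_frob ℓ hℓ hℓN hℓS' V hV φ hφ, D.t_frobAt hF]
      show _ = ξ (Ψ ⟨TLam ⟨ℓ, hℓ⟩, hA ⟨⟨ℓ, hℓ⟩, hℓS'⟩⟩)
      rw [hΨ ℓ hℓ hℓN hℓS']
  -- the kill hypothesis of `t_sq_eq`
  have hk : ∀ (m : ℕ) (lam : Lam),
      e • bOp (Y.T (Y.idx m σ)) (q : ℤ) (bOp (Y.T (Y.idx m σ)) (q : ℤ) (PX (Y.rho m lam))) = 0 := by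
    intro m lam
    have hqpm : ¬ q ∣ p ^ m := fun h =>
      hqp ((Nat.prime_dvd_prime_iff_eq hq hp.out).mp (hq.dvd_of_dvd_pow h))
    have hd : (((Y.data m).M : ℕ) : ℤ) ∣ (Y.data m).d σ - (q : ℤ) :=
      Cyclo.cycloLift_frobenius (p ^ m) hq hqpm B hB hσ
    refine hkill m (Y.data m).span rfl (fun g x hx => (Y.data m).smul_mem g hx)
      (fun i x hx => (Y.data m).T_mem i hx) ?_ (fun x hx => (Y.data m).M_smul_eq_zero hx)
      (Y.idx m σ) ?_ (Y.rho m lam) ((Y.data m).rho_mem lam)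
    · intro x hx
      refine (Y.data m).span_induction (P := fun x => PX x ∈ (Y.data m).span) ?_ ?_ ?_ ?_ hx
      · rw [map_zero]; exact (Y.data m).span.zero_mem
      · intro y z hy hz; rw [map_add]; exact (Y.data m).span.add_mem hy hz
      · intro y hy; rw [map_neg]; exact (Y.data m).span.neg_mem hy
      · intro a lam'
        rw [hPXG]
        have h1 : PX ((Y.data m).rho lam') = (Y.data m).rho ((P : Module.End ℤ Lam) lam') :=
          (hPX (p ^ m) (pow_pos hp.out.pos m) lam').symm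
        rw [h1]
        exact (Y.data m).smul_rho_mem a _
    · intro x hx
      have h1 := Y.isFrobIndex_idx (le_refl m) σ x hx
      rw [(Y.data m).zsmul_congr hd hx] at h1
      exact h1
  have hΦP' : D.Φ P ≠ 0 := hΦP
  have hmain := t_sq_eq D σ (q : ℤ) P PX
    (fun m => hPX (p ^ m) (pow_pos hp.out.pos m)) hΦP' e he hk
  rw [htD, hmain]
  push_cast
  ring

end Main

end Fermat.Agent.BR2.LimitGQ
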