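import Fermat.Agent.Pseudo.FinalJZero
import Fermat.Agent.BR2.DetCyclo

/-!
# Phase 2 (S35), node (TOP): the frozen conclusion of S35 from the trace identity

The representation of S35 is the one of S30: `Pseudo.exists_galoisRepAdic_of_pseudo` applied to a
Hecke pseudo-character `H` (`Pseudo.JZ.heckePseudoChar_JZero`), so that
`charpoly ρ(σ) = X² - H.t σ X + H.d σ` for ALL `σ`.  Hence conjunct 2 of S35 at a Frobenius lift
`σ` at `q ∥ M`, `q ≠ λ`, follows from

* `det ρ(σ) = q` : node (D), `BR2.det_frobenius_eq`;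
* `(H.t σ)² = (q + 1)²` : the MAIN identity (named hypothesis `hmain` here; nodes (LIM), (ALG),
  (G3)–(G5), ... of the Phase-2 board).

`s35_of_traceSq` is the exact conclusion of the frozen statement S35 (with `O'' := O'`).
-/

set_option autoImplicit false
set_option linter.style.haveILetI false
set_option linter.unusedSectionVars false

open Polynomial CuspForm

namespace Fermat.Agent.BR2

open Fermat.Agent.Pseudo Fermat.Agent.Pseudo.JZ Fermat.Agent.Jac

local notation "Qb" => AlgebraicClosure ℚ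
local notation "GQ" => (AlgebraicClosure ℚ ≃ₐ[ℚ] AlgebraicClosure ℚ)

/-- The two possible characteristic polynomials from the trace identity in a domain. -/
theorem charpoly_disj_of_sq_eq {R : Type*} [CommRing R] [IsDomain R] {t q : R}
    (h : t ^ 2 = (q + 1) ^ 2) :
    (X ^ 2 - C t * X + C q : R[X]) = X ^ 2 - C (q + 1) * X + C q ∨
    (X ^ 2 - C t * X + C q : R[X]) = X ^ 2 + C (q + 1) * X + C q := by
  have h1 : (t - (q + 1)) * (t + (q + 1)) = 0 := by
    have : (t - (q + 1)) * (t + (q + 1)) = t ^ 2 - (q + 1) ^ 2 := by ring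
    rw [this, h, sub_self]
  rcases mul_eq_zero.mp h1 with h2 | h2
  · left
    rw [sub_eq_zero.mp h2]
  · right
    have : t = -(q + 1) := eq_neg_of_add_eq_zero_left h2
    rw [this, C_neg, neg_mul, sub_neg_eq_add]

/-- **(TOP)** The conclusion of the frozen statement S35 from a Hecke pseudo-character whose trace
satisfies `t(σ)² = (q + 1)²` at the Frobenius lifts at the primes `q ∥ M`, `q ≠ λ`. -/
theorem s35_of_heckePseudoChar {M : ℕ} [NeZero M] (lam : ℕ) [Fact lam.Prime] (S : Finset ℕ)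
    (O' : Type) [CommRing O'] [IsDomain O'] [IsDiscreteValuationRing O']
    [IsAdicComplete (IsLocalRing.maximalIdeal O') O'] [Finite (IsLocalRing.ResidueField O')]
    [CharZero O'] (hlamO' : (lam : O') ∈ IsLocalRing.maximalIdeal O')
    (χ : CuspForm.heckeAlgebra M 2 (↑S : Set ℕ) →+* O')
    (H : HeckePseudoChar lam M S O' χ)
    (hmain : ∀ q : ℕ, q.Prime → q ≠ lam → q ∣ M → ¬ q ^ 2 ∣ M →
      ∀ A : ValuationSubring Qb, A.LiesOverPrime q → ∀ σ : GQ, A.IsFrobeniusAt σ q →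
        H.t σ ^ 2 = ((q : O') + 1) ^ 2) :
    ∃ (O'' : Type) (_ : CommRing O'') (_ : IsDomain O'') (_ : IsDiscreteValuationRing O'')
      (_ : IsAdicComplete (IsLocalRing.maximalIdeal O'') O'')
      (_ : Finite (IsLocalRing.ResidueField O''))
      (_ : CharZero O'') (_ : Algebra O' O'') (_ : Module.Finite O' O'')
      (_ : IsLocalHom (algebraMap O' O'')),
      Function.Injective (algebraMap O' O'') ∧
      ∃ ρ : GaloisRepAdic O'',
        (∀ (ℓ : ℕ) (hℓ : ℓ.Prime) (hℓM : ¬ ℓ ∣ M) (hℓS : ℓ ∉ (↑S : Set ℕ)),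
          ∀ A : ValuationSubring (AlgebraicClosure ℚ), A.LiesOverPrime ℓ →
            ∀ σ : AlgebraicClosure ℚ ≃ₐ[ℚ] AlgebraicClosure ℚ, A.IsFrobeniusAt σ ℓ →
              LinearMap.charpoly (ρ.ρ σ) =
                X ^ 2 - C (algebraMap O' O'' (χ (CuspForm.heckeAlgebra.T hℓ hℓM hℓS))) * X
                  + C ((ℓ : O''))) ∧
        (∀ q : ℕ, q.Prime → q ≠ lam → q ∣ M → ¬ q ^ 2 ∣ M →
          ∀ A : ValuationSubring (AlgebraicClosure ℚ), A.LiesOverPrime q →
            ∀ σ : AlgebraicClosure ℚ ≃ₐ[ℚ] AlgebraicClosure ℚ, A.IsFrobeniusAt σ q →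
              LinearMap.charpoly (ρ.ρ σ) = X ^ 2 - C ((q : O'') + 1) * X + C ((q : O'')) ∨
              LinearMap.charpoly (ρ.ρ σ) = X ^ 2 + C ((q : O'') + 1) * X + C ((q : O''))) := by
  have h2 : (2 : O') ≠ 0 := two_ne_zero
  obtain ⟨ρ, hchar, -⟩ := exists_galoisRepAdic_of_pseudo h2 H.t H.d H.P1 H.P2 H.P3 H.c
    H.c_mul_c H.t_c H.d_c H.cont
  -- the characteristic polynomials at the good primes
  have hgood : ∀ (ℓ : ℕ) (hℓ : ℓ.Prime) (hℓM : ¬ ℓ ∣ M) (hℓS : ℓ ∉ (↑S : Set ℕ)),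
      ∀ A : ValuationSubring Qb, A.LiesOverPrime ℓ → ∀ σ : GQ, A.IsFrobeniusAt σ ℓ →
        LinearMap.charpoly (ρ.ρ σ) =
          X ^ 2 - C (χ (CuspForm.heckeAlgebra.T hℓ hℓM hℓS)) * X + C ((ℓ : O')) := by
    intro ℓ hℓ hℓM hℓS A hA σ hσ
    obtain ⟨h1, h2'⟩ := H.frob ℓ hℓ hℓM hℓS A hA σ hσ
    rw [hchar σ, h1, h2']
  -- the determinant at almost all Frobenius elements
  let T : Finset ℕ := S ∪ M.primeFactors
  have hdet : ∀ ℓ : ℕ, ℓ.Prime → ℓ ∉ T → ∀ P : ValuationSubring Qb, P.LiesOverPrime ℓ →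
      ∀ φ : GQ, P.IsFrobeniusAt φ ℓ → LinearMap.det (ρ.ρ φ) = (ℓ : O') := by
    intro ℓ hℓ hℓT P hP φ hφ
    have hℓS : ℓ ∉ (↑S : Set ℕ) := fun h => hℓT (Finset.mem_union_left _ (by exact_mod_cast h))
    have hℓM : ¬ ℓ ∣ M := fun h => hℓT (Finset.mem_union_right _
      (Nat.mem_primeFactors.mpr ⟨hℓ, h, NeZero.ne M⟩))
    exact det_eq_of_charpoly_eq ρ φ (hgood ℓ hℓ hℓM hℓS P hP φ hφ)
  refine ⟨O', inferInstance, inferInstance, inferInstance, inferInstance, inferInstance,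
    inferInstance, Algebra.id O', inferInstance, ?_, Function.injective_id, ρ, ?_, ?_⟩
  · exact ⟨fun a ha => ha⟩
  · intro ℓ hℓ hℓM hℓS A hA σ hσ
    rw [hgood ℓ hℓ hℓM hℓS A hA σ hσ]
    rfl
  · intro q hq hqlam hqM hq2 A hA σ hσ
    have hd : LinearMap.det (ρ.ρ σ) = (q : O') :=
      det_frobenius_eq hlamO' ρ T hdet hq hqlam A hA hσ
    have hd' : ((H.d σ : O'ˣ) : O') = (q : O') := by
      rw [← hd]
      exact (det_eq_of_charpoly_eq ρ σ (hchar σ)).symm
    rw [hchar σ, hd']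
    exact charpoly_disj_of_sq_eq (hmain q hq hqlam hqM hq2 A hA σ hσ)

end Fermat.Agent.BR2
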