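import Fermat.Agent.Pseudo.FinalJZero
import Fermat.Agent.BR2.LimitSpan
import Fermat.Agent.BR2.S35Top

/-!
# Phase 2 (S35): S35 from the geometric input, span form with an enlarged set of primes

The final consumer of the Phase-2 nodes.  With respect to `BR2/LimitJZero.lean`:

* the trace system is run with an enlarged finite set `S' ⊇ S` (in the application
  `S' = S ∪ {ℓ'}`, `ℓ'` the auxiliary prime of Program B), so that every Hecke operator in play is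
  prime to the auxiliary level; the eigenvalue system is `χ' := χ ∘ heckeAlgebraIncl`;
* the kill statement is required only on the subgroup `W_m` generated by the `G_ℚ`-translates of the
  image of the Kummer map `rho (lam ^ m)`.

`heckeAlgebraIncl`, `GeoInputSpan`, `traceSq_of_geoInputSpan`, `s35_of_geoInputSpan`.
-/

set_option autoImplicit false
set_option linter.style.haveILetI false
set_option linter.unusedSectionVars false

open ModularCurve CuspForm Polynomial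

namespace Fermat.Agent.BR2

open Fermat.Agent.Pseudo Fermat.Agent.Pseudo.GQSys Fermat.Agent.Pseudo.JZ Fermat.Agent.Jac
  Fermat.Agent.BR2.FrobSquare

local notation "Qb" => AlgebraicClosure ℚ
local notation "GQ" => (AlgebraicClosure ℚ ≃ₐ[ℚ] AlgebraicClosure ℚ)

/-! ### Enlarging the set of excluded primes -/

section Incl

variable {M : ℕ} [NeZero M] {S S' : Finset ℕ}

theorem heckeGenerators_mono (h : S ⊆ S') :
    heckeGenerators M 2 (↑S' : Set ℕ) ⊆ heckeGenerators M 2 (↑S : Set ℕ) := by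
  rintro T (⟨ℓ, hℓ, hℓM, hℓS, rfl⟩ | ⟨p, hpM, hp, hpS, rfl⟩)
  · exact Or.inl ⟨ℓ, hℓ, hℓM, fun hS => hℓS (Finset.coe_subset.mpr h hS), rfl⟩
  · exact Or.inr ⟨p, hpM, hp, fun hS => hpS (Finset.coe_subset.mpr h hS), rfl⟩

/-- The inclusion of the Hecke algebra away from `S'` into the Hecke algebra away from `S ⊆ S'`. -/
noncomputable def heckeAlgebraIncl (h : S ⊆ S') :
    heckeAlgebra M 2 (↑S' : Set ℕ) →+* heckeAlgebra M 2 (↑S : Set ℕ) :=
  (Subalgebra.inclusion (Algebra.adjoin_mono (heckeGenerators_mono h))).toRingHom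

theorem heckeAlgebraIncl_T (h : S ⊆ S') {ℓ : ℕ} (hℓ : ℓ.Prime) (hℓM : ¬ ℓ ∣ M)
    (hℓS' : ℓ ∉ (↑S' : Set ℕ)) :
    heckeAlgebraIncl h (heckeAlgebra.T hℓ hℓM hℓS') =
      heckeAlgebra.T hℓ hℓM (fun hS => hℓS' (Finset.coe_subset.mpr h hS)) :=
  Subtype.ext rfl

end Incl

/-- **The deliverable of the geometric and Hecke nodes of Phase 2** at a Frobenius lift `σ` at
`q`, span form. -/
def GeoInputSpan (M lam : ℕ) [NeZero M] (S' : Finset ℕ) {O' : Type} [CommRing O']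
    (χ' : heckeAlgebra M 2 (↑S' : Set ℕ) →+* O') (q : ℕ) (σ : GQ) : Prop :=
  letI := heckeModuleBar M
  ∃ (rho : ℕ → Lam M →+ JZero M) (A : Subalgebra ℤ (Module.End ℤ (Lam M)))
    (hA : ∀ i : Idx S', TLam M i.1 ∈ A) (Ψ : A →+* heckeAlgebra M 2 (↑S' : Set ℕ))
    (P : A) (PX : Module.End ℤ (JZero M)) (e : ℕ),
    (∀ K : ℕ, 0 < K → ∀ x, rho K x = 0 ↔ ∃ mu, x = K • mu) ∧
    (∀ K : ℕ, 0 < K → ∀ (ℓ : Nat.Primes) (x : Lam M),
      rho K (TLam M ℓ x) = heckeGen ℓ • rho K x) ∧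
    (∀ (ℓ : ℕ) (hℓ : ℓ.Prime) (hℓM : ¬ ℓ ∣ M) (hℓS : ℓ ∉ (↑S' : Set ℕ)),
      Ψ ⟨TLam M ⟨ℓ, hℓ⟩, hA ⟨⟨ℓ, hℓ⟩, hℓS⟩⟩ = heckeAlgebra.T hℓ hℓM hℓS) ∧
    (∀ K : ℕ, 0 < K → Intertwined (rho K) (P : Module.End ℤ (Lam M)) PX) ∧
    (∀ (g : GQ) (x : JZero M), PX (g • x) = g • PX x) ∧
    χ' (Ψ P) ≠ 0 ∧ e ≠ 0 ∧
    ∀ (m : ℕ) (W : AddSubgroup (JZero M)),
      W = AddSubgroup.closure {x | ∃ (a : GQ) (l : Lam M), x = a • rho (lam ^ m) l} →
      (∀ (g : GQ), ∀ x ∈ W, g • x ∈ W) →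
      (∀ i : Idx S', ∀ x ∈ W, heckeGen i.1 • x ∈ W) → (∀ x ∈ W, PX x ∈ W) →
      (∀ x ∈ W, (lam ^ m) • x = 0) →
      ∀ i : Idx S', (∀ x ∈ W, σ • σ • x - heckeGen i.1 • (σ • x) + (q : ℤ) • x = 0) →
      ∀ x ∈ W, e • bOp (heckeEnd (JZero M) (heckeGen i.1)) (q : ℤ)
        (bOp (heckeEnd (JZero M) (heckeGen i.1)) (q : ℤ) (PX x)) = 0

section

variable {M : ℕ} [NeZero M] (lam : ℕ) [hlam : Fact lam.Prime] (S : Finset ℕ)
  (O' : Type) [CommRing O'] [IsDomain O'] [IsDiscreteValuationRing O']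
  [IsAdicComplete (IsLocalRing.maximalIdeal O') O'] [CharZero O']

/-- **(LIM-JZ), span form.** -/
theorem traceSq_of_geoInputSpan (hlamO' : (lam : O') ∈ IsLocalRing.maximalIdeal O')
    (hlamS : lam ∈ S) (hMS : ∀ q : ℕ, q.Prime → q ∣ M → q ∈ S) (h37 : H37 M lam)
    (χ : heckeAlgebra M 2 (↑S : Set ℕ) →+* O') (H : HeckePseudoChar lam M S O' χ)
    {q : ℕ} (hq : q.Prime) (hqlam : q ≠ lam) (B : ValuationSubring Qb) (hB : B.LiesOverPrime q)
    {σ : GQ} (hσ : B.IsFrobeniusAt σ q) (S' : Finset ℕ) (hSS' : S ⊆ S')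
    (hgeo : GeoInputSpan M lam S' (χ.comp (heckeAlgebraIncl hSS')) q σ) :
    H.t σ ^ 2 = ((q : O') + 1) ^ 2 := by
  letI := heckeModuleBar M
  haveI := smulCommClass_GQ_heckeAlg M
  haveI := finite_Lam M
  haveI := free_Lam (N := M)
  obtain ⟨rho, A, hA, Ψ, P, PX, e, hker, hTL, hΨ, hPX, hPXG, hΦP, he, hkill⟩ := hgeo
  have he' : (e : O') ≠ 0 := Nat.cast_ne_zero.mpr he
  exact LimitGQ.t_sq_eq_GQ_span (X := JZero M) (TLam := fun ℓ => TLam M ℓ)
    (IsLocalRing.maximalIdeal O') (hSS' hlamS) (fun p hp hpM => hSS' (hMS p hp hpM))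
    (frobeniusQuadratic_of_H37 h37) Fermat.Agent.Cheb.chebExact
    (Fermat.Agent.Res.exists_finite_fixing_JZero M) rho hker hTL A hA Ψ hΨ hlamO'
    (χ.comp (heckeAlgebraIncl hSS')) H.t H.cont
    (fun ℓ hℓ hℓM hℓS V hV φ hφ => by
      rw [RingHom.comp_apply, heckeAlgebraIncl_T]
      exact (H.frob ℓ hℓ hℓM _ V hV φ hφ).1)
    hq hqlam B hB hσ P PX hPX hPXG hΦP e he' hkill

variable [Finite (IsLocalRing.ResidueField O')]

/-- **S35 (verbatim frozen conclusion, `O'' := O'`) from the geometric input, span form.** -/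
theorem s35_of_geoInputSpan (hlamO' : (lam : O') ∈ IsLocalRing.maximalIdeal O')
    (hlamS : lam ∈ S) (hMS : ∀ q : ℕ, q.Prime → q ∣ M → q ∈ S)
    (hK : KummerMaps M) (h37 : H37 M lam) (hΨ : LamPsiHyp M S)
    (χ : heckeAlgebra M 2 (↑S : Set ℕ) →+* O')
    (hgeo : ∀ q : ℕ, q.Prime → q ≠ lam → q ∣ M → ¬ q ^ 2 ∣ M →
      ∀ B : ValuationSubring Qb, B.LiesOverPrime q → ∀ σ : GQ, B.IsFrobeniusAt σ q →
        ∃ (S' : Finset ℕ) (hSS' : S ⊆ S'),
          GeoInputSpan M lam S' (χ.comp (heckeAlgebraIncl hSS')) q σ) :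
    ∃ (O'' : Type) (_ : CommRing O'') (_ : IsDomain O'') (_ : IsDiscreteValuationRing O'')
      (_ : IsAdicComplete (IsLocalRing.maximalIdeal O'') O'')
      (_ : Finite (IsLocalRing.ResidueField O''))
      (_ : CharZero O'') (_ : Algebra O' O'') (_ : Module.Finite O' O'')
      (_ : IsLocalHom (algebraMap O' O'')),
      Function.Injective (algebraMap O' O'') ∧
      ∃ ρ : GaloisRepAdic O'',
        (∀ (ℓ : ℕ) (hℓ : ℓ.Prime) (hℓM : ¬ ℓ ∣ M) (hℓS : ℓ ∉ (↑S : Set ℕ)),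
          ∀ A : ValuationSubring (AlgebraicClosure ℚ), A.LiesOverPrime ℓ →
            ∀ σ : AlgebraicClosure ℚ ≃ₐ[ℚ] AlgebraicClosure ℚ, A.IsFrobeniusAt σ ℓ →
              LinearMap.charpoly (ρ.ρ σ) =
                X ^ 2 - C (algebraMap O' O'' (χ (CuspForm.heckeAlgebra.T hℓ hℓM hℓS))) * X
                  + C ((ℓ : O''))) ∧
        (∀ q : ℕ, q.Prime → q ≠ lam → q ∣ M → ¬ q ^ 2 ∣ M →
          ∀ A : ValuationSubring (AlgebraicClosure ℚ), A.LiesOverPrime q →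
            ∀ σ : AlgebraicClosure ℚ ≃ₐ[ℚ] AlgebraicClosure ℚ, A.IsFrobeniusAt σ q →
              LinearMap.charpoly (ρ.ρ σ) = X ^ 2 - C ((q : O'') + 1) * X + C ((q : O'')) ∨
              LinearMap.charpoly (ρ.ρ σ) = X ^ 2 + C ((q : O'') + 1) * X + C ((q : O''))) := by
  obtain ⟨H⟩ := heckePseudoChar_JZero hlamS hMS hK h37 hΨ O' hlamO' χ
  exact s35_of_heckePseudoChar lam S O' hlamO' χ H
    (fun q hq hqlam hqM hq2 B hB σ hσ => by
      obtain ⟨S', hSS', hg⟩ := hgeo q hq hqlam hqM hq2 B hB σ hσ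
      exact traceSq_of_geoInputSpan lam S O' hlamO' hlamS hMS h37 χ H hq hqlam B hB hσ S' hSS' hg)

end

end Fermat.Agent.BR2
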