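import Mathlib
import Fermat.Agent.Jac.LamPsiInj
import Fermat.Agent.BR2.S35Span

/-!
# Phase 2 (S35), node (E7')(e): the new quotient

`M = M₀ q`, `g` a newform of level `M`, `S ⊆ S'` finite sets of primes, `S'` containing the primes
dividing `M`, `chig : heckeAlgebra M 2 S →+* ℂ` the eigenvalue system of `g`, `iota : chig.range →+*
O'` with `O'` a domain of characteristic `0`, `χ' := iota ∘ chig ∘ incl : heckeAlgebra M 2 S' →+* O'`.

`exists_poly_newQuotient` : there is a noncommutative polynomial `p` in the variables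
`X_l` (`l` a prime outside `S'`) with `p (TLam M₀ l) = 0` on the lattice `Λ(M₀)` and
`χ' (p (T_l)) ≠ 0` — given the two named inputs

* `(e3)` : every ring homomorphism `heckeAlgebra M₀ 2 S' →+* ℂ` is the eigenvalue system (outside
  `S'`) of a normalised eigenform of level `M₀`;
* `(N5)` : no normalised eigenform of level `M₀` has the eigenvalues of `g` outside `S'`.

Pieces: `liftT`, `liftTLam` (the evaluation maps), `liftTLam_eq_zero_iff` (transport through
`lamPsiEquiv`), `liftT_surjective`, `isIntegral_heckeAlgebra`, `iota_injective`.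
-/

set_option autoImplicit false
set_option linter.unusedSectionVars false

noncomputable section

namespace Fermat.Agent.BR2.NewQuotient

open CuspForm ModularCurve Fermat.Agent.Jac

/-! ### Evaluation of noncommutative polynomials at Hecke operators -/

section Eval

variable (N : ℕ) [NeZero N] (S : Set ℕ) (hNS : ∀ r : ℕ, r.Prime → r ∣ N → r ∈ S)

/-- a prime outside `S` does not divide `N` -/
theorem not_dvd_of_primesAway (hNS : ∀ r : ℕ, r.Prime → r ∣ N → r ∈ S) (i : PrimesAway S) :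
    ¬ ((i.1 : Nat.Primes) : ℕ) ∣ N := fun h => i.2 (hNS _ i.1.2 h)

/-- the family `T_l`, `l ∉ S`, in the Hecke algebra of cusp forms -/
def Tfam (hNS : ∀ r : ℕ, r.Prime → r ∣ N → r ∈ S) (i : PrimesAway S) : heckeAlgebra N 2 S :=
  heckeAlgebra.T i.1.2 (not_dvd_of_primesAway N S hNS i) i.2

/-- evaluation at the `T_l` of the Hecke algebra of cusp forms -/
def liftT (hNS : ∀ r : ℕ, r.Prime → r ∣ N → r ∈ S) :
    FreeAlgebra ℤ (PrimesAway S) →ₐ[ℤ] heckeAlgebra N 2 S :=
  FreeAlgebra.lift ℤ (Tfam N S hNS)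

/-- evaluation at the `TLam N l` of the lattice -/
def liftTLam : FreeAlgebra ℤ (PrimesAway S) →ₐ[ℤ] Module.End ℤ (Lam N) :=
  FreeAlgebra.lift ℤ (TLfam N S)

/-- evaluation at the `TLam N l`, with values in the lattice Hecke algebra -/
def liftTLamAlg : FreeAlgebra ℤ (PrimesAway S) →ₐ[ℤ] TLamAlg N S :=
  FreeAlgebra.lift ℤ (fun i : PrimesAway S =>
    (⟨TLfam N S i, Algebra.subset_adjoin ⟨i, rfl⟩⟩ : TLamAlg N S))

theorem coe_liftTLamAlg (p : FreeAlgebra ℤ (PrimesAway S)) :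
    (liftTLamAlg N S p : Module.End ℤ (Lam N)) = liftTLam N S p := by
  have h : (TLamAlg N S).val.comp (liftTLamAlg N S) = liftTLam N S := by
    apply FreeAlgebra.hom_ext
    funext i
    simp [liftTLamAlg, liftTLam]
  exact congrArg (fun f : FreeAlgebra ℤ (PrimesAway S) →ₐ[ℤ] Module.End ℤ (Lam N) => f p) h

theorem lamPsiAlg_liftTLamAlg (hNS : ∀ r : ℕ, r.Prime → r ∣ N → r ∈ S)
    (p : FreeAlgebra ℤ (PrimesAway S)) :
    lamPsi N S (liftTLamAlg N S p) = liftT N S hNS p := by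
  have h : (lamPsiAlg N S).comp (liftTLamAlg N S) = liftT N S hNS := by
    apply FreeAlgebra.hom_ext
    funext i
    show lamPsiAlg N S (liftTLamAlg N S (FreeAlgebra.ι ℤ i)) = liftT N S hNS (FreeAlgebra.ι ℤ i)
    unfold liftTLamAlg liftT
    rw [FreeAlgebra.lift_ι_apply, FreeAlgebra.lift_ι_apply]
    exact lamPsi_TLfam_of_not_dvd N S i (not_dvd_of_primesAway N S hNS i)
  exact congrArg (fun f : FreeAlgebra ℤ (PrimesAway S) →ₐ[ℤ] heckeAlgebra N 2 S => f p) h

/-- A polynomial vanishes on the lattice iff it vanishes in the Hecke algebra of cusp forms. -/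
theorem liftTLam_eq_zero_iff (hNS : ∀ r : ℕ, r.Prime → r ∣ N → r ∈ S)
    (p : FreeAlgebra ℤ (PrimesAway S)) : liftTLam N S p = 0 ↔ liftT N S hNS p = 0 := by
  rw [← lamPsiAlg_liftTLamAlg N S hNS p, ← coe_liftTLamAlg]
  constructor
  · intro h
    have h1 : liftTLamAlg N S p = 0 := by
      apply Subtype.ext
      rw [h]
      exact (ZeroMemClass.coe_zero (TLamAlg N S)).symm
    exact (congrArg (lamPsi N S) h1).trans (RingHom.map_zero (lamPsi N S))
  · intro h
    have h1 : liftTLamAlg N S p = 0 :=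
      lamPsi_injective N S (h.trans (RingHom.map_zero (lamPsi N S)).symm)
    exact (congrArg Subtype.val h1).trans (ZeroMemClass.coe_zero (TLamAlg N S))

/-- Every element of the Hecke algebra is a polynomial in the `T_l`, `l ∉ S` (all primes dividing
the level lie in `S`). -/
theorem liftT_surjective (hNS : ∀ r : ℕ, r.Prime → r ∣ N → r ∈ S) :
    Function.Surjective (liftT N S hNS) := by
  intro y
  obtain ⟨x, hx⟩ := lamPsi_surjective N S y
  have hx1 : (x : Module.End ℤ (Lam N)) ∈ (FreeAlgebra.lift ℤ (TLfam N S)).range := by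
    rw [← Algebra.adjoin_range_eq_range_freeAlgebra_lift]
    exact x.2
  obtain ⟨p, hp⟩ := hx1
  refine ⟨p, ?_⟩
  rw [← lamPsiAlg_liftTLamAlg N S hNS p, ← hx]
  congr 1
  apply Subtype.ext
  rw [coe_liftTLamAlg]
  exact hp

end Eval

/-! ### Integrality and injectivity of `iota` -/

section Integral

variable (N : ℕ) [NeZero N] (S : Set ℕ)

/-- The lattice Hecke algebra is a finite `ℤ`-module. -/
theorem finite_TLamAlg : Module.Finite ℤ (TLamAlg N S) := by
  have := finite_Lam N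
  have := free_Lam (N := N)
  have h1 : Module.Finite ℤ (Module.End ℤ (Lam N)) := Module.Finite.linearMap ℤ ℤ (Lam N) (Lam N)
  have h2 : IsNoetherian ℤ (Module.End ℤ (Lam N)) := isNoetherian_of_isNoetherianRing_of_finite ℤ _
  exact Module.IsNoetherian.finite ℤ (Subalgebra.toSubmodule (TLamAlg N S))

/-- Every element of the Hecke algebra of cusp forms is integral over `ℤ`. -/
theorem isIntegral_heckeAlgebra (t : heckeAlgebra N 2 S) : IsIntegral ℤ t := by
  have := finite_TLamAlg N S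
  obtain ⟨x, rfl⟩ := lamPsi_surjective N S t
  have hx : IsIntegral ℤ x := IsIntegral.of_finite ℤ x
  exact hx.map (lamPsiAlg N S)

/-- The values of a ring homomorphism `heckeAlgebra N 2 S →+* ℂ` are algebraic integers. -/
theorem isIntegral_apply (chi : heckeAlgebra N 2 S →+* ℂ) (t : heckeAlgebra N 2 S) :
    IsIntegral ℤ (chi t) :=
  (isIntegral_heckeAlgebra N S t).map chi.toIntAlgHom

/-- **`iota` is injective**: a ring homomorphism from the ring of values of an eigenvalue system to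
a ring of characteristic zero kills no nonzero element. -/
theorem iota_injective (chi : heckeAlgebra N 2 S →+* ℂ) {O' : Type*} [CommRing O'] [CharZero O']
    (iota : chi.range →+* O') : Function.Injective iota := by
  rw [injective_iff_map_eq_zero]
  intro x hx
  by_contra hx0
  obtain ⟨t, ht⟩ := x.2
  have hint : IsIntegral ℤ (x : ℂ) := ht ▸ isIntegral_apply N S chi t
  have hxC : (x : ℂ) ≠ 0 := fun h => hx0 (Subtype.ext h)
  have hc0 : (minpoly ℤ (x : ℂ)).coeff 0 ≠ 0 := by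
    have e1 := minpoly.isIntegrallyClosed_eq_field_fractions' ℚ hint
    have e2 : IsIntegral ℚ (x : ℂ) := hint.tower_top
    have e3 := minpoly.coeff_zero_ne_zero e2 hxC
    rw [e1, Polynomial.coeff_map] at e3
    intro h0
    apply e3
    rw [h0, map_zero]
  -- the minimal polynomial kills `x` in the subring
  have h1 : Polynomial.aeval x (minpoly ℤ (x : ℂ)) = 0 := by
    apply Subtype.ext
    have h2 := Polynomial.aeval_algHom_apply (chi.range.subtype.toIntAlgHom) x
      (minpoly ℤ (x : ℂ))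
    have h3 : chi.range.subtype.toIntAlgHom x = (x : ℂ) := rfl
    rw [h3, minpoly.aeval] at h2
    exact h2.symm
  -- apply `iota`
  have h4 := Polynomial.aeval_algHom_apply iota.toIntAlgHom x (minpoly ℤ (x : ℂ))
  have h5 : iota.toIntAlgHom x = 0 := hx
  rw [h5, h1, map_zero, Polynomial.aeval_def, Polynomial.eval₂_at_zero] at h4
  have h6 : (((minpoly ℤ (x : ℂ)).coeff 0 : ℤ) : O') = 0 := by
    simpa using h4
  exact hc0 (Int.cast_injective (α := O') (by simpa using h6))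

end Integral

/-! ### The new quotient -/

section Main

open Fermat.Agent.BR2

variable {M0 M : ℕ} [NeZero M0] [NeZero M]

theorem liftT_ι (N : ℕ) [NeZero N] (S : Set ℕ) (hNS : ∀ r : ℕ, r.Prime → r ∣ N → r ∈ S)
    (i : PrimesAway S) :
    liftT N S hNS (FreeAlgebra.ι ℤ i) =
      heckeAlgebra.T i.1.2 (not_dvd_of_primesAway N S hNS i) i.2 := by
  unfold liftT
  rw [FreeAlgebra.lift_ι_apply]
  rfl

/-- **(E7')(e), the new quotient.** -/
theorem exists_poly_newQuotient (hdvd : M0 ∣ M) {g : CuspForm (CongruenceSubgroup.Gamma0 M) 2}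
    (S S' : Finset ℕ) (hSS' : S ⊆ S')
    (hMS' : ∀ r : ℕ, r.Prime → r ∣ M → r ∈ (↑S' : Set ℕ))
    {O' : Type} [CommRing O'] [CharZero O']
    (chig : heckeAlgebra M 2 (↑S : Set ℕ) →+* ℂ)
    (hchig : ∀ (ℓ : ℕ) (hℓ : ℓ.Prime) (hℓM : ¬ ℓ ∣ M) (hℓS : ℓ ∉ (↑S : Set ℕ)),
      chig (heckeAlgebra.T hℓ hℓM hℓS) = ModularFormClass.qCoeff g ℓ)
    (iota : chig.range →+* O')
    (hE3 : ∀ ψ : heckeAlgebra M0 2 (↑S' : Set ℕ) →+* ℂ,
      ∃ f : CuspForm (CongruenceSubgroup.Gamma0 M0) 2, f.IsNormalizedEigenform ∧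
        ∀ (l : ℕ) (hl : l.Prime) (hlN : ¬ l ∣ M0) (hlS : l ∉ (↑S' : Set ℕ)),
          ModularFormClass.qCoeff f l = ψ (heckeAlgebra.T hl hlN hlS))
    (hN5 : ¬ ∃ f : CuspForm (CongruenceSubgroup.Gamma0 M0) 2, f.IsNormalizedEigenform ∧
      ∀ r : ℕ, r.Prime → r ∉ S' → ¬ r ∣ M →
        ModularFormClass.qCoeff f r = ModularFormClass.qCoeff g r) :
    ∃ p : FreeAlgebra ℤ (PrimesAway (↑S' : Set ℕ)),
      liftTLam M0 (↑S' : Set ℕ) p = 0 ∧
      ((iota.comp chig.rangeRestrict).comp (heckeAlgebraIncl hSS'))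
        (liftT M (↑S' : Set ℕ) hMS' p) ≠ 0 := by
  by_contra hcon
  push Not at hcon
  have hM0S' : ∀ r : ℕ, r.Prime → r ∣ M0 → r ∈ (↑S' : Set ℕ) :=
    fun r hr h => hMS' r hr (h.trans hdvd)
  set a := liftT M (↑S' : Set ℕ) hMS' with ha
  set b := liftT M0 (↑S' : Set ℕ) hM0S' with hb
  have hsurj : Function.Surjective (b : FreeAlgebra ℤ (PrimesAway (↑S' : Set ℕ)) →+*
      heckeAlgebra M0 2 (↑S' : Set ℕ)) := liftT_surjective M0 (↑S' : Set ℕ) hM0S'
  let chig' : heckeAlgebra M 2 (↑S' : Set ℕ) →+* ℂ := chig.comp (heckeAlgebraIncl hSS')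
  have hiota := iota_injective M (↑S : Set ℕ) chig iota
  have hker : ∀ p, b p = 0 → chig' (a p) = 0 := by
    intro p hp
    have h1 := hcon p ((liftTLam_eq_zero_iff M0 (↑S' : Set ℕ) hM0S' p).mpr hp)
    have h2 : chig.rangeRestrict (heckeAlgebraIncl hSS' (a p)) = 0 :=
      hiota (h1.trans (RingHom.map_zero iota).symm)
    exact congrArg Subtype.val h2
  have hker' : RingHom.ker (b : FreeAlgebra ℤ (PrimesAway (↑S' : Set ℕ)) →+*
      heckeAlgebra M0 2 (↑S' : Set ℕ)) ≤
      RingHom.ker (chig'.comp (a : FreeAlgebra ℤ (PrimesAway (↑S' : Set ℕ)) →+*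
        heckeAlgebra M 2 (↑S' : Set ℕ))) := by
    intro p hp
    rw [RingHom.mem_ker] at hp ⊢
    exact hker p hp
  let ψ : heckeAlgebra M0 2 (↑S' : Set ℕ) →+* ℂ :=
    RingHom.liftOfRightInverse _ (Function.surjInv hsurj) (Function.rightInverse_surjInv hsurj)
      ⟨chig'.comp (a : FreeAlgebra ℤ (PrimesAway (↑S' : Set ℕ)) →+*
        heckeAlgebra M 2 (↑S' : Set ℕ)), hker'⟩
  have hψ : ∀ p, ψ (b p) = chig' (a p) := fun p =>
    RingHom.liftOfRightInverse_comp_apply _ (Function.surjInv hsurj)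
      (Function.rightInverse_surjInv hsurj) _ p
  obtain ⟨f, hf, hfq⟩ := hE3 ψ
  apply hN5
  refine ⟨f, hf, fun r hr hrS' hrM => ?_⟩
  have hrS'' : r ∉ (↑S' : Set ℕ) := fun h => hrS' (Finset.mem_coe.mp h)
  have hrS : r ∉ (↑S : Set ℕ) := fun h => hrS'' (Finset.coe_subset.mpr hSS' h)
  have hrM0 : ¬ r ∣ M0 := fun h => hrM (h.trans hdvd)
  let i : PrimesAway (↑S' : Set ℕ) := ⟨⟨r, hr⟩, hrS''⟩
  have h1 : b (FreeAlgebra.ι ℤ i) = heckeAlgebra.T hr hrM0 hrS'' :=
    liftT_ι M0 (↑S' : Set ℕ) hM0S' i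
  have h2 : a (FreeAlgebra.ι ℤ i) = heckeAlgebra.T hr hrM hrS'' :=
    liftT_ι M (↑S' : Set ℕ) hMS' i
  rw [hfq r hr hrM0 hrS'', ← h1, hψ, h2]
  show chig (heckeAlgebraIncl hSS' (heckeAlgebra.T hr hrM hrS'')) = _
  rw [heckeAlgebraIncl_T hSS' hr hrM hrS'']
  exact hchig r hr hrM _

end Main

/-! ### Transport to an abstract lattice Hecke algebra `A` with `Ψ : A →+* heckeAlgebra` -/

section Transport

variable (N : ℕ) [NeZero N] (S : Set ℕ)

/-- evaluation at the `TLam N l` with values in a subalgebra `A` containing them -/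
def liftTLamIn (A : Subalgebra ℤ (Module.End ℤ (Lam N)))
    (hA : ∀ i : PrimesAway S, TLam N i.1 ∈ A) : FreeAlgebra ℤ (PrimesAway S) →ₐ[ℤ] A :=
  FreeAlgebra.lift ℤ (fun i : PrimesAway S => (⟨TLam N i.1, hA i⟩ : A))

theorem coe_liftTLamIn (A : Subalgebra ℤ (Module.End ℤ (Lam N)))
    (hA : ∀ i : PrimesAway S, TLam N i.1 ∈ A) (p : FreeAlgebra ℤ (PrimesAway S)) :
    (liftTLamIn N S A hA p : Module.End ℤ (Lam N)) = liftTLam N S p := by
  have h : A.val.comp (liftTLamIn N S A hA) = liftTLam N S := by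
    apply FreeAlgebra.hom_ext
    funext i
    show (A.val (liftTLamIn N S A hA (FreeAlgebra.ι ℤ i))) = liftTLam N S (FreeAlgebra.ι ℤ i)
    unfold liftTLamIn liftTLam
    rw [FreeAlgebra.lift_ι_apply, FreeAlgebra.lift_ι_apply]
    rfl
  exact congrArg (fun f : FreeAlgebra ℤ (PrimesAway S) →ₐ[ℤ] Module.End ℤ (Lam N) => f p) h

theorem liftTLam_mem (A : Subalgebra ℤ (Module.End ℤ (Lam N)))
    (hA : ∀ i : PrimesAway S, TLam N i.1 ∈ A) (p : FreeAlgebra ℤ (PrimesAway S)) :
    liftTLam N S p ∈ A := by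
  rw [← coe_liftTLamIn N S A hA p]
  exact (liftTLamIn N S A hA p).2

/-- A ring homomorphism `Ψ : A →+* heckeAlgebra N 2 S` with `Ψ (TLam N l) = T_l` maps the
polynomial `p (TLam N l)` to `p (T_l)`. -/
theorem psi_liftTLam (hNS : ∀ r : ℕ, r.Prime → r ∣ N → r ∈ S)
    (A : Subalgebra ℤ (Module.End ℤ (Lam N))) (hA : ∀ i : PrimesAway S, TLam N i.1 ∈ A)
    (Ψ : A →+* heckeAlgebra N 2 S)
    (hΨ : ∀ i : PrimesAway S, Ψ ⟨TLam N i.1, hA i⟩ = Tfam N S hNS i)
    (p : FreeAlgebra ℤ (PrimesAway S)) :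
    Ψ ⟨liftTLam N S p, liftTLam_mem N S A hA p⟩ = liftT N S hNS p := by
  have h : (Ψ.toIntAlgHom).comp (liftTLamIn N S A hA) = liftT N S hNS := by
    apply FreeAlgebra.hom_ext
    funext i
    show Ψ (liftTLamIn N S A hA (FreeAlgebra.ι ℤ i)) = liftT N S hNS (FreeAlgebra.ι ℤ i)
    unfold liftTLamIn liftT
    rw [FreeAlgebra.lift_ι_apply, FreeAlgebra.lift_ι_apply]
    exact hΨ i
  have h1 := congrArg (fun f : FreeAlgebra ℤ (PrimesAway S) →ₐ[ℤ] heckeAlgebra N 2 S => f p) h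
  have h2 : (⟨liftTLam N S p, liftTLam_mem N S A hA p⟩ : A) = liftTLamIn N S A hA p :=
    Subtype.ext (coe_liftTLamIn N S A hA p).symm
  rw [h2]
  exact h1

end Transport

end Fermat.Agent.BR2.NewQuotient
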