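import Mathlib
import Fermat.Agent.BR2.NewQuotient
import Fermat.Agent.BR2.E7Out

/-!
# Phase 2 (S35), node (E7')(e), index form

`NewQuotient.exists_poly_newQuotient` restated with the index type `GQSys.Idx S'` of the trace
system and the objects `E7Out.Pof` of the (E7'-OUT) bundle, at the literal level `M₀ * q`:
there is `p : FreeAlgebra ℤ (Idx S')` with `p (TLam M₀ l) = 0` and, for every lattice Hecke algebra
`A ∋ TLam (M₀ q) l` and `Ψ : A →+* heckeAlgebra (M₀ q) 2 S'` with `Ψ (TLam l) = T_l`: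
`χ' (Ψ (Pof p)) ≠ 0`.
-/

set_option autoImplicit false
set_option linter.unusedSectionVars false

noncomputable section

namespace Fermat.Agent.BR2.NewQuotient

open CuspForm ModularCurve Fermat.Agent.Jac Fermat.Agent.Pseudo Fermat.Agent.Pseudo.GQSys
  Fermat.Agent.BR2

variable {M0 q : ℕ} [NeZero M0] [NeZero q] [NeZero (M0 * q)]

set_option maxHeartbeats 1000000 in
/-- **(E7')(e), index form**, plugging into `E7Out.e7Out` and `GeoPlug.geoInputSpan_of_nodes`. -/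
theorem exists_poly_newQuotient_idx {g : CuspForm (CongruenceSubgroup.Gamma0 (M0 * q)) 2}
    (S S' : Finset ℕ) (hSS' : S ⊆ S')
    (hMS' : ∀ r : ℕ, r.Prime → r ∣ M0 * q → r ∈ S')
    {O' : Type} [CommRing O'] [CharZero O']
    (chig : heckeAlgebra (M0 * q) 2 (↑S : Set ℕ) →+* ℂ)
    (hchig : ∀ (ℓ : ℕ) (hℓ : ℓ.Prime) (hℓM : ¬ ℓ ∣ M0 * q) (hℓS : ℓ ∉ (↑S : Set ℕ)),
      chig (heckeAlgebra.T hℓ hℓM hℓS) = ModularFormClass.qCoeff g ℓ)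
    (iota : chig.range →+* O')
    (hE3 : ∀ ψ : heckeAlgebra M0 2 (↑S' : Set ℕ) →+* ℂ,
      ∃ f : CuspForm (CongruenceSubgroup.Gamma0 M0) 2, f.IsNormalizedEigenform ∧
        ∀ (l : ℕ) (hl : l.Prime) (hlN : ¬ l ∣ M0) (hlS : l ∉ (↑S' : Set ℕ)),
          ModularFormClass.qCoeff f l = ψ (heckeAlgebra.T hl hlN hlS))
    (hN5 : ¬ ∃ f : CuspForm (CongruenceSubgroup.Gamma0 M0) 2, f.IsNormalizedEigenform ∧
      ∀ r : ℕ, r.Prime → r ∉ S' → ¬ r ∣ M0 * q →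
        ModularFormClass.qCoeff f r = ModularFormClass.qCoeff g r) :
    ∃ p : FreeAlgebra ℤ (Idx S'),
      FreeAlgebra.lift ℤ (fun i : Idx S' => TLam M0 i.1) p = 0 ∧
      ∀ (A : Subalgebra ℤ (Module.End ℤ (Lam (M0 * q))))
        (hA : ∀ i : Idx S', TLam (M0 * q) i.1 ∈ A)
        (Ψ : A →+* heckeAlgebra (M0 * q) 2 (↑S' : Set ℕ))
        (_hΨ : ∀ (ℓ : ℕ) (hℓ : ℓ.Prime) (hℓM : ¬ ℓ ∣ M0 * q) (hℓS : ℓ ∉ (↑S' : Set ℕ)),
          Ψ ⟨TLam (M0 * q) ⟨ℓ, hℓ⟩, hA ⟨⟨ℓ, hℓ⟩, hℓS⟩⟩ = heckeAlgebra.T hℓ hℓM hℓS),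
        ((iota.comp chig.rangeRestrict).comp (heckeAlgebraIncl hSS'))
          (Ψ ⟨E7Out.Pof M0 q (Subtype.val : Idx S' → Nat.Primes) p,
            E7Out.Pof_mem M0 q (Subtype.val : Idx S' → Nat.Primes) A hA p⟩) ≠ 0 := by
  have hMS'' : ∀ r : ℕ, r.Prime → r ∣ M0 * q → r ∈ (↑S' : Set ℕ) :=
    fun r hr h => Finset.mem_coe.mpr (hMS' r hr h)
  obtain ⟨p, hp0, hpχ⟩ := exists_poly_newQuotient (M0 := M0) (M := M0 * q) (dvd_mul_right M0 q)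
    S S' hSS' hMS'' chig hchig iota hE3 hN5
  refine ⟨p, hp0, fun A hA Ψ hΨ => ?_⟩
  have h1 := psi_liftTLam (M0 * q) (↑S' : Set ℕ) hMS'' A hA Ψ
    (fun i => hΨ i.1.1 i.1.2 (not_dvd_of_primesAway (M0 * q) (↑S' : Set ℕ) hMS'' i) i.2) p
  have h2 : (⟨E7Out.Pof M0 q (Subtype.val : Idx S' → Nat.Primes) p,
      E7Out.Pof_mem M0 q (Subtype.val : Idx S' → Nat.Primes) A hA p⟩ : A) =
      ⟨liftTLam (M0 * q) (↑S' : Set ℕ) p, liftTLam_mem (M0 * q) (↑S' : Set ℕ) A hA p⟩ :=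
    Subtype.ext rfl
  rw [h2, h1]
  exact hpχ

end Fermat.Agent.BR2.NewQuotient
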