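import Mathlib
import Fermat.Agent.BR.PicFunct

/-!
# Phase 2, node (M1), abstract part: functoriality of `Pic⁰` and base change in a square

Complements `BR/PicFunct.lean` (`pic0Pull`, `pic0Push`).

* `finiteAlong_comp`, `finrankAlong_comp`, `normAlong_comp` : finiteness, degree and norm in a
  tower `F₁ → F₂ → F₃`;
* `normAlong_baseChange` : **norm base change**.  In a commutative square of fields

        B --g--> B'
        ↑ i      ↑ i'
        A --f--> A'

  with `[B : A] = [B' : A']` finite and `B'` spanned over `A'` by `g(B)`: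
  `Nm_{i'} (g y) = f (Nm_i y)`;
* `pic0Push_comp`, `pic0Pull_comp` : `(ψ ∘ φ)_* = φ_* ∘ ψ_*`, `(ψ ∘ φ)^* = ψ^* ∘ φ^*` on `Pic⁰`;
* `pic0_baseChange` : `i'_* ∘ g^* = f^* ∘ i_*` on `Pic⁰` for a square with norm base change;
* `correspondence_eq` : the Prelude's `Pic0.correspondence φ ψ` is `ψ_* ∘ φ^*`;
* `pic0Pull_congr`, `pic0Push_congr` : dependence on the homomorphism only.

The divisor-level statements are deduced from the behaviour on principal divisors by the constancy
lemma `Hecke.eq_of_eq_on_principal`, exactly as in `BR/PicFunct.lean`.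
-/

set_option autoImplicit false
set_option linter.style.haveILetI false
set_option linter.unusedSectionVars false

noncomputable section

namespace Fermat.Agent.BR2.PicFunct2

open AlgebraicCurve Fermat.Agent.Red Fermat.Agent.Jac Fermat.Agent.BR.PicFunct

/-! ### Towers -/

section Tower

variable {K F₁ F₂ F₃ : Type*} [Field K] [Field F₁] [Field F₂] [Field F₃]
  [Algebra K F₁] [Algebra K F₂] [Algebra K F₃]

/-- Finiteness in a tower. -/
theorem finiteAlong_comp (φ : F₁ →ₐ[K] F₂) (ψ : F₂ →ₐ[K] F₃) (hφ : FiniteAlong K φ)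
    (hψ : FiniteAlong K ψ) : FiniteAlong K (ψ.comp φ) := by
  letI a12 := algebraAlong φ
  letI a23 := algebraAlong ψ
  letI a13 := algebraAlong (ψ.comp φ)
  haveI : IsScalarTower F₁ F₂ F₃ := IsScalarTower.of_algebraMap_eq fun _ => rfl
  haveI : Module.Finite F₁ F₂ := hφ
  haveI : Module.Finite F₂ F₃ := hψ
  show Module.Finite F₁ F₃
  exact Module.Finite.trans F₂ F₃

/-- The tower law. -/
theorem finrankAlong_comp (φ : F₁ →ₐ[K] F₂) (ψ : F₂ →ₐ[K] F₃) :
    finrankAlong K (ψ.comp φ) = finrankAlong K φ * finrankAlong K ψ := by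
  letI a12 := algebraAlong φ
  letI a23 := algebraAlong ψ
  letI a13 := algebraAlong (ψ.comp φ)
  haveI : IsScalarTower F₁ F₂ F₃ := IsScalarTower.of_algebraMap_eq fun _ => rfl
  show Module.finrank F₁ F₃ = Module.finrank F₁ F₂ * Module.finrank F₂ F₃
  exact (Module.finrank_mul_finrank F₁ F₂ F₃).symm

/-- Transitivity of the norm. -/
theorem normAlong_comp (φ : F₁ →ₐ[K] F₂) (ψ : F₂ →ₐ[K] F₃) (z : F₃) :
    normAlong φ (normAlong ψ z) = normAlong (ψ.comp φ) z := by
  letI a12 := algebraAlong φ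
  letI a23 := algebraAlong ψ
  letI a13 := algebraAlong (ψ.comp φ)
  haveI : IsScalarTower F₁ F₂ F₃ := IsScalarTower.of_algebraMap_eq fun _ => rfl
  show Algebra.norm F₁ (Algebra.norm F₂ z) = Algebra.norm F₁ z
  exact Algebra.norm_norm

/-- The norm only depends on the homomorphism. -/
theorem normAlong_congr {φ φ' : F₁ →ₐ[K] F₂} (h : φ = φ') (z : F₂) :
    normAlong φ z = normAlong φ' z := by
  subst h
  rfl

theorem finrankAlong_congr {φ φ' : F₁ →ₐ[K] F₂} (h : φ = φ') :
    finrankAlong K φ = finrankAlong K φ' := by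
  subst h
  rfl

end Tower

/-! ### Norm base change -/

section BaseChange

variable {K A B A' B' : Type*} [Field K] [Field A] [Field B] [Field A'] [Field B']
  [Algebra K A] [Algebra K B] [Algebra K A'] [Algebra K B']

/-- **Norm base change.**  In a commutative square `g ∘ i = i' ∘ f` of fields with
`[B : A] = [B' : A']` finite and `B'` spanned over `A'` by the image of `g`:
`Nm_{i'} (g y) = f (Nm_i y)`. -/
theorem normAlong_baseChange (i : A →ₐ[K] B) (i' : A' →ₐ[K] B') (f : A →+* A') (g : B →+* B')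
    (hcomm : ∀ a, g (i a) = i' (f a)) (hfin : FiniteAlong K i)
    (hdeg : finrankAlong K i = finrankAlong K i')
    (hgen : ∀ z : B', z ∈ (letI := algebraAlong i'; Submodule.span A' (Set.range g)))
    (y : B) : normAlong i' (g y) = f (normAlong i y) := by
  classical
  letI aAB := algebraAlong i
  letI aAB' := algebraAlong i'
  haveI : Module.Finite A B := hfin
  set n := Module.finrank A B with hn
  let b : Module.Basis (Fin n) A B := Module.finBasis A B
  let v : Fin n → B' := fun k => g (b k)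
  -- `g x` in terms of the `v k`
  have hg : ∀ x : B, g x = ∑ k, f (b.repr x k) • v k := by
    intro x
    conv_lhs => rw [← b.sum_repr x]
    rw [map_sum]
    refine Finset.sum_congr rfl fun k _ => ?_
    rw [Algebra.smul_def, map_mul, Algebra.smul_def]
    congr 1
    exact hcomm _
  have hspan : ⊤ ≤ Submodule.span A' (Set.range v) := by
    intro z _
    refine Submodule.span_le.mpr ?_ (hgen z)
    rintro _ ⟨x, rfl⟩
    rw [hg x]
    exact Submodule.sum_mem _ fun k _ =>
      Submodule.smul_mem _ _ (Submodule.subset_span ⟨k, rfl⟩)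
  have hcard : Fintype.card (Fin n) = Module.finrank A' B' := by
    rw [Fintype.card_fin]
    exact hdeg
  let b' : Module.Basis (Fin n) A' B' := basisOfTopLeSpanOfCardEqFinrank v hspan hcard
  have hb' : ∀ k, b' k = v k := fun k => by
    show (basisOfTopLeSpanOfCardEqFinrank v hspan hcard) k = v k
    rw [coe_basisOfTopLeSpanOfCardEqFinrank]
  show Algebra.norm A' (g y) = f (Algebra.norm A y)
  rw [Algebra.norm_eq_matrix_det b', Algebra.norm_eq_matrix_det b, RingHom.map_det]
  congr 1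
  ext k j
  rw [RingHom.mapMatrix_apply, Matrix.map_apply, Algebra.leftMulMatrix_eq_repr_mul,
    Algebra.leftMulMatrix_eq_repr_mul]
  have h1 : g y * b' j = ∑ m, f (b.repr (y * b j) m) • b' m := by
    rw [hb' j]
    show g y * g (b j) = _
    rw [← map_mul, hg (y * b j)]
    exact Finset.sum_congr rfl fun m _ => by rw [hb' m]
  rw [h1, b'.repr_sum_self]

end BaseChange

/-! ### Functoriality on divisors of degree zero -/

section Divisors

variable {K F₁ F₂ F₃ : Type*} [Field K] [Field F₁] [Field F₂] [Field F₃]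
  [Algebra K F₁] [Algebra K F₂] [Algebra K F₃]
  [HasPrincipalDivisors K F₁] [HasPrincipalDivisors K F₂] [HasPrincipalDivisors K F₃]

/-- `(ψ ∘ φ)_* D = φ_* (ψ_* D)` for `D` of degree zero. -/
theorem pushforwardAlong_comp (φ : F₁ →ₐ[K] F₂) (ψ : F₂ →ₐ[K] F₃)
    (hφ : φ.toRingHom.IsIntegral) (hψ : ψ.toRingHom.IsIntegral)
    (hψφ : (ψ.comp φ).toRingHom.IsIntegral)
    (hfinφ : FiniteAlong K φ) (hNφ : NormFormulaAlong K φ hfinφ)
    (hfinψ : FiniteAlong K ψ) (hNψ : NormFormulaAlong K ψ hfinψ)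
    (hfinψφ : FiniteAlong K (ψ.comp φ)) (hNψφ : NormFormulaAlong K (ψ.comp φ) hfinψφ)
    (hF₁ : RiemannPkg K F₁) (hF₃ : RiemannPkg K F₃) (D : Divisor K F₃)
    (hD : Divisor.degree D = 0) :
    Divisor.pushforwardAlong (ψ.comp φ) hψφ D =
      Divisor.pushforwardAlong φ hφ (Divisor.pushforwardAlong ψ hψ D) := by
  have h := Fermat.Agent.Hecke.eq_of_eq_on_principal hF₃ hF₁.deg_one
    (Divisor.pushforwardAlong (ψ.comp φ) hψφ)
    ((Divisor.pushforwardAlong φ hφ).comp (Divisor.pushforwardAlong ψ hψ))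
    (fun D hD => pushforwardAlong_nonneg _ hψφ hD)
    (fun D hD => pushforwardAlong_nonneg φ hφ (pushforwardAlong_nonneg ψ hψ hD))
    (1 : ℤ)
    (fun D => by rw [Divisor.degree_pushforwardAlong, one_mul])
    (fun D => by
      rw [AddMonoidHom.comp_apply, Divisor.degree_pushforwardAlong,
        Divisor.degree_pushforwardAlong, one_mul])
    (fun z hz => by
      rw [AddMonoidHom.comp_apply, pushforwardAlong_divOf _ hψφ hfinψφ hNψφ hz,
        pushforwardAlong_divOf ψ hψ hfinψ hNψ hz,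
        pushforwardAlong_divOf φ hφ hfinφ hNφ (normAlong_ne_zero ψ hfinψ hz), normAlong_comp])
    D hD
  exact h

/-- `(ψ ∘ φ)^* D = ψ^* (φ^* D)` for `D` of degree zero. -/
theorem pullbackAlong_comp (φ : F₁ →ₐ[K] F₂) (ψ : F₂ →ₐ[K] F₃)
    (hφ : φ.toRingHom.IsIntegral) (hψ : ψ.toRingHom.IsIntegral)
    (hψφ : (ψ.comp φ).toRingHom.IsIntegral)
    (hFIφ : FundamentalIdentityAlong K φ hφ) (hFIψ : FundamentalIdentityAlong K ψ hψ)
    (hFIψφ : FundamentalIdentityAlong K (ψ.comp φ) hψφ)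
    (hF₁ : RiemannPkg K F₁) (hF₃ : RiemannPkg K F₃) (D : Divisor K F₁)
    (hD : Divisor.degree D = 0) :
    Divisor.pullbackAlong (ψ.comp φ) hψφ D =
      Divisor.pullbackAlong ψ hψ (Divisor.pullbackAlong φ hφ D) := by
  have h := Fermat.Agent.Hecke.eq_of_eq_on_principal hF₁ hF₃.deg_one
    (Divisor.pullbackAlong (ψ.comp φ) hψφ)
    ((Divisor.pullbackAlong ψ hψ).comp (Divisor.pullbackAlong φ hφ))
    (fun D hD => pullbackAlong_nonneg _ hψφ hD)
    (fun D hD => pullbackAlong_nonneg ψ hψ (pullbackAlong_nonneg φ hφ hD))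
    (finrankAlong K (ψ.comp φ) : ℤ)
    (fun D => Divisor.degree_pullbackAlong _ hψφ hFIψφ D)
    (fun D => by
      rw [AddMonoidHom.comp_apply, Divisor.degree_pullbackAlong ψ hψ hFIψ,
        Divisor.degree_pullbackAlong φ hφ hFIφ, finrankAlong_comp]
      push_cast
      ring)
    (fun f _ => by
      rw [AddMonoidHom.comp_apply, pullbackAlong_divOf, pullbackAlong_divOf, pullbackAlong_divOf]
      rfl)
    D hD
  exact h

end Divisors

section Square

variable {K A B A' B' : Type*} [Field K] [Field A] [Field B] [Field A'] [Field B']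
  [Algebra K A] [Algebra K B] [Algebra K A'] [Algebra K B']
  [HasPrincipalDivisors K A] [HasPrincipalDivisors K B] [HasPrincipalDivisors K A']
  [HasPrincipalDivisors K B']

/-- In a commutative square with equal vertical degrees the horizontal degrees agree. -/
theorem finrankAlong_eq_of_square (i : A →ₐ[K] B) (i' : A' →ₐ[K] B') (f : A →ₐ[K] A')
    (g : B →ₐ[K] B') (hcomm : g.comp i = i'.comp f)
    (hdeg : finrankAlong K i = finrankAlong K i') (hne : finrankAlong K i ≠ 0) :
    finrankAlong K g = finrankAlong K f := by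
  have h1 := finrankAlong_comp i g
  have h2 := finrankAlong_comp f i'
  rw [finrankAlong_congr hcomm, h2, ← hdeg, mul_comm] at h1
  exact (Nat.eq_of_mul_eq_mul_left (Nat.pos_of_ne_zero hne) h1).symm

/-- `i'_* (g^* D) = f^* (i_* D)` for `D` of degree zero, in a square with norm base change. -/
theorem baseChange_divisor (i : A →ₐ[K] B) (i' : A' →ₐ[K] B') (f : A →ₐ[K] A')
    (g : B →ₐ[K] B')
    (hi : i.toRingHom.IsIntegral) (hi' : i'.toRingHom.IsIntegral)
    (hf : f.toRingHom.IsIntegral) (hg : g.toRingHom.IsIntegral)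
    (hfini : FiniteAlong K i) (hNi : NormFormulaAlong K i hfini)
    (hfini' : FiniteAlong K i') (hNi' : NormFormulaAlong K i' hfini')
    (hFIf : FundamentalIdentityAlong K f hf) (hFIg : FundamentalIdentityAlong K g hg)
    (hfg : finrankAlong K g = finrankAlong K f)
    (hBC : ∀ y : B, normAlong i' (g y) = f (normAlong i y))
    (hB : RiemannPkg K B) (hA' : RiemannPkg K A') (D : Divisor K B)
    (hD : Divisor.degree D = 0) :
    Divisor.pushforwardAlong i' hi' (Divisor.pullbackAlong g hg D) =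
      Divisor.pullbackAlong f hf (Divisor.pushforwardAlong i hi D) := by
  have h := Fermat.Agent.Hecke.eq_of_eq_on_principal hB hA'.deg_one
    ((Divisor.pushforwardAlong i' hi').comp (Divisor.pullbackAlong g hg))
    ((Divisor.pullbackAlong f hf).comp (Divisor.pushforwardAlong i hi))
    (fun D hD => pushforwardAlong_nonneg i' hi' (pullbackAlong_nonneg g hg hD))
    (fun D hD => pullbackAlong_nonneg f hf (pushforwardAlong_nonneg i hi hD))
    (finrankAlong K g : ℤ)
    (fun D => by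
      rw [AddMonoidHom.comp_apply, Divisor.degree_pushforwardAlong,
        Divisor.degree_pullbackAlong g hg hFIg])
    (fun D => by
      rw [AddMonoidHom.comp_apply, Divisor.degree_pullbackAlong f hf hFIf,
        Divisor.degree_pushforwardAlong, hfg])
    (fun y hy => by
      rw [AddMonoidHom.comp_apply, AddMonoidHom.comp_apply, pullbackAlong_divOf,
        pushforwardAlong_divOf i' hi' hfini' hNi' ((map_ne_zero g).mpr hy),
        pushforwardAlong_divOf i hi hfini hNi hy, pullbackAlong_divOf, hBC])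
    D hD
  exact h

end Square

/-! ### The statements on `Pic⁰` -/

section Pic

variable {K F₁ F₂ F₃ : Type*} [Field K] [Field F₁] [Field F₂] [Field F₃]
  [Algebra K F₁] [Algebra K F₂] [Algebra K F₃]
  [HasPrincipalDivisors K F₁] [HasPrincipalDivisors K F₂] [HasPrincipalDivisors K F₃]

/-- **`(ψ ∘ φ)_* = φ_* ∘ ψ_*` on `Pic⁰`.** -/
theorem pic0Push_comp (φ : F₁ →ₐ[K] F₂) (ψ : F₂ →ₐ[K] F₃)
    (hφ : φ.toRingHom.IsIntegral) (hψ : ψ.toRingHom.IsIntegral)
    (hψφ : (ψ.comp φ).toRingHom.IsIntegral)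
    (hfinφ : FiniteAlong K φ) (hNφ : NormFormulaAlong K φ hfinφ)
    (hfinψ : FiniteAlong K ψ) (hNψ : NormFormulaAlong K ψ hfinψ)
    (hfinψφ : FiniteAlong K (ψ.comp φ)) (hNψφ : NormFormulaAlong K (ψ.comp φ) hfinψφ)
    (hF₁ : RiemannPkg K F₁) (hF₃ : RiemannPkg K F₃) (x : Pic0 K F₃) :
    pic0Push (ψ.comp φ) hψφ hfinψφ hNψφ x =
      pic0Push φ hφ hfinφ hNφ (pic0Push ψ hψ hfinψ hNψ x) := by
  obtain ⟨D, rfl⟩ := Pic0.mk_surjective x
  rw [pic0Push_mk, pic0Push_mk, pic0Push_mk]
  refine congrArg Pic0.mk (Subtype.ext ?_)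
  rw [coe_degZeroPush, coe_degZeroPush, coe_degZeroPush]
  exact pushforwardAlong_comp φ ψ hφ hψ hψφ hfinφ hNφ hfinψ hNψ hfinψφ hNψφ hF₁ hF₃ _
    (Divisor.mem_degZero.mp D.2)

/-- **`(ψ ∘ φ)^* = ψ^* ∘ φ^*` on `Pic⁰`.** -/
theorem pic0Pull_comp (φ : F₁ →ₐ[K] F₂) (ψ : F₂ →ₐ[K] F₃)
    (hφ : φ.toRingHom.IsIntegral) (hψ : ψ.toRingHom.IsIntegral)
    (hψφ : (ψ.comp φ).toRingHom.IsIntegral)
    (hFIφ : FundamentalIdentityAlong K φ hφ) (hFIψ : FundamentalIdentityAlong K ψ hψ)
    (hFIψφ : FundamentalIdentityAlong K (ψ.comp φ) hψφ)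
    (hF₁ : RiemannPkg K F₁) (hF₃ : RiemannPkg K F₃) (x : Pic0 K F₁) :
    pic0Pull (ψ.comp φ) hψφ hFIψφ x = pic0Pull ψ hψ hFIψ (pic0Pull φ hφ hFIφ x) := by
  obtain ⟨D, rfl⟩ := Pic0.mk_surjective x
  rw [pic0Pull_mk, pic0Pull_mk, pic0Pull_mk]
  refine congrArg Pic0.mk (Subtype.ext ?_)
  rw [coe_degZeroPull, coe_degZeroPull, coe_degZeroPull]
  exact pullbackAlong_comp φ ψ hφ hψ hψφ hFIφ hFIψ hFIψφ hF₁ hF₃ _ (Divisor.mem_degZero.mp D.2)

/-- `pic0Pull` only depends on the homomorphism. -/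
theorem pic0Pull_congr {φ φ' : F₁ →ₐ[K] F₂} (h : φ = φ') (hφ : φ.toRingHom.IsIntegral)
    (hφ' : φ'.toRingHom.IsIntegral) (hFI : FundamentalIdentityAlong K φ hφ)
    (hFI' : FundamentalIdentityAlong K φ' hφ') (x : Pic0 K F₁) :
    pic0Pull φ hφ hFI x = pic0Pull φ' hφ' hFI' x := by
  subst h
  rfl

/-- `pic0Push` only depends on the homomorphism. -/
theorem pic0Push_congr {φ φ' : F₁ →ₐ[K] F₂} (h : φ = φ') (hφ : φ.toRingHom.IsIntegral)
    (hφ' : φ'.toRingHom.IsIntegral) (hfin : FiniteAlong K φ) (hfin' : FiniteAlong K φ')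
    (hN : NormFormulaAlong K φ hfin) (hN' : NormFormulaAlong K φ' hfin') (x : Pic0 K F₂) :
    pic0Push φ hφ hfin hN x = pic0Push φ' hφ' hfin' hN' x := by
  subst h
  rfl

/-- The Prelude's correspondence `ψ_* ∘ φ^*` on `Pic⁰`. -/
theorem correspondence_eq (φ ψ : F₁ →ₐ[K] F₂) (hφ : φ.toRingHom.IsIntegral)
    (hψ : ψ.toRingHom.IsIntegral) (hFI : FundamentalIdentityAlong K φ hφ)
    (hfin : FiniteAlong K ψ) (hN : NormFormulaAlong K ψ hfin) (x : Pic0 K F₁) :
    Pic0.correspondence φ ψ hφ hψ hFI hfin hN x =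
      pic0Push ψ hψ hfin hN (pic0Pull φ hφ hFI x) := by
  obtain ⟨D, rfl⟩ := Pic0.mk_surjective x
  rfl

end Pic

section PicSquare

variable {K A B A' B' : Type*} [Field K] [Field A] [Field B] [Field A'] [Field B']
  [Algebra K A] [Algebra K B] [Algebra K A'] [Algebra K B']
  [HasPrincipalDivisors K A] [HasPrincipalDivisors K B] [HasPrincipalDivisors K A']
  [HasPrincipalDivisors K B']

/-- **Base change on `Pic⁰`**: `i'_* ∘ g^* = f^* ∘ i_*` in a square with norm base change. -/
theorem pic0_baseChange (i : A →ₐ[K] B) (i' : A' →ₐ[K] B') (f : A →ₐ[K] A')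
    (g : B →ₐ[K] B')
    (hi : i.toRingHom.IsIntegral) (hi' : i'.toRingHom.IsIntegral)
    (hf : f.toRingHom.IsIntegral) (hg : g.toRingHom.IsIntegral)
    (hfini : FiniteAlong K i) (hNi : NormFormulaAlong K i hfini)
    (hfini' : FiniteAlong K i') (hNi' : NormFormulaAlong K i' hfini')
    (hFIf : FundamentalIdentityAlong K f hf) (hFIg : FundamentalIdentityAlong K g hg)
    (hfg : finrankAlong K g = finrankAlong K f)
    (hBC : ∀ y : B, normAlong i' (g y) = f (normAlong i y))
    (hB : RiemannPkg K B) (hA' : RiemannPkg K A') (x : Pic0 K B) :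
    pic0Push i' hi' hfini' hNi' (pic0Pull g hg hFIg x) =
      pic0Pull f hf hFIf (pic0Push i hi hfini hNi x) := by
  obtain ⟨D, rfl⟩ := Pic0.mk_surjective x
  rw [pic0Pull_mk, pic0Push_mk, pic0Push_mk, pic0Pull_mk]
  refine congrArg Pic0.mk (Subtype.ext ?_)
  rw [coe_degZeroPush, coe_degZeroPull, coe_degZeroPull, coe_degZeroPush]
  exact baseChange_divisor i i' f g hi hi' hf hg hfini hNi hfini' hNi' hFIf hFIg hfg hBC hB hA' _
    (Divisor.mem_degZero.mp D.2)

end PicSquare

end Fermat.Agent.BR2.PicFunct2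

end
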