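import Mathlib
import Fermat.Agent.BR2.PicFunct2
import Fermat.Agent.ES.ProductFormula
import Fermat.Agent.Jac.TransposeNorm
import Fermat.Agent.Jac.HeckeGalois
import Fermat.Agent.Val.RiemannPkgBar

/-!
# Phase 2, node (M1): the calculus of `pull` / `push` between the `JZero N`, and primitive elements

* `inclBar (h : N ∣ N') : Fb N →ₐ[Kb] Fb N'` (inclusion), `degBar p (h : N * p ∣ N')`
  (`y(q) ↦ y(q^p)`); `heckeAlphaBar Kb N ℓ = inclBar _`, `heckeBetaBar Kb N ℓ = degBar ℓ _`;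
* for EVERY `φ : Fb N →ₐ[Kb] Fb N'` the side conditions (finite, integral, fundamental identity, norm
  formula) hold, so `pull φ : JZero N →+ JZero N'` and `push φ : JZero N' →+ JZero N` are defined
  without further data; `pull_comp`, `push_comp`, `push_pull`, `pull_smul`, `push_smul`,
  `baseChange`;
* **primitive elements** (from the ES classification of the embeddings of `F_{Nℓ}` over `α F_N`):
  for `ℓ ∤ N` prime and `d ∣ N`, `F_{Nℓ} = α(F_N)(j(q^{dℓ}))` (`adjoin_beta_jGenZ_eq_top`) and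
  (via the Atkin–Lehner involutions) `F_{Nℓ} = β(F_N)(j(q^e))`, `e ∣ N`.
-/

set_option autoImplicit false
set_option linter.style.haveILetI false
set_option linter.unusedSectionVars false

noncomputable section

namespace Fermat.Agent.BR2.LevelGen

open AlgebraicCurve ModularCurve HahnSeries IntermediateField Fermat.Agent.X0 Fermat.Agent.Red
  Fermat.Agent.Hecke Fermat.Agent.Jac Fermat.Agent.ES Fermat.Agent.BR.PicFunct
  Fermat.Agent.BR2.PicFunct2

/-! ### The maps between the function fields -/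

section Maps

theorem laurentBaseChange_mono {F₀ F₁ : IntermediateField ℚ (LaurentSeries ℚ)} (h : F₀ ≤ F₁) :
    laurentBaseChange Kb F₀ ≤ laurentBaseChange Kb F₁ := by
  rw [laurentBaseChange, IntermediateField.adjoin_le_iff]
  rintro _ ⟨y, hy, rfl⟩
  exact coeffEmb_mem_laurentBaseChange Kb (h hy)

variable {N N' : ℕ} [NeZero N] [NeZero N']

/-- The inclusion `Fb N ⊆ Fb N'` for `N ∣ N'`. -/
def inclBar (h : N ∣ N') : Fb N →ₐ[Kb] Fb N' :=
  IntermediateField.inclusion (laurentBaseChange_mono (full_degeneracy_le h))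

@[simp]
theorem coe_inclBar (h : N ∣ N') (y : Fb N) :
    ((inclBar h y : Fb N') : LaurentSeries Kb) = (y : LaurentSeries Kb) :=
  IntermediateField.coe_inclusion _ y

/-- `y(q) ↦ y(q^p)` as a map `Fb N → Fb N'` for `N p ∣ N'`. -/
def degBar (p : ℕ) [NeZero p] (h : N * p ∣ N') : Fb N →ₐ[Kb] Fb N' :=
  (inclBar h).comp (heckeBetaBar Kb N p)

@[simp]
theorem coe_degBar (p : ℕ) [NeZero p] (h : N * p ∣ N') (y : Fb N) :
    ((degBar p h y : Fb N') : LaurentSeries Kb) = qExpand Kb p (y : LaurentSeries Kb) := by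
  rw [degBar, AlgHom.comp_apply, coe_inclBar, coe_heckeBetaBar]

/-- Homomorphisms into `Fb N'` are determined by the underlying Laurent series. -/
theorem algHom_ext_coe {F : Type*} [Field F] [Algebra Kb F] {φ ψ : F →ₐ[Kb] Fb N'}
    (h : ∀ y, ((φ y : Fb N') : LaurentSeries Kb) = ((ψ y : Fb N') : LaurentSeries Kb)) : φ = ψ :=
  AlgHom.ext fun y => Subtype.ext (h y)

theorem heckeAlphaBar_eq_inclBar (ℓ : ℕ) [NeZero ℓ] :
    heckeAlphaBar Kb N ℓ = inclBar (dvd_mul_right N ℓ) := rfl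

theorem heckeBetaBar_eq_degBar (ℓ : ℕ) [NeZero ℓ] :
    heckeBetaBar Kb N ℓ = degBar ℓ (dvd_refl (N * ℓ)) :=
  algHom_ext_coe fun y => by rw [coe_degBar, coe_heckeBetaBar]

end Maps

/-! ### The side conditions hold for every homomorphism -/

section Inputs

variable {N N' N'' : ℕ} [NeZero N] [NeZero N'] [NeZero N'']

theorem finiteAlong_fb (φ : Fb N →ₐ[Kb] Fb N') : FiniteAlong Kb φ :=
  haveI : FiniteDimensional Kb⟮jBar N'⟯ (Fb N') := (jBar_isSepVar N').finite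
  finiteAlong_of_transcendental _ (jBar N') (jBar_transcendental N)

theorem isIntegral_fb (φ : Fb N →ₐ[Kb] Fb N') : φ.toRingHom.IsIntegral :=
  isIntegral_of_finiteAlong _ (finiteAlong_fb φ)

theorem fundamentalIdentityAlong_fb (φ : Fb N →ₐ[Kb] Fb N') :
    FundamentalIdentityAlong Kb φ (isIntegral_fb φ) :=
  fundamentalIdentityAlong_of_finite _ (finiteAlong_fb φ)
    (isSeparable_along_of_charZero _ (finiteAlong_fb φ)) _

theorem normFormulaAlong_fb (φ : Fb N →ₐ[Kb] Fb N') :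
    NormFormulaAlong Kb φ (finiteAlong_fb φ) :=
  normFormulaAlong_of_finite _ (finiteAlong_fb φ)
    (isSeparable_along_of_charZero _ (finiteAlong_fb φ))

theorem finrankAlong_fb_ne_zero (φ : Fb N →ₐ[Kb] Fb N') : finrankAlong Kb φ ≠ 0 := by
  letI := algebraAlong φ
  haveI : Module.Finite (Fb N) (Fb N') := finiteAlong_fb φ
  exact (Module.finrank_pos (R := Fb N) (M := Fb N')).ne'

/-- `φ^* : JZero N → JZero N'`. -/
def pull (φ : Fb N →ₐ[Kb] Fb N') : JZero N →+ JZero N' :=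
  pic0Pull φ (isIntegral_fb φ) (fundamentalIdentityAlong_fb φ)

/-- `φ_* : JZero N' → JZero N`. -/
def push (φ : Fb N →ₐ[Kb] Fb N') : JZero N' →+ JZero N :=
  pic0Push φ (isIntegral_fb φ) (finiteAlong_fb φ) (normFormulaAlong_fb φ)

theorem pull_congr {φ ψ : Fb N →ₐ[Kb] Fb N'} (h : φ = ψ) (x : JZero N) : pull φ x = pull ψ x := by
  subst h
  rfl

theorem push_congr {φ ψ : Fb N →ₐ[Kb] Fb N'} (h : φ = ψ) (y : JZero N') :
    push φ y = push ψ y := by
  subst h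
  rfl

/-- `φ_* φ^* = deg φ`. -/
theorem push_pull (φ : Fb N →ₐ[Kb] Fb N') (x : JZero N) :
    push φ (pull φ x) = finrankAlong Kb φ • x :=
  pic0Push_pic0Pull _ _ _ _ _ (Fermat.Agent.Val.riemannPkg_bar N) x

/-- `(ψ ∘ φ)^* = ψ^* ∘ φ^*`. -/
theorem pull_comp (φ : Fb N →ₐ[Kb] Fb N') (ψ : Fb N' →ₐ[Kb] Fb N'') (x : JZero N) :
    pull (ψ.comp φ) x = pull ψ (pull φ x) :=
  pic0Pull_comp φ ψ _ _ _ _ _ _ (Fermat.Agent.Val.riemannPkg_bar N)
    (Fermat.Agent.Val.riemannPkg_bar N'') x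

/-- `(ψ ∘ φ)_* = φ_* ∘ ψ_*`. -/
theorem push_comp (φ : Fb N →ₐ[Kb] Fb N') (ψ : Fb N' →ₐ[Kb] Fb N'') (z : JZero N'') :
    push (ψ.comp φ) z = push φ (push ψ z) :=
  pic0Push_comp φ ψ _ _ _ _ _ _ _ _ _ (Fermat.Agent.Val.riemannPkg_bar N)
    (Fermat.Agent.Val.riemannPkg_bar N'') z

/-- `φ^*` is Galois equivariant, if `φ` is. -/
theorem pull_smul (φ : Fb N →ₐ[Kb] Fb N')
    (hφ : ∀ (σ : GQ) (y : Fb N), φ (galAut N σ • y) = galAut N' σ • φ y) (σ : GQ) (x : JZero N) :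
    pull φ (σ • x) = σ • pull φ x :=
  pic0Pull_smul _ _ _ (galAut N σ) (galAut N' σ) (hφ σ) (Fermat.Agent.Val.riemannPkg_bar N)
    (Fermat.Agent.Val.riemannPkg_bar N') x

/-- `φ_*` is Galois equivariant, if `φ` is. -/
theorem push_smul (φ : Fb N →ₐ[Kb] Fb N')
    (hφ : ∀ (σ : GQ) (y : Fb N), φ (galAut N σ • y) = galAut N' σ • φ y) (σ : GQ)
    (y : JZero N') : push φ (σ • y) = σ • push φ y :=
  pic0Push_smul _ _ _ _ (galAut N σ) (galAut N' σ) (hφ σ) (Fermat.Agent.Val.riemannPkg_bar N)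
    (Fermat.Agent.Val.riemannPkg_bar N') y

theorem inclBar_galAut (h : N ∣ N') (σ : GQ) (y : Fb N) :
    inclBar h (galAut N σ • y) = galAut N' σ • inclBar h y := by
  apply Subtype.ext
  rw [coe_inclBar, coe_galAut_smul, coe_galAut_smul, coe_inclBar]

theorem degBar_galAut (p : ℕ) [NeZero p] (h : N * p ∣ N') (σ : GQ) (y : Fb N) :
    degBar p h (galAut N σ • y) = galAut N' σ • degBar p h y := by
  apply Subtype.ext
  rw [coe_degBar, coe_galAut_smul, coe_galAut_smul, coe_degBar, coeffMap_qExpand]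

end Inputs

/-! ### Base change in a square of levels -/

section BaseChange

variable {A B A' B' : ℕ} [NeZero A] [NeZero B] [NeZero A'] [NeZero B']

/-- **Base change**: `i'_* ∘ g^* = f^* ∘ i_*` in a commutative square of function fields with equal
vertical degrees in which `Fb B'` is spanned over `Fb A'` by the image of `g`. -/
theorem baseChange (i : Fb A →ₐ[Kb] Fb B) (i' : Fb A' →ₐ[Kb] Fb B') (f : Fb A →ₐ[Kb] Fb A')
    (g : Fb B →ₐ[Kb] Fb B') (hcomm : g.comp i = i'.comp f)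
    (hdeg : finrankAlong Kb i = finrankAlong Kb i')
    (hgen : ∀ z : Fb B', z ∈ (letI := algebraAlong i'; Submodule.span (Fb A') (Set.range g)))
    (x : JZero B) : push i' (pull g x) = pull f (push i x) :=
  pic0_baseChange i i' f g _ _ _ _ _ _ _ _ _ _
    (finrankAlong_eq_of_square i i' f g hcomm hdeg (finrankAlong_fb_ne_zero i))
    (fun y => normAlong_baseChange i i' f.toRingHom g.toRingHom
      (fun a => congrArg (fun h : Fb A →ₐ[Kb] Fb B' => h a) hcomm) (finiteAlong_fb i) hdeg hgen y)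
    (Fermat.Agent.Val.riemannPkg_bar B) (Fermat.Agent.Val.riemannPkg_bar A') x

end BaseChange

/-! ### Generation from a primitive element -/

section Span

variable {A' B' B : Type*} [Field A'] [Field B'] [Ring B] [Algebra A' B']

/-- If `B' = A'(g x)` with `g x` algebraic, then `B'` is spanned over `A'` by the image of `g`. -/
theorem mem_span_range_of_adjoin_eq_top (g : B →+* B') (x : B) (hint : IsIntegral A' (g x))
    (h : IntermediateField.adjoin A' {g x} = ⊤) (z : B') :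
    z ∈ Submodule.span A' (Set.range g) := by
  have h1 : (IntermediateField.adjoin A' {g x}).toSubalgebra = Algebra.adjoin A' {g x} :=
    IntermediateField.adjoin_simple_toSubalgebra_of_isAlgebraic hint.isAlgebraic
  have h2 : z ∈ Algebra.adjoin A' {g x} := by
    rw [← h1, h]
    exact Algebra.mem_top
  have h3 : z ∈ Submodule.span A' (Submonoid.closure {g x} : Set B') := by
    rw [← Algebra.adjoin_eq_span]
    exact h2
  refine Submodule.span_mono ?_ h3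
  have : Submonoid.closure {g x} ≤ (RingHom.range g).toSubmonoid :=
    (Submonoid.closure_le).mpr (Set.singleton_subset_iff.mpr ⟨x, rfl⟩)
  intro w hw
  exact this hw

end Span

/-! ### Primitive elements of `F_{Nℓ}` over `α F_N` -/

section Primitive

variable {N ℓ : ℕ} [NeZero N] [NeZero ℓ]

/-- The candidate restrictions are separated by their value at `j(q^d)`, `d ∣ N`. -/
theorem substΩ_jGenZ_injective (hℓ : ℓ.Prime) (hℓN : ¬ ℓ ∣ N) {ζ : Kbˣ}
    (hζ : IsPrimitiveRoot ζ ℓ) {d : ℕ} (hd : d ∣ N) {i i' : Option (Fin ℓ)}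
    (h : substΩ N ℓ ζ i (jGenZ N d) = substΩ N ℓ ζ i' (jGenZ N d)) : i = i' := by
  have hN0 : N ≠ 0 := NeZero.ne N
  have hd0 : d ≠ 0 := fun h0 => hN0 (by rw [h0] at hd; exact zero_dvd_iff.mp hd)
  have hℓ0 : ℓ ≠ 0 := hℓ.ne_zero
  have hcop : Nat.Coprime d ℓ := by
    rw [Nat.coprime_comm, Nat.Prime.coprime_iff_not_dvd hℓ]
    exact fun hℓd => hℓN (dvd_trans hℓd hd)
  have hζd : IsPrimitiveRoot (ζ ^ d) ℓ := hζ.pow_of_coprime d hcop
  have hnone : ∀ b : Fin ℓ, substΩ N ℓ ζ none (jGenZ N d) ≠ substΩ N ℓ ζ (some b) (jGenZ N d) := by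
    intro b hb
    rw [substΩ_none, substΩ_some, coe_jGenZ N hd, qExpand_Jz _ 1 hd0,
      subst_Jz _ N 1 hd0] at hb
    have hb' := ιΩ_injective hb
    refine Jz_ne_of_ne (1 : Kbˣ) (1 * (ζ ^ (b : ℕ)) ^ d) (mul_ne_zero (mul_ne_zero hN0
      (mul_ne_zero hℓ0 hℓ0)) hd0) (mul_ne_zero hN0 hd0) ?_ hb'
    intro he
    have h1 : N * d * (ℓ * ℓ) = N * d * 1 := by
      rw [mul_one]
      calc N * d * (ℓ * ℓ) = N * (ℓ * ℓ) * d := by ring
        _ = N * d := he
    have h2 := Nat.eq_of_mul_eq_mul_left (Nat.pos_of_ne_zero (mul_ne_zero hN0 hd0)) h1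
    have h3 : 2 ≤ ℓ := hℓ.two_le
    nlinarith
  rcases i with _ | b <;> rcases i' with _ | b'
  · rfl
  · exact absurd h (hnone b')
  · exact absurd h.symm (hnone b)
  · rw [substΩ_some, substΩ_some, coe_jGenZ N hd, subst_Jz _ N 1 hd0, subst_Jz _ N 1 hd0] at h
    have h1 := (Jz_eq_Jz_iff _ _ (mul_ne_zero hN0 hd0)).mp (ιΩ_injective h)
    rw [one_mul, one_mul, ← pow_mul, ← pow_mul, mul_comm (b : ℕ) d, mul_comm (b' : ℕ) d,
      pow_mul, pow_mul] at h1
    have h2 := hζd.pow_inj b.2 b'.2 h1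
    exact congrArg some (Fin.ext h2)

/-- **Primitive element.**  For a prime `ℓ ∤ N` and `d ∣ N`: `F_{Nℓ} = α(F_N)(j(q^{dℓ}))`. -/
theorem adjoin_beta_jGenZ_eq_top (hℓ : ℓ.Prime) (hℓN : ¬ ℓ ∣ N) {d : ℕ} (hd : d ∣ N) :
    letI := algebraAlong (heckeAlphaBar Kb N ℓ)
    IntermediateField.adjoin (Fb N) {heckeBetaBar Kb N ℓ (jGenZ N d)} = ⊤ := by
  classical
  letI algF : Algebra (Fb N) (Fb (N * ℓ)) := algebraAlong (heckeAlphaBar Kb N ℓ)
  haveI : FiniteDimensional (Fb N) (Fb (N * ℓ)) := finiteAlong_heckeAlphaBar N ℓ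
  haveI : Algebra.IsSeparable (Fb N) (Fb (N * ℓ)) :=
    isSeparable_along_of_charZero _ (finiteAlong_heckeAlphaBar N ℓ)
  letI algE : Algebra (Fb N) EΩ := (strΩ N ℓ).toAlgebra
  have hF : algebraMap (Fb N) (Fb (N * ℓ)) = (heckeAlphaBar Kb N ℓ).toRingHom := rfl
  have hE : algebraMap (Fb N) EΩ = strΩ N ℓ := RingHom.algebraMap_toAlgebra _
  obtain ⟨ζ0, ℓinv, hζ0, ⟨dℓ⟩⟩ := exists_modEqData_Kb ℓ hℓ
  have hex : ∀ p : ℕ, ∃ Φ : Polynomial (Polynomial Kb), ∀ hp : p.Prime, ∃ (ζp : Kbˣ) (pinv : Kb)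
      (dp : @Fermat.Agent.Igusa.ModEqData Kb _ p ⟨hp.ne_zero⟩ ζp pinv),
        @Fermat.Agent.Igusa.ModEqData.Phi Kb _ p ⟨hp.ne_zero⟩ ζp pinv dp = Φ := by
    intro p
    by_cases hp : p.Prime
    · obtain ⟨ζp, pinv, _, ⟨dp⟩⟩ := exists_modEqData_Kb p hp
      exact ⟨@Fermat.Agent.Igusa.ModEqData.Phi Kb _ p ⟨hp.ne_zero⟩ ζp pinv dp,
        fun _ => ⟨ζp, pinv, dp, rfl⟩⟩
    · exact ⟨0, fun h => absurd h hp⟩
  choose Ph hPh using hex
  rw [Field.primitive_element_iff_algHom_eq_of_eval' (Fb N) EΩ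
    (fun x => IsAlgClosed.splits _) (heckeBetaBar Kb N ℓ (jGenZ N d))]
  intro τ τ' h
  obtain ⟨i, hi⟩ := exists_label hF hE hℓ hℓN hζ0 dℓ Ph (fun p hp _ => hPh p hp) τ
  obtain ⟨i', hi'⟩ := exists_label hF hE hℓ hℓN hζ0 dℓ Ph (fun p hp _ => hPh p hp) τ'
  have h1 : substΩ N ℓ ζ0 i (jGenZ N d) = substΩ N ℓ ζ0 i' (jGenZ N d) := by
    rw [← hi, ← hi']
    exact h
  have hii' : i = i' := substΩ_jGenZ_injective hℓ hℓN hζ0 hd h1
  exact tau_ext hF hE hℓ τ τ' (by rw [hi, hi', hii'])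

end Primitive

/-! ### Transport of spans along a pair of compatible homomorphisms -/

section Transport

variable {K A₁ B₁ A₂ B₂ : Type*} [Field K] [Field A₁] [Field B₁] [Field A₂] [Field B₂]
  [Algebra K A₁] [Algebra K B₁] [Algebra K A₂] [Algebra K B₂]

/-- If `W ∘ φ₁ = φ₂ ∘ w`, then `W` maps the `A₁`-span of `S` into the `A₂`-span of `W '' S`. -/
theorem map_mem_span_of_mem_span (φ₁ : A₁ →ₐ[K] B₁) (φ₂ : A₂ →ₐ[K] B₂) (w : A₁ →+* A₂)
    (W : B₁ →+* B₂) (hW : ∀ a, W (φ₁ a) = φ₂ (w a)) (S : Set B₁) {z : B₁}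
    (hz : z ∈ (letI := algebraAlong φ₁; Submodule.span A₁ S)) :
    W z ∈ (letI := algebraAlong φ₂; Submodule.span A₂ (W '' S)) := by
  letI i1 := algebraAlong φ₁
  letI i2 := algebraAlong φ₂
  induction hz using Submodule.span_induction with
  | mem s hs => exact Submodule.subset_span ⟨s, hs, rfl⟩
  | zero => rw [map_zero]; exact Submodule.zero_mem _
  | add x y _ _ hx hy => rw [map_add]; exact Submodule.add_mem _ hx hy
  | smul a x _ hx =>
    have h1 : W (a • x) = w a • W x := by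
      rw [Algebra.smul_def, map_mul, Algebra.smul_def]
      congr 1
      exact hW a
    rw [h1]
    exact Submodule.smul_mem _ _ hx

end Transport

/-! ### General levels -/

section General

variable {N' N'' ℓ : ℕ} [NeZero N'] [NeZero N''] [NeZero ℓ]

/-- The degree of the inclusion `Fb N' ⊆ Fb (N' ℓ)` for a prime `ℓ ∤ N'`. -/
theorem finrankAlong_inclBar_of_prime (e : N'' = N' * ℓ) (hℓ : ℓ.Prime) (hℓN : ¬ ℓ ∣ N')
    (h : N' ∣ N'') : finrankAlong Kb (inclBar h) = ℓ + 1 := by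
  subst e
  exact Deg.finrankAlong_heckeAlphaBar N' ℓ hℓ hℓN

/-- The degree of `y(q) ↦ y(q^ℓ)`, `Fb N' → Fb (N' ℓ)`, for a prime `ℓ ∤ N'`. -/
theorem finrankAlong_degBar_of_prime (e : N'' = N' * ℓ) (hℓ : ℓ.Prime) (hℓN : ¬ ℓ ∣ N')
    (h : N' * ℓ ∣ N'') : finrankAlong Kb (degBar ℓ h) = ℓ + 1 := by
  subst e
  have h1 : degBar ℓ h = heckeBetaBar Kb N' ℓ := (heckeBetaBar_eq_degBar ℓ).symm
  rw [finrankAlong_congr h1, finrankAlong_heckeBetaBar_eq,
    Deg.finrankAlong_heckeAlphaBar N' ℓ hℓ hℓN]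

/-- **Generation, `α`-type step.**  For a prime `ℓ ∤ N'` and `d ∣ N'`, `Fb (N' ℓ)` is spanned over
`Fb N'` (inclusion) by the image of any ring hom `g` whose image contains `j(q^{ℓ d})`. -/
theorem mem_span_inclBar_of_prime (e : N'' = N' * ℓ) (hℓ : ℓ.Prime) (hℓN : ¬ ℓ ∣ N')
    (h : N' ∣ N'') {F : Type*} [Ring F] (g : F →+* Fb N'') {d : ℕ} (hd : d ∣ N') (x : F)
    (hx : ((g x : Fb N'') : LaurentSeries Kb) = Jz 1 (ℓ * d)) (z : Fb N'') :
    z ∈ (letI := algebraAlong (inclBar h); Submodule.span (Fb N') (Set.range g)) := by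
  subst e
  rw [show inclBar h = heckeAlphaBar Kb N' ℓ from rfl]
  letI := algebraAlong (heckeAlphaBar Kb N' ℓ)
  haveI : Module.Finite (Fb N') (Fb (N' * ℓ)) := finiteAlong_heckeAlphaBar N' ℓ
  haveI : Algebra.IsIntegral (Fb N') (Fb (N' * ℓ)) := Algebra.IsIntegral.of_finite _ _
  have hgx : g x = heckeBetaBar Kb N' ℓ (jGenZ N' d) :=
    Subtype.ext (by rw [hx, coe_beta_jGenZ N' ℓ hd])
  refine mem_span_range_of_adjoin_eq_top g x (Algebra.IsIntegral.isIntegral _) ?_ z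
  rw [hgx]
  exact adjoin_beta_jGenZ_eq_top hℓ hℓN hd

/-- **Generation, `β`-type step.**  For a prime `ℓ ∤ N'` and `c ∣ N'`, `Fb (N' ℓ)` is spanned over
`Fb N'` (via `y(q) ↦ y(q^ℓ)`) by the image of any ring hom `g` whose image contains `j(q^c)`. -/
theorem mem_span_degBar_of_prime (e : N'' = N' * ℓ) (hℓ : ℓ.Prime) (hℓN : ¬ ℓ ∣ N')
    (h : N' * ℓ ∣ N'') {F : Type*} [Ring F] (g : F →+* Fb N'') {c : ℕ} (hc : c ∣ N') (x : F)
    (hx : ((g x : Fb N'') : LaurentSeries Kb) = Jz 1 c) (z : Fb N'') :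
    z ∈ (letI := algebraAlong (degBar ℓ h); Submodule.span (Fb N') (Set.range g)) := by
  subst e
  have h1 : degBar ℓ h = heckeBetaBar Kb N' ℓ := (heckeBetaBar_eq_degBar ℓ).symm
  rw [h1]
  obtain ⟨c', rfl⟩ := hc
  have hc0 : c ≠ 0 := fun h0 => NeZero.ne (c * c') (by rw [h0, zero_mul])
  have hc'0 : c' ≠ 0 := fun h0 => NeZero.ne (c * c') (by rw [h0, mul_zero])
  haveI : NeZero c := ⟨hc0⟩
  haveI : NeZero c' := ⟨hc'0⟩
  haveI : NeZero (c' * ℓ) := ⟨mul_ne_zero hc'0 (NeZero.ne ℓ)⟩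
  let W' := Fermat.Agent.Jac.ALF.atkinLehnerFull (c * c' * ℓ)
  let W := Fermat.Agent.Jac.ALF.atkinLehnerFull (c * c')
  let g' : F →+* Fb (c * c' * ℓ) := (W' : Fb (c * c' * ℓ) →+* Fb (c * c' * ℓ)).comp g
  have hde : c * (c' * ℓ) = c * c' * ℓ := by ring
  -- `g' x = j(q^{c' ℓ})`
  have hgx : g x = jBarD (c * c' * ℓ) c (Dvd.intro (c' * ℓ) hde) := by
    apply Subtype.ext
    rw [hx, coe_jBarD, coeffEmb_qExpand_jq, Jz_one_eq_jqNModC]
  have hg'x : ((g' x : Fb (c * c' * ℓ)) : LaurentSeries Kb) = Jz 1 (ℓ * c') := by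
    show ((W' (g x) : Fb (c * c' * ℓ)) : LaurentSeries Kb) = _
    rw [hgx, Fermat.Agent.Jac.ALF.atkinLehnerFull_jBarD (c * c' * ℓ) c (c' * ℓ) hde, coe_jBarD,
      coeffEmb_qExpand_jq, mul_comm ℓ c', Jz_one_eq_jqNModC]
  have key := mem_span_inclBar_of_prime (N' := c * c') (N'' := c * c' * ℓ) rfl hℓ hℓN
    (dvd_mul_right _ _) g' (d := c') (Dvd.intro_left c rfl) x hg'x (W' z)
  have key2 := map_mem_span_of_mem_span (heckeAlphaBar Kb (c * c') ℓ) (heckeBetaBar Kb (c * c') ℓ)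
    (W : Fb (c * c') →+* Fb (c * c')) (W' : Fb (c * c' * ℓ) →+* Fb (c * c' * ℓ))
    (fun a => Fermat.Agent.Jac.ALF.atkinLehnerFull_alpha (c * c') ℓ a) (Set.range g') key
  have hWW : W' (W' z) = z := Fermat.Agent.Jac.ALF.atkinLehnerFull_atkinLehnerFull _ z
  rw [show ((W' : Fb (c * c' * ℓ) →+* Fb (c * c' * ℓ)) (W' z)) = z from hWW] at key2
  letI := algebraAlong (heckeBetaBar Kb (c * c') ℓ)
  refine Submodule.span_mono ?_ key2
  rintro _ ⟨_, ⟨y, rfl⟩, rfl⟩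
  exact ⟨y, (Fermat.Agent.Jac.ALF.atkinLehnerFull_atkinLehnerFull _ (g y)).symm⟩

end General

end Fermat.Agent.BR2.LevelGen

end
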