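import Mathlib
import Fermat.Agent.BR2.LevelGen
import Fermat.Agent.BR.LevelTransfer

/-!
# Phase 2, node (M1): the degeneracy maps between the `JZero N` and the Hecke operators

`alphaUp N ℓ`, `alphaDown N ℓ` are helper29's `BR/LevelTransfer` (`α^*`, `α_*` for the inclusion
`Fb N ⊆ Fb (N ℓ)`).  Here:

* `betaUp N ℓ`, `betaDown N ℓ` (`β^*`, `β_*` for `y(q) ↦ y(q^ℓ)`), `betaDown_betaUp`, Galois
  equivariance;
* `castJ (h : N = N') : JZero N ≃+ JZero N'` with `castJ_smul`, `castJ_hecke`;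
* `heckeAlong_eq` : the Prelude's Hecke operator is `α_{p*} ∘ β_p^*` in the `pull`/`push` calculus;
* **Hecke equivariance** (`p ∤ N ℓ` prime): `alphaUp_hecke`, `betaUp_hecke`; and for `ℓ ∤ N` prime:
  `alphaDown_hecke`, `betaDown_hecke`;
* **base-change squares** (`q` prime, `q ∤ M₀ ℓ'`): `alpha_square`, `beta_square`:
  `α_{q*} ∘ π^* = π₀^* ∘ α_{q*}`, `β_{q*} ∘ π^* = π₀^* ∘ β_{q*}` for `π = α_{ℓ'}`.

Everything is deduced from `LevelGen.baseChange` (norm base change in a square; generation from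
the primitive elements `j(q^{dℓ})`) and the functoriality `pull_comp`, `push_comp`.
-/

set_option autoImplicit false
set_option linter.style.haveILetI false
set_option linter.unusedSectionVars false

noncomputable section

namespace Fermat.Agent.BR2.LevelMaps

open AlgebraicCurve ModularCurve HahnSeries Fermat.Agent.X0 Fermat.Agent.Red
  Fermat.Agent.Hecke Fermat.Agent.Jac Fermat.Agent.ES Fermat.Agent.BR.PicFunct
  Fermat.Agent.BR2.PicFunct2 Fermat.Agent.BR2.LevelGen Fermat.Agent.BR.LevelTransfer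

/-! ### `β^*`, `β_*` -/

section Beta

variable (N ℓ : ℕ) [NeZero N] [NeZero ℓ]

theorem alphaUp_eq_pull (x : JZero N) : alphaUp N ℓ x = pull (heckeAlphaBar Kb N ℓ) x := rfl

theorem alphaDown_eq_push (y : JZero (N * ℓ)) :
    alphaDown N ℓ y = push (heckeAlphaBar Kb N ℓ) y := rfl

/-- `β^* : J₀(N) → J₀(N ℓ)`. -/
def betaUp : JZero N →+ JZero (N * ℓ) := pull (heckeBetaBar Kb N ℓ)

/-- `β_* : J₀(N ℓ) → J₀(N)`. -/
def betaDown : JZero (N * ℓ) →+ JZero N := push (heckeBetaBar Kb N ℓ)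

theorem betaUp_eq_pull (x : JZero N) : betaUp N ℓ x = pull (heckeBetaBar Kb N ℓ) x := rfl

theorem betaDown_eq_push (y : JZero (N * ℓ)) :
    betaDown N ℓ y = push (heckeBetaBar Kb N ℓ) y := rfl

/-- `β_* β^* = deg β = deg α`. -/
theorem betaDown_betaUp (x : JZero N) : betaDown N ℓ (betaUp N ℓ x) = alphaDeg N ℓ • x := by
  rw [betaDown, betaUp, push_pull, finrankAlong_heckeBetaBar_eq]
  rfl

/-- `β^*` is Galois equivariant. -/
theorem betaUp_smul (σ : GQ) (x : JZero N) : betaUp N ℓ (σ • x) = σ • betaUp N ℓ x :=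
  pull_smul _ (fun σ y => heckeBetaBar_galAut N ℓ σ y) σ x

/-- `β_*` is Galois equivariant. -/
theorem betaDown_smul (σ : GQ) (y : JZero (N * ℓ)) :
    betaDown N ℓ (σ • y) = σ • betaDown N ℓ y :=
  push_smul _ (fun σ y => heckeBetaBar_galAut N ℓ σ y) σ y

end Beta

/-! ### Level casts -/

section Cast

/-- Transport along an equality of levels. -/
def castJ {N N' : ℕ} (h : N = N') : JZero N ≃+ JZero N' := by
  subst h
  exact AddEquiv.refl _

@[simp]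
theorem castJ_rfl {N : ℕ} (x : JZero N) : castJ (rfl : N = N) x = x := rfl

theorem castJ_symm_apply {N N' : ℕ} (h : N = N') (x : JZero N') :
    (castJ h).symm x = castJ h.symm x := by
  subst h
  rfl

theorem castJ_castJ {N N' N'' : ℕ} (h : N = N') (h' : N' = N'') (x : JZero N) :
    castJ h' (castJ h x) = castJ (h.trans h') x := by
  subst h
  subst h'
  rfl

theorem castJ_smul {N N' : ℕ} (h : N = N') (σ : GQ) (x : JZero N) :
    castJ h (σ • x) = σ • castJ h x := by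
  subst h
  rfl

theorem castJ_hecke {N N' : ℕ} [NeZero N] [NeZero N'] (h : N = N') (p : Nat.Primes)
    (x : JZero N) : castJ h (heckeOperatorBar N p x) = heckeOperatorBar N' p (castJ h x) := by
  subst h
  rfl

/-- `α_*` after a level cast is the push-forward along the inclusion. -/
theorem alphaDown_castJ {N' N'' ℓ : ℕ} [NeZero N'] [NeZero N''] [NeZero ℓ] (e : N'' = N' * ℓ)
    (h : N' ∣ N'') (y : JZero N'') : alphaDown N' ℓ (castJ e y) = push (inclBar h) y := by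
  subst e
  rfl

/-- `β_*` after a level cast is the push-forward along `y(q) ↦ y(q^ℓ)`. -/
theorem betaDown_castJ {N' N'' ℓ : ℕ} [NeZero N'] [NeZero N''] [NeZero ℓ] (e : N'' = N' * ℓ)
    (h : N' * ℓ ∣ N'') (y : JZero N'') : betaDown N' ℓ (castJ e y) = push (degBar ℓ h) y := by
  subst e
  exact push_congr (heckeBetaBar_eq_degBar ℓ) y

end Cast

/-! ### The Hecke operator in the `pull` / `push` calculus -/

section Hecke

variable (N : ℕ) [NeZero N]

/-- The Prelude's Hecke operator is `α_{p*} ∘ β_p^*`. -/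
theorem heckeAlong_eq (p : ℕ) [NeZero p] (x : JZero N) :
    heckeOperatorAlong Kb N p x = push (heckeAlphaBar Kb N p) (pull (heckeBetaBar Kb N p) x) := by
  rw [heckeOperatorAlong_eq_heckePic0Bar]
  exact correspondence_eq _ _ _ _ _ _ _ x

variable (ℓ : ℕ) [NeZero ℓ]

theorem qExpand_congr {m n : ℕ} [NeZero m] [NeZero n] (h : m = n) (f : LaurentSeries Kb) :
    qExpand Kb m f = qExpand Kb n f := by
  subst h
  rfl

/-- `j(q)` as an element of `Fb N`, in `Jz` form. -/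
theorem coe_jGenZ_one : ((jGenZ N 1 : Fb N) : LaurentSeries Kb) = Jz 1 1 :=
  coe_jGenZ N (one_dvd N)

/-- **`α^*` commutes with `T_p`**, `p ∤ N ℓ` prime (operator form on `heckeOperatorAlong`). -/
theorem alphaUp_heckeAlong (p : ℕ) [NeZero p] (hp : p.Prime) (hpN : ¬ p ∣ N * ℓ) (x : JZero N) :
    alphaUp N ℓ (heckeOperatorAlong Kb N p x) =
      heckeOperatorAlong Kb (N * ℓ) p (alphaUp N ℓ x) := by
  have hpN' : ¬ p ∣ N := fun h => hpN (dvd_mul_of_dvd_left h ℓ)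
  rw [heckeAlong_eq, heckeAlong_eq, alphaUp_eq_pull, alphaUp_eq_pull]
  -- the square: verticals `α_p`, horizontals the inclusions
  have hNp : N * p ∣ N * ℓ * p := ⟨ℓ, by ring⟩
  let g : Fb (N * p) →ₐ[Kb] Fb (N * ℓ * p) := inclBar hNp
  have hBC := baseChange (heckeAlphaBar Kb N p) (heckeAlphaBar Kb (N * ℓ) p)
    (heckeAlphaBar Kb N ℓ) g
    (algHom_ext_coe fun y => by
      simp only [AlgHom.comp_apply, coe_heckeAlphaBar, g, coe_inclBar])
    (by rw [Deg.finrankAlong_heckeAlphaBar N p hp hpN',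
      Deg.finrankAlong_heckeAlphaBar (N * ℓ) p hp hpN])
    (fun z => mem_span_inclBar_of_prime (N' := N * ℓ) (N'' := N * ℓ * p) rfl hp hpN
      (dvd_mul_right _ _) g.toRingHom (d := 1) (one_dvd _) (heckeBetaBar Kb N p (jGenZ N 1))
      (by
        show ((g (heckeBetaBar Kb N p (jGenZ N 1)) : Fb (N * ℓ * p)) : LaurentSeries Kb) = _
        rw [coe_inclBar, coe_beta_jGenZ N p (one_dvd N)]) z)
    (pull (heckeBetaBar Kb N p) x)
  rw [← hBC, ← pull_comp, ← pull_comp]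
  refine congrArg (push (heckeAlphaBar Kb (N * ℓ) p)) (pull_congr (algHom_ext_coe fun y => ?_) x)
  simp only [AlgHom.comp_apply, coe_heckeAlphaBar, coe_heckeBetaBar, g, coe_inclBar]

/-- **`α_*` commutes with `T_p`**, `ℓ` prime, `ℓ ∤ N p`. -/
theorem alphaDown_heckeAlong (hℓ : ℓ.Prime) (p : ℕ) [NeZero p] (hℓNp : ¬ ℓ ∣ N * p)
    (y : JZero (N * ℓ)) :
    alphaDown N ℓ (heckeOperatorAlong Kb (N * ℓ) p y) =
      heckeOperatorAlong Kb N p (alphaDown N ℓ y) := by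
  have hℓN : ¬ ℓ ∣ N := fun h => hℓNp (dvd_mul_of_dvd_left h p)
  rw [heckeAlong_eq, heckeAlong_eq, alphaDown_eq_push, alphaDown_eq_push]
  have hNp : N * p ∣ N * ℓ * p := ⟨ℓ, by ring⟩
  let i' : Fb (N * p) →ₐ[Kb] Fb (N * ℓ * p) := inclBar hNp
  have e : N * ℓ * p = N * p * ℓ := by ring
  have hBC := baseChange (heckeAlphaBar Kb N ℓ) i' (heckeBetaBar Kb N p)
    (heckeBetaBar Kb (N * ℓ) p)
    (algHom_ext_coe fun y => by
      simp only [AlgHom.comp_apply, coe_heckeAlphaBar, coe_heckeBetaBar, i', coe_inclBar])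
    (by rw [Deg.finrankAlong_heckeAlphaBar N ℓ hℓ hℓN,
      finrankAlong_inclBar_of_prime e hℓ hℓNp hNp])
    (fun z => mem_span_inclBar_of_prime e hℓ hℓNp hNp (heckeBetaBar Kb (N * ℓ) p).toRingHom
      (d := p) (dvd_mul_left p N) (heckeBetaBar Kb N ℓ (jGenZ N 1))
      (by
        show ((heckeBetaBar Kb (N * ℓ) p (heckeBetaBar Kb N ℓ (jGenZ N 1)) : Fb (N * ℓ * p)) :
          LaurentSeries Kb) = _
        rw [coe_heckeBetaBar, coe_beta_jGenZ N ℓ (one_dvd N), mul_one,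
          qExpand_Jz p 1 (NeZero.ne ℓ), mul_comm p ℓ]) z)
    y
  rw [← hBC, ← push_comp, ← push_comp]
  refine push_congr (algHom_ext_coe fun y => ?_) _
  simp only [AlgHom.comp_apply, coe_heckeAlphaBar, i', coe_inclBar]

/-- **`β^*` commutes with `T_p`**, `p ∤ N ℓ` prime. -/
theorem betaUp_heckeAlong (p : ℕ) [NeZero p] (hp : p.Prime) (hpN : ¬ p ∣ N * ℓ) (x : JZero N) :
    betaUp N ℓ (heckeOperatorAlong Kb N p x) =
      heckeOperatorAlong Kb (N * ℓ) p (betaUp N ℓ x) := by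
  have hpN' : ¬ p ∣ N := fun h => hpN (dvd_mul_of_dvd_left h ℓ)
  rw [heckeAlong_eq, heckeAlong_eq, betaUp_eq_pull, betaUp_eq_pull]
  have hNp : N * p * ℓ ∣ N * ℓ * p := ⟨1, by ring⟩
  let g : Fb (N * p) →ₐ[Kb] Fb (N * ℓ * p) := degBar ℓ hNp
  have hBC := baseChange (heckeAlphaBar Kb N p) (heckeAlphaBar Kb (N * ℓ) p)
    (heckeBetaBar Kb N ℓ) g
    (algHom_ext_coe fun y => by
      simp only [AlgHom.comp_apply, coe_heckeAlphaBar, coe_heckeBetaBar, g, coe_degBar])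
    (by rw [Deg.finrankAlong_heckeAlphaBar N p hp hpN',
      Deg.finrankAlong_heckeAlphaBar (N * ℓ) p hp hpN])
    (fun z => mem_span_inclBar_of_prime (N' := N * ℓ) (N'' := N * ℓ * p) rfl hp hpN
      (dvd_mul_right _ _) g.toRingHom (d := ℓ) (dvd_mul_left ℓ N)
      (heckeBetaBar Kb N p (jGenZ N 1))
      (by
        show ((g (heckeBetaBar Kb N p (jGenZ N 1)) : Fb (N * ℓ * p)) : LaurentSeries Kb) = _
        rw [coe_degBar, coe_beta_jGenZ N p (one_dvd N), mul_one,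
          qExpand_Jz ℓ 1 (NeZero.ne p), mul_comm ℓ p]) z)
    (pull (heckeBetaBar Kb N p) x)
  rw [← hBC, ← pull_comp, ← pull_comp]
  refine congrArg (push (heckeAlphaBar Kb (N * ℓ) p)) (pull_congr (algHom_ext_coe fun y => ?_) x)
  simp only [AlgHom.comp_apply, coe_heckeBetaBar, g, coe_degBar]
  rw [qExpand_qExpand, qExpand_qExpand]
  exact qExpand_congr (mul_comm _ _) _

/-- **`β_*` commutes with `T_p`**, `ℓ` prime, `ℓ ∤ N p`. -/
theorem betaDown_heckeAlong (hℓ : ℓ.Prime) (p : ℕ) [NeZero p] (hℓNp : ¬ ℓ ∣ N * p)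
    (y : JZero (N * ℓ)) :
    betaDown N ℓ (heckeOperatorAlong Kb (N * ℓ) p y) =
      heckeOperatorAlong Kb N p (betaDown N ℓ y) := by
  have hℓN : ¬ ℓ ∣ N := fun h => hℓNp (dvd_mul_of_dvd_left h p)
  rw [heckeAlong_eq, heckeAlong_eq, betaDown_eq_push, betaDown_eq_push]
  have hNp : N * p * ℓ ∣ N * ℓ * p := ⟨1, by ring⟩
  let i' : Fb (N * p) →ₐ[Kb] Fb (N * ℓ * p) := degBar ℓ hNp
  have e : N * ℓ * p = N * p * ℓ := by ring
  have hBC := baseChange (heckeBetaBar Kb N ℓ) i' (heckeBetaBar Kb N p)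
    (heckeBetaBar Kb (N * ℓ) p)
    (algHom_ext_coe fun y => by
      simp only [AlgHom.comp_apply, coe_heckeBetaBar, i', coe_degBar]
      rw [qExpand_qExpand, qExpand_qExpand]
      exact qExpand_congr (mul_comm _ _) _)
    (by rw [finrankAlong_heckeBetaBar_eq, Deg.finrankAlong_heckeAlphaBar N ℓ hℓ hℓN,
      finrankAlong_degBar_of_prime e hℓ hℓNp hNp])
    (fun z => mem_span_degBar_of_prime e hℓ hℓNp hNp (heckeBetaBar Kb (N * ℓ) p).toRingHom
      (c := p) (dvd_mul_left p N) (jGenZ (N * ℓ) 1)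
      (by
        show ((heckeBetaBar Kb (N * ℓ) p (jGenZ (N * ℓ) 1) : Fb (N * ℓ * p)) :
          LaurentSeries Kb) = _
        rw [coe_beta_jGenZ (N * ℓ) p (one_dvd _), mul_one]) z)
    y
  rw [← hBC, ← push_comp, ← push_comp]
  refine push_congr (algHom_ext_coe fun y => ?_) _
  simp only [AlgHom.comp_apply, coe_heckeAlphaBar, coe_heckeBetaBar, i', coe_degBar]

end Hecke

/-! ### The statements for the Prelude's `heckeOperatorBar` -/

section HeckeBar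

variable (N ℓ : ℕ) [NeZero N] [NeZero ℓ]

/-- **`α^*` commutes with `T_p`**, `p ∤ N ℓ`. -/
theorem alphaUp_hecke (p : Nat.Primes) (hp : ¬ (p : ℕ) ∣ N * ℓ) (x : JZero N) :
    alphaUp N ℓ (heckeOperatorBar N p x) = heckeOperatorBar (N * ℓ) p (alphaUp N ℓ x) := by
  haveI : NeZero (p : ℕ) := ⟨p.2.ne_zero⟩
  exact alphaUp_heckeAlong N ℓ p p.2 hp x

/-- **`β^*` commutes with `T_p`**, `p ∤ N ℓ`. -/
theorem betaUp_hecke (p : Nat.Primes) (hp : ¬ (p : ℕ) ∣ N * ℓ) (x : JZero N) :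
    betaUp N ℓ (heckeOperatorBar N p x) = heckeOperatorBar (N * ℓ) p (betaUp N ℓ x) := by
  haveI : NeZero (p : ℕ) := ⟨p.2.ne_zero⟩
  exact betaUp_heckeAlong N ℓ p p.2 hp x

/-- **`α_*` commutes with `T_p`**, `ℓ` prime, `ℓ ∤ N p` (`p` any prime, also `p ∣ N`). -/
theorem alphaDown_hecke (hℓ : ℓ.Prime) (p : Nat.Primes) (hℓNp : ¬ ℓ ∣ N * p)
    (y : JZero (N * ℓ)) :
    alphaDown N ℓ (heckeOperatorBar (N * ℓ) p y) = heckeOperatorBar N p (alphaDown N ℓ y) := by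
  haveI : NeZero (p : ℕ) := ⟨p.2.ne_zero⟩
  exact alphaDown_heckeAlong N ℓ hℓ p hℓNp y

/-- **`β_*` commutes with `T_p`**, `ℓ` prime, `ℓ ∤ N p` (`p` any prime, also `p ∣ N`). -/
theorem betaDown_hecke (hℓ : ℓ.Prime) (p : Nat.Primes) (hℓNp : ¬ ℓ ∣ N * p)
    (y : JZero (N * ℓ)) :
    betaDown N ℓ (heckeOperatorBar (N * ℓ) p y) = heckeOperatorBar N p (betaDown N ℓ y) := by
  haveI : NeZero (p : ℕ) := ⟨p.2.ne_zero⟩
  exact betaDown_heckeAlong N ℓ hℓ p hℓNp y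

end HeckeBar

/-! ### The base-change squares -/

section Squares

variable (M₀ q ℓ' : ℕ) [NeZero M₀] [NeZero q] [NeZero ℓ']

/-- **`α`-square**, cast-free form: `(incl)_* ∘ π^* = π₀^* ∘ α_{q*}`, `π = α_{ℓ'}`. -/
theorem alpha_square_push (hq : q.Prime) (hqM : ¬ q ∣ M₀ * ℓ') (h : M₀ * ℓ' ∣ M₀ * q * ℓ')
    (x : JZero (M₀ * q)) :
    push (inclBar h) (alphaUp (M₀ * q) ℓ' x) = alphaUp M₀ ℓ' (alphaDown M₀ q x) := by
  have hqM₀ : ¬ q ∣ M₀ := fun h' => hqM (dvd_mul_of_dvd_left h' ℓ')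
  have e : M₀ * q * ℓ' = M₀ * ℓ' * q := by ring
  rw [alphaUp_eq_pull, alphaUp_eq_pull, alphaDown_eq_push]
  exact baseChange (heckeAlphaBar Kb M₀ q) (inclBar h) (heckeAlphaBar Kb M₀ ℓ')
    (heckeAlphaBar Kb (M₀ * q) ℓ')
    (algHom_ext_coe fun y => by
      simp only [AlgHom.comp_apply, coe_heckeAlphaBar, coe_inclBar])
    (by rw [Deg.finrankAlong_heckeAlphaBar M₀ q hq hqM₀,
      finrankAlong_inclBar_of_prime e hq hqM h])
    (fun z => mem_span_inclBar_of_prime e hq hqM h (heckeAlphaBar Kb (M₀ * q) ℓ').toRingHom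
      (d := 1) (one_dvd _) (heckeBetaBar Kb M₀ q (jGenZ M₀ 1))
      (by
        show ((heckeAlphaBar Kb (M₀ * q) ℓ' (heckeBetaBar Kb M₀ q (jGenZ M₀ 1)) :
          Fb (M₀ * q * ℓ')) : LaurentSeries Kb) = _
        rw [coe_heckeAlphaBar, coe_beta_jGenZ M₀ q (one_dvd M₀)]) z)
    x

/-- **`α`-square**: `α_{q*} ∘ π^* = π₀^* ∘ α_{q*}` for `π = α_{ℓ'}`, `q ∤ M₀ ℓ'` prime. -/
theorem alpha_square (hq : q.Prime) (hqM : ¬ q ∣ M₀ * ℓ') (e : M₀ * q * ℓ' = M₀ * ℓ' * q)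
    (x : JZero (M₀ * q)) :
    alphaDown (M₀ * ℓ') q (castJ e (alphaUp (M₀ * q) ℓ' x)) =
      alphaUp M₀ ℓ' (alphaDown M₀ q x) := by
  have h : M₀ * ℓ' ∣ M₀ * q * ℓ' := ⟨q, by ring⟩
  rw [alphaDown_castJ e h, alpha_square_push M₀ q ℓ' hq hqM h]

/-- **`β`-square**, cast-free form. -/
theorem beta_square_push (hq : q.Prime) (hqM : ¬ q ∣ M₀ * ℓ') (h : M₀ * ℓ' * q ∣ M₀ * q * ℓ')
    (x : JZero (M₀ * q)) :
    push (degBar q h) (alphaUp (M₀ * q) ℓ' x) = alphaUp M₀ ℓ' (betaDown M₀ q x) := by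
  have hqM₀ : ¬ q ∣ M₀ := fun h' => hqM (dvd_mul_of_dvd_left h' ℓ')
  have e : M₀ * q * ℓ' = M₀ * ℓ' * q := by ring
  rw [alphaUp_eq_pull, alphaUp_eq_pull, betaDown_eq_push]
  exact baseChange (heckeBetaBar Kb M₀ q) (degBar q h) (heckeAlphaBar Kb M₀ ℓ')
    (heckeAlphaBar Kb (M₀ * q) ℓ')
    (algHom_ext_coe fun y => by
      simp only [AlgHom.comp_apply, coe_heckeAlphaBar, coe_heckeBetaBar, coe_degBar])
    (by rw [finrankAlong_heckeBetaBar_eq, Deg.finrankAlong_heckeAlphaBar M₀ q hq hqM₀,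
      finrankAlong_degBar_of_prime e hq hqM h])
    (fun z => mem_span_degBar_of_prime e hq hqM h (heckeAlphaBar Kb (M₀ * q) ℓ').toRingHom
      (c := 1) (one_dvd _) (jGenZ (M₀ * q) 1)
      (by
        show ((heckeAlphaBar Kb (M₀ * q) ℓ' (jGenZ (M₀ * q) 1) : Fb (M₀ * q * ℓ')) :
          LaurentSeries Kb) = _
        rw [coe_heckeAlphaBar, coe_jGenZ (M₀ * q) (one_dvd _)]) z)
    x

/-- **`β`-square**: `β_{q*} ∘ π^* = π₀^* ∘ β_{q*}` for `π = α_{ℓ'}`, `q ∤ M₀ ℓ'` prime. -/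
theorem beta_square (hq : q.Prime) (hqM : ¬ q ∣ M₀ * ℓ') (e : M₀ * q * ℓ' = M₀ * ℓ' * q)
    (x : JZero (M₀ * q)) :
    betaDown (M₀ * ℓ') q (castJ e (alphaUp (M₀ * q) ℓ' x)) =
      alphaUp M₀ ℓ' (betaDown M₀ q x) := by
  have h : M₀ * ℓ' * q ∣ M₀ * q * ℓ' := ⟨1, by ring⟩
  rw [betaDown_castJ e h, beta_square_push M₀ q ℓ' hq hqM h]

end Squares

end Fermat.Agent.BR2.LevelMaps

end
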