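import Mathlib
import Fermat.Agent.BR2.LevelMaps

/-!
# Phase 2, node (M1), final exports: the endomorphisms `Ealpha`, `Ebeta` and the aux level

`Ealpha M₀ q = α^* ∘ α_*`, `Ebeta M₀ q = β^* ∘ β_*` : endomorphisms of `JZero (M₀ * q)` (the two
degeneracy maps `X₀(M₀ q) → X₀(M₀)`).

* `Ealpha_smul`, `Ebeta_smul`, `Ealpha_hecke`, `Ebeta_hecke` : Galois and Hecke equivariance;
* `alphaDown_Ealpha`, `betaDown_Ebeta` : `α_* ∘ Ealpha = (deg α) • α_*` (the `(q + 1)`-trick),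
  `alphaDeg_eq` : `deg α = q + 1` for `q ∤ M₀` prime;
* `Ealpha_square`, `Ebeta_square` : with `π^* = alphaUp (M₀ * q) ℓ'` and the level cast
  `castJ e : JZero (M₀ * q * ℓ') ≃+ JZero (M₀ * ℓ' * q)`:
  `castJ⁻¹ ∘ Ealpha (M₀ ℓ') q ∘ castJ ∘ π^* = π^* ∘ Ealpha M₀ q`, same for `Ebeta`;
* rfl-lemmas `alphaDown_eq_pic0Push`, `betaDown_eq_pic0Push`, `alphaUp_eq_pic0Pull`,
  `betaUp_eq_pic0Pull` (the maps are literally `PicFunct.pic0Push` / `pic0Pull`).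
-/

set_option autoImplicit false
set_option linter.style.haveILetI false
set_option linter.unusedSectionVars false

noncomputable section

namespace Fermat.Agent.BR2.LevelSquares

open AlgebraicCurve ModularCurve HahnSeries Fermat.Agent.X0 Fermat.Agent.Red
  Fermat.Agent.Hecke Fermat.Agent.Jac Fermat.Agent.ES Fermat.Agent.BR.PicFunct
  Fermat.Agent.BR2.PicFunct2 Fermat.Agent.BR2.LevelGen Fermat.Agent.BR.LevelTransfer
  Fermat.Agent.BR2.LevelMaps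

/-! ### The maps are literally `pic0Push` / `pic0Pull` -/

section Literal

variable (N ℓ : ℕ) [NeZero N] [NeZero ℓ]

theorem alphaUp_eq_pic0Pull (x : JZero N) :
    alphaUp N ℓ x = pic0Pull (heckeAlphaBar Kb N ℓ) (heckeAlphaBarIntegral N ℓ)
      (fundamentalIdentityAlong_alpha N ℓ) x := rfl

theorem alphaDown_eq_pic0Push (y : JZero (N * ℓ)) :
    alphaDown N ℓ y = pic0Push (heckeAlphaBar Kb N ℓ) (heckeAlphaBarIntegral N ℓ)
      (finiteAlong_heckeAlphaBar N ℓ) (normFormulaAlong_alpha N ℓ) y := rfl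

theorem betaUp_eq_pic0Pull (x : JZero N) :
    betaUp N ℓ x = pic0Pull (heckeBetaBar Kb N ℓ) (heckeBetaBarIntegral N ℓ)
      (fundamentalIdentityAlong_beta N ℓ) x := rfl

theorem betaDown_eq_pic0Push (y : JZero (N * ℓ)) :
    betaDown N ℓ y = pic0Push (heckeBetaBar Kb N ℓ) (heckeBetaBarIntegral N ℓ)
      (finiteAlong_heckeBetaBar N ℓ) (normFormulaAlong_beta N ℓ) y := rfl

end Literal

/-! ### `Ealpha`, `Ebeta` -/

section Endo

variable (M₀ q : ℕ) [NeZero M₀] [NeZero q]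

/-- `α^* ∘ α_*` on `JZero (M₀ * q)`. -/
def Ealpha : JZero (M₀ * q) →+ JZero (M₀ * q) := (alphaUp M₀ q).comp (alphaDown M₀ q)

/-- `β^* ∘ β_*` on `JZero (M₀ * q)`. -/
def Ebeta : JZero (M₀ * q) →+ JZero (M₀ * q) := (betaUp M₀ q).comp (betaDown M₀ q)

theorem Ealpha_apply (x : JZero (M₀ * q)) :
    Ealpha M₀ q x = alphaUp M₀ q (alphaDown M₀ q x) := rfl

theorem Ebeta_apply (x : JZero (M₀ * q)) :
    Ebeta M₀ q x = betaUp M₀ q (betaDown M₀ q x) := rfl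

theorem Ealpha_smul (σ : GQ) (x : JZero (M₀ * q)) : Ealpha M₀ q (σ • x) = σ • Ealpha M₀ q x := by
  rw [Ealpha_apply, Ealpha_apply, alphaDown_smul, alphaUp_smul]

theorem Ebeta_smul (σ : GQ) (x : JZero (M₀ * q)) : Ebeta M₀ q (σ • x) = σ • Ebeta M₀ q x := by
  rw [Ebeta_apply, Ebeta_apply, betaDown_smul, betaUp_smul]

theorem not_dvd_mul_of_prime {q : ℕ} (hq : q.Prime) {M₀ : ℕ} (hqM₀ : ¬ q ∣ M₀) (p : Nat.Primes)
    (hp : ¬ (p : ℕ) ∣ M₀ * q) : ¬ q ∣ M₀ * p := by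
  intro h
  rcases (Nat.Prime.dvd_mul hq).mp h with h1 | h1
  · exact hqM₀ h1
  · have h2 : q = (p : ℕ) := (Nat.prime_dvd_prime_iff_eq hq p.2).mp h1
    exact hp (h2 ▸ dvd_mul_left q M₀)

/-- `Ealpha` commutes with `T_p`, `p ∤ M₀ q`, `q ∤ M₀` prime. -/
theorem Ealpha_hecke (hq : q.Prime) (hqM₀ : ¬ q ∣ M₀) (p : Nat.Primes)
    (hp : ¬ (p : ℕ) ∣ M₀ * q) (x : JZero (M₀ * q)) :
    Ealpha M₀ q (heckeOperatorBar (M₀ * q) p x) = heckeOperatorBar (M₀ * q) p (Ealpha M₀ q x) := by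
  rw [Ealpha_apply, Ealpha_apply,
    alphaDown_hecke M₀ q hq p (not_dvd_mul_of_prime hq hqM₀ p hp), alphaUp_hecke M₀ q p hp]

/-- `Ebeta` commutes with `T_p`, `p ∤ M₀ q`, `q ∤ M₀` prime. -/
theorem Ebeta_hecke (hq : q.Prime) (hqM₀ : ¬ q ∣ M₀) (p : Nat.Primes)
    (hp : ¬ (p : ℕ) ∣ M₀ * q) (x : JZero (M₀ * q)) :
    Ebeta M₀ q (heckeOperatorBar (M₀ * q) p x) = heckeOperatorBar (M₀ * q) p (Ebeta M₀ q x) := by
  rw [Ebeta_apply, Ebeta_apply,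
    betaDown_hecke M₀ q hq p (not_dvd_mul_of_prime hq hqM₀ p hp), betaUp_hecke M₀ q p hp]

/-- `deg α = q + 1` for a prime `q ∤ M₀`. -/
theorem alphaDeg_eq (hq : q.Prime) (hqM₀ : ¬ q ∣ M₀) : alphaDeg M₀ q = q + 1 :=
  Deg.finrankAlong_heckeAlphaBar M₀ q hq hqM₀

/-- `α_* ∘ Ealpha = (deg α) • α_*`. -/
theorem alphaDown_Ealpha (x : JZero (M₀ * q)) :
    alphaDown M₀ q (Ealpha M₀ q x) = alphaDeg M₀ q • alphaDown M₀ q x := by
  rw [Ealpha_apply, alphaDown_alphaUp]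

/-- `β_* ∘ Ebeta = (deg α) • β_*`. -/
theorem betaDown_Ebeta (x : JZero (M₀ * q)) :
    betaDown M₀ q (Ebeta M₀ q x) = alphaDeg M₀ q • betaDown M₀ q x := by
  rw [Ebeta_apply, betaDown_betaUp]

/-- If `Ealpha x = 0` then `(deg α) • α_* x = 0`. -/
theorem alphaDeg_smul_alphaDown_eq_zero {x : JZero (M₀ * q)} (h : Ealpha M₀ q x = 0) :
    alphaDeg M₀ q • alphaDown M₀ q x = 0 := by
  rw [← alphaDown_Ealpha, h, map_zero]

/-- If `Ebeta x = 0` then `(deg α) • β_* x = 0`. -/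
theorem alphaDeg_smul_betaDown_eq_zero {x : JZero (M₀ * q)} (h : Ebeta M₀ q x = 0) :
    alphaDeg M₀ q • betaDown M₀ q x = 0 := by
  rw [← betaDown_Ebeta, h, map_zero]

end Endo

/-! ### Level casts of the up maps -/

section CastUp

variable {N' N'' ℓ : ℕ} [NeZero N'] [NeZero N''] [NeZero ℓ]

/-- `α^*` followed by a level cast is the pull-back along the inclusion. -/
theorem castJ_symm_alphaUp (e : N'' = N' * ℓ) (h : N' ∣ N'') (z : JZero N') :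
    (castJ e).symm (alphaUp N' ℓ z) = pull (inclBar h) z := by
  subst e
  rfl

/-- `β^*` followed by a level cast is the pull-back along `y(q) ↦ y(q^ℓ)`. -/
theorem castJ_symm_betaUp (e : N'' = N' * ℓ) (h : N' * ℓ ∣ N'') (z : JZero N') :
    (castJ e).symm (betaUp N' ℓ z) = pull (degBar ℓ h) z := by
  subst e
  exact pull_congr (heckeBetaBar_eq_degBar ℓ) z

end CastUp

/-! ### The squares for `Ealpha`, `Ebeta` and the auxiliary level -/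

section Squares

variable (M₀ q ℓ' : ℕ) [NeZero M₀] [NeZero q] [NeZero ℓ']

/-- `π^* ∘ α_q^* = (incl)^* ∘ π₀^*` : both are the pull-back along `Fb M₀ ⊆ Fb (M₀ q ℓ')`. -/
theorem pull_inclBar_alphaUp (h : M₀ * ℓ' ∣ M₀ * q * ℓ') (y : JZero M₀) :
    pull (inclBar h) (alphaUp M₀ ℓ' y) = alphaUp (M₀ * q) ℓ' (alphaUp M₀ q y) := by
  rw [alphaUp_eq_pull, alphaUp_eq_pull, alphaUp_eq_pull, ← pull_comp, ← pull_comp]
  refine pull_congr (algHom_ext_coe fun z => ?_) y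
  simp only [AlgHom.comp_apply, coe_heckeAlphaBar, coe_inclBar]

/-- `π^* ∘ β_q^* = (β_q)^* ∘ π₀^*`. -/
theorem pull_degBar_alphaUp (h : M₀ * ℓ' * q ∣ M₀ * q * ℓ') (y : JZero M₀) :
    pull (degBar q h) (alphaUp M₀ ℓ' y) = alphaUp (M₀ * q) ℓ' (betaUp M₀ q y) := by
  rw [alphaUp_eq_pull, alphaUp_eq_pull, betaUp_eq_pull, ← pull_comp, ← pull_comp]
  refine pull_congr (algHom_ext_coe fun z => ?_) y
  simp only [AlgHom.comp_apply, coe_heckeAlphaBar, coe_heckeBetaBar, coe_degBar]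

/-- **The `Ealpha`-square**: `castJ⁻¹ ∘ Ealpha (M₀ ℓ') q ∘ castJ ∘ π^* = π^* ∘ Ealpha M₀ q`,
`π^* = alphaUp (M₀ q) ℓ'`, `q ∤ M₀ ℓ'` prime. -/
theorem Ealpha_square (hq : q.Prime) (hqM : ¬ q ∣ M₀ * ℓ') (e : M₀ * q * ℓ' = M₀ * ℓ' * q)
    (x : JZero (M₀ * q)) :
    (castJ e).symm (Ealpha (M₀ * ℓ') q (castJ e (alphaUp (M₀ * q) ℓ' x))) =
      alphaUp (M₀ * q) ℓ' (Ealpha M₀ q x) := by
  have h : M₀ * ℓ' ∣ M₀ * q * ℓ' := ⟨q, by ring⟩
  rw [Ealpha_apply, Ealpha_apply, alpha_square M₀ q ℓ' hq hqM e, castJ_symm_alphaUp e h,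
    pull_inclBar_alphaUp]

/-- **The `Ebeta`-square**: `castJ⁻¹ ∘ Ebeta (M₀ ℓ') q ∘ castJ ∘ π^* = π^* ∘ Ebeta M₀ q`. -/
theorem Ebeta_square (hq : q.Prime) (hqM : ¬ q ∣ M₀ * ℓ') (e : M₀ * q * ℓ' = M₀ * ℓ' * q)
    (x : JZero (M₀ * q)) :
    (castJ e).symm (Ebeta (M₀ * ℓ') q (castJ e (alphaUp (M₀ * q) ℓ' x))) =
      alphaUp (M₀ * q) ℓ' (Ebeta M₀ q x) := by
  have h : M₀ * ℓ' * q ∣ M₀ * q * ℓ' := ⟨1, by ring⟩
  rw [Ebeta_apply, Ebeta_apply, beta_square M₀ q ℓ' hq hqM e, castJ_symm_betaUp e h,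
    pull_degBar_alphaUp]

end Squares

end Fermat.Agent.BR2.LevelSquares

end
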