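import Mathlib
import Fermat.Agent.BR2.LevelSquares
import Fermat.Agent.Jac.HeckeCommUncond

/-!
# Phase 2, node (M1-OUT): the level maps of `BR2/GeoPlug.geoInputSpan_of_nodes`, instantiated

Levels `M = M₀ * q`, `N = M₀ * ℓ' * q` (`ℓ'` the auxiliary prime), `e : M₀ * q * ℓ' = M₀ * ℓ' * q`.

* `pullN = castJ e ∘ alphaUp (M₀ q) ℓ' : JZero M →+ JZero N`,
  `pushN = alphaDown (M₀ q) ℓ' ∘ (castJ e)⁻¹ : JZero N →+ JZero M`, `dN = alphaDeg (M₀ q) ℓ'`;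
* `pushN_pullN`, `pullN_smul`, `pushN_smul`, `pullN_hecke`, `pushN_hecke` (in the `heckeGen ℓ • ·`
  form for the Prelude's `heckeModuleBar`), `dN_ne_zero`;
* `EalphaN_pullN`, `EbetaN_pullN` : `Ealpha (M₀ ℓ') q ∘ pullN = pullN ∘ Ealpha M₀ q`, same for
  `Ebeta`.

These are verbatim the hypotheses `hpp`, `hpull_smul`, `hpull_hecke`, `hpush_hecke`, `hEαN`,
`hEβN`, `hEαM`, `hEβM`, `hsqα`, `hsqβ` of `geoInputSpan_of_nodes`.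
-/

set_option autoImplicit false
set_option linter.style.haveILetI false
set_option linter.unusedSectionVars false

noncomputable section

namespace Fermat.Agent.BR2.LevelPlug

open AlgebraicCurve ModularCurve Fermat.Agent.X0 Fermat.Agent.Jac Fermat.Agent.BR.LevelTransfer
  Fermat.Agent.BR2.LevelMaps Fermat.Agent.BR2.LevelSquares

variable (M₀ q ℓ' : ℕ) [NeZero M₀] [NeZero q] [NeZero ℓ'] (e : M₀ * q * ℓ' = M₀ * ℓ' * q)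

/-- `π^*` to the auxiliary level, landing in the level written `M₀ * ℓ' * q`. -/
def pullN : JZero (M₀ * q) →+ JZero (M₀ * ℓ' * q) :=
  (castJ e).toAddMonoidHom.comp (alphaUp (M₀ * q) ℓ')

/-- `π_*` from the auxiliary level written `M₀ * ℓ' * q`. -/
def pushN : JZero (M₀ * ℓ' * q) →+ JZero (M₀ * q) :=
  (alphaDown (M₀ * q) ℓ').comp (castJ e).symm.toAddMonoidHom

/-- The degree of `π`. -/
def dN : ℕ := alphaDeg (M₀ * q) ℓ'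

theorem pullN_apply (x : JZero (M₀ * q)) :
    pullN M₀ q ℓ' e x = castJ e (alphaUp (M₀ * q) ℓ' x) := rfl

theorem pushN_apply (y : JZero (M₀ * ℓ' * q)) :
    pushN M₀ q ℓ' e y = alphaDown (M₀ * q) ℓ' ((castJ e).symm y) := rfl

theorem dN_ne_zero : dN M₀ q ℓ' ≠ 0 := alphaDeg_ne_zero (M₀ * q) ℓ'

theorem dN_eq (hℓ' : ℓ'.Prime) (hℓ'M : ¬ ℓ' ∣ M₀ * q) : dN M₀ q ℓ' = ℓ' + 1 :=
  alphaDeg_eq (M₀ * q) ℓ' hℓ' hℓ'M

/-- `hpp`. -/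
theorem pushN_pullN (x : JZero (M₀ * q)) :
    pushN M₀ q ℓ' e (pullN M₀ q ℓ' e x) = dN M₀ q ℓ' • x := by
  rw [pushN_apply, pullN_apply, AddEquiv.symm_apply_apply, alphaDown_alphaUp]
  rfl

/-- `hpull_smul`. -/
theorem pullN_smul (g : GQ) (x : JZero (M₀ * q)) :
    pullN M₀ q ℓ' e (g • x) = g • pullN M₀ q ℓ' e x := by
  rw [pullN_apply, pullN_apply, alphaUp_smul, castJ_smul]

theorem pushN_smul (g : GQ) (y : JZero (M₀ * ℓ' * q)) :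
    pushN M₀ q ℓ' e (g • y) = g • pushN M₀ q ℓ' e y := by
  rw [pushN_apply, pushN_apply, castJ_symm_apply, castJ_symm_apply, castJ_smul, alphaDown_smul]

/-- `π^*` commutes with `T_ℓ`, `ℓ ∤ M₀ q ℓ'`. -/
theorem pullN_heckeBar (ℓ : Nat.Primes) (hℓ : ¬ (ℓ : ℕ) ∣ M₀ * q * ℓ') (x : JZero (M₀ * q)) :
    pullN M₀ q ℓ' e (heckeOperatorBar (M₀ * q) ℓ x) =
      heckeOperatorBar (M₀ * ℓ' * q) ℓ (pullN M₀ q ℓ' e x) := by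
  rw [pullN_apply, pullN_apply, alphaUp_hecke (M₀ * q) ℓ' ℓ hℓ, castJ_hecke]

/-- `π_*` commutes with `T_ℓ`, `ℓ ∤ M₀ q ℓ'`, `ℓ' ∤ M₀ q` prime. -/
theorem pushN_heckeBar (hℓ' : ℓ'.Prime) (hℓ'M : ¬ ℓ' ∣ M₀ * q) (ℓ : Nat.Primes)
    (hℓ : ¬ (ℓ : ℕ) ∣ M₀ * q * ℓ') (y : JZero (M₀ * ℓ' * q)) :
    pushN M₀ q ℓ' e (heckeOperatorBar (M₀ * ℓ' * q) ℓ y) =
      heckeOperatorBar (M₀ * q) ℓ (pushN M₀ q ℓ' e y) := by
  rw [pushN_apply, pushN_apply, castJ_symm_apply, castJ_symm_apply, castJ_hecke,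
    alphaDown_hecke (M₀ * q) ℓ' hℓ' ℓ (not_dvd_mul_of_prime hℓ' hℓ'M ℓ hℓ)]

/-- `hpull_hecke` in the `heckeGen ℓ • ·` form. -/
theorem pullN_hecke (ℓ : Nat.Primes) (hℓ : ¬ (ℓ : ℕ) ∣ M₀ * q * ℓ') (x : JZero (M₀ * q)) :
    letI := heckeModuleBar (M₀ * q)
    letI := heckeModuleBar (M₀ * ℓ' * q)
    pullN M₀ q ℓ' e (heckeGen ℓ • x) = heckeGen ℓ • pullN M₀ q ℓ' e x := by
  rw [heckeGen_smul_eq (M₀ * q) ℓ x, heckeGen_smul_eq (M₀ * ℓ' * q) ℓ]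
  exact pullN_heckeBar M₀ q ℓ' e ℓ hℓ x

/-- `hpush_hecke` in the `heckeGen ℓ • ·` form. -/
theorem pushN_hecke (hℓ' : ℓ'.Prime) (hℓ'M : ¬ ℓ' ∣ M₀ * q) (ℓ : Nat.Primes)
    (hℓ : ¬ (ℓ : ℕ) ∣ M₀ * q * ℓ') (y : JZero (M₀ * ℓ' * q)) :
    letI := heckeModuleBar (M₀ * q)
    letI := heckeModuleBar (M₀ * ℓ' * q)
    pushN M₀ q ℓ' e (heckeGen ℓ • y) = heckeGen ℓ • pushN M₀ q ℓ' e y := by
  rw [heckeGen_smul_eq (M₀ * ℓ' * q) ℓ y, heckeGen_smul_eq (M₀ * q) ℓ]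
  exact pushN_heckeBar M₀ q ℓ' e hℓ' hℓ'M ℓ hℓ y

/-- `hsqα`. -/
theorem EalphaN_pullN (hq : q.Prime) (hqM : ¬ q ∣ M₀ * ℓ') (x : JZero (M₀ * q)) :
    Ealpha (M₀ * ℓ') q (pullN M₀ q ℓ' e x) = pullN M₀ q ℓ' e (Ealpha M₀ q x) := by
  rw [pullN_apply, pullN_apply, ← Ealpha_square M₀ q ℓ' hq hqM e x, AddEquiv.apply_symm_apply]

/-- `hsqβ`. -/
theorem EbetaN_pullN (hq : q.Prime) (hqM : ¬ q ∣ M₀ * ℓ') (x : JZero (M₀ * q)) :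
    Ebeta (M₀ * ℓ') q (pullN M₀ q ℓ' e x) = pullN M₀ q ℓ' e (Ebeta M₀ q x) := by
  rw [pullN_apply, pullN_apply, ← Ebeta_square M₀ q ℓ' hq hqM e x, AddEquiv.apply_symm_apply]

end Fermat.Agent.BR2.LevelPlug

end
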