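import Fermat.Agent.BR2.GeoPlug
import Fermat.Agent.BR2.LevelPlug
import Fermat.Agent.BR.GenusAuxLevel

/-!
# Phase 2 (S35): the final instantiation of `geoInputSpan_of_nodes`

Level `M = M₀ * q` (`q ∤ M₀`), auxiliary prime `ℓ'` (`X₀(M₀ ℓ')` without elliptic points),
`N = M₀ * ℓ' * q`, `S' = insert ℓ' S`.

* `E7OutProp M₀ q S' χ'` : the output **(E7'-OUT)** of the Hecke nodes at the level `M₀ * q`
  (tuple `rho, A, hA, Ψ, P, Q` of `geoInputSpan_of_nodes` with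
  `EαM = LevelSquares.Ealpha M₀ q`, `EβM = LevelSquares.Ebeta M₀ q`);
* `GeoLevelProp M₁ q lam σ` : the output **(GEO-LEVEL)** of the geometric nodes at the level
  `M₁ * q` (`M₁ = M₀ ℓ'`): subgroups `nat m`, `tor m` of `JZero (M₁ * q)` and `e₀ ≠ 0` with
  (G3), (G4), (G5) in the shapes of `geoInputSpan_of_nodes`;
* `geoInputSpan_of_props` : `GeoInputSpan (M₀ * q) lam S' χ' q σ` from these two outputs and the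
  level maps of `BR2/LevelPlug.lean`;
* `exists_geoInputSpan` : the hypothesis `hgeo` of `s35_of_hgeo` (`BR2/S35Reduce.lean`) at one
  `q`, `B`, `σ`, for the level `M₀ * q`: choice of the auxiliary prime by
  `GenusCount.exists_aux_level`.
-/

set_option autoImplicit false
set_option linter.style.haveILetI false
set_option linter.unusedSectionVars false

open ModularCurve CuspForm

namespace Fermat.Agent.BR2.S35Final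

open Fermat.Agent.Pseudo Fermat.Agent.Pseudo.GQSys Fermat.Agent.Pseudo.JZ Fermat.Agent.Jac
  Fermat.Agent.BR2.FrobSquare Fermat.Agent.BR2.LevelSquares Fermat.Agent.BR2.LevelPlug

local notation "Qb" => AlgebraicClosure ℚ
local notation "GQ" => (AlgebraicClosure ℚ ≃ₐ[ℚ] AlgebraicClosure ℚ)

/-- **(E7'-OUT)** at the level `M₀ * q`. -/
def E7OutProp (M₀ q : ℕ) [NeZero M₀] [NeZero q] (S' : Finset ℕ) {O' : Type} [CommRing O']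
    (χ' : heckeAlgebra (M₀ * q) 2 (↑S' : Set ℕ) →+* O') : Prop :=
  letI := heckeModuleBar (M₀ * q)
  ∃ (rho : ℕ → Lam (M₀ * q) →+ JZero (M₀ * q))
    (A : Subalgebra ℤ (Module.End ℤ (Lam (M₀ * q))))
    (hA : ∀ i : Idx S', TLam (M₀ * q) i.1 ∈ A)
    (Ψ : A →+* heckeAlgebra (M₀ * q) 2 (↑S' : Set ℕ)) (P : A) (Q : HeckeAlg),
    (∀ K : ℕ, 0 < K → ∀ x, rho K x = 0 ↔ ∃ mu, x = K • mu) ∧
    (∀ K : ℕ, 0 < K → ∀ (ℓ : Nat.Primes) (x : Lam (M₀ * q)),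
      rho K (TLam (M₀ * q) ℓ x) = heckeGen ℓ • rho K x) ∧
    (∀ (ℓ : ℕ) (hℓ : ℓ.Prime) (hℓM : ¬ ℓ ∣ M₀ * q) (hℓS : ℓ ∉ (↑S' : Set ℕ)),
      Ψ ⟨TLam (M₀ * q) ⟨ℓ, hℓ⟩, hA ⟨⟨ℓ, hℓ⟩, hℓS⟩⟩ = heckeAlgebra.T hℓ hℓM hℓS) ∧
    Q ∈ Algebra.adjoin ℤ (heckeGen '' {ℓ : Nat.Primes | (ℓ : ℕ) ∉ S'}) ∧
    (∀ K : ℕ, 0 < K →
      Intertwined (rho K) (P : Module.End ℤ (Lam (M₀ * q))) (heckeEnd (JZero (M₀ * q)) Q)) ∧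
    χ' (Ψ P) ≠ 0 ∧
    ∀ K : ℕ, 0 < K → ∀ x : Lam (M₀ * q),
      Ealpha M₀ q (Q • rho K x) = 0 ∧ Ebeta M₀ q (Q • rho K x) = 0

/-- **(GEO-LEVEL)** at the level `M₁ * q`. -/
def GeoLevelProp (M₁ q lam : ℕ) [NeZero M₁] [NeZero q] (σ : GQ) : Prop :=
  ∃ (nat tor : ℕ → AddSubgroup (JZero (M₁ * q))) (e₀ : ℕ), e₀ ≠ 0 ∧
    (∀ (m : ℕ) (w : JZero (M₁ * q)), (lam ^ m) • w = 0 → σ • σ • w - w ∈ nat m) ∧
    (∀ (m : ℕ), ∀ v ∈ tor m, theta (galEnd (JZero (M₁ * q)) σ) (q : ℤ) v = 0) ∧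
    (∀ (m : ℕ), ∀ v ∈ nat m, Ealpha M₁ q v = 0 → Ebeta M₁ q v = 0 → e₀ • v ∈ tor m)

section

variable (M₀ q ℓ' : ℕ) [NeZero M₀] [NeZero q] [NeZero ℓ'] (lam : ℕ) (S' : Finset ℕ)
  {O' : Type} [CommRing O'] (χ' : heckeAlgebra (M₀ * q) 2 (↑S' : Set ℕ) →+* O') (σ : GQ)

/-- **`GeoInputSpan` at the level `M₀ * q` from (E7'-OUT), (GEO-LEVEL) and the level maps.** -/
theorem geoInputSpan_of_props (hlam : lam ≠ 0) (hq : q.Prime) (hℓ' : ℓ'.Prime)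
    (hℓ'M : ¬ ℓ' ∣ M₀ * q) (hqM : ¬ q ∣ M₀ * ℓ')
    (hS' : ∀ ℓ : Nat.Primes, (ℓ : ℕ) ∉ S' → ¬ (ℓ : ℕ) ∣ M₀ * q * ℓ')
    (hE7 : E7OutProp M₀ q S' χ') (hGeo : GeoLevelProp (M₀ * ℓ') q lam σ) :
    GeoInputSpan (M₀ * q) lam S' χ' q σ := by
  obtain ⟨rho, A, hA, Ψ, P, Q, hker, hTL, hΨ, hQ, hPQ, hχ, hE⟩ := hE7
  obtain ⟨nat, tor, e₀, he₀, G3, G4, G5⟩ := hGeo
  have e : M₀ * q * ℓ' = M₀ * ℓ' * q := by ring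
  exact geoInputSpan_of_nodes (M := M₀ * q) (N := M₀ * ℓ' * q) lam S' χ' q σ hlam
    rho A hA Ψ P Q hker hTL hΨ hQ hPQ hχ
    (Ealpha M₀ q) (Ebeta M₀ q) (Ealpha_smul M₀ q) (Ebeta_smul M₀ q) hE
    (pullN M₀ q ℓ' e) (pushN M₀ q ℓ' e) (dN M₀ q ℓ') (dN_ne_zero M₀ q ℓ')
    (pushN_pullN M₀ q ℓ' e) (pullN_smul M₀ q ℓ' e)
    (fun ℓ hℓ x => pullN_hecke M₀ q ℓ' e ℓ (hS' ℓ hℓ) x)
    (fun ℓ hℓ y => pushN_hecke M₀ q ℓ' e hℓ' hℓ'M ℓ (hS' ℓ hℓ) y)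
    (Ealpha (M₀ * ℓ') q) (Ebeta (M₀ * ℓ') q) (Ealpha_smul (M₀ * ℓ') q) (Ebeta_smul (M₀ * ℓ') q)
    (EalphaN_pullN M₀ q ℓ' e hq hqM) (EbetaN_pullN M₀ q ℓ' e hq hqM)
    nat tor e₀ he₀ G3 G4 G5

end

/-- **The hypothesis `hgeo` of `s35_of_hgeo` at the level `M₀ * q`**, for one prime `q ∤ M₀`, one
valuation ring over `q` and one Frobenius element: the auxiliary prime is chosen by
`exists_aux_level`, `S' := insert ℓ' S`. -/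
theorem exists_geoInputSpan (M₀ q : ℕ) [NeZero M₀] [NeZero q] (lam : ℕ) (S : Finset ℕ)
    {O' : Type} [CommRing O'] (χ : heckeAlgebra (M₀ * q) 2 (↑S : Set ℕ) →+* O') (σ : GQ)
    (hlam : lam ≠ 0) (hq : q.Prime) (hqM₀ : ¬ q ∣ M₀)
    (hMS : ∀ r : ℕ, r.Prime → r ∣ M₀ * q → r ∈ S)
    (hE7 : ∀ (S' : Finset ℕ) (hSS' : S ⊆ S'),
      E7OutProp M₀ q S' (χ.comp (heckeAlgebraIncl hSS')))
    (hGeo : ∀ (ℓ' : ℕ) [NeZero ℓ'], ℓ'.Prime → ¬ ℓ' ∣ M₀ * q → ¬ q ∣ M₀ * ℓ' →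
      nuTwo (M₀ * ℓ') = 0 → nuThree (M₀ * ℓ') = 0 → GeoLevelProp (M₀ * ℓ') q lam σ) :
    ∃ (S' : Finset ℕ) (hSS' : S ⊆ S'),
      GeoInputSpan (M₀ * q) lam S' (χ.comp (heckeAlgebraIncl hSS')) q σ := by
  obtain ⟨ℓ', hℓ', -, hℓ'q, hℓ'M₀, -, h2, h3, -⟩ :=
    Fermat.Agent.BR.GenusCount.exists_aux_level (q := q) (M := M₀) (p := 1)
      (NeZero.ne q) (NeZero.ne M₀) one_ne_zero
  haveI : NeZero ℓ' := ⟨hℓ'.ne_zero⟩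
  have hℓ'M : ¬ ℓ' ∣ M₀ * q := fun h =>
    (hℓ'.dvd_mul.mp h).elim hℓ'M₀ hℓ'q
  have hqM : ¬ q ∣ M₀ * ℓ' := fun h =>
    (hq.dvd_mul.mp h).elim hqM₀ fun h' =>
      hℓ'q (by rw [(Nat.prime_dvd_prime_iff_eq hq hℓ').mp h'])
  have hSS' : S ⊆ insert ℓ' S := Finset.subset_insert ℓ' S
  refine ⟨insert ℓ' S, hSS', ?_⟩
  refine geoInputSpan_of_props M₀ q ℓ' lam (insert ℓ' S) _ σ hlam hq hℓ' hℓ'M hqM ?_
    (hE7 _ hSS') (hGeo ℓ' hℓ' hℓ'M hqM h2 h3)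
  intro ℓ hℓS hdvd
  rcases (ℓ.2.dvd_mul.mp hdvd) with h | h
  · exact hℓS (Finset.mem_insert_of_mem (hMS ℓ ℓ.2 h))
  · exact hℓS (by
      rw [(Nat.prime_dvd_prime_iff_eq ℓ.2 hℓ').mp h]
      exact Finset.mem_insert_self ℓ' S)

end Fermat.Agent.BR2.S35Final
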