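/-
Phase 2 (S35), node (E7-PLUG), final form (helper15; shapes by helper25): the output
`S35Final.E7OutProp M₀ q S' χ'` of the Hecke nodes at the literal level `M₀ q` (`q ∤ M₀` prime),
`χ' = iota ∘ chig ∘ heckeAlgebraIncl`, for the system of eigenvalues `chig` of a form `g` of level
`M₀ q` which is NEW at `M₀`:

* `e7OutProp_of_hN5` : from the named hypothesis `hN5` (no normalized eigenform of level `M₀` has
  the eigenvalues of `g` outside `S'`: node (N5));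
* inputs: `E7Plug.e7Plug` (Kummer maps with the degeneracy intertwinings + vanishing),
  `NewQuotient.exists_poly_newQuotient_idx` (the polynomial `p`),
  `EigenformOfRingHom.exists_eigenform_of_ringHom_final` (eigenform of a character of the Hecke
  algebra of level `M₀`).
-/
import Mathlib
import Fermat.Agent.BR2.E7Plug
import Fermat.Agent.BR2.NewQuotientIdx
import Fermat.Agent.BR2.EigenformOfRingHomFinal
import Fermat.Agent.BR2.S35Final

set_option autoImplicit false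
set_option linter.unusedSectionVars false
set_option linter.style.haveILetI false
set_option linter.unusedVariables false

open ModularCurve CuspForm

noncomputable section

namespace Fermat.Agent.BR2.E7PlugFinal

open Fermat.Agent Fermat.Agent.Jac Fermat.Agent.Pseudo Fermat.Agent.Pseudo.GQSys
open Fermat.Agent.BR2 Fermat.Agent.BR2.E7Plug

/-- the two copies of `α^* α_*` on `J₀(M₀ q)` agree -/
theorem Ealpha_eq (M₀ q : ℕ) [NeZero M₀] [NeZero q] :
    LevelSquares.Ealpha M₀ q = SpecDeg.Ealpha M₀ q := rfl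

/-- the two copies of `β^* β_*` on `J₀(M₀ q)` agree -/
theorem Ebeta_eq (M₀ q : ℕ) [NeZero M₀] [NeZero q] :
    LevelSquares.Ebeta M₀ q = SpecDeg.Ebeta M₀ q := rfl

/-- **(E7-PLUG)** from the polynomial `p` of the node (E7)(e). -/
theorem e7OutProp_of_poly (M₀ q : ℕ) [NeZero M₀] [NeZero q] (hq : q.Prime) (hqM₀ : ¬ q ∣ M₀)
    (S' : Finset ℕ) (hqS' : q ∈ S') {O' : Type} [CommRing O']
    (χ' : heckeAlgebra (M₀ * q) 2 (↑S' : Set ℕ) →+* O')
    (p : FreeAlgebra ℤ (Idx S'))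
    (hp : FreeAlgebra.lift ℤ (fun i : Idx S' => TLam M₀ i.1) p = 0)
    (hχ : χ' (lamPsi (M₀ * q) (↑S' : Set ℕ)
      ⟨E7Out.Pof M₀ q (prS S') p, Pof_mem_TLamAlg M₀ q S' p⟩) ≠ 0) :
    S35Final.E7OutProp M₀ q S' χ' := by
  obtain ⟨rho, A, hA, Ψ, P, Q, hker, hTL, hΨ, hQ, hPQ, hχ', hE7⟩ :=
    e7Plug M₀ q hq hqM₀ S' hqS' χ' p hp hχ
  exact ⟨rho, A, hA, Ψ, P, Q, hker, hTL, hΨ, hQ, hPQ, hχ', hE7⟩

/-- **(E7-PLUG)**, from the named hypothesis (N5). -/
theorem e7OutProp_of_hN5 (M₀ q : ℕ) [NeZero M₀] [NeZero q] (hq : q.Prime) (hqM₀ : ¬ q ∣ M₀)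
    {g : CuspForm (CongruenceSubgroup.Gamma0 (M₀ * q)) 2}
    (S S' : Finset ℕ) (hSS' : S ⊆ S') (hMS : ∀ r : ℕ, r.Prime → r ∣ M₀ * q → r ∈ S)
    {O' : Type} [CommRing O'] [CharZero O']
    (chig : heckeAlgebra (M₀ * q) 2 (↑S : Set ℕ) →+* ℂ)
    (hchig : ∀ (ℓ : ℕ) (hℓ : ℓ.Prime) (hℓM : ¬ ℓ ∣ M₀ * q) (hℓS : ℓ ∉ (↑S : Set ℕ)),
      chig (heckeAlgebra.T hℓ hℓM hℓS) = ModularFormClass.qCoeff g ℓ)
    (iota : chig.range →+* O')
    (hN5 : ¬ ∃ f : CuspForm (CongruenceSubgroup.Gamma0 M₀) 2, f.IsNormalizedEigenform ∧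
      ∀ r : ℕ, r.Prime → r ∉ S' → ¬ r ∣ M₀ * q →
        ModularFormClass.qCoeff f r = ModularFormClass.qCoeff g r) :
    S35Final.E7OutProp M₀ q S' ((iota.comp chig.rangeRestrict).comp (heckeAlgebraIncl hSS')) := by
  have hMS' : ∀ r : ℕ, r.Prime → r ∣ M₀ * q → r ∈ S' := fun r hr h => hSS' (hMS r hr h)
  have hqS' : q ∈ S' := hMS' q hq (dvd_mul_left q M₀)
  obtain ⟨p, hp, hpχ⟩ := NewQuotient.exists_poly_newQuotient_idx (M0 := M₀) (q := q) (g := g)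
    S S' hSS' hMS' chig hchig iota
    (fun ψ => EigenformOfRingHom.exists_eigenform_of_ringHom_final ψ) hN5
  refine e7OutProp_of_poly M₀ q hq hqM₀ S' hqS' _ p hp ?_
  exact hpχ (TLamAlg (M₀ * q) (↑S' : Set ℕ))
    (fun i => TLam_mem_TLamAlg (M₀ * q) (↑S' : Set ℕ) i.2) (lamPsi (M₀ * q) (↑S' : Set ℕ))
    (fun ℓ hℓ hℓM hℓS =>
      lamPsi_TLam_of_not_dvd (M₀ * q) (↑S' : Set ℕ) (l := ⟨ℓ, hℓ⟩) hℓM hℓS)

end Fermat.Agent.BR2.E7PlugFinal
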