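/-
Phase 2 (S35), node (E7-PLUG), CLOSED form (helper15): the output `S35Final.E7OutProp M₀ q S' χ'`
of the Hecke nodes for the system of eigenvalues of a NEWFORM `g` of level `M₀ q` (`q ∤ M₀` prime),
with nothing named: the hypothesis (N5) of `E7PlugFinal.e7OutProp_of_hN5` is
`StrongMultOne.not_exists_eigenform_of_isNewform` (helper10) at `M' := M₀ ∣ M₀ q`, `M₀ ≠ M₀ q`.
-/
import Mathlib
import Fermat.Agent.BR2.E7PlugFinal
import Fermat.Agent.BR2.StrongMultOne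

set_option autoImplicit false
set_option linter.unusedSectionVars false
set_option linter.unusedVariables false

open ModularCurve CuspForm

noncomputable section

namespace Fermat.Agent.BR2.E7PlugNewform

open Fermat.Agent Fermat.Agent.Jac Fermat.Agent.Pseudo Fermat.Agent.Pseudo.GQSys
open Fermat.Agent.BR2

/-- `M₀ ≠ M₀ q` for a prime `q`. -/
theorem ne_mul_prime (M₀ q : ℕ) [NeZero M₀] (hq : q.Prime) : M₀ ≠ M₀ * q :=
  ((Nat.lt_mul_iff_one_lt_right (NeZero.pos M₀)).2 hq.one_lt).ne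

/-- **(E7-PLUG)**, closed: the (E7'-OUT) block for a newform `g` of level `M₀ q`. -/
theorem e7PlugNewform (M₀ q : ℕ) [NeZero M₀] [NeZero q] (hq : q.Prime) (hqM₀ : ¬ q ∣ M₀)
    {g : CuspForm (CongruenceSubgroup.Gamma0 (M₀ * q)) 2} (hg : g.IsNewform)
    (S S' : Finset ℕ) (hSS' : S ⊆ S') (hMS : ∀ r : ℕ, r.Prime → r ∣ M₀ * q → r ∈ S)
    {O' : Type} [CommRing O'] [CharZero O']
    (chig : heckeAlgebra (M₀ * q) 2 (↑S : Set ℕ) →+* ℂ)
    (hchig : ∀ (ℓ : ℕ) (hℓ : ℓ.Prime) (hℓM : ¬ ℓ ∣ M₀ * q) (hℓS : ℓ ∉ (↑S : Set ℕ)),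
      chig (heckeAlgebra.T hℓ hℓM hℓS) = ModularFormClass.qCoeff g ℓ)
    (iota : chig.range →+* O') :
    S35Final.E7OutProp M₀ q S' ((iota.comp chig.rangeRestrict).comp (heckeAlgebraIncl hSS')) :=
  E7PlugFinal.e7OutProp_of_hN5 M₀ q hq hqM₀ S S' hSS' hMS chig hchig iota
    (StrongMultOne.not_exists_eigenform_of_isNewform hg (dvd_mul_right M₀ q)
      (ne_mul_prime M₀ q hq) S')

end Fermat.Agent.BR2.E7PlugNewform
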