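import Mathlib
import Fermat.Agent.BR.SS.Setup
import Fermat.Agent.Red.NormalForm
import Fermat.Prelude.Def_AlgebraicCurve_BaseChangeGalois

/-!
# Phase 2 (S35), node (FILT): the filtration `tor ≤ nat ≤ Pic⁰[m]` of a semistable setup

`S : SS.SemistableSetup A π ι Ft ν` a semistable valued function field `F/K` (Program B, block B3),
`m : ℕ`.  A class `x ∈ Pic⁰(F)` killed by `m` is represented by `(D, f)` with `m D = div f`
(`IsRep`).  On every component `v` the function `f` has a *residue* `g ∈ (Ft v)ˣ`, well defined up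
to `kˣ`: the reduction of a constant multiple `c • f` which is a unit of `O v` (`IsResidue`,
`exists_isResidue`).

* `natSub S m` : the classes with a representative `(D, f)` all of whose residues have divisor in
  `m · Div(Ft v)` (the *finite part*; the orders of the residues at the smooth points are always
  divisible by `m` by conservation, so this is a condition at the branch points only);
* `torSub S m` : the classes with a representative all of whose residues are `m`-th powers up to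
  constants (the *toric part*, the kernel of `natSub → ∏ Pic⁰(Ft v)[m]`).

Both are subgroups of `Pic⁰(F)`.

* `Equivariant S g a` : the semilinear automorphism `g` of `F/K` preserves the valuation rings
  `O v`, induces the semilinear automorphism `a v` of `Ft v / k` on the residues and `a v` fixes
  the branch points of the nodes on `v`;
* `smul_sub_mem_natSub` (**(G3), abstract form**): for such a `g` and `m x = 0`:
  `g • x - x ∈ natSub S m`.

These are the subgroups `nat`, `tor` of `BR2.FrobSquare.kill_of_filtration`.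
-/

set_option autoImplicit false

namespace Fermat.Agent.BR2.Filt

open AlgebraicCurve Fermat.Agent.Red Fermat.Agent.BR.SS

variable {K F k : Type*} [Field K] [Field F] [Algebra K F] [Field k]
  {A : ValuationSubring K} {π : A →+* k} {ι : Type*} {Ft : ι → Type*}
  [∀ v, Field (Ft v)] [∀ v, Algebra k (Ft v)] {ν : Type*}
  (S : SemistableSetup (F := F) A π ι Ft ν)

/-! ### Residues -/

/-- `g` is a residue of `f` on the component `v`: `g ≠ 0` is the reduction of a constant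
multiple of `f` lying in `O v`. -/
def IsResidue (v : ι) (f : F) (g : Ft v) : Prop :=
  g ≠ 0 ∧ ∃ c : K, c ≠ 0 ∧ ∃ h : c • f ∈ S.O v, S.res v ⟨c • f, h⟩ = g

variable {S}

theorem IsResidue.ne_zero {v : ι} {f : F} {g : Ft v} (h : IsResidue S v f g) : g ≠ 0 := h.1

theorem isResidue_one (v : ι) : IsResidue S v 1 1 := by
  refine ⟨one_ne_zero, 1, one_ne_zero, ?_, ?_⟩
  · rw [one_smul]; exact (S.O v).one_mem
  · have : (⟨(1 : K) • (1 : F), by rw [one_smul]; exact (S.O v).one_mem⟩ : S.O v) = 1 :=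
      Subtype.ext (one_smul _ _)
    rw [this, map_one]

theorem IsResidue.mul {v : ι} {f f' : F} {g g' : Ft v} (h : IsResidue S v f g)
    (h' : IsResidue S v f' g') : IsResidue S v (f * f') (g * g') := by
  obtain ⟨hg, c, hc, hm, hr⟩ := h
  obtain ⟨hg', c', hc', hm', hr'⟩ := h'
  have e : (c * c') • (f * f') = (c • f) * (c' • f') := by
    rw [smul_mul_smul_comm]
  refine ⟨mul_ne_zero hg hg', c * c', mul_ne_zero hc hc', ?_, ?_⟩
  · rw [e]; exact (S.O v).mul_mem _ _ hm hm'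
  · have : (⟨(c * c') • (f * f'), by rw [e]; exact (S.O v).mul_mem _ _ hm hm'⟩ : S.O v) =
        ⟨c • f, hm⟩ * ⟨c' • f', hm'⟩ := Subtype.ext e
    rw [this, map_mul, hr, hr']

theorem IsResidue.inv {v : ι} {f : F} {g : Ft v} (h : IsResidue S v f g) :
    IsResidue S v f⁻¹ g⁻¹ := by
  obtain ⟨hg, c, hc, hm, hr⟩ := h
  -- `c • f` is a unit of `O v`
  have hu : IsUnit (⟨c • f, hm⟩ : S.O v) := by
    by_contra hnu
    exact hg (hr ▸ (S.res_eq_zero_iff v _).mpr hnu)
  obtain ⟨u, hu⟩ := hu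
  have e : c⁻¹ • f⁻¹ = (c • f)⁻¹ := by
    rw [Algebra.smul_def, Algebra.smul_def, mul_inv, map_inv₀]
  have hval : ((u⁻¹ : (S.O v)ˣ) : F) = (c • f)⁻¹ := by
    have h1 : ((u : S.O v) : F) = c • f := congrArg Subtype.val hu
    have h2 : ((u : S.O v) : F) * (((u⁻¹ : (S.O v)ˣ) : S.O v) : F) = 1 := by
      have h3 : ((u : S.O v) * ((u⁻¹ : (S.O v)ˣ) : S.O v) : S.O v) = 1 := u.mul_inv
      have h4 := congrArg (Subtype.val : S.O v → F) h3
      exact h4
    rw [h1] at h2
    exact (eq_inv_of_mul_eq_one_right h2)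
  have hm' : c⁻¹ • f⁻¹ ∈ S.O v := by
    rw [e, ← hval]
    exact ((u⁻¹ : (S.O v)ˣ) : S.O v).2
  refine ⟨inv_ne_zero hg, c⁻¹, inv_ne_zero hc, hm', ?_⟩
  have h3 : (⟨c⁻¹ • f⁻¹, hm'⟩ : S.O v) = ((u⁻¹ : (S.O v)ˣ) : S.O v) := by
    apply Subtype.ext
    show c⁻¹ • f⁻¹ = _
    rw [e, hval]
  have h4 : S.res v ((u⁻¹ : (S.O v)ˣ) : S.O v) * g = 1 := by
    rw [← hr, ← hu, ← map_mul, Units.inv_mul, map_one]
  rw [h3]
  exact eq_inv_of_mul_eq_one_left h4

/-- Every nonzero function has a residue on every component (from `approx` at `V = ⊥`). -/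
theorem exists_isResidue (v : ι) {f : F} (hf : f ≠ 0) : ∃ g : Ft v, IsResidue S v f g := by
  have hfV : f ∉ (⊥ : Submodule K F) := by
    rw [Submodule.mem_bot]; exact hf
  obtain ⟨w, hw, c, hc, h, hz⟩ := S.approx v ⊥ inferInstance f hfV
  rw [Submodule.mem_bot] at hw
  subst hw
  have h' : c • f ∈ S.O v := by simpa using h
  refine ⟨S.res v ⟨c • f, h'⟩, ?_, c, hc, h', rfl⟩
  have h0 := hz 0 (by simp)
  rw [map_zero] at h0
  intro hzero
  apply h0
  have : (⟨c • (f - 0), h⟩ : S.O v) = ⟨c • f, h'⟩ := by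
    apply Subtype.ext
    show c • (f - 0) = c • f
    rw [sub_zero]
  rw [this, hzero]

variable (S)

/-! ### Representatives of `m`-torsion classes -/

/-- `(D, f)` represents the class `x` killed by `m`: `x = [D]`, `m D = div f`. -/
def IsRep (m : ℕ) (x : Pic0 K F) (D : Divisor.degZero (K := K) (F := F)) (f : F) : Prop :=
  Pic0.mk D = x ∧ f ≠ 0 ∧ ∀ P : Place K F, (m • (D : Divisor K F)) P = P.ord f

variable {S} in
theorem exists_isRep {m : ℕ} {x : Pic0 K F} (hx : m • x = 0) :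
    ∃ (D : Divisor.degZero (K := K) (F := F)) (f : F), IsRep m x D f := by
  obtain ⟨D, rfl⟩ := Pic0.mk_surjective x
  have h1 : Pic0.mk (m • D) = 0 := hx
  have h2 := (QuotientAddGroup.eq_zero_iff _).mp h1
  rw [AddSubgroup.mem_addSubgroupOf] at h2
  obtain ⟨f, hf, hD⟩ := h2
  exact ⟨D, f, rfl, hf, fun P => hD P⟩

theorem isRep_zero (m : ℕ) : IsRep m (0 : Pic0 K F) 0 1 :=
  ⟨rfl, one_ne_zero, fun P => by simp⟩

theorem IsRep.add {m : ℕ} {x y : Pic0 K F} {D D' : Divisor.degZero (K := K) (F := F)}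
    {f f' : F} (h : IsRep m x D f) (h' : IsRep m y D' f') : IsRep m (x + y) (D + D') (f * f') := by
  obtain ⟨rfl, hf, hD⟩ := h
  obtain ⟨rfl, hf', hD'⟩ := h'
  refine ⟨rfl, mul_ne_zero hf hf', fun P => ?_⟩
  rw [AddSubgroup.coe_add, smul_add, Finsupp.add_apply, hD P, hD' P, P.ord_mul hf hf']

theorem IsRep.neg {m : ℕ} {x : Pic0 K F} {D : Divisor.degZero (K := K) (F := F)}
    {f : F} (h : IsRep m x D f) : IsRep m (-x) (-D) f⁻¹ := by
  obtain ⟨rfl, hf, hD⟩ := h
  refine ⟨rfl, inv_ne_zero hf, fun P => ?_⟩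
  rw [AddSubgroup.coe_neg, smul_neg, Finsupp.neg_apply, hD P, P.ord_inv]

/-! ### The subgroups `nat` and `tor` -/

/-- The condition defining `natSub`. -/
def IsNat (m : ℕ) (x : Pic0 K F) : Prop :=
  ∃ (D : Divisor.degZero (K := K) (F := F)) (f : F), IsRep m x D f ∧
    ∀ v, ∃ g : Ft v, IsResidue S v f g ∧
      ∃ E : Divisor k (Ft v), ∀ Q : Place k (Ft v), Q.ord g = (m : ℤ) * E Q

/-- The condition defining `torSub`. -/
def IsTor (m : ℕ) (x : Pic0 K F) : Prop :=
  ∃ (D : Divisor.degZero (K := K) (F := F)) (f : F), IsRep m x D f ∧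
    ∀ v, ∃ g : Ft v, IsResidue S v f g ∧
      ∃ (u : Ft v) (c : k), g = algebraMap k (Ft v) c * u ^ m

/-- **The finite part** of the `m`-torsion: all residues have divisor divisible by `m`. -/
def natSub (m : ℕ) : AddSubgroup (Pic0 K F) where
  carrier := {x | IsNat S m x}
  zero_mem' := ⟨0, 1, isRep_zero m, fun v => ⟨1, isResidue_one v, 0, fun Q => by simp⟩⟩
  add_mem' := by
    rintro x y ⟨D, f, hR, hres⟩ ⟨D', f', hR', hres'⟩
    refine ⟨D + D', f * f', hR.add hR', fun v => ?_⟩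
    obtain ⟨g, hg, E, hE⟩ := hres v
    obtain ⟨g', hg', E', hE'⟩ := hres' v
    refine ⟨g * g', hg.mul hg', E + E', fun Q => ?_⟩
    rw [Q.ord_mul hg.ne_zero hg'.ne_zero, hE Q, hE' Q, Finsupp.add_apply, mul_add]
  neg_mem' := by
    rintro x ⟨D, f, hR, hres⟩
    refine ⟨-D, f⁻¹, hR.neg, fun v => ?_⟩
    obtain ⟨g, hg, E, hE⟩ := hres v
    refine ⟨g⁻¹, hg.inv, -E, fun Q => ?_⟩
    rw [Q.ord_inv, hE Q, Finsupp.neg_apply, mul_neg]

/-- **The toric part** of the `m`-torsion: all residues are `m`-th powers up to constants. -/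
def torSub (m : ℕ) : AddSubgroup (Pic0 K F) where
  carrier := {x | IsTor S m x}
  zero_mem' := ⟨0, 1, isRep_zero m, fun v => ⟨1, isResidue_one v, 1, 1, by simp⟩⟩
  add_mem' := by
    rintro x y ⟨D, f, hR, hres⟩ ⟨D', f', hR', hres'⟩
    refine ⟨D + D', f * f', hR.add hR', fun v => ?_⟩
    obtain ⟨g, hg, u, c, hu⟩ := hres v
    obtain ⟨g', hg', u', c', hu'⟩ := hres' v
    refine ⟨g * g', hg.mul hg', u * u', c * c', ?_⟩
    rw [hu, hu', map_mul, mul_pow]
    ring
  neg_mem' := by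
    rintro x ⟨D, f, hR, hres⟩
    refine ⟨-D, f⁻¹, hR.neg, fun v => ?_⟩
    obtain ⟨g, hg, u, c, hu⟩ := hres v
    refine ⟨g⁻¹, hg.inv, u⁻¹, c⁻¹, ?_⟩
    rw [hu, mul_inv, map_inv₀, inv_pow]

theorem mem_natSub {m : ℕ} {x : Pic0 K F} : x ∈ natSub S m ↔ IsNat S m x := Iff.rfl

theorem mem_torSub {m : ℕ} {x : Pic0 K F} : x ∈ torSub S m ↔ IsTor S m x := Iff.rfl

/-! ### Equivariant automorphisms and (G3) -/

/-- The semilinear automorphism `g` of `F/K` acts on the semistable setup through the semilinear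
automorphisms `a v` of the components: it preserves the valuation rings `O v`, is compatible with
the residue maps, and `a v` fixes the branch points of the nodes. -/
structure Equivariant (g : SemilinearAut K F) (a : ∀ v, SemilinearAut k (Ft v)) : Prop where
  smul_mem : ∀ v (y : F), y ∈ S.O v → g • y ∈ S.O v
  res_smul : ∀ v (y : F) (hy : y ∈ S.O v) (hy' : g • y ∈ S.O v),
    S.res v ⟨g • y, hy'⟩ = a v • S.res v ⟨y, hy⟩
  s₁_fixed : ∀ e, a (S.src e) • S.s₁ e = S.s₁ e
  s₂_fixed : ∀ e, a (S.tgt e) • S.s₂ e = S.s₂ e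

variable {S}

theorem IsResidue.smul {g : SemilinearAut K F} {a : ∀ v, SemilinearAut k (Ft v)}
    (h : Equivariant S g a) {v : ι} {f : F} {g₀ : Ft v} (hg : IsResidue S v f g₀) :
    IsResidue S v (g • f) (a v • g₀) := by
  obtain ⟨hg0, c, hc, hm, hr⟩ := hg
  have e : SemilinearAut.baseAut g c • (g • f) = g • (c • f) := by
    rw [Algebra.smul_def, Algebra.smul_def, smul_mul', SemilinearAut.smul_algebraMap]
  have hm' : SemilinearAut.baseAut g c • (g • f) ∈ S.O v := by
    rw [e]; exact h.smul_mem v _ hm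
  refine ⟨by rwa [Ne, smul_eq_zero_iff_eq], SemilinearAut.baseAut g c, ?_, hm', ?_⟩
  · rwa [Ne, map_eq_zero_iff _ (SemilinearAut.baseAut g).injective]
  · have h1 : (⟨SemilinearAut.baseAut g c • (g • f), hm'⟩ : S.O v) =
        ⟨g • (c • f), h.smul_mem v _ hm⟩ := Subtype.ext e
    rw [h1, h.res_smul v _ hm, hr]

theorem IsRep.smul (g : SemilinearAut K F) {m : ℕ} {x : Pic0 K F}
    {D : Divisor.degZero (K := K) (F := F)} {f : F} (h : IsRep m x D f) :
    IsRep m (g • x) (SemilinearAut.degZeroSMulHom g D) (g • f) := by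
  obtain ⟨rfl, hf, hD⟩ := h
  refine ⟨rfl, by rwa [Ne, smul_eq_zero_iff_eq], fun P => ?_⟩
  have h1 := hD (g⁻¹ • P)
  have h2 := SemilinearAut.ord_smul g (g⁻¹ • P) f
  rw [smul_inv_smul] at h2
  rw [h2, ← h1, SemilinearAut.coe_degZeroSMulHom, Finsupp.smul_apply, Finsupp.smul_apply,
    SemilinearAut.divisor_smul_apply]

/-- A branch point of the component `v` is fixed by `a v`. -/
theorem Equivariant.smul_eq_of_isBranch {g : SemilinearAut K F}
    {a : ∀ v, SemilinearAut k (Ft v)} (h : Equivariant S g a) {v : ι} {Q : Place k (Ft v)}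
    (hQ : S.IsBranch ⟨v, Q⟩) : a v • Q = Q := by
  obtain ⟨e, he | he⟩ := hQ
  · obtain ⟨rfl, h2⟩ := Sigma.mk.inj_iff.mp he
    rw [eq_of_heq h2]
    exact h.s₁_fixed e
  · obtain ⟨rfl, h2⟩ := Sigma.mk.inj_iff.mp he
    rw [eq_of_heq h2]
    exact h.s₂_fixed e

theorem Equivariant.inv_smul_eq_of_isBranch {g : SemilinearAut K F}
    {a : ∀ v, SemilinearAut k (Ft v)} (h : Equivariant S g a) {v : ι} {Q : Place k (Ft v)}
    (hQ : S.IsBranch ⟨v, Q⟩) : (a v)⁻¹ • Q = Q := by
  rw [inv_smul_eq_iff, h.smul_eq_of_isBranch hQ]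

theorem Equivariant.isBranch_inv_smul_iff {g : SemilinearAut K F}
    {a : ∀ v, SemilinearAut k (Ft v)} (h : Equivariant S g a) {v : ι} {Q : Place k (Ft v)} :
    S.IsBranch ⟨v, (a v)⁻¹ • Q⟩ ↔ S.IsBranch ⟨v, Q⟩ := by
  constructor
  · intro hb
    have h1 := h.smul_eq_of_isBranch hb
    rw [smul_inv_smul] at h1
    rw [← h1] at hb
    exact hb
  · intro hb
    rw [h.inv_smul_eq_of_isBranch hb]
    exact hb

/-- Conservation for a residue: at a non-branch point `Q` of `v` the order of a residue of `f`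
(`m D = div f`) is `m` times the coefficient of the reduction of `D`. -/
theorem ord_residue_eq {m : ℕ} {x : Pic0 K F} {D : Divisor.degZero (K := K) (F := F)} {f : F}
    (hR : IsRep m x D f) {v : ι} {g₀ : Ft v} (hg : IsResidue S v f g₀) {Q : Place k (Ft v)}
    (hQ : ¬ S.IsBranch ⟨v, Q⟩) :
    Q.ord g₀ = (m : ℤ) * Finsupp.mapDomain S.r (D : Divisor K F) ⟨v, Q⟩ := by
  obtain ⟨-, hf, hD⟩ := hR
  obtain ⟨hg0, c, hc, hm, hr⟩ := hg
  have hcons := S.conservation v ⟨c • f, hm⟩ (by rw [hr]; exact hg0) (m • (D : Divisor K F))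
    (fun P => by
      rw [hD P]
      exact (Fermat.Agent.Red.NormalForm.ord_const_smul P hc f).symm) Q
    (fun e he => hQ ⟨e, Or.inl he⟩) (fun e he => hQ ⟨e, Or.inr he⟩)
  rw [hr] at hcons
  rw [← hcons, Finsupp.mapDomain_smul, Finsupp.smul_apply, nsmul_eq_mul]

/-- **(G3), abstract form.** If `g` acts on the semistable setup through semilinear automorphisms
of the components fixing the branch points, then `g - 1` maps the `m`-torsion of `Pic⁰` into the
finite part `natSub S m`. -/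
theorem smul_sub_mem_natSub {g : SemilinearAut K F} {a : ∀ v, SemilinearAut k (Ft v)}
    (h : Equivariant S g a) {m : ℕ} {x : Pic0 K F} (hx : m • x = 0) :
    g • x - x ∈ natSub S m := by
  classical
  obtain ⟨D, f, hR⟩ := exists_isRep (K := K) (F := F) hx
  have hf : f ≠ 0 := hR.2.1
  have hR' : IsRep m (g • x - x) (SemilinearAut.degZeroSMulHom g D + -D) (g • f * f⁻¹) := by
    rw [sub_eq_add_neg]
    exact (hR.smul g).add hR.neg
  refine ⟨_, _, hR', fun v => ?_⟩
  obtain ⟨g₀, hg₀⟩ := exists_isResidue (S := S) v hf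
  -- the reduction of `D` on `v`, off the branch points
  let R : (Σ v, Place k (Ft v)) →₀ ℤ := Finsupp.mapDomain S.r (D : Divisor K F)
  let E₁ : Divisor k (Ft v) := Finsupp.comapDomain (fun Q => (⟨v, Q⟩ : Σ v, Place k (Ft v))) R
    (fun Q _ Q' _ hQQ' => eq_of_heq (Sigma.mk.inj_iff.mp hQQ').2)
  let E₀ : Divisor k (Ft v) := E₁.filter fun Q => ¬ S.IsBranch ⟨v, Q⟩
  have hE₀ : ∀ Q : Place k (Ft v), ¬ S.IsBranch ⟨v, Q⟩ → Q.ord g₀ = (m : ℤ) * E₀ Q := by
    intro Q hQ
    rw [ord_residue_eq hR hg₀ hQ]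
    show _ = (m : ℤ) * (E₁.filter fun Q => ¬ S.IsBranch ⟨v, Q⟩) Q
    rw [Finsupp.filter_apply_pos (fun Q => ¬ S.IsBranch ⟨v, Q⟩) E₁ hQ]
    rfl
  refine ⟨a v • g₀ * g₀⁻¹, (hg₀.smul h).mul hg₀.inv, a v • E₀ - E₀, fun Q => ?_⟩
  have hne : a v • g₀ ≠ 0 := (hg₀.smul h).ne_zero
  have h1 : Q.ord (a v • g₀) = ((a v)⁻¹ • Q).ord g₀ := by
    have := SemilinearAut.ord_smul (a v) ((a v)⁻¹ • Q) g₀
    rwa [smul_inv_smul] at this
  rw [Q.ord_mul hne (inv_ne_zero hg₀.ne_zero), Q.ord_inv, h1, Finsupp.sub_apply,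
    SemilinearAut.divisor_smul_apply]
  by_cases hQ : S.IsBranch ⟨v, Q⟩
  · rw [h.inv_smul_eq_of_isBranch hQ]
    ring
  · have hQ' : ¬ S.IsBranch ⟨v, (a v)⁻¹ • Q⟩ := fun hb => hQ (h.isBranch_inv_smul_iff.mp hb)
    rw [hE₀ _ hQ', hE₀ _ hQ]
    ring

end Fermat.Agent.BR2.Filt
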