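import Mathlib
import Fermat.Agent.BR.NodalRed
import Fermat.Agent.BR.POneRot
import Fermat.Agent.BR.AnnulusRed
import Fermat.Agent.Red.Values
import Fermat.Agent.Red.NormalForm
import Fermat.Agent.BR2.Filtration

/-!
# Phase 2 (S35), node (G4), abstract core: the Frobenius-difference argument

Twin of the second-difference argument of Program B (`Nodal.sq_smul_mem_principal`) for a
NON-inertial semilinear automorphism `g` (e.g. the square of a Frobenius lift), acting on the
components of a nodal reduction through `Q`-Frobenius-semilinear automorphisms `α v`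
(`α v c = c^Q` on the constants) which fix the node places.

* `frobDiff α Q r = α² r · r^Q / ((α r)^Q · α r)` : the function with divisor
  `(α - 1)(α - Q) div r` (`ord_frobDiff`);
* **`oneUnit_frobDiff`** (the value-one lemma): at EVERY place `P` of degree one fixed by `α`,
  `frobDiff α Q r` takes the value `1`, for every `r ≠ 0` whatever its order at `P`
  (write `r = t^n w`; unit values transform by `x ↦ x^Q` at a fixed place and the contributions of
  the uniformizer cancel).  So no `ℙ¹`-identity and no distinction between old and exceptional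
  components is needed;
* **`frob_smul_mem_principal`** : `S : NodalRed` with `NTK`, `Compat g α`, `α v` `Q`-semilinear fixing
  the node places (of degree one), `D` of degree zero with smooth support, `m D` principal, and on
  every component `v` a function `u v` with `redDiv v D = div (u v)` off the node places; then
  `g² D - (1 + Q) g D + Q D` is principal; `frob_smul_pic0_eq_zero` : the class form
  (`theta = 0` of `BR2/FrobSquare` with `s² = g`, `Q = q²`);
* `exists_ord_eq_of_divisor` : on an exceptional `ℙ¹` (`POne.Generates k u`) every divisor supported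
  in the torus is the divisor of a function on the torus (the input `u v` on the chains);
* `exists_rep_of_isTor` : a class of `Filt.torSub S m` has a representative whose reduction on every
  component is, off the branch points, the divisor of a function (the input `u v` on the old
  components, from the definition of `torSub` and conservation).
-/

set_option autoImplicit false
set_option linter.unusedSectionVars false

namespace Fermat.Agent.BR2.FrobDiff

open AlgebraicCurve Fermat.Agent.Red Fermat.Agent.BR.POne Fermat.Agent.BR.Nodal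
open Fermat.Agent.BR.AnnulusRed Fermat.Agent.X0

section FunctionField

variable {k L : Type*} [Field k] [Field L] [Algebra k L]

/-- `δ(r) = α r / r^Q`. -/
noncomputable def frobQuot (α : SemilinearAut k L) (Q : ℕ) (r : L) : L := α • r / r ^ Q

/-- `ρ(r) = α² r · r^Q / ((α r)^Q · α r) = δ(α r) / δ(r)`: the function whose divisor is
`(α - 1)(α - Q) div r`. -/
noncomputable def frobDiff (α : SemilinearAut k L) (Q : ℕ) (r : L) : L :=
  α • α • r * r ^ Q / ((α • r) ^ Q * (α • r))

variable (α : SemilinearAut k L) (Q : ℕ)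

theorem smul_ne_zero' {r : L} (hr : r ≠ 0) : α • r ≠ 0 := by
  rwa [Ne, smul_eq_zero_iff_eq]

theorem frobDiff_eq (r : L) (hr : r ≠ 0) :
    frobDiff α Q r = frobQuot α Q (α • r) / frobQuot α Q r := by
  have h1 := smul_ne_zero' α hr
  have h2 := smul_ne_zero' α h1
  unfold frobDiff frobQuot
  field_simp

theorem frobDiff_ne_zero {r : L} (hr : r ≠ 0) : frobDiff α Q r ≠ 0 := by
  have h1 := smul_ne_zero' α hr
  have h2 := smul_ne_zero' α h1
  unfold frobDiff
  exact div_ne_zero (mul_ne_zero h2 (pow_ne_zero _ hr)) (mul_ne_zero (pow_ne_zero _ h1) h1)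

theorem frobQuot_mul (r s : L) : frobQuot α Q (r * s) = frobQuot α Q r * frobQuot α Q s := by
  unfold frobQuot
  rw [smul_mul', mul_pow, mul_div_mul_comm]

theorem smul_zpow_eq (r : L) (n : ℤ) : α • (r ^ n) = (α • r) ^ n :=
  map_zpow₀ (SemilinearAut.toRingAut α) r n

theorem frobQuot_zpow (r : L) (n : ℤ) : frobQuot α Q (r ^ n) = frobQuot α Q r ^ n := by
  unfold frobQuot
  rw [smul_zpow_eq, div_zpow, ← zpow_natCast, ← zpow_natCast, ← zpow_mul, ← zpow_mul, mul_comm]

/-- The order of `ρ(r)` at a place. -/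
theorem ord_frobDiff {r : L} (hr : r ≠ 0) (P : Place k L) :
    P.ord (frobDiff α Q r) =
      (α⁻¹ • α⁻¹ • P).ord r - (1 + (Q : ℤ)) * (α⁻¹ • P).ord r + (Q : ℤ) * P.ord r := by
  have h1 := smul_ne_zero' α hr
  have h2 := smul_ne_zero' α h1
  have e1 : ∀ (P' : Place k L) (f : L), P'.ord (α • f) = (α⁻¹ • P').ord f := fun P' f => by
    have := SemilinearAut.ord_smul α (α⁻¹ • P') f
    rwa [smul_inv_smul] at this
  unfold frobDiff
  rw [div_eq_mul_inv, P.ord_mul (mul_ne_zero h2 (pow_ne_zero _ hr))
    (inv_ne_zero (mul_ne_zero (pow_ne_zero _ h1) h1)), P.ord_inv,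
    P.ord_mul h2 (pow_ne_zero _ hr), P.ord_mul (pow_ne_zero _ h1) h1, ← zpow_natCast,
    ← zpow_natCast, Place.ord_zpow, Place.ord_zpow, e1, e1, e1]
  ring

variable {α Q}

/-- Unit values transform by `x ↦ x^Q` at a fixed place: `δ(w)` is a one-unit for a unit `w`
with a value. -/
theorem oneUnit_frobQuot_of_isValueAt (hα : ∀ c : k, SemilinearAut.baseAut α c = c ^ Q)
    {P : Place k L} (hP : α • P = P) {w : L} {w₀ : k} (hw : IsValueAt P w w₀) (hw₀ : w₀ ≠ 0) :
    OneUnit P (frobQuot α Q w) := by
  have h1 : IsValueAt P (α • w) (w₀ ^ Q) := by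
    have := isValueAt_smul α hw
    rwa [hP, hα] at this
  have h2 : IsValueAt P (w ^ Q) (w₀ ^ Q) := hw.pow Q
  have hne : w₀ ^ Q ≠ 0 := pow_ne_zero _ hw₀
  have hv2 : P.adicValuation (w ^ Q) = 1 := h2.adicValuation_eq_one hne
  have hw0 : w ^ Q ≠ 0 := by
    intro h0
    rw [h0, map_zero] at hv2
    exact zero_ne_one hv2
  unfold OneUnit frobQuot
  have e : α • w / w ^ Q - 1 =
      ((α • w - algebraMap k L (w₀ ^ Q)) - (w ^ Q - algebraMap k L (w₀ ^ Q))) * (w ^ Q)⁻¹ := by
    field_simp
    ring
  rw [e, map_mul, map_inv₀, hv2, inv_one, mul_one]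
  exact (Valuation.map_sub _ _ _).trans_lt (max_lt h1 h2)

/-- **The value-one lemma.** At a place `P` of degree one fixed by the `Q`-Frobenius-semilinear
automorphism `α`, the function `ρ(r) = α² r · r^Q / ((α r)^Q · α r)` takes the value `1`, for every
`r ≠ 0` (whatever the order of `r` at `P`). -/
theorem oneUnit_frobDiff (hα : ∀ c : k, SemilinearAut.baseAut α c = c ^ Q)
    {P : Place k L} (hP : α • P = P) (hdeg : P.deg = 1) {r : L} (hr : r ≠ 0) :
    OneUnit P (frobDiff α Q r) := by
  have hPinv : α⁻¹ • P = P := by rw [inv_smul_eq_iff, hP]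
  -- units with a value
  have key : ∀ w : L, P.ord w = 0 → w ≠ 0 → OneUnit P (frobQuot α Q w) := by
    intro w hw hw0
    have hmem : w ∈ P.toValuationSubring := Place.mem_of_ord_nonneg P (le_of_eq hw.symm)
    obtain ⟨w₀, hw₀⟩ := exists_isValueAt P hdeg hmem
    refine oneUnit_frobQuot_of_isValueAt hα hP hw₀ ?_
    rintro rfl
    have hlt : P.adicValuation w < 1 := isValueAt_zero_iff.mp hw₀
    rw [adicValuation_lt_one_iff] at hlt
    rcases hlt with h | h
    · exact hw0 h
    · omega
  have hord : ∀ f : L, P.ord (α • f) = P.ord f := fun f => by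
    have := SemilinearAut.ord_smul α (α⁻¹ • P) f
    rwa [smul_inv_smul, hPinv] at this
  -- a uniformizer
  obtain ⟨t, ht⟩ := Fermat.Agent.Red.NormalForm.exists_ord_eq_one P
  have ht0 : t ≠ 0 := by
    rintro rfl
    simp at ht
  set n := P.ord r with hn
  set w := r * (t ^ n)⁻¹ with hw
  have htn : t ^ n ≠ 0 := zpow_ne_zero _ ht0
  have hw0 : w ≠ 0 := mul_ne_zero hr (inv_ne_zero htn)
  have hwo : P.ord w = 0 := by
    rw [hw, P.ord_mul hr (inv_ne_zero htn), P.ord_inv, Place.ord_zpow, ht, ← hn]
    ring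
  have hrw : r = w * t ^ n := by
    rw [hw, mul_assoc, inv_mul_cancel₀ htn, mul_one]
  set ε := α • t * t⁻¹ with hε
  have hαt0 : α • t ≠ 0 := smul_ne_zero' α ht0
  have hε0 : ε ≠ 0 := mul_ne_zero hαt0 (inv_ne_zero ht0)
  have hεo : P.ord ε = 0 := by
    rw [hε, P.ord_mul hαt0 (inv_ne_zero ht0), P.ord_inv, hord, ht]
    ring
  -- `ρ(r) = δ(α w)/δ(w) · δ(ε)^n`
  have hαw0 : α • w ≠ 0 := smul_ne_zero' α hw0
  have hαwo : P.ord (α • w) = 0 := by rw [hord, hwo]
  have e : frobDiff α Q r =
      frobQuot α Q (α • w) / frobQuot α Q w * frobQuot α Q ε ^ n := by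
    rw [frobDiff_eq α Q r hr]
    have e1 : α • t = ε * t := by
      rw [hε, mul_assoc, inv_mul_cancel₀ ht0, mul_one]
    have e2 : α • r = α • w * (ε * t) ^ n := by
      rw [hrw, smul_mul', smul_zpow_eq, e1]
    rw [e2, hrw, frobQuot_mul, frobQuot_mul, frobQuot_zpow, frobQuot_zpow, frobQuot_mul]
    have hq1 : frobQuot α Q w ≠ 0 := by
      unfold frobQuot
      exact div_ne_zero hαw0 (pow_ne_zero _ hw0)
    have hq2 : frobQuot α Q t ≠ 0 := by
      unfold frobQuot
      exact div_ne_zero hαt0 (pow_ne_zero _ ht0)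
    rw [mul_zpow]
    field_simp
  rw [e]
  exact ((key _ hαwo hαw0).div (key _ hwo hw0)).mul ((key _ hεo hε0).zpow n)

end FunctionField

section POne

open Polynomial

variable {k L : Type*} [Field k] [Field L] [Algebra k L] {u : L}

/-- On `ℙ¹` (function field `k(u)`, `k` algebraically closed) every divisor supported in the torus
`{u ≠ 0, ∞}` is, on the torus, the divisor of a function. -/
theorem exists_ord_eq_of_divisor [IsAlgClosed k] (hgen : Generates k u) (B : Divisor k L)
    (hB : ∀ Q ∈ B.support, Q.adicValuation u = 1) :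
    ∃ r : L, r ≠ 0 ∧ ∀ Q : Place k L, Q.adicValuation u = 1 → B Q = Q.ord r := by
  classical
  have hcoord : ∀ Q : Place k L, Q.adicValuation u = 1 →
      ∃ a : k, Q.adicValuation (u - algebraMap k L a) < 1 := fun Q hQ =>
    hgen.exists_coord Q hQ.le
  -- coordinates of the points of the support
  let a : Place k L → k := fun Q =>
    if h : Q.adicValuation u = 1 then (hcoord Q h).choose else 0
  have ha : ∀ Q : Place k L, Q.adicValuation u = 1 →
      Q.adicValuation (u - algebraMap k L (a Q)) < 1 := by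
    intro Q hQ
    show Q.adicValuation (u - algebraMap k L (if h : Q.adicValuation u = 1 then
      (hcoord Q h).choose else 0)) < 1
    rw [dif_pos hQ]
    exact (hcoord Q hQ).choose_spec
  have hne : ∀ Q ∈ B.support, u - algebraMap k L (a Q) ≠ 0 := by
    intro Q hQ h0
    have h1 := hgen.ord_sub_coord (ha Q (hB Q hQ))
    rw [h0] at h1
    simp at h1
  refine ⟨∏ Q ∈ B.support, (u - algebraMap k L (a Q)) ^ (B Q), ?_, ?_⟩
  · exact Finset.prod_ne_zero_iff.mpr fun Q hQ => zpow_ne_zero _ (hne Q hQ)
  · intro Q' hQ'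
    rw [ord_prod Q' _ _ (fun Q hQ => zpow_ne_zero _ (hne Q hQ))]
    have hterm : ∀ Q ∈ B.support, Q'.ord ((u - algebraMap k L (a Q)) ^ (B Q)) =
        if Q = Q' then B Q else 0 := by
      intro Q hQ
      rw [Place.ord_zpow]
      by_cases hQQ : Q = Q'
      · subst hQQ
        rw [if_pos rfl, hgen.ord_sub_coord (ha Q hQ'), mul_one]
      · rw [if_neg hQQ]
        have hab : a Q' ≠ a Q := by
          intro hab
          apply hQQ
          have h1 := ha Q (hB Q hQ)
          have h2 := ha Q' hQ'
          rw [hab] at h2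
          exact hgen.place_ext h1 h2
        have hv : Q'.adicValuation (u - algebraMap k L (a Q)) = 1 :=
          Generates.val_sub_of_ne (ha Q' hQ') hab
        rw [ord_of_val_eq_one hv, mul_zero]
    rw [Finset.sum_congr rfl hterm, Finset.sum_ite_eq' B.support Q' (fun Q => B Q)]
    split_ifs with h
    · rfl
    · exact Finsupp.notMem_support_iff.mp h

end POne

section Nodal

variable {K F k : Type*} [Field K] [Field F] [Algebra K F] [Field k] {S : NodalRed K F k}

/-- **The Frobenius-difference argument** (twin of `Nodal.sq_smul_mem_principal` for a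
non-inertial `g`).  `g` acts on the nodal reduction `S` through automorphisms `α v` of the
components which are `Q`-Frobenius-semilinear (`α v c = c^Q` on constants) and fix the node places
(all of degree one).  If `D` is a degree zero divisor supported on smooth places with `m D`
principal, whose reduction on every component `v` is, off the node places, the divisor of a
function `u v`, then `(g - 1)(g - Q) D = g² D - (1 + Q) g D + Q D` is principal. -/
theorem frob_smul_mem_principal (hS : S.NTK) {g : SemilinearAut K F}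
    {α : ∀ v, SemilinearAut k (S.Ft v)} (hc : S.Compat g α) {Q : ℕ}
    (hαQ : ∀ v (c : k), SemilinearAut.baseAut (α v) c = c ^ Q)
    (hfix : ∀ v, ∀ P ∈ S.nodePts v, α v • P = P)
    (hdeg1 : ∀ v, ∀ P ∈ S.nodePts v, P.deg = 1)
    {m : ℕ} (hm : (m : k) ≠ 0) {D : Divisor K F} (hdeg : Divisor.degree D = 0)
    (hsm : ∀ P ∈ D.support, S.IsSmooth P)
    (hmD : m • D ∈ Divisor.principal (K := K) (F := F))
    (hu : ∀ v, ∃ u : S.Ft v, u ≠ 0 ∧
      ∀ P : Place k (S.Ft v), P ∉ S.nodePts v → S.redDiv v D P = P.ord u) :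
    g • g • D - (1 + (Q : ℤ)) • g • D + (Q : ℤ) • D ∈ Divisor.principal (K := K) (F := F) := by
  classical
  apply hS m hm
  · simp [map_add, map_sub, hdeg]
  · intro P hP
    have h1 := Finsupp.support_add hP
    rw [Finset.mem_union] at h1
    rcases h1 with h1 | h1
    · have h2 := Finsupp.support_sub h1
      rw [Finset.mem_union] at h2
      rcases h2 with h2 | h2
      · obtain ⟨P', hP', rfl⟩ := NodalRed.support_smul_subset g _ h2
        obtain ⟨P'', hP'', rfl⟩ := NodalRed.support_smul_subset g _ hP'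
        exact hc.isSmooth (hc.isSmooth (hsm _ hP''))
      · have h3 : P ∈ (g • D).support := Finsupp.support_smul h2
        obtain ⟨P', hP', rfl⟩ := NodalRed.support_smul_subset g _ h3
        exact hc.isSmooth (hsm _ hP')
    · exact hsm _ (Finsupp.support_smul h1)
  · have h1 : m • (g • g • D - (1 + (Q : ℤ)) • g • D + (Q : ℤ) • D) =
        g • g • (m • D) - (1 + (Q : ℤ)) • g • (m • D) + (Q : ℤ) • (m • D) := by
      simp only [smul_add, smul_sub, smul_comm m]
    rw [h1]
    exact add_mem (sub_mem
      (SemilinearAut.smul_mem_principal g (SemilinearAut.smul_mem_principal g hmD))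
      (zsmul_mem (SemilinearAut.smul_mem_principal g hmD) _)) (zsmul_mem hmD _)
  · choose u hu0 hu using hu
    have hinv : ∀ v, ∀ P ∈ S.nodePts v, (α v)⁻¹ • P = P := fun v P hP => by
      rw [inv_smul_eq_iff, hfix v P hP]
    have hnot : ∀ v (P : Place k (S.Ft v)), P ∉ S.nodePts v → (α v)⁻¹ • P ∉ S.nodePts v := by
      intro v P hP hcon
      apply hP
      have := hfix v _ hcon
      rw [smul_inv_smul] at this
      rw [this]
      exact hcon
    refine ⟨fun v => frobDiff (α v) Q (u v), fun v => frobDiff_ne_zero _ _ (hu0 v), ?_, ?_⟩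
    · intro v P
      simp only [map_add, map_sub, map_zsmul, hc.redDiv_smul]
      rw [ord_frobDiff _ _ (hu0 v)]
      simp only [Finsupp.add_apply, Finsupp.sub_apply, Finsupp.smul_apply,
        SemilinearAut.divisor_smul_apply, smul_eq_mul]
      by_cases hP : P ∈ S.nodePts v
      · rw [hinv v P hP, hinv v P hP]
        ring
      · rw [hu v P hP, hu v _ (hnot v P hP), hu v _ (hnot v _ (hnot v P hP))]
    · intro e
      refine ⟨1, one_ne_zero, ?_, ?_⟩
      · rw [map_one]
        exact oneUnit_frobDiff (hαQ _) (hfix _ _ (S.Qs_mem e)) (hdeg1 _ _ (S.Qs_mem e))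
          (hu0 _)
      · rw [map_one]
        exact oneUnit_frobDiff (hαQ _) (hfix _ _ (S.Qt_mem e)) (hdeg1 _ _ (S.Qt_mem e))
          (hu0 _)

/-- Class form of `frob_smul_mem_principal`: `(g - 1)(g - Q)` kills the class of `D` in
`Pic⁰`. -/
theorem frob_smul_pic0_eq_zero (hS : S.NTK) {g : SemilinearAut K F}
    {α : ∀ v, SemilinearAut k (S.Ft v)} (hc : S.Compat g α) {Q : ℕ}
    (hαQ : ∀ v (c : k), SemilinearAut.baseAut (α v) c = c ^ Q)
    (hfix : ∀ v, ∀ P ∈ S.nodePts v, α v • P = P)
    (hdeg1 : ∀ v, ∀ P ∈ S.nodePts v, P.deg = 1)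
    {m : ℕ} (hm : (m : k) ≠ 0) (D : Divisor.degZero (K := K) (F := F))
    (hsm : ∀ P ∈ (D : Divisor K F).support, S.IsSmooth P)
    (hmD : m • (D : Divisor K F) ∈ Divisor.principal (K := K) (F := F))
    (hu : ∀ v, ∃ u : S.Ft v, u ≠ 0 ∧
      ∀ P : Place k (S.Ft v), P ∉ S.nodePts v → S.redDiv v (D : Divisor K F) P = P.ord u) :
    g • g • Pic0.mk D - (1 + (Q : ℤ)) • g • Pic0.mk D + (Q : ℤ) • Pic0.mk D = 0 := by
  have h := frob_smul_mem_principal hS hc hαQ hfix hdeg1 hm
    ((Divisor.mem_degZero (K := K) (F := F)).mp D.2) hsm hmD hu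
  rw [SemilinearAut.pic0_smul_mk, SemilinearAut.pic0_smul_mk]
  have e : Pic0.mk (SemilinearAut.degZeroSMulHom g (SemilinearAut.degZeroSMulHom g D)) -
      (1 + (Q : ℤ)) • Pic0.mk (SemilinearAut.degZeroSMulHom g D) + (Q : ℤ) • Pic0.mk D =
      Pic0.mk (SemilinearAut.degZeroSMulHom g (SemilinearAut.degZeroSMulHom g D) -
        (1 + (Q : ℤ)) • SemilinearAut.degZeroSMulHom g D + (Q : ℤ) • D) := rfl
  rw [e]
  refine (QuotientAddGroup.eq_zero_iff _).mpr ?_
  rw [AddSubgroup.mem_addSubgroupOf]
  exact h

end Nodal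

section Tor

open Fermat.Agent.BR.SS Fermat.Agent.BR2.Filt

variable {K F k : Type*} [Field K] [Field F] [Algebra K F] [Field k]
  {A : ValuationSubring K} {π : A →+* k} {ι : Type*} {Ft : ι → Type*}
  [∀ v, Field (Ft v)] [∀ v, Algebra k (Ft v)] {ν : Type*}
  {S : SemistableSetup (F := F) A π ι Ft ν}

/-- A class of the toric part `torSub S m` (`m ≠ 0`) has a representative `(D, f)` whose reduction
on every component is, off the branch points, the divisor of a function (the `m`-th root of the
residue of `f`). -/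
theorem exists_rep_of_isTor {m : ℕ} (hm : m ≠ 0) {x : Pic0 K F} (hx : x ∈ torSub S m) :
    ∃ (D : Divisor.degZero (K := K) (F := F)) (f : F), IsRep m x D f ∧
      ∀ v, ∃ u : Ft v, u ≠ 0 ∧ ∀ Q : Place k (Ft v), ¬ S.IsBranch ⟨v, Q⟩ →
        Finsupp.mapDomain S.r (D : Divisor K F) ⟨v, Q⟩ = Q.ord u := by
  obtain ⟨D, f, hR, hres⟩ := hx
  refine ⟨D, f, hR, fun v => ?_⟩
  obtain ⟨g, hg, u, c, hgu⟩ := hres v
  have hg0 : g ≠ 0 := hg.ne_zero
  have hc0 : c ≠ 0 := by
    rintro rfl
    rw [map_zero, zero_mul] at hgu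
    exact hg0 hgu
  have hu0 : u ≠ 0 := by
    rintro rfl
    rw [zero_pow hm, mul_zero] at hgu
    exact hg0 hgu
  refine ⟨u, hu0, fun Q hQ => ?_⟩
  have h1 := ord_residue_eq hR hg hQ
  have hcne : algebraMap k (Ft v) c ≠ 0 := by
    rwa [Ne, map_eq_zero_iff _ (algebraMap k (Ft v)).injective]
  have h2 : Q.ord g = (m : ℤ) * Q.ord u := by
    rw [hgu, Q.ord_mul hcne (pow_ne_zero _ hu0), ← zpow_natCast, Place.ord_zpow,
      Fermat.Agent.BR.POne.ord_const, zero_add]
  rw [h2] at h1
  have hm' : (m : ℤ) ≠ 0 := by exact_mod_cast hm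
  exact (mul_left_cancel₀ hm' h1).symm

end Tor

end Fermat.Agent.BR2.FrobDiff
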