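import Mathlib
import Fermat.Agent.BR2.FrobDiff

/-!
# Phase 2 (S35), node (G4)(C2): `frob_smul_mem_principal` in the shapes of the (G4) statement layer

The theorems of `BR2/FrobDiff.lean` with the hypotheses in the form used by the (G4) assembly:
semilinearity as `α v • algebraMap k _ c = algebraMap k _ (c ^ Q)`, the node places fixed and of
degree one in one hypothesis, the coefficient `((1 + Q : ℕ) : ℤ)`.
-/

set_option autoImplicit false
set_option linter.unusedSectionVars false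

namespace Fermat.Agent.BR2.FrobDiff

open AlgebraicCurve Fermat.Agent.Red Fermat.Agent.BR.POne Fermat.Agent.BR.Nodal

/-- `α • algebraMap c = algebraMap (c^Q)` for all `c` means `baseAut α = (·)^Q`. -/
theorem baseAut_eq_pow_of_smul_algebraMap {k L : Type*} [Field k] [Field L] [Algebra k L]
    {α : SemilinearAut k L} {Q : ℕ}
    (h : ∀ c : k, α • algebraMap k L c = algebraMap k L (c ^ Q)) (c : k) :
    SemilinearAut.baseAut α c = c ^ Q := by
  have h1 := h c
  rw [SemilinearAut.smul_algebraMap] at h1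
  exact (algebraMap k L).injective h1

/-- The value-one lemma, semilinearity in `algebraMap` form. -/
theorem oneUnit_frobDiff' {k L : Type*} [Field k] [Field L] [Algebra k L]
    {α : SemilinearAut k L} {Q : ℕ}
    (hα : ∀ c : k, α • algebraMap k L c = algebraMap k L (c ^ Q))
    {P : Place k L} (hP : α • P = P) (hdeg : P.deg = 1) {r : L} (hr : r ≠ 0) :
    P.adicValuation (frobDiff α Q r - 1) < 1 :=
  oneUnit_frobDiff (baseAut_eq_pow_of_smul_algebraMap hα) hP hdeg hr

variable {K F k : Type*} [Field K] [Field F] [Algebra K F] [Field k] {S : NodalRed K F k}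

/-- **(G4)(C2)**, in the shape of the statement layer. -/
theorem frob_smul_mem_principal' (hS : S.NTK) {g : SemilinearAut K F}
    {α : ∀ v, SemilinearAut k (S.Ft v)} (hc : S.Compat g α) {Q : ℕ}
    (hαQ : ∀ v (c : k), α v • algebraMap k (S.Ft v) c = algebraMap k (S.Ft v) (c ^ Q))
    (hfix : ∀ v, ∀ P ∈ S.nodePts v, α v • P = P ∧ P.deg = 1)
    {m : ℕ} (hm : (m : k) ≠ 0) {D : Divisor K F} (hdeg : Divisor.degree D = 0)
    (hsm : ∀ P ∈ D.support, S.IsSmooth P)
    (hmD : m • D ∈ Divisor.principal (K := K) (F := F))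
    (hu : ∀ v, ∃ u : S.Ft v, u ≠ 0 ∧
      ∀ P : Place k (S.Ft v), P ∉ S.nodePts v → S.redDiv v D P = P.ord u) :
    g • g • D - ((1 + Q : ℕ) : ℤ) • g • D + (Q : ℤ) • D ∈
      Divisor.principal (K := K) (F := F) := by
  have h := frob_smul_mem_principal hS hc
    (fun v => baseAut_eq_pow_of_smul_algebraMap (hαQ v))
    (fun v P hP => (hfix v P hP).1) (fun v P hP => (hfix v P hP).2) hm hdeg hsm hmD hu
  have e : ((1 + Q : ℕ) : ℤ) = 1 + (Q : ℤ) := by push_cast; ring
  rw [e]
  exact h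

/-- Class form of **(G4)(C2)**. -/
theorem frob_smul_pic0_eq_zero' (hS : S.NTK) {g : SemilinearAut K F}
    {α : ∀ v, SemilinearAut k (S.Ft v)} (hc : S.Compat g α) {Q : ℕ}
    (hαQ : ∀ v (c : k), α v • algebraMap k (S.Ft v) c = algebraMap k (S.Ft v) (c ^ Q))
    (hfix : ∀ v, ∀ P ∈ S.nodePts v, α v • P = P ∧ P.deg = 1)
    {m : ℕ} (hm : (m : k) ≠ 0) (D : Divisor.degZero (K := K) (F := F))
    (hsm : ∀ P ∈ (D : Divisor K F).support, S.IsSmooth P)
    (hmD : m • (D : Divisor K F) ∈ Divisor.principal (K := K) (F := F))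
    (hu : ∀ v, ∃ u : S.Ft v, u ≠ 0 ∧
      ∀ P : Place k (S.Ft v), P ∉ S.nodePts v → S.redDiv v (D : Divisor K F) P = P.ord u) :
    g • g • Pic0.mk D - ((1 + Q : ℕ) : ℤ) • g • Pic0.mk D + (Q : ℤ) • Pic0.mk D = 0 := by
  have h := frob_smul_pic0_eq_zero hS hc
    (fun v => baseAut_eq_pow_of_smul_algebraMap (hαQ v))
    (fun v P hP => (hfix v P hP).1) (fun v P hP => (hfix v P hP).2) hm D hsm hmD hu
  have e : ((1 + Q : ℕ) : ℤ) = 1 + (Q : ℤ) := by push_cast; ring
  rw [e]
  exact h

end Fermat.Agent.BR2.FrobDiff
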