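import Mathlib

/-!
# Phase 2 (S35, conjunct 2), node (LANG): Lang's lemma for Frobenius-semilinear maps

`k` an algebraically closed field of characteristic `p`, `Q = p ^ r` with `r ≠ 0`, `V` a nonzero
finite-dimensional `k`-vector space, `f : V →+ V` injective with `f (c • v) = c ^ Q • f v`.
Then `f` has a nonzero fixed vector (`exists_fixed_ne_zero`).

Proof: a cyclic vector `v`; `n` minimal with `f^n v = ∑_{i<n} a_i f^i v`; then `a_0 ≠ 0`
(injectivity and `Q`-th roots); `w = ∑ x_i f^i v` is fixed as soon as `x_0 = a_0 X^Q`,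
`x_{i+1} = x_i^Q + a_{i+1} X^Q`, `x_{n-1} = X`; the last equation is a polynomial equation
`pol(X) = X` with `X² ∣ pol`, `pol ≠ 0`, hence it has a nonzero root; `w ≠ 0` by minimality of `n`.
-/

set_option autoImplicit false

namespace Fermat.Agent.BR2.Lang

open Polynomial

section Poly

variable {k : Type*} [Field k] (Q : ℕ) (a : ℕ → k)

/-- the polynomials `x_i(X)`: `x_0 = a_0 X^Q`, `x_{i+1} = x_i^Q + a_{i+1} X^Q` -/
noncomputable def pol : ℕ → k[X]
  | 0 => C (a 0) * X ^ Q
  | (i + 1) => (pol i) ^ Q + C (a (i + 1)) * X ^ Q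

@[simp] theorem pol_zero : pol Q a 0 = C (a 0) * X ^ Q := rfl

@[simp] theorem pol_succ (i : ℕ) : pol Q a (i + 1) = (pol Q a i) ^ Q + C (a (i + 1)) * X ^ Q := rfl

theorem X_sq_dvd_pol (hQ : 2 ≤ Q) (i : ℕ) : (X : k[X]) ^ 2 ∣ pol Q a i := by
  have h1 : (X : k[X]) ^ 2 ∣ X ^ Q := pow_dvd_pow X hQ
  induction i with
  | zero => exact Dvd.dvd.mul_left h1 _
  | succ i ih =>
    rw [pol_succ]
    refine dvd_add ?_ (Dvd.dvd.mul_left h1 _)
    exact ih.trans (dvd_pow_self _ (by omega))

theorem natDegree_pol (hQ : 2 ≤ Q) (ha : a 0 ≠ 0) (i : ℕ) :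
    (pol Q a i).natDegree = Q ^ (i + 1) := by
  induction i with
  | zero => rw [pol_zero, natDegree_C_mul_X_pow Q _ ha, zero_add, pow_one]
  | succ i ih =>
    rw [pol_succ]
    have h1 : ((pol Q a i) ^ Q).natDegree = Q ^ (i + 1 + 1) := by
      rw [natDegree_pow, ih, pow_succ' Q (i + 1)]
    have h2 : (C (a (i + 1)) * X ^ Q : k[X]).natDegree < ((pol Q a i) ^ Q).natDegree := by
      rw [h1]
      refine lt_of_le_of_lt (natDegree_C_mul_X_pow_le _ _) ?_
      calc Q = Q ^ 1 := (pow_one Q).symm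
        _ < Q ^ (i + 1 + 1) := Nat.pow_lt_pow_right (by omega) (by omega)
    rw [natDegree_add_eq_left_of_natDegree_lt h2, h1]

/-- the equation `x_m(X) = X` has a nonzero solution -/
theorem exists_root_pol [IsAlgClosed k] (hQ : 2 ≤ Q) (ha : a 0 ≠ 0) (m : ℕ) :
    ∃ x : k, x ≠ 0 ∧ (pol Q a m).eval x = x := by
  obtain ⟨s, hs⟩ := X_sq_dvd_pol Q a hQ m
  have hpol0 : pol Q a m ≠ 0 := by
    intro h
    have h1 := natDegree_pol Q a hQ ha m
    rw [h, natDegree_zero] at h1
    have : 0 < Q ^ (m + 1) := Nat.pow_pos (by omega)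
    omega
  have hs0 : s ≠ 0 := by
    rintro rfl
    rw [mul_zero] at hs
    exact hpol0 hs
  have hdeg : (X * s - 1 : k[X]).degree ≠ 0 := by
    have h1 : (X * s : k[X]).degree = 1 + s.degree := by rw [degree_mul, degree_X]
    have h2 : (0 : WithBot ℕ) < (X * s : k[X]).degree := by
      rw [h1, degree_eq_natDegree hs0]
      have : ((0 : ℕ) : WithBot ℕ) < ((1 + s.natDegree : ℕ) : WithBot ℕ) :=
        Nat.cast_lt.mpr (by omega)
      simpa using this
    have h3 : (X * s - 1 : k[X]).degree = (X * s : k[X]).degree :=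
      degree_sub_eq_left_of_degree_lt (by rw [degree_one]; exact h2)
    rw [h3]
    exact ne_of_gt h2
  obtain ⟨x, hx⟩ := IsAlgClosed.exists_root _ hdeg
  have hx' : x * s.eval x = 1 := by
    have : (X * s - 1 : k[X]).eval x = 0 := hx
    rw [eval_sub, eval_mul, eval_X, eval_one, sub_eq_zero] at this
    exact this
  refine ⟨x, fun h => ?_, ?_⟩
  · rw [h, zero_mul] at hx'
    exact zero_ne_one hx'
  · rw [hs, eval_mul, eval_pow, eval_X, pow_two, mul_assoc, hx', mul_one]

end Poly

section Main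

variable {k V : Type*} [Field k] [IsAlgClosed k] [AddCommGroup V] [Module k V]
  [FiniteDimensional k V] [Nontrivial V]

/-- **Lang's lemma** for an injective Frobenius-semilinear map: a nonzero fixed vector exists. -/
theorem exists_fixed_ne_zero (p : ℕ) [hp : Fact p.Prime] [CharP k p] {r : ℕ} (hr : r ≠ 0)
    (f : V →+ V) (hf : ∀ (c : k) (v : V), f (c • v) = c ^ (p ^ r) • f v)
    (hinj : Function.Injective f) : ∃ w : V, w ≠ 0 ∧ f w = w := by
  classical
  set Q : ℕ := p ^ r with hQdef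
  have hQ2 : 2 ≤ Q := Nat.one_lt_pow hr hp.out.one_lt
  have hQ0 : 0 < Q := by omega
  obtain ⟨v, hv⟩ := exists_ne (0 : V)
  set u : ℕ → V := fun i => f^[i] v with hu
  have hu_succ : ∀ i, u (i + 1) = f (u i) := fun i => Function.iterate_succ_apply' f i v
  have hu0 : u 0 = v := rfl
  -- the increasing chain of spans
  let S : ℕ →o Submodule k V :=
    ⟨fun n => Submodule.span k (u '' Set.Iio n), fun m n hmn =>
      Submodule.span_mono (Set.image_mono (Set.Iio_subset_Iio hmn))⟩
  have hSdef : ∀ n, S n = Submodule.span k (u '' Set.Iio n) := fun _ => rfl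
  have hmemS : ∀ {i n : ℕ}, i < n → u i ∈ S n := fun {i n} h =>
    Submodule.subset_span ⟨i, h, rfl⟩
  obtain ⟨n0, hn0⟩ := (monotone_stabilizes_iff_noetherian.mpr inferInstance) S
  have hex : ∃ n, u n ∈ S n := ⟨n0, by
    rw [hn0 (n0 + 1) (Nat.le_succ n0)]
    exact hmemS (Nat.lt_succ_self n0)⟩
  have hn : u (Nat.find hex) ∈ S (Nat.find hex) := Nat.find_spec hex
  have hmin : ∀ m, m < Nat.find hex → u m ∉ S m := fun m hm => Nat.find_min hex hm
  have hnpos : Nat.find hex ≠ 0 := by
    intro h0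
    rw [h0] at hn
    have hempty : Set.Iio (0 : ℕ) = ∅ := by
      ext i; simp
    have : S 0 = ⊥ := by
      rw [hSdef, hempty, Set.image_empty, Submodule.span_empty]
    rw [this, Submodule.mem_bot] at hn
    exact hv hn
  obtain ⟨m, hm⟩ := Nat.exists_eq_succ_of_ne_zero hnpos
  rw [hm] at hn hmin
  clear hm hnpos
  -- coefficients
  obtain ⟨l, hl, hlsum⟩ := (Finsupp.mem_span_image_iff_linearCombination k).mp hn
  set a : ℕ → k := fun i => l i with ha
  have hsum : u (m + 1) = ∑ i ∈ Finset.range (m + 1), a i • u i := by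
    rw [← hlsum, Finsupp.linearCombination_apply, Finsupp.sum]
    refine Finset.sum_subset ?_ ?_
    · intro i hi
      have := (Finsupp.mem_supported k l).mp hl hi
      exact Finset.mem_range.mpr this
    · intro i _ hi
      rw [Finsupp.notMem_support_iff.mp hi, zero_smul]
  -- `a 0 ≠ 0`
  have ha0 : a 0 ≠ 0 := by
    intro h0
    choose b hb using fun i : ℕ => IsAlgClosed.exists_pow_nat_eq (a (i + 1)) hQ0
    have h1 : u (m + 1) = f (∑ i ∈ Finset.range m, b i • u i) := by
      rw [hsum, Finset.sum_range_succ', h0, zero_smul, add_zero, map_sum]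
      refine Finset.sum_congr rfl fun i _ => ?_
      rw [hf, hb, hu_succ]
    rw [hu_succ] at h1
    have h2 := hinj h1
    apply hmin m (Nat.lt_succ_self m)
    rw [h2]
    exact Submodule.sum_mem _ fun i hi =>
      Submodule.smul_mem _ _ (hmemS (Finset.mem_range.mp hi))
  -- the root
  obtain ⟨x0, hx0, hroot⟩ := exists_root_pol Q a hQ2 ha0 m
  set xs : ℕ → k := fun i => (pol Q a i).eval x0 with hxs
  have hxs0 : xs 0 = a 0 * x0 ^ Q := by
    simp [hxs]
  have hxs_succ : ∀ i, xs (i + 1) = xs i ^ Q + a (i + 1) * x0 ^ Q := fun i => by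
    simp [hxs]
  have hxsm : xs m = x0 := hroot
  refine ⟨∑ i ∈ Finset.range (m + 1), xs i • u i, ?_, ?_⟩
  · -- nonzero
    intro hw
    rw [Finset.sum_range_succ, hxsm] at hw
    apply hmin m (Nat.lt_succ_self m)
    have h1 : u m = -(x0⁻¹ • ∑ i ∈ Finset.range m, xs i • u i) := by
      have h2 : x0 • u m = -∑ i ∈ Finset.range m, xs i • u i := by
        rw [eq_neg_iff_add_eq_zero, add_comm]; exact hw
      calc u m = x0⁻¹ • (x0 • u m) := by rw [smul_smul, inv_mul_cancel₀ hx0, one_smul]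
        _ = -(x0⁻¹ • ∑ i ∈ Finset.range m, xs i • u i) := by rw [h2, smul_neg]
    rw [h1]
    refine Submodule.neg_mem _ (Submodule.smul_mem _ _ (Submodule.sum_mem _ fun i hi => ?_))
    exact Submodule.smul_mem _ _ (hmemS (Finset.mem_range.mp hi))
  · -- fixed
    have h1 : f (∑ i ∈ Finset.range (m + 1), xs i • u i) =
        ∑ i ∈ Finset.range (m + 1), xs i ^ Q • u (i + 1) := by
      rw [map_sum]
      refine Finset.sum_congr rfl fun i _ => ?_
      rw [hf, hu_succ]
    rw [h1, Finset.sum_range_succ, hxsm, hsum, Finset.sum_range_succ' (fun i => a i • u i),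
      Finset.sum_range_succ' (fun i => xs i • u i), smul_add, Finset.smul_sum, ← add_assoc,
      ← Finset.sum_add_distrib, hxs0]
    congr 1
    · refine Finset.sum_congr rfl fun i _ => ?_
      rw [hxs_succ, add_smul, smul_smul, mul_comm (x0 ^ Q)]
    · rw [smul_smul, mul_comm]

end Main

end Fermat.Agent.BR2.Lang
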