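import Mathlib
import Fermat.Agent.BR2.LangSemilinear
import Fermat.Agent.Red.FFLemmas
import Fermat.Agent.Red.Values
import Fermat.Agent.Hecke.FrobPlaces
import Fermat.Agent.Val.RiemannPkgModL
import Fermat.Prelude.Def_AlgebraicCurve_BaseChangeGalois

/-!
# Phase 2, node (M3): the Frobenius-fixed part of `Pic⁰` is finite

`k` algebraically closed of characteristic `p`, `Ft / k` a function field with its Riemann package,
`Φ` a semilinear automorphism of `Ft / k` which is the `p ^ r`-power Frobenius on `k` (`r ≠ 0`) and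
fixes a non-constant function `x`.  Then the set of `Φ`-fixed classes of `Pic⁰(Ft)` is finite
(`finite_fixed_pic0`), hence killed by a positive integer (`exists_exponent_fixed_pic0`).

Proof: Lang's lemma (`Lang.exists_fixed_ne_zero`) on `L(D₀ + g A)` (`A` the pole divisor of `x`)
gives a `Φ`-fixed effective representative; the fixed effective divisors of a given degree are
supported in the finite set of places fixed by some `Φ ^ j`, `1 ≤ j ≤ d`.

Instance: `Ft = modularFunctionFieldFullC k N`, `Φ = (frobAutFullC k N q) ^ r`.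
-/

set_option autoImplicit false

noncomputable section

namespace Fermat.Agent.BR2.FrobFixed

open AlgebraicCurve Fermat.Agent.Red Fermat.Agent.X0

section Basics

variable {k Ft : Type*} [Field k] [Field Ft] [Algebra k Ft]

/-- `ord_w (g f) = ord_{g⁻¹ w} f`. -/
theorem ord_smul_eq (g : SemilinearAut k Ft) (w : Place k Ft) (f : Ft) :
    w.ord (g • f) = (g⁻¹ • w).ord f := by
  have h := SemilinearAut.ord_smul g (g⁻¹ • w) f
  rwa [smul_inv_smul] at h

theorem smul_divOf [HasPrincipalDivisors k Ft] (g : SemilinearAut k Ft) (f : Ft) :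
    g • divOf k f = divOf k (g • f) := by
  ext w
  rw [SemilinearAut.divisor_smul_apply, divOf_apply, divOf_apply, ord_smul_eq]

theorem smul_mapRange (g : SemilinearAut k Ft) (φ : ℤ → ℤ) (hφ : φ 0 = 0) (D : Divisor k Ft) :
    g • (D.mapRange φ hφ) = (g • D).mapRange φ hφ := by
  ext w
  rw [SemilinearAut.divisor_smul_apply, Finsupp.mapRange_apply, Finsupp.mapRange_apply,
    SemilinearAut.divisor_smul_apply]

theorem baseAut_pow_apply (Φ : SemilinearAut k Ft) (P : ℕ)
    (hΦ : ∀ c : k, SemilinearAut.baseAut Φ c = c ^ P) (j : ℕ) (c : k) :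
    SemilinearAut.baseAut (Φ ^ j) c = c ^ (P ^ j) := by
  induction j generalizing c with
  | zero => simp
  | succ j ih =>
    rw [pow_succ, SemilinearAut.baseAut_mul, RingAut.mul_apply, hΦ, ih, ← pow_mul, pow_succ,
      mul_comm]

theorem pow_smul_fixed (Φ : SemilinearAut k Ft) {x : Ft} (hx : Φ • x = x) (j : ℕ) :
    Φ ^ j • x = x := by
  induction j with
  | zero => simp
  | succ j ih => rw [pow_succ, mul_smul, hx, ih]

theorem inv_smul_place_of_fixed (Ψ : SemilinearAut k Ft) {v : Place k Ft} (hv : Ψ • v = v) :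
    Ψ⁻¹ • v = v := by
  rw [inv_smul_eq_iff, hv]

end Basics

section FixedPlaces

variable {k Ft : Type*} [Field k] [Field Ft] [Algebra k Ft]

/-- The places fixed by a semilinear automorphism which is `c ↦ c ^ P` (`1 < P`) on constants and
fixes a non-constant function `x` form a finite set: such a place is a pole of `x`, or a zero of
`x - a` with `a ^ P = a`. -/
theorem finite_fixed_places (hFt : RiemannPkg k Ft) (Ψ : SemilinearAut k Ft) {P : ℕ} (hP : 1 < P)
    (hΨ : ∀ c : k, SemilinearAut.baseAut Ψ c = c ^ P)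
    (x : Ft) (hx : ∀ a : k, x ≠ algebraMap k Ft a) (hΨx : Ψ • x = x) :
    {v : Place k Ft | Ψ • v = v}.Finite := by
  have := hFt.principal
  have hroots : {a : k | a ^ P = a}.Finite := by
    have hne : (Polynomial.X ^ P - Polynomial.X : Polynomial k) ≠ 0 :=
      FiniteField.X_pow_card_sub_X_ne_zero k hP
    refine (Polynomial.finite_setOfPred_isRoot hne).subset ?_
    intro a ha
    simp only [Set.mem_ofPred_eq, Polynomial.IsRoot, Polynomial.eval_sub, Polynomial.eval_pow,
      Polynomial.eval_X] at ha ⊢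
    rw [ha, sub_self]
  have hfin : ((divOf k x).support ∪
      ⋃ a ∈ {a : k | a ^ P = a}, ((divOf k (x - algebraMap k Ft a)).support : Set (Place k Ft)) :
        Set (Place k Ft)).Finite :=
    (Finset.finite_toSet _).union (hroots.biUnion fun a _ => Finset.finite_toSet _)
  refine hfin.subset ?_
  intro v hv
  have hv' : Ψ⁻¹ • v = v := inv_smul_place_of_fixed Ψ hv
  by_cases hneg : v.ord x < 0
  · left
    exact Finset.mem_coe.mpr (mem_support_divOf_iff.mpr hneg.ne)
  · right
    push Not at hneg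
    have hmem : x ∈ v.toValuationSubring := Place.mem_of_ord_nonneg v hneg
    have hval := ord_sub_evalAt_pos v (hFt.deg_one v) hmem
    set a := evalAt v x with ha
    have hpos : 0 < v.ord (x - algebraMap k Ft a) := hval.resolve_left (hx a)
    have hpos' : 0 < v.ord (x - algebraMap k Ft (a ^ P)) := by
      have h1 : Ψ • (x - algebraMap k Ft a) = x - algebraMap k Ft (a ^ P) := by
        rw [smul_sub, hΨx, SemilinearAut.smul_algebraMap, hΨ]
      rw [← h1, ord_smul_eq, hv']
      exact hpos
    have haP : a ^ P = a := Place.ord_pos_unique_constant v hpos' hpos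
    refine Set.mem_biUnion (x := a) haP ?_
    exact Finset.mem_coe.mpr (mem_support_divOf_iff.mpr hpos.ne')

end FixedPlaces

section FixedDivisors

variable {k Ft : Type*} [Field k] [Field Ft] [Algebra k Ft]

/-- The support of a `Φ`-fixed divisor is `Φ`-stable. -/
theorem smul_mem_support_of_fixed (Φ : SemilinearAut k Ft) {E : Divisor k Ft} (hE : Φ • E = E)
    {v : Place k Ft} (hv : v ∈ E.support) : Φ • v ∈ E.support := by
  rw [Finsupp.mem_support_iff] at hv ⊢
  have h := SemilinearAut.divisor_smul_apply_smul Φ E v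
  rw [hE] at h
  rwa [h]

theorem pow_smul_mem_support_of_fixed (Φ : SemilinearAut k Ft) {E : Divisor k Ft}
    (hE : Φ • E = E) {v : Place k Ft} (hv : v ∈ E.support) (j : ℕ) : Φ ^ j • v ∈ E.support := by
  induction j with
  | zero => simpa using hv
  | succ j ih =>
    rw [pow_succ', mul_smul]
    exact smul_mem_support_of_fixed Φ hE ih

/-- For an effective divisor (all places of degree one), the number of points of the support and
each coefficient are bounded by the degree. -/
theorem card_support_le_degree (hFt : RiemannPkg k Ft) {E : Divisor k Ft} (hE : 0 ≤ E) :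
    (E.support.card : ℤ) ≤ Divisor.degree E := by
  rw [degree_eq_sum hFt, Finsupp.sum]
  have h1 : ∀ v ∈ E.support, (1 : ℤ) ≤ E v := by
    intro v hv
    have h0 : 0 ≤ E v := hE v
    have hne : E v ≠ 0 := Finsupp.mem_support_iff.mp hv
    omega
  calc (E.support.card : ℤ) = ∑ _v ∈ E.support, (1 : ℤ) := by simp
    _ ≤ ∑ v ∈ E.support, E v := Finset.sum_le_sum h1

theorem apply_le_degree (hFt : RiemannPkg k Ft) {E : Divisor k Ft} (hE : 0 ≤ E)
    (v : Place k Ft) : E v ≤ Divisor.degree E := by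
  rw [degree_eq_sum hFt, Finsupp.sum]
  by_cases hv : v ∈ E.support
  · exact Finset.single_le_sum (f := fun w => E w) (fun w _ => hE w) hv
  · rw [Finsupp.notMem_support_iff.mp hv]
    exact Finset.sum_nonneg fun w _ => hE w

/-- Every point of the support of a `Φ`-fixed effective divisor of degree `d` is fixed by some
`Φ ^ j` with `1 ≤ j ≤ d` (pigeonhole on the orbit inside the support). -/
theorem exists_pow_smul_eq_of_mem_support (hFt : RiemannPkg k Ft) (Φ : SemilinearAut k Ft)
    {E : Divisor k Ft} (hE0 : 0 ≤ E) (hE : Φ • E = E) {d : ℕ} (hd : Divisor.degree E = d)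
    {v : Place k Ft} (hv : v ∈ E.support) : ∃ j ∈ Finset.Icc 1 d, Φ ^ j • v = v := by
  have hcard : E.support.card ≤ d := by
    have := card_support_le_degree hFt hE0
    rw [hd] at this
    exact_mod_cast this
  obtain ⟨i, hi, j, hj, hij, heq⟩ :=
    Finset.exists_ne_map_eq_of_card_lt_of_maps_to
      (s := Finset.range (E.support.card + 1)) (t := E.support)
      (f := fun i => Φ ^ i • v) (by simp)
      (fun i _ => pow_smul_mem_support_of_fixed Φ hE hv i)
  have key : ∀ a b : ℕ, a < b → b ∈ Finset.range (E.support.card + 1) →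
      Φ ^ a • v = Φ ^ b • v → ∃ j ∈ Finset.Icc 1 d, Φ ^ j • v = v := by
    intro a b hab hb h
    refine ⟨b - a, ?_, ?_⟩
    · rw [Finset.mem_Icc]
      rw [Finset.mem_range] at hb
      omega
    · have hb' : b = a + (b - a) := by omega
      rw [hb', pow_add, mul_smul] at h
      exact (smul_left_cancel _ h).symm
  rcases lt_or_gt_of_ne hij with h | h
  · exact key i j h hj heq
  · exact key j i h hi heq.symm

/-- The `Φ`-fixed effective divisors of degree `d` form a finite set. -/
theorem finite_fixed_effective (hFt : RiemannPkg k Ft) (Φ : SemilinearAut k Ft) {P : ℕ}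
    (hP : 1 < P) (hΦ : ∀ c : k, SemilinearAut.baseAut Φ c = c ^ P)
    (x : Ft) (hx : ∀ a : k, x ≠ algebraMap k Ft a) (hΦx : Φ • x = x) (d : ℕ) :
    {E : Divisor k Ft | 0 ≤ E ∧ Φ • E = E ∧ Divisor.degree E = d}.Finite := by
  have hfix : (⋃ j ∈ Finset.Icc 1 d, {v : Place k Ft | Φ ^ j • v = v}).Finite := by
    refine (Finset.finite_toSet _).biUnion fun j hj => ?_
    have hj1 : 1 ≤ j := (Finset.mem_Icc.mp hj).1
    exact finite_fixed_places hFt (Φ ^ j) (P := P ^ j) (Nat.one_lt_pow (by omega) hP)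
      (baseAut_pow_apply Φ P hΦ j) x hx (pow_smul_fixed Φ hΦx j)
  classical
  refine (Finset.finite_toSet (hfix.toFinset.finsupp fun _ => Finset.Icc (0 : ℤ) d)).subset ?_
  rintro E ⟨hE0, hE, hdeg⟩
  rw [Finset.mem_coe, Finset.mem_finsupp_iff]
  refine ⟨fun v hv => ?_, fun v _ => ?_⟩
  · rw [Set.Finite.mem_toFinset]
    obtain ⟨j, hj, hjv⟩ := exists_pow_smul_eq_of_mem_support hFt Φ hE0 hE hdeg hv
    exact Set.mem_biUnion hj hjv
  · rw [Finset.mem_Icc]
    refine ⟨hE0 v, ?_⟩
    have := apply_le_degree hFt hE0 v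
    rwa [hdeg] at this

end FixedDivisors

section LangStep

variable {k Ft : Type*} [Field k] [IsAlgClosed k] [Field Ft] [Algebra k Ft]

/-- **Lang step.** If `Φ D = D + div h` and `deg D ≥ g`, there is `u ≠ 0` in `L(D)` with
`Φ u · h = u`. -/
theorem exists_fixed_section (p : ℕ) [Fact p.Prime] [CharP k p] {r : ℕ} (hr : r ≠ 0)
    (hFt : RiemannPkg k Ft) (Φ : SemilinearAut k Ft)
    (hΦ : ∀ c : k, SemilinearAut.baseAut Φ c = c ^ (p ^ r))
    (D : Divisor k Ft) {h : Ft} (hh : h ≠ 0)
    (hD : ∀ v : Place k Ft, (Φ • D) v = D v + v.ord h)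
    (hdeg : (genusFF k Ft : ℤ) ≤ Divisor.degree D) :
    ∃ u : Ft, u ≠ 0 ∧ u ∈ riemannRochSpace D ∧ (Φ • u) * h = u := by
  have hmem : ∀ u : Ft, u ∈ riemannRochSpace D → (Φ • u) * h ∈ riemannRochSpace D := by
    intro u hu
    rw [mem_riemannRochSpace_iff] at hu ⊢
    intro v
    by_cases hu0 : u = 0
    · left
      rw [hu0, smul_zero, zero_mul]
    · right
      have hΦu : Φ • u ≠ 0 := by
        intro h0
        apply hu0
        have := congrArg (Φ⁻¹ • ·) h0
        simpa using this
      rw [v.ord_mul hΦu hh, ord_smul_eq]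
      have h1 := (hu (Φ⁻¹ • v)).resolve_left hu0
      have h2 := hD v
      rw [SemilinearAut.divisor_smul_apply] at h2
      linarith
  have : Module.Finite k (riemannRochSpace D) := hFt.finite_L D
  have : Nontrivial (riemannRochSpace D) := by
    apply Module.nontrivial_of_finrank_pos (R := k)
    have := hFt.riemann_le D
    omega
  let f : riemannRochSpace D →+ riemannRochSpace D :=
    { toFun := fun u => ⟨(Φ • (u : Ft)) * h, hmem u u.2⟩
      map_zero' := Subtype.ext (by simp)
      map_add' := fun u w => Subtype.ext (by simp [smul_add, add_mul]) }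
  have hf : ∀ (c : k) (u : riemannRochSpace D), f (c • u) = c ^ (p ^ r) • f u := by
    intro c u
    apply Subtype.ext
    show (Φ • ((c • u : riemannRochSpace D) : Ft)) * h = c ^ (p ^ r) • ((Φ • (u : Ft)) * h)
    rw [Submodule.coe_smul, Algebra.smul_def, smul_mul', SemilinearAut.smul_algebraMap, hΦ,
      Algebra.smul_def, mul_assoc]
  have hinj : Function.Injective f := by
    intro u w huw
    have h1 : (Φ • (u : Ft)) * h = (Φ • (w : Ft)) * h := congrArg Subtype.val huw
    have h2 : Φ • (u : Ft) = Φ • (w : Ft) := mul_right_cancel₀ hh h1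
    exact Subtype.ext (smul_left_cancel Φ h2)
  obtain ⟨w, hw0, hw⟩ := Lang.exists_fixed_ne_zero p hr f hf hinj
  refine ⟨(w : Ft), fun h0 => hw0 (Subtype.ext h0), w.2, ?_⟩
  exact congrArg Subtype.val hw

end LangStep

section PoleDivisor

variable {k Ft : Type*} [Field k] [Field Ft] [Algebra k Ft]

/-- The pole divisor `(x)_∞` of a function. -/
def poleDiv [HasPrincipalDivisors k Ft] (x : Ft) : Divisor k Ft :=
  (divOf k x).mapRange (fun n : ℤ => max (-n) 0) (by simp)

theorem poleDiv_apply [HasPrincipalDivisors k Ft] (x : Ft) (v : Place k Ft) :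
    poleDiv (k := k) x v = max (-(v.ord x)) 0 := by
  rw [poleDiv, Finsupp.mapRange_apply, divOf_apply]

theorem poleDiv_nonneg [HasPrincipalDivisors k Ft] (x : Ft) : 0 ≤ poleDiv (k := k) x := by
  intro v
  rw [poleDiv_apply, Finsupp.zero_apply]
  exact le_max_right _ _

theorem smul_poleDiv [HasPrincipalDivisors k Ft] (Φ : SemilinearAut k Ft) {x : Ft}
    (hx : Φ • x = x) : Φ • poleDiv (k := k) x = poleDiv (k := k) x := by
  rw [poleDiv, smul_mapRange, smul_divOf, hx]

theorem one_le_degree_poleDiv (hFt : RiemannPkg k Ft) {x : Ft}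
    (hx : ∀ a : k, x ≠ algebraMap k Ft a) :
    haveI := hFt.principal
    1 ≤ Divisor.degree (poleDiv (k := k) x) := by
  have := hFt.principal
  have h0 : 0 ≤ poleDiv (k := k) x := poleDiv_nonneg x
  have hnn : 0 ≤ Divisor.degree (poleDiv (k := k) x) := by
    rw [degree_eq_sum hFt, Finsupp.sum]
    exact Finset.sum_nonneg fun v _ => h0 v
  have hne : Divisor.degree (poleDiv (k := k) x) ≠ 0 := by
    intro hdeg
    have hz := eq_zero_of_nonneg_of_degree_eq_zero hFt h0 hdeg
    obtain ⟨v, hv⟩ := exists_ord_neg_of_not_const hFt hx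
    have := congrArg (fun D : Divisor k Ft => D v) hz
    simp only [Finsupp.zero_apply] at this
    rw [poleDiv_apply] at this
    have h2 : -(v.ord x) ≤ max (-(v.ord x)) 0 := le_max_left _ _
    omega
  omega

end PoleDivisor

section Main

variable {k Ft : Type*} [Field k] [IsAlgClosed k] [Field Ft] [Algebra k Ft]

open Classical in
/-- The class in `Pic⁰` of a divisor (`0` if the degree is not `0`). -/
def toPic0 (D : Divisor k Ft) : Pic0 k Ft :=
  if h : D ∈ Divisor.degZero (K := k) (F := Ft) then Pic0.mk ⟨D, h⟩ else 0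

omit [IsAlgClosed k] in
theorem toPic0_of_mem {D : Divisor k Ft} (h : D ∈ Divisor.degZero (K := k) (F := Ft)) :
    toPic0 D = Pic0.mk ⟨D, h⟩ := by
  rw [toPic0, dif_pos h]

/-- **Fixed effective representative.** A `Φ`-fixed class `c` is the class of `E - g • A`
(`A` the pole divisor of `x`, `g` the genus) for a `Φ`-fixed effective divisor `E` of degree
`deg (g • A)`. -/
theorem exists_fixed_effective_rep (p : ℕ) [Fact p.Prime] [CharP k p] {r : ℕ} (hr : r ≠ 0)
    (hFt : RiemannPkg k Ft) (Φ : SemilinearAut k Ft)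
    (hΦ : ∀ c : k, SemilinearAut.baseAut Φ c = c ^ (p ^ r))
    (x : Ft) (hx : ∀ a : k, x ≠ algebraMap k Ft a) (hΦx : Φ • x = x)
    (c : Pic0 k Ft) (hc : Φ • c = c) :
    haveI := hFt.principal
    ∃ E : Divisor k Ft, 0 ≤ E ∧ Φ • E = E ∧
      Divisor.degree E = Divisor.degree (genusFF k Ft • poleDiv (k := k) x) ∧
      c = toPic0 (E - genusFF k Ft • poleDiv (k := k) x) := by
  have := hFt.principal
  set g : ℕ := genusFF k Ft with hg
  set A : Divisor k Ft := poleDiv (k := k) x with hA
  have hA0 : 0 ≤ A := poleDiv_nonneg x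
  have hΦA : Φ • A = A := smul_poleDiv Φ hΦx
  have hAdeg : 1 ≤ Divisor.degree A := one_le_degree_poleDiv hFt hx
  obtain ⟨D₀, rfl⟩ := Pic0.mk_surjective c
  rw [SemilinearAut.pic0_smul_mk] at hc
  have hprin : -(Φ • (D₀ : Divisor k Ft)) + (D₀ : Divisor k Ft) ∈
      Divisor.principal (K := k) (F := Ft) := by
    have h1 := (QuotientAddGroup.eq).mp hc
    rw [AddSubgroup.mem_addSubgroupOf] at h1
    simpa using h1
  obtain ⟨f, hf0, hf⟩ := mem_principal_iff_exists_divOf.mp hprin
  have hD₀deg : Divisor.degree (D₀ : Divisor k Ft) = 0 := Divisor.mem_degZero.mp D₀.2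
  set D : Divisor k Ft := (D₀ : Divisor k Ft) + g • A with hDdef
  have hAfix : ∀ v : Place k Ft, A (Φ⁻¹ • v) = A v := by
    intro v
    rw [← SemilinearAut.divisor_smul_apply, hΦA]
  have hD : ∀ v : Place k Ft, (Φ • D) v = D v + v.ord f⁻¹ := by
    intro v
    have h1 : (-(Φ • (D₀ : Divisor k Ft)) + (D₀ : Divisor k Ft)) v = v.ord f := by
      rw [hf, divOf_apply]
    rw [Finsupp.add_apply, Finsupp.neg_apply, SemilinearAut.divisor_smul_apply] at h1
    rw [SemilinearAut.divisor_smul_apply, hDdef, Finsupp.add_apply, Finsupp.add_apply,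
      Finsupp.smul_apply, Finsupp.smul_apply, hAfix, v.ord_inv]
    linarith
  have hDdeg : Divisor.degree D = Divisor.degree (g • A) := by
    rw [hDdef, map_add, hD₀deg, zero_add]
  have hgle : (g : ℤ) ≤ Divisor.degree D := by
    rw [hDdeg, map_nsmul, nsmul_eq_mul]
    nlinarith [Int.natCast_nonneg g]
  obtain ⟨u, hu0, huD, hu⟩ :=
    exists_fixed_section p hr hFt Φ hΦ D (inv_ne_zero hf0) hD hgle
  refine ⟨divOf k u + D, ?_, ?_, ?_, ?_⟩
  · exact (mem_riemannRochSpace_iff_divOf.mp huD).resolve_left hu0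
  · ext v
    have hΦu : Φ • u ≠ 0 := by
      intro h0
      apply hu0
      have := congrArg (Φ⁻¹ • ·) h0
      simpa using this
    have h1 : v.ord u = v.ord (Φ • u) + v.ord f⁻¹ := by
      rw [← v.ord_mul hΦu (inv_ne_zero hf0), hu]
    rw [smul_add, Finsupp.add_apply, Finsupp.add_apply, smul_divOf, divOf_apply, divOf_apply,
      hD v]
    linarith
  · rw [map_add, degree_divOf, zero_add, hDdeg]
  · have hmem : divOf k u + D - g • A ∈ Divisor.degZero (K := k) (F := Ft) := by
      rw [Divisor.mem_degZero, map_sub, map_add, degree_divOf, zero_add, hDdeg, sub_self]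
    rw [toPic0_of_mem hmem]
    symm
    apply (QuotientAddGroup.eq).mpr
    rw [AddSubgroup.mem_addSubgroupOf]
    have h2 : ((-(⟨divOf k u + D - g • A, hmem⟩ : Divisor.degZero (K := k) (F := Ft)) + D₀ :
        Divisor.degZero (K := k) (F := Ft)) : Divisor k Ft) = divOf k u⁻¹ := by
      show -(divOf k u + D - g • A) + (D₀ : Divisor k Ft) = divOf k u⁻¹
      rw [divOf_inv, hDdef]
      abel
    rw [h2]
    exact divOf_mem_principal (inv_ne_zero hu0)

/-- **(M3), abstract form.** The set of `Φ`-fixed classes of `Pic⁰` is finite. -/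
theorem finite_fixed_pic0 (p : ℕ) [hp : Fact p.Prime] [CharP k p] {r : ℕ} (hr : r ≠ 0)
    (hFt : RiemannPkg k Ft) (Φ : SemilinearAut k Ft)
    (hΦ : ∀ c : k, SemilinearAut.baseAut Φ c = c ^ (p ^ r))
    (x : Ft) (hx : ∀ a : k, x ≠ algebraMap k Ft a) (hΦx : Φ • x = x) :
    {c : Pic0 k Ft | Φ • c = c}.Finite := by
  have := hFt.principal
  set B : Divisor k Ft := genusFF k Ft • poleDiv (k := k) x with hB
  have hBdeg : 0 ≤ Divisor.degree B := by
    rw [hB, map_nsmul, nsmul_eq_mul]
    have := one_le_degree_poleDiv hFt hx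
    positivity
  obtain ⟨d, hd⟩ := Int.eq_ofNat_of_zero_le hBdeg
  have hP : 1 < p ^ r := Nat.one_lt_pow hr hp.out.one_lt
  have hfin := finite_fixed_effective hFt Φ hP hΦ x hx hΦx d
  refine (hfin.image fun E => toPic0 (E - B)).subset ?_
  intro c hc
  obtain ⟨E, hE0, hE, hEdeg, hcE⟩ := exists_fixed_effective_rep p hr hFt Φ hΦ x hx hΦx c hc
  exact ⟨E, ⟨hE0, hE, by rw [hEdeg, ← hB, hd]⟩, hcE.symm⟩

/-- The `Φ`-fixed classes form a subgroup of `Pic⁰`. -/
def fixedSubgroup (Φ : SemilinearAut k Ft) : AddSubgroup (Pic0 k Ft) where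
  carrier := {c | Φ • c = c}
  zero_mem' := smul_zero Φ
  add_mem' := fun {a b} ha hb => by
    show Φ • (a + b) = a + b
    rw [smul_add, ha, hb]
  neg_mem' := fun {a} ha => by
    show Φ • (-a) = -a
    rw [smul_neg, ha]

omit [IsAlgClosed k] in
theorem mem_fixedSubgroup {Φ : SemilinearAut k Ft} {c : Pic0 k Ft} :
    c ∈ fixedSubgroup Φ ↔ Φ • c = c := Iff.rfl

/-- **(M3), exponent form.** A positive integer kills every `Φ`-fixed class. -/
theorem exists_exponent_fixed_pic0 (p : ℕ) [Fact p.Prime] [CharP k p] {r : ℕ} (hr : r ≠ 0)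
    (hFt : RiemannPkg k Ft) (Φ : SemilinearAut k Ft)
    (hΦ : ∀ c : k, SemilinearAut.baseAut Φ c = c ^ (p ^ r))
    (x : Ft) (hx : ∀ a : k, x ≠ algebraMap k Ft a) (hΦx : Φ • x = x) :
    ∃ e₀ : ℕ, e₀ ≠ 0 ∧ ∀ c : Pic0 k Ft, Φ • c = c → e₀ • c = 0 := by
  have hfin : (fixedSubgroup Φ : Set (Pic0 k Ft)).Finite :=
    finite_fixed_pic0 p hr hFt Φ hΦ x hx hΦx
  have : Finite (fixedSubgroup Φ) := hfin.to_subtype
  refine ⟨Nat.card (fixedSubgroup Φ), Nat.card_pos.ne', fun c hc => ?_⟩
  have h : Nat.card (fixedSubgroup Φ) • (⟨c, hc⟩ : fixedSubgroup Φ) = 0 := card_nsmul_eq_zero'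
  have h2 : ((Nat.card (fixedSubgroup Φ) • (⟨c, hc⟩ : fixedSubgroup Φ) : fixedSubgroup Φ) :
      Pic0 k Ft) = 0 := by rw [h]; rfl
  rwa [AddSubgroup.coe_nsmul] at h2

end Main

section Modular

open ModularCurve Fermat.Agent.Hecke Fermat.Agent.Val

variable (N : ℕ) [NeZero N] {q : ℕ} [hq : Fact q.Prime]
  (k : Type*) [Field k] [IsAlgClosed k] [CharP k q]

/-- `j` is fixed by the coefficientwise Frobenius. -/
theorem frobAutFullC_smul_jFullC : frobAutFullC k N q • jFullC k N = jFullC k N := by
  apply Subtype.ext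
  rw [coe_frobAutFullC_smul]
  exact ModularCurve.coeffMap_jqModC (frobenius k q)

theorem baseAut_frobAutFullC_apply (c : k) :
    SemilinearAut.baseAut (frobAutFullC k N q) c = c ^ q := by
  rw [baseAut_frobAutFullC, frobeniusEquiv_apply, frobenius_def]

omit [IsAlgClosed k] [CharP k q] hq in
theorem jFullC_ne_algebraMap (a : k) :
    jFullC k N ≠ algebraMap k (modularFunctionFieldFullC k N) a := by
  intro h
  apply transcendental_jFullC k N
  rw [h]
  exact isAlgebraic_algebraMap a

/-- **(M3), modular instance.** The classes of `Pic⁰(F̃_N)` over an algebraically closed field `k`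
of characteristic `q ∤ N` fixed by the `r`-th power (`r ≠ 0`) of the coefficientwise Frobenius form
a finite set. -/
theorem finite_fixed_pic0_modL (hqN : ¬ q ∣ N) {r : ℕ} (hr : r ≠ 0) :
    {c : Pic0 k (modularFunctionFieldFullC k N) | (frobAutFullC k N q) ^ r • c = c}.Finite :=
  finite_fixed_pic0 q hr (riemannPkg_modL N k hq.out hqN) ((frobAutFullC k N q) ^ r)
    (baseAut_pow_apply _ q (baseAut_frobAutFullC_apply N k) r) (jFullC k N)
    (jFullC_ne_algebraMap N k) (pow_smul_fixed _ (frobAutFullC_smul_jFullC N k) r)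

/-- **(M3), modular instance, exponent form.** -/
theorem exists_exponent_fixed_pic0_modL (hqN : ¬ q ∣ N) {r : ℕ} (hr : r ≠ 0) :
    ∃ e₀ : ℕ, e₀ ≠ 0 ∧ ∀ c : Pic0 k (modularFunctionFieldFullC k N),
      (frobAutFullC k N q) ^ r • c = c → e₀ • c = 0 :=
  exists_exponent_fixed_pic0 q hr (riemannPkg_modL N k hq.out hqN) ((frobAutFullC k N q) ^ r)
    (baseAut_pow_apply _ q (baseAut_frobAutFullC_apply N k) r) (jFullC k N)
    (jFullC_ne_algebraMap N k) (pow_smul_fixed _ (frobAutFullC_smul_jFullC N k) r)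

end Modular

end Fermat.Agent.BR2.FrobFixed
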