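import Mathlib
import Fermat.Agent.BR.POneRot

/-!
# Phase 2 (S35), node (G4.A): the Frobenius-twisted rotation identity on `ℙ¹`

Semilinear twin of `BR/POneRot.lean` (`POne.Generates.exists_secondDiff`).  Let `k` be algebraically
closed, `L = k(u)` (`POne.Generates k u`) and `α` a SEMILINEAR automorphism of `L / k` acting on the
constants by `c ↦ c ^ Q` and on the coordinate by `α u = z u`, `z ≠ 0` (the action of the square of
a Frobenius lift on an exceptional component of a refined semistable model, `Q = q²`).  For every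
divisor `B` supported on the places where `u` is a unit,

  `α² B - (1 + Q) α B + Q B = div ρ`,   `ρ = α² r · r ^ Q / (α r) ^ (1 + Q)`,  `r = ∏ (u - a_P) ^ B(P)`,

and `ρ ≡ 1` at the two places where `u` is not a unit (`u = 0`, `u = ∞`): the leading coefficients
and the constant terms cancel because `α` acts on `k` through `c ↦ c ^ Q`.

Main result: `exists_thetaDiff`.
-/

set_option autoImplicit false

open AlgebraicCurve Polynomial WithZero

namespace Fermat.Agent.BR2.ThetaPOne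

open Fermat.Agent.BR.POne

variable {k L : Type*} [Field k] [Field L] [Algebra k L]

/-! ### Semilinear action on the functions `rr` -/

section Semi

variable {u : L} {B : Divisor k L} {a : Place k L → k} {α : SemilinearAut k L} {φ : k → k} {z : k}

theorem smul_lin_semi (hα : ∀ c : k, α • algebraMap k L c = algebraMap k L (φ c))
    (hαu : α • u = algebraMap k L z * u) (c b : k) :
    α • (algebraMap k L c * u - algebraMap k L b) =
      algebraMap k L (z * φ c) * u - algebraMap k L (φ b) := by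
  rw [smul_sub, smul_mul', hα, hα, hαu, map_mul]
  ring

theorem smul_rr_semi (hα : ∀ c : k, α • algebraMap k L c = algebraMap k L (φ c))
    (hαu : α • u = algebraMap k L z * u) (c : k) :
    α • rr u B a c = rr u B (fun P => φ (a P)) (z * φ c) := by
  unfold rr
  show SemilinearAut.toRingAut α _ = _
  rw [map_prod]
  refine Finset.prod_congr rfl fun P _ => ?_
  rw [map_zpow₀]
  congr 1
  exact smul_lin_semi hα hαu c (a P)

end Semi

/-! ### The normalizers -/

theorem oneUnit_of_normalizers_theta {Q' : Place k L} {R₂ R₁ R₀ n₂ n₁ n₀ : L} (Q : ℕ)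
    (hn₁ : n₁ ≠ 0) (hn : n₂ * n₀ ^ Q = n₁ ^ (1 + Q))
    (h₂ : OneUnit Q' (R₂ / n₂)) (h₁ : OneUnit Q' (R₁ / n₁)) (h₀ : OneUnit Q' (R₀ / n₀)) :
    OneUnit Q' (R₂ * R₀ ^ Q / R₁ ^ (1 + Q)) := by
  have h := (h₂.mul (h₀.pow Q)).div (h₁.pow (1 + Q))
  have hR₁ : R₁ ≠ 0 := by
    intro h0
    have := h₁.ne_zero
    rw [h0, zero_div] at this
    exact this rfl
  have e : R₂ / n₂ * (R₀ / n₀) ^ Q / (R₁ / n₁) ^ (1 + Q) = R₂ * R₀ ^ Q / R₁ ^ (1 + Q) := by
    rw [div_pow, div_pow, div_mul_div_comm, hn]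
    have h1 : n₁ ^ (1 + Q) ≠ 0 := pow_ne_zero _ hn₁
    have h2 : R₁ ^ (1 + Q) ≠ 0 := pow_ne_zero _ hR₁
    field_simp
  rwa [e] at h

theorem zpow_pow_comm' (y : L) (δ : ℤ) (Q : ℕ) : (y ^ δ) ^ Q = (y ^ Q) ^ δ := by
  rw [← zpow_natCast (y ^ δ) Q, ← zpow_mul, mul_comm, zpow_mul, zpow_natCast]

theorem prod_zpow_pow {ι : Type*} (s : Finset ι) (f : ι → L) (n : ι → ℤ) (Q : ℕ) :
    (∏ i ∈ s, f i ^ n i) ^ Q = ∏ i ∈ s, (f i ^ Q) ^ n i := by
  rw [← Finset.prod_pow]
  refine Finset.prod_congr rfl fun i _ => ?_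
  rw [← zpow_natCast, ← zpow_mul, mul_comm, zpow_mul, zpow_natCast]

/-- The normalizer identity at `u = 0`. -/
theorem normalizer_zero (B : Divisor k L) (a : Place k L → k) (Q : ℕ) :
    (∏ P ∈ B.support, (-algebraMap k L ((a P ^ Q) ^ Q)) ^ (B P)) *
        (∏ P ∈ B.support, (-algebraMap k L (a P)) ^ (B P)) ^ Q =
      (∏ P ∈ B.support, (-algebraMap k L (a P ^ Q)) ^ (B P)) ^ (1 + Q) := by
  rw [prod_zpow_pow, prod_zpow_pow, ← Finset.prod_mul_distrib]
  refine Finset.prod_congr rfl fun P _ => ?_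
  rw [← mul_zpow]
  congr 1
  rw [map_pow, map_pow]
  generalize algebraMap k L (a P) = x
  rw [neg_pow x Q, neg_pow (x ^ Q) (1 + Q), pow_add (-1 : L), pow_one]
  ring

/-! ### The identity -/

/-- **The Frobenius-twisted rotation identity on `ℙ¹`.**  Let `L = k(u)` with `k` algebraically
closed and `α` a semilinear automorphism of `L / k` with `α c = c ^ Q` on the constants and
`α u = z u`, `z ≠ 0`.  For every divisor `B` supported on the places where `u` is a unit,
`α² B - (1 + Q) α B + Q B` is the divisor of a function `ρ` which is `≡ 1` at the places where `u`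
is not a unit (`u = 0` and `u = ∞`). -/
theorem exists_thetaDiff [IsAlgClosed k] {u : L} (hgen : Generates k u)
    (α : SemilinearAut k L) (Q : ℕ)
    (hα : ∀ c : k, α • algebraMap k L c = algebraMap k L (c ^ Q))
    {z : k} (hz : z ≠ 0) (hαu : α • u = algebraMap k L z * u)
    (B : Divisor k L) (hB : ∀ P ∈ B.support, P.adicValuation u = 1) :
    ∃ ρ : L, ρ ≠ 0 ∧
      (∀ P : Place k L,
        (α • α • B - ((1 + Q : ℕ) : ℤ) • α • B + (Q : ℤ) • B) P = P.ord ρ) ∧
      ∀ P : Place k L, P.adicValuation u ≠ 1 → P.adicValuation (ρ - 1) < 1 := by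
  classical
  have hex : ∀ P ∈ B.support, ∃ a : k, P.adicValuation (u - algebraMap k L a) < 1 :=
    fun P hP => hgen.exists_coord P (hB P hP).le
  choose! a ha using hex
  have ha0 : ∀ P ∈ B.support, a P ≠ 0 := by
    intro P hP h0
    have := ha P hP
    rw [h0, map_zero, sub_zero, hB P hP] at this
    exact lt_irrefl _ this
  -- the three functions
  set r₀ : L := rr u B a 1 with hr₀
  set r₁ : L := rr u B (fun P => a P ^ Q) (z * 1 ^ Q) with hr₁
  set r₂ : L := rr u B (fun P => (a P ^ Q) ^ Q) (z * (z * 1 ^ Q) ^ Q) with hr₂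
  have hs1 : α • r₀ = r₁ := smul_rr_semi (φ := fun c => c ^ Q) hα hαu 1
  have hs2 : α • α • r₀ = r₂ := by
    rw [hs1]
    exact smul_rr_semi (φ := fun c => c ^ Q) hα hαu _
  have hr₀0 : r₀ ≠ 0 := rr_ne_zero hgen ha one_ne_zero
  have hr₁0 : r₁ ≠ 0 := by
    rw [← hs1]
    intro h
    exact hr₀0 ((smul_eq_zero_iff_eq α).mp h)
  have hr₂0 : r₂ ≠ 0 := by
    rw [← hs2]
    intro h
    exact hr₀0 ((smul_eq_zero_iff_eq α).mp ((smul_eq_zero_iff_eq α).mp h))
  have hB0 : ∀ P : Place k L, ¬P.adicValuation u ≤ 1 → B P = 0 := by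
    intro P h
    by_contra hne
    exact h (hB P (Finsupp.mem_support_iff.mpr hne)).le
  have hc1 : z * 1 ^ Q ≠ 0 := mul_ne_zero hz (pow_ne_zero _ one_ne_zero)
  have hc2 : z * (z * 1 ^ Q) ^ Q ≠ 0 := mul_ne_zero hz (pow_ne_zero _ hc1)
  refine ⟨r₂ * r₀ ^ Q / r₁ ^ (1 + Q), ?_, ?_, ?_⟩
  · exact div_ne_zero (mul_ne_zero hr₂0 (pow_ne_zero _ hr₀0)) (pow_ne_zero _ hr₁0)
  · intro P
    have hL : (α • α • B - ((1 + Q : ℕ) : ℤ) • α • B + (Q : ℤ) • B) P =
        B (α⁻¹ • α⁻¹ • P) - ((1 + Q : ℕ) : ℤ) * B (α⁻¹ • P) + (Q : ℤ) * B P := by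
      simp only [Finsupp.coe_add, Finsupp.coe_sub, Pi.add_apply, Pi.sub_apply, Finsupp.coe_smul,
        Pi.smul_apply, smul_eq_mul, SemilinearAut.divisor_smul_apply]
    have hord : P.ord (r₂ * r₀ ^ Q / r₁ ^ (1 + Q)) =
        P.ord r₂ + (Q : ℤ) * P.ord r₀ - ((1 + Q : ℕ) : ℤ) * P.ord r₁ := by
      rw [div_eq_mul_inv, P.ord_mul (mul_ne_zero hr₂0 (pow_ne_zero _ hr₀0))
        (inv_ne_zero (pow_ne_zero _ hr₁0)), P.ord_mul hr₂0 (pow_ne_zero _ hr₀0),
        P.ord_inv, Fermat.Agent.X0.Place.ord_pow, Fermat.Agent.X0.Place.ord_pow]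
      ring
    have e2' : P.ord r₂ = (α⁻¹ • α⁻¹ • P).ord r₀ := by
      rw [← hs2, ← ord_inv_smul, ← ord_inv_smul]
    have e1' : P.ord r₁ = (α⁻¹ • P).ord r₀ := by
      rw [← hs1, ← ord_inv_smul]
    rw [hL, hord, e2', e1']
    by_cases hP : P.adicValuation u ≤ 1
    · have hP1 : (α⁻¹ • P).adicValuation u ≤ 1 := (val_u_inv_smul_le_one hz hαu P).mpr hP
      have hP2 : (α⁻¹ • α⁻¹ • P).adicValuation u ≤ 1 :=
        (val_u_inv_smul_le_one hz hαu _).mpr hP1
      rw [ord_rr_one hgen ha _ hP2, ord_rr_one hgen ha _ hP1, ord_rr_one hgen ha P hP]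
      ring
    · have hP1 : ¬(α⁻¹ • P).adicValuation u ≤ 1 := fun h =>
        hP ((val_u_inv_smul_le_one hz hαu P).mp h)
      have hP2 : ¬(α⁻¹ • α⁻¹ • P).adicValuation u ≤ 1 := fun h =>
        hP1 ((val_u_inv_smul_le_one hz hαu _).mp h)
      -- orders of `u` at the three poles
      have hu1 : (α⁻¹ • P).ord u = P.ord u := by
        rw [ord_inv_smul, hαu, P.ord_mul ((_root_.map_ne_zero _).mpr hz)
          (by rintro rfl; exact hP (by rw [map_zero]; exact zero_le_one)), ord_const, zero_add]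
      have hu2 : (α⁻¹ • α⁻¹ • P).ord u = P.ord u := by
        rw [ord_inv_smul, hαu, (α⁻¹ • P).ord_mul ((_root_.map_ne_zero _).mpr hz)
          (by rintro rfl; exact hP (by rw [map_zero]; exact zero_le_one)), ord_const, zero_add,
          hu1]
      rw [hB0 _ hP, hB0 _ hP1, hB0 _ hP2, ord_rr_of_pole hgen ha hP2 one_ne_zero,
        ord_rr_of_pole hgen ha hP1 one_ne_zero, ord_rr_of_pole hgen ha hP one_ne_zero, hu1, hu2]
      push_cast
      ring
  · intro P hP
    show OneUnit P _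
    have ha1 : ∀ P' ∈ B.support, (fun P => a P ^ Q) P' ≠ 0 := fun P' hP' =>
      pow_ne_zero _ (ha0 P' hP')
    have ha2 : ∀ P' ∈ B.support, (fun P => (a P ^ Q) ^ Q) P' ≠ 0 := fun P' hP' =>
      pow_ne_zero _ (pow_ne_zero _ (ha0 P' hP'))
    rcases lt_or_gt_of_ne hP with hlt | hgt
    · have hn0 : (∏ P' ∈ B.support, (-algebraMap k L (a P' ^ Q)) ^ (B P')) ≠ 0 :=
        Finset.prod_ne_zero_iff.mpr fun P' hP' =>
          zpow_ne_zero _ (neg_ne_zero.mpr ((_root_.map_ne_zero _).mpr (ha1 P' hP')))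
      exact oneUnit_of_normalizers_theta Q hn0 (normalizer_zero B a Q)
        (oneUnit_rr_div_of_zero ha2 hlt _) (oneUnit_rr_div_of_zero ha1 hlt _)
        (oneUnit_rr_div_of_zero ha0 hlt _)
    · have hP' : ¬P.adicValuation u ≤ 1 := not_le.mpr hgt
      have hu0 : u ≠ 0 := by
        rintro rfl
        apply hP'
        rw [map_zero]
        exact zero_le_one
      refine oneUnit_of_normalizers_theta Q
        (n₂ := (algebraMap k L (z * (z * 1 ^ Q) ^ Q) * u) ^ (∑ P' ∈ B.support, B P'))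
        (n₁ := (algebraMap k L (z * 1 ^ Q) * u) ^ (∑ P' ∈ B.support, B P'))
        (n₀ := (algebraMap k L 1 * u) ^ (∑ P' ∈ B.support, B P'))
        (zpow_ne_zero _ (mul_ne_zero ((_root_.map_ne_zero _).mpr hc1) hu0)) ?_
        (oneUnit_rr_div_of_pole hP' hc2) (oneUnit_rr_div_of_pole hP' hc1)
        (oneUnit_rr_div_of_pole hP' one_ne_zero)
      rw [zpow_pow_comm', zpow_pow_comm', ← mul_zpow]
      congr 1
      simp only [map_mul, map_one, map_pow, one_pow, mul_one, one_mul]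
      ring

end Fermat.Agent.BR2.ThetaPOne
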