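import Mathlib
import Fermat.Agent.BR.POneRotPlace
import Fermat.Agent.BR2.ThetaPOne

/-!
# Phase 2 (S35), node (G4.B): the semilinear rotations of the standard model `RatFunc k`

Semilinear twin of `BR/POneRotPlace.lean` (`POne.rotChi`).  For a ring automorphism `φ` of `k` and
`z ≠ 0`:

* `rotSemi φ z hz : SemilinearAut k (RatFunc k)` : the `φ`-semilinear automorphism
  `f(X) ↦ f^φ(z⁻¹ X)`; it acts on the places by `X = c ↦ X = z φ(c)` (`rotSemi_smul_placeAt`) and
  fixes `placeAt 0`, `placeInfty` (`rotSemi_smul_placeAt_zero`, `rotSemi_smul_placeInfty`);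
  `baseAut_rotSemi : baseAut (rotSemi φ z hz) = φ` (`rfl`);
* `exists_thetaDiff_rotSemi` : if `φ c = c ^ Q`, then for every divisor `B` supported off
  `placeAt 0`, `placeInfty` the divisor `α² B - (1 + Q) α B + Q B` (`α = rotSemi φ z hz`) is the
  divisor of a function which is `≡ 1` at these two places (node (G4.A) on the standard model).
-/

set_option autoImplicit false

open AlgebraicCurve Polynomial WithZero

namespace Fermat.Agent.BR2.FrobRot

open Fermat.Agent.BR.P1 Fermat.Agent.BR.POne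

variable {k : Type*} [Field k]

/-! ### The ring automorphisms -/

/-- The ring automorphism `p(X) ↦ p^φ(w X)` of `k[X]`. -/
noncomputable def polyAut (φ : k ≃+* k) (w : k) (hw : w ≠ 0) : k[X] ≃+* k[X] :=
  letI := invertibleOfNonzero hw
  (Polynomial.mapEquiv φ).trans (Polynomial.algEquivCMulXAddC w 0).toRingEquiv

theorem polyAut_C (φ : k ≃+* k) (w : k) (hw : w ≠ 0) (c : k) :
    polyAut φ w hw (C c) = C (φ c) := by
  unfold polyAut
  simp

theorem polyAut_X (φ : k ≃+* k) (w : k) (hw : w ≠ 0) :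
    polyAut φ w hw X = C w * X := by
  unfold polyAut
  simp

/-- The ring automorphism `f(X) ↦ f^φ(w X)` of `RatFunc k`. -/
noncomputable def ratAut (φ : k ≃+* k) (w : k) (hw : w ≠ 0) : RatFunc k ≃+* RatFunc k :=
  IsFractionRing.ringEquivOfRingEquiv (polyAut φ w hw)

theorem ratAut_algebraMap (φ : k ≃+* k) (w : k) (hw : w ≠ 0) (c : k) :
    ratAut φ w hw (algebraMap k (RatFunc k) c) = algebraMap k (RatFunc k) (φ c) := by
  unfold ratAut
  rw [RatFunc.algebraMap_eq_C, ← RatFunc.algebraMap_C,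
    IsFractionRing.ringEquivOfRingEquiv_algebraMap, polyAut_C, RatFunc.algebraMap_C]

theorem ratAut_X (φ : k ≃+* k) (w : k) (hw : w ≠ 0) :
    ratAut φ w hw RatFunc.X = algebraMap k (RatFunc k) w * RatFunc.X := by
  unfold ratAut
  rw [← RatFunc.algebraMap_X, IsFractionRing.ringEquivOfRingEquiv_algebraMap, polyAut_X,
    map_mul, RatFunc.algebraMap_C, RatFunc.algebraMap_eq_C]

/-- **The semilinear rotation** of `RatFunc k` acting on the places by `X = c ↦ X = z φ(c)`. -/
noncomputable def rotSemi (φ : k ≃+* k) (z : k) (hz : z ≠ 0) : SemilinearAut k (RatFunc k) :=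
  ⟨(ratAut φ z⁻¹ (inv_ne_zero hz), φ), fun c => ratAut_algebraMap φ z⁻¹ (inv_ne_zero hz) c⟩

section

variable (φ : k ≃+* k) (z : k) (hz : z ≠ 0)

theorem baseAut_rotSemi : SemilinearAut.baseAut (rotSemi φ z hz) = φ := rfl

theorem rotSemi_smul_const (c : k) :
    rotSemi φ z hz • algebraMap k (RatFunc k) c = algebraMap k (RatFunc k) (φ c) :=
  ratAut_algebraMap φ z⁻¹ (inv_ne_zero hz) c

theorem rotSemi_smul_X :
    rotSemi φ z hz • (RatFunc.X : RatFunc k) = algebraMap k (RatFunc k) z⁻¹ * RatFunc.X :=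
  ratAut_X φ z⁻¹ (inv_ne_zero hz)

theorem rotSemi_smul_lin (c : k) :
    rotSemi φ z hz • (algebraMap k (RatFunc k) (φ.symm z) *
        ((RatFunc.X : RatFunc k) - RatFunc.C c)) =
      (RatFunc.X : RatFunc k) - RatFunc.C (z * φ c) := by
  rw [smul_mul', smul_sub, rotSemi_smul_const, rotSemi_smul_X, ← RatFunc.algebraMap_eq_C,
    rotSemi_smul_const, RingEquiv.apply_symm_apply, map_mul, map_inv₀]
  have h : algebraMap k (RatFunc k) z ≠ 0 := (_root_.map_ne_zero _).mpr hz
  field_simp

include hz in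
theorem symm_ne_zero : φ.symm z ≠ 0 := by
  intro h
  apply hz
  have := congrArg φ h
  rwa [RingEquiv.apply_symm_apply, map_zero] at this

variable [IsAlgClosed k]

theorem rotSemi_smul_placeAt (c : k) :
    rotSemi φ z hz • placeAt k c = placeAt k (z * φ c) := by
  apply eq_placeAt_of_ord_pos
  rw [← rotSemi_smul_lin φ z hz c, SemilinearAut.ord_smul,
    (placeAt k c).ord_mul ((_root_.map_ne_zero _).mpr (symm_ne_zero φ z hz)), ord_const, zero_add,
    ord_placeAt_X_sub]
  · exact one_pos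
  · intro h
    have := ord_placeAt_X_sub c
    rw [h, Place.ord_zero] at this
    exact zero_ne_one this

theorem rotSemi_smul_placeAt_zero : rotSemi φ z hz • placeAt k 0 = placeAt k 0 := by
  rw [rotSemi_smul_placeAt, map_zero, mul_zero]

theorem rotSemi_smul_placeInfty : rotSemi φ z hz • placeInfty k = placeInfty k := by
  apply eq_placeInfty
  have h1 : rotSemi φ z hz • (algebraMap k (RatFunc k) (φ.symm z) * (RatFunc.X : RatFunc k)) =
      (RatFunc.X : RatFunc k) := by
    rw [smul_mul', rotSemi_smul_const, rotSemi_smul_X, RingEquiv.apply_symm_apply, map_inv₀]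
    have h : algebraMap k (RatFunc k) z ≠ 0 := (_root_.map_ne_zero _).mpr hz
    field_simp
  rw [← h1, SemilinearAut.ord_smul,
    (placeInfty k).ord_mul ((_root_.map_ne_zero _).mpr (symm_ne_zero φ z hz)) RatFunc.X_ne_zero,
    ord_const, zero_add, ord_placeInfty_X]
  norm_num

/-- **The Frobenius-twisted rotation identity on `RatFunc k`** in terms of `placeAt 0`,
`placeInfty`. -/
theorem exists_thetaDiff_rotSemi (Q : ℕ) (hφ : ∀ c : k, φ c = c ^ Q)
    (B : Divisor k (RatFunc k))
    (hB : ∀ P ∈ B.support, P ≠ placeAt k 0 ∧ P ≠ placeInfty k) :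
    ∃ ρ : RatFunc k, ρ ≠ 0 ∧
      (∀ P : Place k (RatFunc k),
        (rotSemi φ z hz • rotSemi φ z hz • B - ((1 + Q : ℕ) : ℤ) • rotSemi φ z hz • B +
          (Q : ℤ) • B) P = P.ord ρ) ∧
      (placeAt k 0).adicValuation (ρ - 1) < 1 ∧ (placeInfty k).adicValuation (ρ - 1) < 1 := by
  obtain ⟨ρ, hρ0, hdiv, hnode⟩ := Fermat.Agent.BR2.ThetaPOne.exists_thetaDiff generates_ratFunc
    (rotSemi φ z hz) Q (fun c => by rw [rotSemi_smul_const, hφ]) (inv_ne_zero hz)
    (rotSemi_smul_X φ z hz) B fun P hP => (val_X_eq_one_iff P).mpr (hB P hP)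
  exact ⟨ρ, hρ0, hdiv, hnode _ val_X_placeAt_zero, hnode _ val_X_placeInfty⟩

end

end Fermat.Agent.BR2.FrobRot
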