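import Fermat.Agent.Pseudo.TraceLimit

/-!
# Program B, phase 2 (S35, second conjunct): the abstract assembly

`t(σ)² = (1 + q)²` for a Frobenius lift `σ` at a prime `q ∥ N`, from the Hecke-module relation
`σ² - T(σ) σ + q = 0` of Program T and a three-step filtration `tor ≤ nat ≤ X[p^m]`.  No matrices
of the Galois representation are used (only its trace `t`), no tame relation, no irreducibility.

* `FrobSquare.theta_eq`: in the presence of the relation `σ² x - y σ x + q x = 0` on a subgroup `W`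
  stable under `σ` and the Hecke operator `y`, `(σ² - 1)(σ² - q²) = σ² (y² - (1+q)²)` on `W`;
* `FrobSquare.kill_of_filtration`: the module-level assembly.  Hypotheses: `(G3)` `σ² - 1` maps `W`
  into `nat`; `(G4)` `(σ² - 1)(σ² - q²)` kills `tor`; `(G5)` an element of `nat ∩ W` killed by the
  two degeneracy maps `α`, `β` has its `e₀`-multiple in `tor`; `P` is a Hecke operator whose
  counterpart at the lower level kills the targets of `α`, `β`.  Conclusion:
  `e₀ • P (b (b x)) = 0` on `W`, `b = y² - (1+q)²`;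
* `FrobSquare.t_sq_eq`: the limit step: if for every `m` the operator
  `e • PX (b_m²)`, `b_m = T(idx m σ)² - (1+q)²`, kills `rho m Lam`, and `Φ P ≠ 0`, then
  `t(σ)² = (1+q)²` in the domain `R`.
-/

set_option autoImplicit false

namespace Fermat.Agent.BR2.FrobSquare

open Fermat.Agent.Pseudo

/-! ### The identity `(σ² - 1)(σ² - q²) = σ² (y² - (1+q)²)` -/

section Identity

variable {X : Type*} [AddCommGroup X]

/-- `(σ² - 1)(σ² - q²) z = σ² (y² - (1+q)²) z` for every `z` of a subgroup `W` stable under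
`σ` and `y`, if `σ` and `y` commute and `σ² - y σ + q = 0` on `W`. -/
theorem theta_eq (s y : Module.End ℤ X) (q : ℤ) (W : AddSubgroup X)
    (hsW : ∀ x ∈ W, s x ∈ W)
    (hsy : ∀ x : X, s (y x) = y (s x))
    (hrel : ∀ x ∈ W, s (s x) - y (s x) + q • x = 0) (z : X) (hz : z ∈ W) :
    s (s (s (s z))) - (1 + q ^ 2) • s (s z) + q ^ 2 • z
      = s (s (y (y z))) - (1 + q) ^ 2 • s (s z) := by
  -- `s² = y s - q` on `W`
  have h2 : ∀ x ∈ W, s (s x) = y (s x) - q • x := fun x hx => by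
    have := hrel x hx
    rw [sub_add_eq_add_sub, sub_eq_zero] at this
    rw [eq_sub_iff_add_eq]
    exact this
  have hsz := hsW z hz
  have hssz := hsW _ hsz
  have e1 : s (s (s (s z))) = y (s (s (s z))) - q • s (s z) := h2 _ hssz
  have e2 : s (s (s z)) = y (s (s z)) - q • s z := h2 _ hsz
  have e3 : s (s (y (y z))) = y (y (s (s z))) := by
    rw [hsy, hsy, hsy, hsy]
  have e4 : s (s z) = y (s z) - q • z := h2 z hz
  have e5 : y (s z) = s (s z) + q • z := by rw [e4]; abel
  rw [e1, e3, e2, map_sub, map_zsmul, e5]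
  generalize s (s z) = a
  generalize y (y a) = b
  module

end Identity

/-! ### The module-level assembly -/

section Filtration

variable {X X₀ : Type*} [AddCommGroup X] [AddCommGroup X₀]

/-- The operator `(σ² - 1)(σ² - q²)`. -/
def theta (s : Module.End ℤ X) (q : ℤ) (z : X) : X :=
  s (s (s (s z))) - (1 + q ^ 2) • s (s z) + q ^ 2 • z

/-- The operator `b = y² - (1+q)²`. -/
def bOp (y : Module.End ℤ X) (q : ℤ) (z : X) : X := y (y z) - (1 + q) ^ 2 • z

theorem theta_eq_sub (s : Module.End ℤ X) (q : ℤ) (z : X) :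
    theta s q z = (s (s (s (s z) - q ^ 2 • z))) - (s (s z) - q ^ 2 • z) := by
  unfold theta
  simp only [map_sub, map_zsmul]
  module

theorem theta_zero (s : Module.End ℤ X) (q : ℤ) : theta s q 0 = 0 := by
  simp [theta]

theorem theta_nsmul (s : Module.End ℤ X) (q : ℤ) (e : ℕ) (z : X) :
    theta s q (e • z) = e • theta s q z := by
  unfold theta
  simp only [map_nsmul, smul_sub, smul_add]
  module

theorem bOp_nsmul (y : Module.End ℤ X) (q : ℤ) (e : ℕ) (z : X) :
    bOp y q (e • z) = e • bOp y q z := by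
  unfold bOp
  simp only [map_nsmul, smul_sub]
  module

theorem theta_eq_bOp (s y : Module.End ℤ X) (q : ℤ) (W : AddSubgroup X)
    (hsW : ∀ x ∈ W, s x ∈ W) (hsy : ∀ x : X, s (y x) = y (s x))
    (hrel : ∀ x ∈ W, s (s x) - y (s x) + q • x = 0) (z : X) (hz : z ∈ W) :
    theta s q z = s (s (bOp y q z)) := by
  unfold theta bOp
  rw [theta_eq s y q W hsW hsy hrel z hz, map_sub, map_sub, map_zsmul, map_zsmul]

/-- **The module-level assembly.**  `W` a subgroup of `X` (the pull-back of the `p^m`-torsion of the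
level of interest) stable under the Frobenius lift `s`, the Hecke operators `y` (the trace of `s`)
and `P`; `s² - y s + q = 0` on `W`; `tor`, `nat` subgroups of `X`; `α β : X →+ X₀` the two
degeneracy maps, whose kernels are `s`-stable, and `α (P x) = β (P x) = 0` on `W` (`P` kills the
lower level).  Then `e₀ • b (b (P x)) = 0` for `x ∈ W`, `b = y² - (1+q)²`. -/
theorem kill_of_filtration (s y P : Module.End ℤ X) (q : ℤ) (e₀ : ℕ)
    (W nat tor : AddSubgroup X) (α β : X →+ X₀)
    (hs_inj : Function.Injective s)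
    (hsW : ∀ x ∈ W, s x ∈ W) (hyW : ∀ x ∈ W, y x ∈ W) (hPW : ∀ x ∈ W, P x ∈ W)
    (hsy : ∀ x : X, s (y x) = y (s x))
    (hrel : ∀ x ∈ W, s (s x) - y (s x) + q • x = 0)
    (hαs : ∀ x, α x = 0 → α (s x) = 0) (hβs : ∀ x, β x = 0 → β (s x) = 0)
    (hαP : ∀ x ∈ W, α (P x) = 0) (hβP : ∀ x ∈ W, β (P x) = 0)
    (G3 : ∀ w ∈ W, s (s w) - w ∈ nat)
    (G4 : ∀ v ∈ tor, theta s q v = 0)
    (G5 : ∀ v ∈ nat, v ∈ W → α v = 0 → β v = 0 → e₀ • v ∈ tor)
    (x : X) (hx : x ∈ W) :
    e₀ • bOp y q (bOp y q (P x)) = 0 := by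
  have hbW : ∀ z ∈ W, bOp y q z ∈ W := fun z hz =>
    W.sub_mem (hyW _ (hyW _ hz)) (W.zsmul_mem hz _)
  have hθW : ∀ z ∈ W, theta s q z ∈ W := fun z hz =>
    W.add_mem (W.sub_mem (hsW _ (hsW _ (hsW _ (hsW _ hz)))) (W.zsmul_mem (hsW _ (hsW _ hz)) _))
      (W.zsmul_mem hz _)
  have hθα : ∀ z, α z = 0 → α (theta s q z) = 0 := fun z hz => by
    unfold theta
    rw [map_add, map_sub, map_zsmul, map_zsmul, hαs _ (hαs _ (hαs _ (hαs _ hz))),
      hαs _ (hαs _ hz), hz]
    simp
  have hθβ : ∀ z, β z = 0 → β (theta s q z) = 0 := fun z hz => by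
    unfold theta
    rw [map_add, map_sub, map_zsmul, map_zsmul, hβs _ (hβs _ (hβs _ (hβs _ hz))),
      hβs _ (hβs _ hz), hz]
    simp
  set z₁ := P x with hz₁
  have hz₁W : z₁ ∈ W := hPW x hx
  -- `y₁ := θ z₁ ∈ nat ∩ W`, killed by `α`, `β`
  set y₁ := theta s q z₁ with hy₁
  have hy₁W : y₁ ∈ W := hθW _ hz₁W
  have hy₁nat : y₁ ∈ nat := by
    rw [hy₁, theta_eq_sub]
    exact G3 _ (W.sub_mem (hsW _ (hsW _ hz₁W)) (W.zsmul_mem hz₁W _))
  have hy₁α : α y₁ = 0 := hθα _ (hαP x hx)
  have hy₁β : β y₁ = 0 := hθβ _ (hβP x hx)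
  have htor : e₀ • y₁ ∈ tor := G5 y₁ hy₁nat hy₁W hy₁α hy₁β
  have h4 := G4 _ htor
  -- rewrite `θ (e₀ y₁) = s² b (e₀ s² b z₁)`
  have h5 : y₁ = s (s (bOp y q z₁)) := theta_eq_bOp s y q W hsW hsy hrel z₁ hz₁W
  have h6 : theta s q (e₀ • y₁) = s (s (bOp y q (e₀ • y₁))) :=
    theta_eq_bOp s y q W hsW hsy hrel _ (W.nsmul_mem hy₁W _)
  rw [h6] at h4
  have h7 : bOp y q (e₀ • y₁) = 0 := hs_inj (hs_inj (by rw [h4, map_zero, map_zero]))
  -- `b (s² w) = s² (b w)`
  have hbs : ∀ w, bOp y q (s (s w)) = s (s (bOp y q w)) := fun w => by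
    unfold bOp
    rw [map_sub, map_sub, map_zsmul, map_zsmul, hsy, hsy, hsy, hsy]
  rw [bOp_nsmul, h5, hbs, ← map_nsmul, ← map_nsmul] at h7
  exact hs_inj (hs_inj (by rw [h7, map_zero, map_zero]))

/-- Transfer along an auxiliary level: `π^* : X' → X`, `π_* : X → X'` with `π_* π^* = d`,
commuting with the Hecke operators. -/
theorem kill_of_pullback {X' : Type*} [AddCommGroup X'] (y P : Module.End ℤ X)
    (y' P' : Module.End ℤ X') (q : ℤ) (e₀ d : ℕ) (pull : X' →+ X) (push : X →+ X')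
    (hpp : ∀ x', push (pull x') = d • x')
    (hy : ∀ x, push (y x) = y' (push x)) (hP : ∀ x, push (P x) = P' (push x))
    (x' : X') (h : e₀ • bOp y q (bOp y q (P (pull x'))) = 0) :
    (d * e₀) • bOp y' q (bOp y' q (P' x')) = 0 := by
  have hb : ∀ x, push (bOp y q x) = bOp y' q (push x) := fun x => by
    unfold bOp
    rw [map_sub, map_zsmul, hy, hy]
  have h1 := congrArg push h
  rw [map_zero, map_nsmul, hb, hb, hP, hpp, map_nsmul, bOp_nsmul, bOp_nsmul, smul_smul,
    mul_comm] at h1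
  exact h1

end Filtration

/-! ### The limit step -/

section Limit

variable {G Lam X I : Type*} [Group G] [AddCommGroup Lam] [AddCommGroup X] [DistribMulAction G X]
  {Y : TraceSystem G Lam X I} {R : Type*} [CommRing R] [IsDomain R] {J : Ideal R}
  [IsAdicComplete J R]

/-- `b` as an endomorphism. -/
def bEnd {Z : Type*} [AddCommGroup Z] (y : Module.End ℤ Z) (q : ℤ) : Module.End ℤ Z :=
  y * y - ((1 + q) ^ 2 : ℤ) • (1 : Module.End ℤ Z)

theorem bEnd_apply {Z : Type*} [AddCommGroup Z] (y : Module.End ℤ Z) (q : ℤ) (z : Z) :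
    bEnd y q z = bOp y q z := by
  unfold bEnd bOp
  rw [LinearMap.sub_apply, LinearMap.smul_apply, Module.End.mul_apply, Module.End.one_apply]

/-- **The limit step.**  If for every `m` the operator `e • b_m² PX`,
`b_m = T(idx m σ)² - (1+q)²`, kills `rho m Lam` (`PX` the counterpart on `X` of an element `P` of the
Hecke algebra of `Lam` with `Φ P ≠ 0`, `e ≠ 0` in `R`), then `t(σ)² = (1+q)²`. -/
theorem t_sq_eq (D : TraceLimitInput Y R J) (σ : G) (q : ℤ) (P : D.A) (PX : Module.End ℤ X)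
    (hPX : ∀ m, Intertwined (Y.rho m) (P : Module.End ℤ Lam) PX) (hΦP : D.Φ P ≠ 0)
    (e : ℕ) (he : (e : R) ≠ 0)
    (hkill : ∀ (m : ℕ) (lam : Lam),
      e • bOp (Y.T (Y.idx m σ)) q (bOp (Y.T (Y.idx m σ)) q (PX (Y.rho m lam))) = 0) :
    D.t σ ^ 2 = (((1 + q : ℤ) : R)) ^ 2 := by
  have hmain : ∀ m : ℕ,
      (e : R) * ((D.t σ ^ 2 - (((1 + q : ℤ) : R)) ^ 2) ^ 2 * D.Φ P) ∈ J ^ (m - D.c) := by
    intro m
    set i := Y.idx m σ with hi
    -- the element of the Hecke algebra of `Lam`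
    let bL : D.A := D.tl i * D.tl i - ((1 + q) ^ 2 : ℤ) • (1 : D.A)
    let AL : D.A := e • (bL * bL * P)
    have hcoe : (AL : Module.End ℤ Lam) =
        e • (bEnd (Y.TL i) q * bEnd (Y.TL i) q * (P : Module.End ℤ Lam)) := by
      simp [AL, bL, bEnd]
    have hint : Intertwined (Y.rho m) (AL : Module.End ℤ Lam)
        (e • (bEnd (Y.T i) q * bEnd (Y.T i) q * PX)) := by
      rw [hcoe]
      have hT : Intertwined (Y.rho m) (Y.TL i) (Y.T i) := fun lam => Y.rho_TL m i lam
      have hb : Intertwined (Y.rho m) (bEnd (Y.TL i) q) (bEnd (Y.T i) q) :=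
        (hT.mul hT).sub ((Intertwined.one).zsmul _)
      exact ((hb.mul hb).mul (hPX m)).nsmul e
    have hzero : ModEq (Y.p ^ m) (AL : Module.End ℤ Lam) 0 := by
      refine hint.modEq_zero (fun lam h => (Y.ker_rho m lam).mp h) fun lam => ?_
      rw [LinearMap.smul_apply, Module.End.mul_apply, Module.End.mul_apply, bEnd_apply,
        bEnd_apply]
      exact hkill m lam
    have hsat := D.sat m AL hzero
    -- compute `Φ AL`
    have hΦ : D.Φ AL = (e : R) * ((D.approx m σ ^ 2 - (((1 + q : ℤ) : R)) ^ 2) ^ 2 * D.Φ P) := by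
      have hbL : D.Φ bL = D.approx m σ ^ 2 - (((1 + q : ℤ) : R)) ^ 2 := by
        simp only [bL, map_sub, map_mul, map_zsmul, map_one, TraceLimitInput.approx,
          TraceLimitInput.hecke, ← hi]
        push_cast
        ring
      simp only [AL, map_mul, hbL, nsmul_eq_mul, map_natCast]
      ring
    rw [hΦ] at hsat
    -- replace `approx` by `t`
    rw [← Ideal.Quotient.eq_zero_iff_mem] at hsat ⊢
    rw [map_mul, map_mul, map_pow, map_sub, map_pow, D.mk_t] at *
    simpa [map_mul, map_pow, map_sub] using hsat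
  have hzero := eq_zero_of_forall_mem_pow_sub J D.c hmain
  rcases mul_eq_zero.mp hzero with h | h
  · exact absurd h he
  · rcases mul_eq_zero.mp h with h | h
    · exact sub_eq_zero.mp ((pow_eq_zero_iff (two_ne_zero)).mp h)
    · exact absurd h hΦP

end Limit

end Fermat.Agent.BR2.FrobSquare
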