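/-
Phase 2 (S35), INTERFACE S34 → Phase 2 (helper23): the semistable setup of `X₀(qM)` at `q` as an
EXPLICIT term built from the named inputs `Final.ModularData M q B hB hqM` of S34, with its
`rfl`-lemmas, so that the filtration `Filt.torSub ≤ Filt.natSub ≤ Pic⁰[m]` (`BR2/Filtration`) and
the geometric nodes (G3), (G4), (G5) can be stated on it.

(`S0.TwoCompDeliverable M q B` is an existential `Prop`: the setup it contains is opaque. Here the
setup is a definition: its components are `compW B hB hqM v = ![constRedW1, constRedW2]`, its nodes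
are the crossings `PointDict.Crossing (chartDataModular B hB hqM)` of the finite chart, its
reduction map is the reduction map `H.r` of the point dictionary.)

For `Dt : ModularData M q B hB hqM`:

* `atlas Dt : AtlasHyp (chartDataModular B hB hqM) (jx M q)`; `finite_crossing`, `fintypeCrossing`,
  `lower_bound`, `nonempty_crossing`;
* `input Dt : TwoCompInput …`, `setup Dt : SemistableSetup (F := Fb (M*q)) B (residue B) (Fin 2)
  (fun _ => F̃_M) (Crossing D)`;
* `rfl`-lemmas `setup_O`, `setup_res`, `setup_src`, `setup_tgt`, `setup_s₁`, `setup_s₂`,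
  `setup_r`, `tube_setup`; the tubes: `setup_r_eq_zero_iff`, `setup_r_eq_one_iff`,
  `setup_r_eq_z₁_iff`; `isSmoothPlace_iff`;
* the HANDLES of the refinement machinery: `riemannPkg`, `genus_eq` (at a level without elliptic
  points), `isRankOne`, `circleInputs Dt`, `chainProvider Dt : ChainProvider (setup Dt)` with
  `chainProvider_u` (`= (Dt.L _ e).u`, in the base level field: `chainProvider_u_mem`),
  `chainProvider_u_smul` / `setup_r_smul` (inertia), `hasModularInput`;
* `natSub Dt m`, `torSub Dt m : AddSubgroup (Pic0 ℚ̄ (Fb (M*q)))` and the shape of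
  `Filt.Equivariant` on this setup: `equivariant_iff`.
-/
import Mathlib
import Fermat.Agent.BR.Final.Data
import Fermat.Agent.BR2.Filtration

set_option autoImplicit false
set_option synthInstance.maxHeartbeats 400000
set_option linter.unusedSectionVars false

namespace Fermat.Agent.BR2.SetupOfData

open AlgebraicCurve ModularCurve IsLocalRing Polynomial
open Fermat.Agent.Red Fermat.Agent.Val Fermat.Agent.X0 Fermat.Agent.BR.SS Fermat.Agent.BR.Refine
open Fermat.Agent.BR.Centre Fermat.Agent.BR.ConstRedTwo Fermat.Agent.BR.ModUnit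
open Fermat.Agent.BR.S0 Fermat.Agent.BR.S0.RedModular Fermat.Agent.BR.S0.PointDict
open Fermat.Agent.BR.S0.Modular Fermat.Agent.BR.S0.RedHyp Fermat.Agent.BR.Final
open Fermat.Agent.BR.S0.AnnulusChartOfLevels
open Fermat.Agent.BR.Inst.NormalModel Fermat.Agent.BR.UnramCycloTower

variable {M q : ℕ} [NeZero M] [hq : Fact q.Prime]
variable {B : ValuationSubring (AlgebraicClosure ℚ)} {hB : B.LiesOverPrime q} {hqM : ¬ q ∣ M}
variable [IsAlgClosed (ResidueField B)]

local notation "kB" => IsLocalRing.ResidueField B
local notation "FtM" => modularFunctionFieldFullC (IsLocalRing.ResidueField B) M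
local notation "Kb" => AlgebraicClosure ℚ

variable (Dt : ModularData M q B hB hqM)

/-! ### the atlas and its crossings -/

include Dt in
/-- the atlas hypotheses of `X₀(qM)` at `q` -/
theorem atlas : AtlasHyp (chartDataModular B hB hqM) (jx M q) :=
  atlasHyp_modular B hB hqM Dt.G

include Dt in
/-- the crossings are finite in number -/
theorem finite_crossing : Finite (Crossing (chartDataModular B hB hqM)) :=
  Modular.finite_crossing (atlas Dt) (TB_mem_chartFin M q)

/-- the finite type of the crossings -/
@[reducible] noncomputable def fintypeCrossing : Fintype (Crossing (chartDataModular B hB hqM)) :=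
  haveI := finite_crossing Dt
  Fintype.ofFinite _

/-- the lower bound of the SANDWICH -/
theorem lower_bound :
    ((q : ℚ) - 1) * (dedekindPsi M : ℚ) ≤
      12 * ((fintypeCrossing Dt).card : ℚ) := by
  letI := fintypeCrossing Dt
  exact Modular.lower_bound Dt.hzero Dt.hord

include Dt in
/-- there is a crossing -/
theorem nonempty_crossing : Nonempty (Crossing (chartDataModular B hB hqM)) := by
  letI := fintypeCrossing Dt
  exact Modular.nonempty_crossing (lower_bound Dt)

/-! ### the setup -/

/-- **The two-component bundle of `X₀(qM)` at `q`.** -/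
noncomputable def input :
    TwoCompInput (F := Fb (M * q)) B (residue B) FtM (Crossing (chartDataModular B hB hqM)) :=
  modularInput (atlas Dt) (nonempty_crossing Dt) Dt.smooth₀ Dt.smooth₁ Dt.chart

/-- **The semistable setup of `X₀(qM)` at `q`**: two components `X₀(M)_k`, the crossings of the
finite chart as nodes, oriented from the component `0` to the component `1`. -/
noncomputable def setup :
    SemistableSetup (F := Fb (M * q)) B (residue B) (Fin 2) (fun _ => FtM)
      (Crossing (chartDataModular B hB hqM)) :=
  (input Dt).toSetup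

theorem setup_O (v : Fin 2) : (setup Dt).O v = (compW B hB hqM v).O := rfl

theorem setup_res (v : Fin 2) : (setup Dt).res v = (compW B hB hqM v).res := rfl

theorem setup_src (e : Crossing (chartDataModular B hB hqM)) : (setup Dt).src e = 0 := rfl

theorem setup_tgt (e : Crossing (chartDataModular B hB hqM)) : (setup Dt).tgt e = 1 := rfl

theorem setup_s₁ (e : Crossing (chartDataModular B hB hqM)) :
    (setup Dt).s₁ e = z₁ (chartDataModular B hB hqM) e := rfl

theorem setup_s₂ (e : Crossing (chartDataModular B hB hqM)) :
    (setup Dt).s₂ e = z₂ (chartDataModular B hB hqM) e := rfl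

theorem setup_r : (setup Dt).r = (atlas Dt).r := rfl

/-- the tube of a node is the tube of the crossing in the point dictionary -/
theorem tube_setup (e : Crossing (chartDataModular B hB hqM)) :
    tube (setup Dt) e = {P | (atlas Dt).r P = ⟨0, z₁ (chartDataModular B hB hqM) e⟩} := rfl

/-- **Tube of a point of the component `0`.** -/
theorem setup_r_eq_zero_iff {P : Place Kb (Fb (M * q))} {Q : Place kB FtM} :
    (setup Dt).r P = ⟨0, Q⟩ ↔ Red (chartDataModular B hB hqM) 0 P Q :=
  (atlas Dt).r_eq_zero_iff

/-- **Tube of a point of the component `1`.** -/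
theorem setup_r_eq_one_iff {P : Place Kb (Fb (M * q))} {Q : Place kB FtM} :
    (setup Dt).r P = ⟨1, Q⟩ ↔
      Red (chartDataModular B hB hqM) 1 P Q ∧ ¬ ∃ Q', Red (chartDataModular B hB hqM) 0 P Q' :=
  (atlas Dt).r_eq_one_iff

/-- **Tube of a crossing.** -/
theorem setup_r_eq_z₁_iff {P : Place Kb (Fb (M * q))}
    (e : Crossing (chartDataModular B hB hqM)) :
    (setup Dt).r P = ⟨0, z₁ (chartDataModular B hB hqM) e⟩ ↔
      IsRedOf B (residue B) chartFin (compW B hB hqM 0).O (compW B hB hqM 0).res
        (chartFin_le B hB hqM 0) P (z₁ (chartDataModular B hB hqM) e) :=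
  (atlas Dt).r_eq_z₁_iff e

/-- a place is smooth iff its reduction is not a crossing -/
theorem isSmoothPlace_iff (P : Place Kb (Fb (M * q))) :
    (setup Dt).IsSmoothPlace P ↔
      ∀ e, (atlas Dt).r P ≠ ⟨0, z₁ (chartDataModular B hB hqM) e⟩ :=
  (input Dt).isSmoothPlace_iff P

/-! ### the handles of the refinement machinery -/

include Dt in
/-- the Riemann package of the components -/
theorem riemannPkg (_v : Fin 2) : RiemannPkg kB FtM :=
  Fermat.Agent.Val.riemannPkg_modL_residueField M hqM B hB

include Dt in
/-- `B` has rank one -/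
theorem isRankOne : IsRankOne B := Val.isRankOne B hB

/-- the number of crossings is the supersingular count, at a level without elliptic points -/
theorem card_crossing (h2 : nuTwo M = 0) (h3 : nuThree M = 0) :
    ((fintypeCrossing Dt).card : ℚ) = Fermat.Agent.BR.GenusCount.nodeCount q M := by
  letI := fintypeCrossing Dt
  exact card_eq_nodeCount_of_le M q B hB hqM (setup Dt) h2 h3 (lower_bound Dt)

/-- **the genus equality** of the setup, at a level without elliptic points -/
theorem genus_eq (h2 : nuTwo M = 0) (h3 : nuThree M = 0) :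
    letI := fintypeCrossing Dt
    (genusFF Kb (Fb (M * q)) : ℤ) =
      ∑ _v : Fin 2, (genusFF kB FtM : ℤ) +
        Fintype.card (Crossing (chartDataModular B hB hqM)) - Fintype.card (Fin 2) + 1 := by
  letI := fintypeCrossing Dt
  exact (genus_hyp_iff M q B hB hqM _).mpr (card_crossing Dt h2 h3)

/-- **the circle inputs** of the setup, from the level data of the crossings -/
noncomputable def circleInputs : Fermat.Agent.BR.Circle.CircleInputs (setup Dt) :=
  circleInputsOfLevels (Val.isRankOne B hB) (Dt.L (nonempty_crossing Dt))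
    (Dt.X (nonempty_crossing Dt))
    (fun _ _ h => separated_modularInput (atlas Dt) (nonempty_crossing Dt) Dt.smooth₀
      Dt.smooth₁ Dt.chart h)

/-- **the chain provider** of the setup -/
noncomputable def chainProvider : ChainProvider (setup Dt) := (circleInputs Dt).chainProvider

/-- the annulus coordinate of the chain provider at a crossing -/
noncomputable def annulusCoord (e : Crossing (chartDataModular B hB hqM)) : Fb (M * q) :=
  (Dt.L (nonempty_crossing Dt) e).u

theorem annulusCoord_mem (e : Crossing (chartDataModular B hB hqM)) :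
    annulusCoord Dt e ∈ modelField (M * q) (coeffField q (∅ : Finset Kb)).toSubfield :=
  Dt.u_mem (nonempty_crossing Dt) e

theorem chainProvider_u (e : Crossing (chartDataModular B hB hqM)) :
    (chainProvider Dt).u e = annulusCoord Dt e := rfl

/-- **(h1)**: inertia fixes the annulus coordinates -/
theorem chainProvider_u_smul {σ : Kb ≃ₐ[ℚ] Kb} (hσ : σ ∈ B.inertiaSubgroupIn ℚ)
    (e : Crossing (chartDataModular B hB hqM)) :
    arithmeticGalois (modularFunctionFieldFull (M * q)) σ • (chainProvider Dt).u e =
      (chainProvider Dt).u e :=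
  Fermat.Agent.BR.Inst.InertiaBase.hu_of_mem_modelField_base B hq.out hB
    (fun e => annulusCoord Dt e) (annulusCoord_mem Dt) σ hσ e

/-- **(h2)**: the reduction map is invariant under inertia -/
theorem setup_r_smul {σ : Kb ≃ₐ[ℚ] Kb} (hσ : σ ∈ B.inertiaSubgroupIn ℚ)
    (P : Place Kb (Fb (M * q))) :
    (setup Dt).r (arithmeticGalois (modularFunctionFieldFull (M * q)) σ • P) = (setup Dt).r P :=
  rModular_smul B hB hqM (atlas Dt).chartHyp hσ P

include Dt in
/-- the modular input of the geometric main theorem of Program B, with THIS setup -/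
theorem hasModularInput (h2 : nuTwo M = 0) (h3 : nuThree M = 0) :
    HasModularInput (M * q) B := by
  letI := fintypeCrossing Dt
  exact hasModularInput_of_twoCompInput M q B hB hqM h2 h3 (input Dt) (lower_bound Dt)
    (chainProvider Dt) (fun σ hσ => ⟨fun e => chainProvider_u_smul Dt hσ e,
      fun Q => setup_r_smul Dt hσ Q⟩)

/-! ### the filtration of `Pic⁰[m]` on this setup -/

/-- the finite part of `Pic⁰(Fb (M q))[m]` -/
noncomputable abbrev natSub (m : ℕ) : AddSubgroup (Pic0 Kb (Fb (M * q))) :=
  Filt.natSub (setup Dt) m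

/-- the toric part of `Pic⁰(Fb (M q))[m]` -/
noncomputable abbrev torSub (m : ℕ) : AddSubgroup (Pic0 Kb (Fb (M * q))) :=
  Filt.torSub (setup Dt) m

/-- **`Filt.Equivariant` on this setup**, unfolded: `g` preserves the two component valuation
rings `(compW B hB hqM v).O`, the residue maps intertwine `g` with `a v`, and `a 0`, `a 1` fix the
two branches `z₁ e`, `z₂ e` of every crossing. -/
theorem equivariant_iff (g : SemilinearAut Kb (Fb (M * q)))
    (a : Fin 2 → SemilinearAut kB FtM) :
    Filt.Equivariant (setup Dt) g a ↔
      (∀ v (y : Fb (M * q)), y ∈ (compW B hB hqM v).O → g • y ∈ (compW B hB hqM v).O) ∧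
      (∀ v (y : Fb (M * q)) (hy : y ∈ (compW B hB hqM v).O)
        (hy' : g • y ∈ (compW B hB hqM v).O),
        (compW B hB hqM v).res ⟨g • y, hy'⟩ = a v • (compW B hB hqM v).res ⟨y, hy⟩) ∧
      (∀ e, a 0 • z₁ (chartDataModular B hB hqM) e = z₁ (chartDataModular B hB hqM) e) ∧
      (∀ e, a 1 • z₂ (chartDataModular B hB hqM) e = z₂ (chartDataModular B hB hqM) e) :=
  ⟨fun h => ⟨h.smul_mem, h.res_smul, h.s₁_fixed, h.s₂_fixed⟩,
    fun h => ⟨h.1, h.2.1, h.2.2.1, h.2.2.2⟩⟩

/-- **(G3) on this setup** (`Filt.smul_sub_mem_natSub`): for an equivariant `g` and `m x = 0`,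
`g • x - x` lies in the finite part. -/
theorem smul_sub_mem_natSub {g : SemilinearAut Kb (Fb (M * q))}
    {a : Fin 2 → SemilinearAut kB FtM} (h : Filt.Equivariant (setup Dt) g a) {m : ℕ}
    {x : Pic0 Kb (Fb (M * q))} (hx : m • x = 0) : g • x - x ∈ natSub Dt m :=
  Filt.smul_sub_mem_natSub h hx

end Fermat.Agent.BR2.SetupOfData
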