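import Fermat.Agent.BR2.G3Modular
import Fermat.Agent.BR2.SetupOfData

/-!
# Phase 2, node (G3), final form on the setup of `BR2/SetupOfData`

`Dt : Final.ModularData M q B hB hqM` (the named inputs of S34 at the level `M q`), `σ` a Frobenius
element at `q`:

* `equivariant_sq_setup` : `Filt.Equivariant (setup Dt) (gal (M q) σ ^ 2) (fun _ => Φ ^ 2)`,
  `Φ = frobAutFullC k M q`;
* `g3_final` : `m w = 0 → σ • σ • w - w ∈ SetupOfData.natSub Dt m` (hypothesis `G3` of
  `BR2/GeoPlug.geoInputSpan_of_nodes` with `nat m := SetupOfData.natSub Dt (lam ^ m)`).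
-/

set_option autoImplicit false
set_option linter.unusedSectionVars false
set_option linter.style.haveILetI false

noncomputable section

set_option synthInstance.maxHeartbeats 400000

namespace Fermat.Agent.BR2.G3Final

open ModularCurve AlgebraicCurve IsLocalRing
open Fermat.Agent.X0 Fermat.Agent.Val Fermat.Agent.Red Fermat.Agent.Hecke
open Fermat.Agent.BR.ValTwo Fermat.Agent.BR.SS Fermat.Agent.BR.Final
open Fermat.Agent.BR.S0.RedModular Fermat.Agent.BR.S0.PointDict
open Fermat.Agent.BR2.G3PrepRes Fermat.Agent.BR2.G3PrepCross Fermat.Agent.BR2.SetupOfData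

variable {M q : ℕ} [NeZero M] [hq : Fact q.Prime]
variable {B : ValuationSubring (AlgebraicClosure ℚ)} {hB : B.LiesOverPrime q} {hqM : ¬ q ∣ M}
variable [IsAlgClosed (ResidueField B)]
variable (Dt : ModularData M q B hB hqM) {σ : AlgebraicClosure ℚ ≃ₐ[ℚ] AlgebraicClosure ℚ}

/-- **The square of a Frobenius element acts on the setup through `Φ²`.** -/
theorem equivariant_sq_setup [CharP (ResidueField B) q] (hσ : B.IsFrobeniusAt σ q) :
    Filt.Equivariant (setup Dt) (gal (M * q) σ ^ 2)
      (fun _ => frobAutFullC (ResidueField B) M q ^ 2) :=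
  equivariant_sq_modular B hB hqM (input Dt) rfl rfl rfl hσ

/-- **(G3), final form.** -/
theorem g3_final (hσ : B.IsFrobeniusAt σ q) (m : ℕ) (w : JZero (M * q)) (hw : m • w = 0) :
    σ • σ • w - w ∈ SetupOfData.natSub Dt m := by
  haveI : CharP (ResidueField B) q := Val.charP_residueField_of_liesOverPrime B hB
  rw [← G3Modular.gal_sq_smul_pic0]
  exact Filt.smul_sub_mem_natSub (equivariant_sq_setup Dt hσ) hw

end Fermat.Agent.BR2.G3Final
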