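import Fermat.Agent.BR2.G3PrepCross
import Fermat.Agent.BR.S0.Inst

/-!
# Phase 2, node (G3), modular instance

`σ` a Frobenius element at `q` (`B` a valuation ring of `ℚ̄` over `q ∤ M`), `I` a two-component
bundle of `X₀(qM)` at `q` over the components `compW B hB hqM`.  Then for every `m` and every
`w ∈ J₀(Mq)` with `m w = 0`:  `σ² w - w ∈ Filt.natSub I.toSetup m`
(= the hypothesis `G3` of `BR2/GeoPlug.geoInputSpan_of_nodes`, `nat m := Filt.natSub I.toSetup (lam^m)`).

* `g3_modular` : with the `Φ²`-invariance of the crossing branches as named inputs `hz₁`, `hz₂`;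
* `g3_of_crossing` : `hz₁`, `hz₂` discharged when the crossings of `I` are those of the point
  dictionary (`BR2/G3PrepCross`);
* `g3_modularInput` : for `I = S0.Modular.modularInput H hne smooth₀ smooth₁ chart` (the bundle of
  `BR/Final/Data`), nothing named.
-/

set_option autoImplicit false
set_option linter.unusedSectionVars false
set_option linter.style.haveILetI false

noncomputable section

set_option synthInstance.maxHeartbeats 400000

namespace Fermat.Agent.BR2.G3Modular

open ModularCurve AlgebraicCurve IsLocalRing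
open Fermat.Agent.X0 Fermat.Agent.Val Fermat.Agent.Red Fermat.Agent.Hecke
open Fermat.Agent.BR.ValTwo Fermat.Agent.BR.SS
open Fermat.Agent.BR.S0.RedModular Fermat.Agent.BR.S0.PointDict
open Fermat.Agent.BR2.G3PrepRes Fermat.Agent.BR2.G3PrepCross Fermat.Agent.BR.S0

variable {M q : ℕ} [NeZero M] [hq : Fact q.Prime] (hqM : ¬ q ∣ M)
variable (B : ValuationSubring Kb) (hB : B.LiesOverPrime q)

local notation "kB" => IsLocalRing.ResidueField B
local notation "FtM" => modularFunctionFieldFullC (IsLocalRing.ResidueField B) M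

/-- the action of `σ²` on `J₀(N)` is the action of the semilinear automorphism `gal N σ ^ 2` -/
theorem gal_sq_smul_pic0 (N : ℕ) (σ : Kb ≃ₐ[ℚ] Kb) (x : JZero N) :
    gal N σ ^ 2 • x = σ • σ • x := by
  rw [pow_two, mul_smul]
  rfl

variable [CharP (IsLocalRing.ResidueField B) q] [PerfectField (IsLocalRing.ResidueField B)]
variable {σ : Kb ≃ₐ[ℚ] Kb}

/-- **(G3), modular instance**, with the `Φ²`-invariance of the crossing branches as named
inputs. -/
theorem g3_modular {ν : Type*}
    (I : Fermat.Agent.BR.S0.TwoCompInput (F := Fb (M * q)) B (IsLocalRing.residue B) FtM ν)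
    (hC : I.C = compW B hB hqM) (hσ : B.IsFrobeniusAt σ q)
    (hz₁ : ∀ e, frobAutFullC kB M q ^ 2 • I.z₁ e = I.z₁ e)
    (hz₂ : ∀ e, frobAutFullC kB M q ^ 2 • I.z₂ e = I.z₂ e)
    (m : ℕ) (w : JZero (M * q)) (hw : m • w = 0) :
    σ • σ • w - w ∈ Filt.natSub I.toSetup m := by
  rw [← gal_sq_smul_pic0]
  exact Filt.smul_sub_mem_natSub (equivariant_pow_of_C_eq hqM B hB I hC hσ 2 hz₁ hz₂) hw

/-- **(G3), modular instance**, for a bundle whose crossings are those of the point dictionary:
nothing named (the crossings are `Φ²`-fixed by `BR2/G3PrepCross`). -/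
theorem g3_of_crossing
    (I : Fermat.Agent.BR.S0.TwoCompInput (F := Fb (M * q)) B (IsLocalRing.residue B) FtM
      (Crossing (chartDataModular B hB hqM)))
    (hC : I.C = compW B hB hqM) (hz₁ : I.z₁ = z₁ (chartDataModular B hB hqM))
    (hz₂ : I.z₂ = z₂ (chartDataModular B hB hqM)) (hσ : B.IsFrobeniusAt σ q)
    (m : ℕ) (w : JZero (M * q)) (hw : m • w = 0) :
    σ • σ • w - w ∈ Filt.natSub I.toSetup m := by
  rw [← gal_sq_smul_pic0]
  exact Filt.smul_sub_mem_natSub (equivariant_sq_modular B hB hqM I hC hz₁ hz₂ hσ) hw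

/-- **(G3) for the bundle of `BR/Final/Data`**: `I = modularInput H hne smooth₀ smooth₁ chart`. -/
theorem g3_modularInput {x : Fb (M * q)} (H : AtlasHyp (chartDataModular B hB hqM) x)
    (hne : Nonempty (Crossing (chartDataModular B hB hqM)))
    (smooth₀ : ∀ Q : Place kB FtM, (∀ e, Q ≠ z₁ (chartDataModular B hB hqM) e) →
      SmoothChart B (compW B hB hqM 0).O (compW B hB hqM 0).res Q {P | H.r P = ⟨0, Q⟩})
    (smooth₁ : ∀ Q : Place kB FtM, (∀ e, Q ≠ z₂ (chartDataModular B hB hqM) e) →
      SmoothChart B (compW B hB hqM 1).O (compW B hB hqM 1).res Q {P | H.r P = ⟨1, Q⟩})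
    (chart : ∀ e, NodeChart B (compW B hB hqM 0).O (compW B hB hqM 1).O (compW B hB hqM 0).res
      (compW B hB hqM 1).res (z₁ (chartDataModular B hB hqM) e)
      (z₂ (chartDataModular B hB hqM) e)
      {P | H.r P = ⟨0, z₁ (chartDataModular B hB hqM) e⟩})
    (hσ : B.IsFrobeniusAt σ q) (m : ℕ) (w : JZero (M * q)) (hw : m • w = 0) :
    σ • σ • w - w ∈
      Filt.natSub (Fermat.Agent.BR.S0.Modular.modularInput H hne smooth₀ smooth₁ chart).toSetup m :=
  g3_of_crossing hqM B hB _ rfl rfl rfl hσ m w hw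

end Fermat.Agent.BR2.G3Modular
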