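import Fermat.Agent.BR2.G3PrepRes
import Fermat.Agent.BR.S0.SepModularInf
import Fermat.Agent.BR.AnnulusRed

/-!
# Phase 2, node (G3-prep)(c): the crossings of `X₀(qM)` at `q` are fixed by `Φ²`

`Φ = frobAutFullC k M q` the coefficientwise `q`-Frobenius of `F̃_M`.  A glued pair `(Q₁, Q₂)` of the
finite chart (`PointDict.GluedF (chartDataModular B hB hqM) Q₁ Q₂`: the residues of every function
of the chart take the same value at `Q₁` on the first component and at `Q₂` on the second one) has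
`Φ² • Q₁ = Q₁`, `Φ² • Q₂ = Q₂`:

for `b` in the rational chart of level `M`, `z = res_M b`: `res₁ (α b) = z`, `res₂ (α b) = z^q`,
`res₁ (β b) = z^q`, `res₂ (β b) = z` (Kronecker), so `z(Q₁) = z(Q₂)^q` and `z(Q₁)^q = z(Q₂)`: the values
lie in `𝔽_{q²}`; `Φ z = z`; and the `z` span the Dedekind coordinate ring `C_k` over `k`.

* `frob_sq_smul_eq_of_gluedF`, `frob_sq_smul_z₁`, `frob_sq_smul_z₂`;
* `equivariant_sq_modular` : `Filt.Equivariant I.toSetup (gal (M q) σ ^ 2) (fun _ => Φ ^ 2)`.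
-/

set_option autoImplicit false
set_option linter.unusedSectionVars false
set_option linter.style.haveILetI false

noncomputable section

set_option synthInstance.maxHeartbeats 400000

namespace Fermat.Agent.BR2.G3PrepCross

open ModularCurve ModularCurve.IgusaScheme AlgebraicCurve IsLocalRing
open Fermat.Agent.X0 Fermat.Agent.Val Fermat.Agent.Red Fermat.Agent.Hecke
open Fermat.Agent.BR.TwoVal Fermat.Agent.BR.TwoValInst Fermat.Agent.BR.ValTwo
open Fermat.Agent.BR.ResGen Fermat.Agent.BR.ConstRedTwo Fermat.Agent.BR.Inst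
open Fermat.Agent.Good.Bridge Fermat.Agent.BR.Inst.SpecIso Fermat.Agent.BR.Inst.DegenModel
open Fermat.Agent.BR.S0.RedModular Fermat.Agent.BR.S0.PointDict Fermat.Agent.BR.S0.SepModular
open Fermat.Agent.BR.SS Fermat.Agent.BR2.G3PrepRes Fermat.Agent.Igusa Fermat.Agent.BR.TwoValQ

variable {M q : ℕ} [NeZero M] [hqF : Fact q.Prime]
variable (B : ValuationSubring Kb) (hB : B.LiesOverPrime q) (hqM : ¬ q ∣ M)

local notation "kB" => IsLocalRing.ResidueField B
local notation "FtM" => modularFunctionFieldFullC (IsLocalRing.ResidueField B) M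

include hqM in
/-- `res₁ (β g) = (res_M g)^q` for `g` with rational `q`-expansion in a `ℤ_(q)`-chart. -/
theorem res1_beta_barEmb {S : Set ↥(modularFunctionFieldFull M)}
    (hS : ∀ s ∈ S, ((s : ↥(modularFunctionFieldFull M)) : LaurentSeries ℚ) ∈ gaussSubring q)
    {b : ↥(modularFunctionFieldFull M)} (hb : b ∈ chartAlg M q S)
    (hO : barEmb M b ∈ OM M B hB) :
    res1 M B hB ⟨heckeBetaBar Kb M q (barEmb M b),
        (beta_mem_O1_iff B hB (barEmb M b)).2 hO⟩ =
      (resM M B hB ⟨barEmb M b, hO⟩) ^ q := by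
  haveI : CharP kB q := Val.charP_residueField_of_liesOverPrime B hB
  rw [res1_beta B hB (barEmb M b) hO]
  have h1 : resM M B hB ⟨barEmb M b, hO⟩ =
      coeffMap (zmodToResidue B hB) (chartRes M q hS ⟨b, hb⟩) :=
    res_barEmb M hqM B hB (zmodToResidue B hB) hS ⟨b, hb⟩
  have h2 : (frobenius kB q).comp (zmodToResidue B hB) = zmodToResidue B hB :=
    Subsingleton.elim _ _
  rw [h1, Fermat.Agent.ES.pow_char_eq_qExpand_coeffMap_frobenius q, coeffMap_coeffMap, h2]

/-! ### the four residues of `α b`, `β b` for `b` in the rational chart of level `M` -/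

section Residues

variable {b : ↥(modularFunctionFieldFull M)} (hb : b ∈ chartAlgFin M q)
  (hO : barEmb M b ∈ OM M B hB)

theorem compW_zero_res_alpha :
    (compW B hB hqM 0).res ⟨heckeAlphaBar Kb M q (barEmb M b),
        chartFin_le B hB hqM 0 (alpha_barEmb_mem_chartFin hb)⟩ =
      redMF B hB hqM ⟨barEmb M b, hO⟩ := by
  rw [← red1F_alpha B hB hqM (barEmb M b) hO]
  rfl

theorem compW_one_res_beta :
    (compW B hB hqM 1).res ⟨heckeBetaBar Kb M q (barEmb M b),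
        chartFin_le B hB hqM 1 (beta_barEmb_mem_chartFin hb)⟩ =
      redMF B hB hqM ⟨barEmb M b, hO⟩ := by
  rw [← red2F_beta B hB hqM (barEmb M b) hO]
  rfl

theorem compW_one_res_alpha :
    (compW B hB hqM 1).res ⟨heckeAlphaBar Kb M q (barEmb M b),
        chartFin_le B hB hqM 1 (alpha_barEmb_mem_chartFin hb)⟩ =
      (redMF B hB hqM ⟨barEmb M b, hO⟩) ^ q := by
  apply Subtype.ext
  rw [SubmonoidClass.coe_pow, coe_redMF]
  exact Fermat.Agent.BR.S0.SepModular.res2_alpha_barEmb B hB hqM (hSFin M q) hb hO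

theorem compW_zero_res_beta :
    (compW B hB hqM 0).res ⟨heckeBetaBar Kb M q (barEmb M b),
        chartFin_le B hB hqM 0 (beta_barEmb_mem_chartFin hb)⟩ =
      (redMF B hB hqM ⟨barEmb M b, hO⟩) ^ q := by
  apply Subtype.ext
  rw [SubmonoidClass.coe_pow, coe_redMF]
  exact res1_beta_barEmb B hB hqM (hSFin M q) hb hO

end Residues

/-- **Kronecker at a crossing**: the values of the rational functions of level `M` at a glued
pair are conjugate under `c ↦ c^q`. -/
theorem exists_values_of_gluedF {Q₁ Q₂ : Place kB FtM}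
    (h : GluedF (chartDataModular B hB hqM) Q₁ Q₂)
    {b : ↥(modularFunctionFieldFull M)} (hb : b ∈ chartAlgFin M q)
    (hO : barEmb M b ∈ OM M B hB) :
    ∃ c₁ c₂ : kB, IsValueAt Q₁ (redMF B hB hqM ⟨barEmb M b, hO⟩) c₁ ∧
      IsValueAt Q₂ (redMF B hB hqM ⟨barEmb M b, hO⟩) c₂ ∧ c₂ = c₁ ^ q ∧ c₁ = c₂ ^ q := by
  obtain ⟨c₁, h11, h12⟩ := h (heckeAlphaBar Kb M q (barEmb M b)) (alpha_barEmb_mem_chartFin hb)
  obtain ⟨c₂, h21, h22⟩ := h (heckeBetaBar Kb M q (barEmb M b)) (beta_barEmb_mem_chartFin hb)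
  have e11 := compW_zero_res_alpha B hB hqM hb hO
  have e12 := compW_one_res_alpha B hB hqM hb hO
  have e21 := compW_zero_res_beta B hB hqM hb hO
  have e22 := compW_one_res_beta B hB hqM hb hO
  have k11 : IsValueAt Q₁ (redMF B hB hqM ⟨barEmb M b, hO⟩) c₁ := e11 ▸ h11
  have k12 : IsValueAt Q₂ ((redMF B hB hqM ⟨barEmb M b, hO⟩) ^ q) c₁ := e12 ▸ h12
  have k21 : IsValueAt Q₁ ((redMF B hB hqM ⟨barEmb M b, hO⟩) ^ q) c₂ := e21 ▸ h21
  have k22 : IsValueAt Q₂ (redMF B hB hqM ⟨barEmb M b, hO⟩) c₂ := e22 ▸ h22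
  exact ⟨c₁, c₂, k11, k22, k21.unique (k11.pow q), k12.unique (k22.pow q)⟩

/-! ### `Φ²` fixes the crossings -/

variable {σ : Kb ≃ₐ[ℚ] Kb}
variable [CharP (IsLocalRing.ResidueField B) q] [PerfectField (IsLocalRing.ResidueField B)]

/-- `Φ` fixes the residues of the rational chart of level `M`. -/
theorem frob_smul_redMF_barEmb (hσ : B.IsFrobeniusAt σ q)
    {b : ↥(modularFunctionFieldFull M)} (hb : b ∈ chartAlgFin M q)
    (hO : barEmb M b ∈ OM M B hB) :
    frobAutFullC kB M q • redMF B hB hqM ⟨barEmb M b, hO⟩ =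
      redMF B hB hqM ⟨barEmb M b, hO⟩ := by
  rw [← compW_zero_res_alpha B hB hqM hb hO]
  exact frob_smul_res_of_mem_chartFin hqM B hB hσ 0 (alpha_barEmb_mem_chartFin hb)

theorem baseAut_frob_pow_apply (n : ℕ) (c : kB) :
    SemilinearAut.baseAut (frobAutFullC kB M q ^ n) c = c ^ (q ^ n) := by
  induction n generalizing c with
  | zero => simp
  | succ n ih =>
    rw [pow_succ, SemilinearAut.baseAut_mul, RingAut.mul_apply, baseAut_frobAutFullC,
      frobeniusEquiv_apply, frobenius_def, ih, ← pow_mul, pow_succ, mul_comm]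

/-- the value of a `Φ`-fixed function at `Φ^n • Q` -/
theorem isValueAt_frob_pow_smul {Q : Place kB FtM} {z : FtM} {c : kB}
    (hz : frobAutFullC kB M q • z = z) (hc : IsValueAt Q z c) (n : ℕ) :
    IsValueAt (frobAutFullC kB M q ^ n • Q) z (c ^ (q ^ n)) := by
  have h := Fermat.Agent.BR.AnnulusRed.isValueAt_smul_of_fixed (frobAutFullC kB M q ^ n)
    (pow_smul_eq_of_smul_eq hz n) hc
  rwa [baseAut_frob_pow_apply] at h

set_option maxHeartbeats 1600000 in
/-- **The points of a glued pair of the finite chart are fixed by `Φ²`.** -/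
theorem frob_sq_smul_eq_of_gluedF (hσ : B.IsFrobeniusAt σ q) {Q₁ Q₂ : Place kB FtM}
    (h : GluedF (chartDataModular B hB hqM) Q₁ Q₂) :
    frobAutFullC kB M q ^ 2 • Q₁ = Q₁ ∧ frobAutFullC kB M q ^ 2 • Q₂ = Q₂ := by
  haveI := isDedekindDomain_Ck B hB hqM
  haveI := Fermat.Agent.BR.S0.SepModular.isFractionRing_Ck B hB hqM
  haveI : IsScalarTower kB ↥(Ck M B) ↥FtM := IsScalarTower.of_algebraMap_eq (fun _ => rfl)
  have key : ∀ d : ↥(Ck M B),
      (∃ c : kB, IsValueAt (frobAutFullC kB M q ^ 2 • Q₁) (algebraMap ↥(Ck M B) ↥FtM d) c ∧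
        IsValueAt Q₁ (algebraMap ↥(Ck M B) ↥FtM d) c) ∧
      (∃ c : kB, IsValueAt (frobAutFullC kB M q ^ 2 • Q₂) (algebraMap ↥(Ck M B) ↥FtM d) c ∧
        IsValueAt Q₂ (algebraMap ↥(Ck M B) ↥FtM d) c) := by
    intro d
    refine Submodule.span_induction
      (p := fun z _ =>
        (∃ c : kB, IsValueAt (frobAutFullC kB M q ^ 2 • Q₁) z c ∧ IsValueAt Q₁ z c) ∧
        (∃ c : kB, IsValueAt (frobAutFullC kB M q ^ 2 • Q₂) z c ∧ IsValueAt Q₂ z c))
      ?_ ?_ ?_ ?_ (mem_span_redMF B hB hqM d)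
    · rintro z ⟨b, hb, hO, rfl⟩
      obtain ⟨c₁, c₂, h1, h2, e21, e12⟩ := exists_values_of_gluedF B hB hqM h hb hO
      have hfix := frob_smul_redMF_barEmb B hB hqM hσ hb hO
      have hc1 : c₁ ^ (q ^ 2) = c₁ := by rw [pow_two, pow_mul, ← e21, ← e12]
      have hc2 : c₂ ^ (q ^ 2) = c₂ := by rw [pow_two, pow_mul, ← e12, ← e21]
      refine ⟨⟨c₁, ?_, h1⟩, ⟨c₂, ?_, h2⟩⟩
      · have := isValueAt_frob_pow_smul B hfix h1 2
        rwa [hc1] at this
      · have := isValueAt_frob_pow_smul B hfix h2 2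
        rwa [hc2] at this
    · exact ⟨⟨0, isValueAt_zero _, isValueAt_zero _⟩, ⟨0, isValueAt_zero _, isValueAt_zero _⟩⟩
    · rintro z₁ z₂ _ _ ⟨⟨a₁, ha₁, ha₁'⟩, ⟨b₁, hb₁, hb₁'⟩⟩ ⟨⟨a₂, ha₂, ha₂'⟩, ⟨b₂, hb₂, hb₂'⟩⟩
      exact ⟨⟨a₁ + a₂, ha₁.add ha₂, ha₁'.add ha₂'⟩, ⟨b₁ + b₂, hb₁.add hb₂, hb₁'.add hb₂'⟩⟩
    · rintro a z _ ⟨⟨a₁, ha₁, ha₁'⟩, ⟨b₁, hb₁, hb₁'⟩⟩
      exact ⟨⟨a * a₁, ha₁.smul a, ha₁'.smul a⟩, ⟨a * b₁, hb₁.smul a, hb₁'.smul a⟩⟩
  exact ⟨place_eq_of_forall_isValueAt (D := ↥(Ck M B)) _ _ (fun d => (key d).1),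
    place_eq_of_forall_isValueAt (D := ↥(Ck M B)) _ _ (fun d => (key d).2)⟩

theorem frob_sq_smul_z₁ (hσ : B.IsFrobeniusAt σ q) (e : Crossing (chartDataModular B hB hqM)) :
    frobAutFullC kB M q ^ 2 • z₁ (chartDataModular B hB hqM) e =
      z₁ (chartDataModular B hB hqM) e :=
  (frob_sq_smul_eq_of_gluedF B hB hqM hσ (glued _ e)).1

theorem frob_sq_smul_z₂ (hσ : B.IsFrobeniusAt σ q) (e : Crossing (chartDataModular B hB hqM)) :
    frobAutFullC kB M q ^ 2 • z₂ (chartDataModular B hB hqM) e =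
      z₂ (chartDataModular B hB hqM) e :=
  (frob_sq_smul_eq_of_gluedF B hB hqM hσ (glued _ e)).2

/-- **(G3-prep), assembled**: for a two-component bundle `I` of `X₀(qM)` at `q` over the components
`compW` whose crossings are those of the point dictionary, the square of a Frobenius element acts on
`I.toSetup` through `Φ²`: the hypothesis of `Filt.smul_sub_mem_natSub` (G3). -/
theorem equivariant_sq_modular
    (I : Fermat.Agent.BR.S0.TwoCompInput (F := Fb (M * q)) B (IsLocalRing.residue B) FtM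
      (Crossing (chartDataModular B hB hqM)))
    (hC : I.C = compW B hB hqM) (hz₁ : I.z₁ = z₁ (chartDataModular B hB hqM))
    (hz₂ : I.z₂ = z₂ (chartDataModular B hB hqM)) (hσ : B.IsFrobeniusAt σ q) :
    Filt.Equivariant I.toSetup (gal (M * q) σ ^ 2) (fun _ => frobAutFullC kB M q ^ 2) :=
  equivariant_pow_of_C_eq hqM B hB I hC hσ 2
    (fun e => by rw [hz₁]; exact frob_sq_smul_z₁ B hB hqM hσ e)
    (fun e => by rw [hz₂]; exact frob_sq_smul_z₂ B hB hqM hσ e)

end Fermat.Agent.BR2.G3PrepCross
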