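/-
Program B, Phase 2, node (G3-prep), abstract part (helper26): SEMILINEAR equivariance of the
relational reduction and of the reduction map of a two-chart atlas, and the criterion
"the two branches of a crossing are exchanged by the Frobenius".

Setting: `D : RedModular.ChartData A π Ft F` (two components `(D.O v, D.res v)`, charts `D.Rfin`,
`D.Rinf`), `g : SemilinearAut K F` (a Galois automorphism of the generic fibre which is NOT
inertial: it acts on the residue field), `s v : SemilinearAut k Ft` the automorphism induced by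
`g` on the residue function field of the component `v`.

* `isRedOf_smul_semilinear` : `IsRedOf … P Q → IsRedOf … (g • P) (s • Q)` on a chart stable under
  `g` whose residues intertwine `g` and `s` (for `s = 1` this is `PointDict.isRedOf_smul_of_stable`);
* `ChartSymm D g s` : the bundle of hypotheses (base: `g` preserves `A`, `π ∘ g = s ∘ π`; charts:
  stable under `g`, `g⁻¹`; residues: `res_v (g • y) = s v • res_v y` on both charts), with
  `ChartSymm.inv`, `ChartSymm.mul`, `ChartSymm.of_fixed` (charts fixed pointwise by `g`);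
* `ChartSymm.red`, `red_iff`, `integralAt_fin_iff` : `Red D v P Q ↔ Red D v (g • P) (s v • Q)`;
* `ChartSymm.gluedF`, `gluedF_iff`, `crossingEquiv` : `g` permutes the crossings,
  `z₁ (S.crossingEquiv e) = s 0 • z₁ e`, `z₂ (S.crossingEquiv e) = s 1 • z₂ e`;
* **`ChartSymm.r_smul`** : `H.r (g • P) = ⟨(H.r P).1, s (H.r P).1 • (H.r P).2⟩` for the reduction
  map `H.r` of an atlas `H : AtlasHyp D x`;
* **`glued_snd_eq_smul`, `glued_fst_eq_smul`** (Kronecker criterion): `k` perfect of
  characteristic `p`, `s` semilinear over `c ↦ c ^ p`; `Dk` a Dedekind coordinate ring of `Ft`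
  spanned over `k` by a set `Z` of `s`-fixed functions such that every `z ∈ Z` is
  `res₀ y_α` with `res₁ y_α = z ^ p` and `res₁ y_β` with `res₀ y_β = z ^ p`, `y_α, y_β ∈ D.Rfin`.
  Then a glued pair `(Q₁, Q₂)` satisfies `Q₂ = s • Q₁` and `Q₁ = s • Q₂`; hence
  `glued_fst_fixed`, `glued_snd_fixed` : `s • s • Q_i = Q_i`.
-/
import Mathlib
import Fermat.Agent.BR.S0.PointDict
import Fermat.Agent.BR.S0.DedekindPlaces

set_option autoImplicit false

namespace Fermat.Agent.BR2.G3Prep

open AlgebraicCurve Fermat.Agent.Red Fermat.Agent.Val Fermat.Agent.BR Fermat.Agent.BR.Centre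
open Fermat.Agent.BR.S0 Fermat.Agent.BR.S0.PointDict Fermat.Agent.BR.S0.RedModular

variable {K F k Ft : Type*} [Field K] [Field F] [Algebra K F] [Field k] [Field Ft] [Algebra k Ft]
variable {A : ValuationSubring K} {π : A →+* k}

/-! ### the relational reduction -/

section IsRedOf

variable {R : Subring F} {O : ValuationSubring F} {res : O →+* Ft} {hRO : R ≤ O.toSubring}
  {P : Place K F} {Q : Place k Ft}

/-- **Semilinear equivariance of the relational reduction** on a chart `R` stable under `g`: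
if the base automorphism of `g` preserves `A` and induces the base automorphism of `s` on the
residue field, and the residue map intertwines `g` and `s` on `R`, then the reduction of `g • P`
is `s • Q`. -/
theorem isRedOf_smul_semilinear (g : SemilinearAut K F) (s : SemilinearAut k Ft)
    (hmem : ∀ c : K, c ∈ A → SemilinearAut.baseAut g c ∈ A)
    (hπ : ∀ (c : K) (hc : c ∈ A),
      π ⟨SemilinearAut.baseAut g c, hmem c hc⟩ = SemilinearAut.baseAut s (π ⟨c, hc⟩))
    (hstab : ∀ y ∈ R, g⁻¹ • y ∈ R)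
    (hres : ∀ (y : F) (hy : y ∈ R),
      s • res ⟨g⁻¹ • y, hRO (hstab y hy)⟩ = res ⟨y, hRO hy⟩)
    (h : IsRedOf A π R O res hRO P Q) : IsRedOf A π R O res hRO (g • P) (s • Q) := by
  have hint : IntegralAt A R (g • P) := by
    intro y hy
    obtain ⟨c, hcA, hc⟩ := h.integralAt _ (hstab y hy)
    refine ⟨SemilinearAut.baseAut g c, hmem c hcA, ?_⟩
    have := AnnulusRed.isValueAt_smul g hc
    rwa [smul_inv_smul] at this
  refine ⟨hint, fun y hy => ?_⟩
  have e : evHom A R (g • P) hint ⟨y, hy⟩ =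
      ⟨SemilinearAut.baseAut g (evalAt P (g⁻¹ • y)),
        hmem _ (h.integralAt.evalAt_mem (hstab y hy))⟩ :=
    Subtype.ext (evalAt_smul_mem g P y)
  rw [e, hπ _ (h.integralAt.evalAt_mem (hstab y hy)), ← hres y hy]
  exact AnnulusRed.isValueAt_smul s (h.isValueAt (hstab y hy))

end IsRedOf

/-! ### semilinear symmetries of a two-chart atlas -/

/-- `(g, s)` is a **semilinear symmetry of the chart data `D`**: the base automorphism of `g`
preserves `A` and induces on the residue field the base automorphism of `s`; `g` stabilises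
both charts; the residue maps of both components intertwine `g` and `s` on both charts. -/
structure ChartSymm (D : ChartData A π Ft F) (g : SemilinearAut K F)
    (s : SemilinearAut k Ft) : Prop where
  mem : ∀ c : K, c ∈ A → SemilinearAut.baseAut g c ∈ A
  mem_inv : ∀ c : K, c ∈ A → SemilinearAut.baseAut g⁻¹ c ∈ A
  pi : ∀ (c : K) (hc : c ∈ A),
    π ⟨SemilinearAut.baseAut g c, mem c hc⟩ = SemilinearAut.baseAut s (π ⟨c, hc⟩)
  stab_f : ∀ y ∈ D.Rfin, g • y ∈ D.Rfin
  stab_f_inv : ∀ y ∈ D.Rfin, g⁻¹ • y ∈ D.Rfin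
  stab_i : ∀ y ∈ D.Rinf, g • y ∈ D.Rinf
  stab_i_inv : ∀ y ∈ D.Rinf, g⁻¹ • y ∈ D.Rinf
  res_f : ∀ (v : Fin 2) (y : F) (hy : y ∈ D.Rfin),
    D.res v ⟨g • y, D.hfin v (stab_f y hy)⟩ = s • D.res v ⟨y, D.hfin v hy⟩
  res_i : ∀ (v : Fin 2) (y : F) (hy : y ∈ D.Rinf),
    D.res v ⟨g • y, D.hinf v (stab_i y hy)⟩ = s • D.res v ⟨y, D.hinf v hy⟩

namespace ChartSymm

variable {D : ChartData A π Ft F} {g : SemilinearAut K F} {s : SemilinearAut k Ft}

/-- the residue map read at `g⁻¹ • y` (finite chart) -/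
theorem res_f' (S : ChartSymm D g s) (v : Fin 2) (y : F) (hy : y ∈ D.Rfin) :
    s • D.res v ⟨g⁻¹ • y, D.hfin v (S.stab_f_inv y hy)⟩ = D.res v ⟨y, D.hfin v hy⟩ := by
  rw [← S.res_f v (g⁻¹ • y) (S.stab_f_inv y hy)]
  congr 1
  exact Subtype.ext (smul_inv_smul g y)

/-- the residue map read at `g⁻¹ • y` (chart at infinity) -/
theorem res_i' (S : ChartSymm D g s) (v : Fin 2) (y : F) (hy : y ∈ D.Rinf) :
    s • D.res v ⟨g⁻¹ • y, D.hinf v (S.stab_i_inv y hy)⟩ = D.res v ⟨y, D.hinf v hy⟩ := by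
  rw [← S.res_i v (g⁻¹ • y) (S.stab_i_inv y hy)]
  congr 1
  exact Subtype.ext (smul_inv_smul g y)

/-- The identity is a symmetry. -/
theorem one (D : ChartData A π Ft F) : ChartSymm D 1 1 where
  mem c hc := hc
  mem_inv c hc := by
    rw [inv_one]
    exact hc
  pi c hc := rfl
  stab_f y hy := by
    rw [one_smul]
    exact hy
  stab_f_inv y hy := by
    rw [inv_one, one_smul]
    exact hy
  stab_i y hy := by
    rw [one_smul]
    exact hy
  stab_i_inv y hy := by
    rw [inv_one, one_smul]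
    exact hy
  res_f v y hy := by
    rw [one_smul (M := SemilinearAut k Ft)]
    congr 1
  res_i v y hy := by
    rw [one_smul (M := SemilinearAut k Ft)]
    congr 1

/-- The inverse of a symmetry is a symmetry. -/
theorem inv (S : ChartSymm D g s) : ChartSymm D g⁻¹ s⁻¹ where
  mem := S.mem_inv
  mem_inv := by
    intro c hc
    rw [inv_inv]
    exact S.mem c hc
  pi := by
    intro c hc
    have h1 := S.pi (SemilinearAut.baseAut g⁻¹ c) (S.mem_inv c hc)
    have h2 : SemilinearAut.baseAut g (SemilinearAut.baseAut g⁻¹ c) = c := by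
      rw [SemilinearAut.baseAut_inv]
      exact (SemilinearAut.baseAut g).apply_symm_apply c
    have h3 : (⟨SemilinearAut.baseAut g (SemilinearAut.baseAut g⁻¹ c),
        S.mem _ (S.mem_inv c hc)⟩ : A) = ⟨c, hc⟩ := Subtype.ext h2
    rw [h3] at h1
    rw [h1]
    exact ((SemilinearAut.baseAut s).symm_apply_apply _).symm
  stab_f := S.stab_f_inv
  stab_f_inv := by
    intro y hy
    rw [inv_inv]
    exact S.stab_f y hy
  stab_i := S.stab_i_inv
  stab_i_inv := by
    intro y hy
    rw [inv_inv]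
    exact S.stab_i y hy
  res_f := by
    intro v y hy
    rw [← S.res_f' v y hy, inv_smul_smul]
  res_i := by
    intro v y hy
    rw [← S.res_i' v y hy, inv_smul_smul]

/-- The composite of two symmetries is a symmetry. -/
theorem mul {g' : SemilinearAut K F} {s' : SemilinearAut k Ft} (S : ChartSymm D g s)
    (S' : ChartSymm D g' s') : ChartSymm D (g * g') (s * s') where
  mem := by
    intro c hc
    rw [SemilinearAut.baseAut_mul]
    exact S.mem _ (S'.mem c hc)
  mem_inv := by
    intro c hc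
    rw [mul_inv_rev, SemilinearAut.baseAut_mul]
    exact S'.mem_inv _ (S.mem_inv c hc)
  pi := by
    intro c hc
    have h1 := S.pi (SemilinearAut.baseAut g' c) (S'.mem c hc)
    rw [S'.pi c hc] at h1
    exact h1
  stab_f := by
    intro y hy
    rw [mul_smul]
    exact S.stab_f _ (S'.stab_f y hy)
  stab_f_inv := by
    intro y hy
    rw [mul_inv_rev, mul_smul]
    exact S'.stab_f_inv _ (S.stab_f_inv y hy)
  stab_i := by
    intro y hy
    rw [mul_smul]
    exact S.stab_i _ (S'.stab_i y hy)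
  stab_i_inv := by
    intro y hy
    rw [mul_inv_rev, mul_smul]
    exact S'.stab_i_inv _ (S.stab_i_inv y hy)
  res_f := by
    intro v y hy
    have h1 := S.res_f v (g' • y) (S'.stab_f y hy)
    rw [S'.res_f v y hy] at h1
    refine Eq.trans ?_ (h1.trans (mul_smul s s' _).symm)
    congr 1
  res_i := by
    intro v y hy
    have h1 := S.res_i v (g' • y) (S'.stab_i y hy)
    rw [S'.res_i v y hy] at h1
    refine Eq.trans ?_ (h1.trans (mul_smul s s' _).symm)
    congr 1

/-- **A symmetry from an automorphism fixing both charts pointwise** (the arithmetic Galois action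
on charts defined over the prime field): it suffices that the base automorphism preserves `A`, is
compatible with `π`, and that the residues of the functions of the charts are fixed by `s`. -/
theorem of_fixed (hmem : ∀ c : K, SemilinearAut.baseAut g c ∈ A ↔ c ∈ A)
    (hπ : ∀ (c : K) (hc : c ∈ A),
      π ⟨SemilinearAut.baseAut g c, (hmem c).mpr hc⟩ = SemilinearAut.baseAut s (π ⟨c, hc⟩))
    (hfin : ∀ y ∈ D.Rfin, g • y = y) (hinf : ∀ y ∈ D.Rinf, g • y = y)
    (hres_f : ∀ (v : Fin 2) (y : F) (hy : y ∈ D.Rfin),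
      s • D.res v ⟨y, D.hfin v hy⟩ = D.res v ⟨y, D.hfin v hy⟩)
    (hres_i : ∀ (v : Fin 2) (y : F) (hy : y ∈ D.Rinf),
      s • D.res v ⟨y, D.hinf v hy⟩ = D.res v ⟨y, D.hinf v hy⟩) : ChartSymm D g s where
  mem c hc := (hmem c).mpr hc
  mem_inv := by
    intro c hc
    rw [← hmem, SemilinearAut.baseAut_inv]
    have : SemilinearAut.baseAut g ((SemilinearAut.baseAut g).symm c) = c :=
      (SemilinearAut.baseAut g).apply_symm_apply c
    rw [this]
    exact hc
  pi := hπ
  stab_f := by
    intro y hy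
    rw [hfin y hy]
    exact hy
  stab_f_inv := by
    intro y hy
    have : g⁻¹ • y = y := by
      conv_lhs => rw [← hfin y hy]
      exact inv_smul_smul g y
    rw [this]
    exact hy
  stab_i := by
    intro y hy
    rw [hinf y hy]
    exact hy
  stab_i_inv := by
    intro y hy
    have : g⁻¹ • y = y := by
      conv_lhs => rw [← hinf y hy]
      exact inv_smul_smul g y
    rw [this]
    exact hy
  res_f := by
    intro v y hy
    rw [hres_f v y hy]
    congr 1
    exact Subtype.ext (hfin y hy)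
  res_i := by
    intro v y hy
    rw [hres_i v y hy]
    congr 1
    exact Subtype.ext (hinf y hy)

variable (S : ChartSymm D g s) {P : Place K F} {Q Q₁ Q₂ : Place k Ft} {v : Fin 2}

include S

/-- integrality on the finite chart is preserved -/
theorem integralAt_fin (h : IntegralAt A D.Rfin P) : IntegralAt A D.Rfin (g • P) := by
  intro y hy
  obtain ⟨c, hcA, hc⟩ := h _ (S.stab_f_inv y hy)
  refine ⟨SemilinearAut.baseAut g c, S.mem c hcA, ?_⟩
  have := AnnulusRed.isValueAt_smul g hc
  rwa [smul_inv_smul] at this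

theorem integralAt_fin_iff : IntegralAt A D.Rfin (g • P) ↔ IntegralAt A D.Rfin P := by
  refine ⟨fun h => ?_, S.integralAt_fin⟩
  have := S.inv.integralAt_fin h
  rwa [inv_smul_smul] at this

/-- the reduction on the finite chart -/
theorem isRedOf_fin (h : IsRedOf A π D.Rfin (D.O v) (D.res v) (D.hfin v) P Q) :
    IsRedOf A π D.Rfin (D.O v) (D.res v) (D.hfin v) (g • P) (s • Q) :=
  isRedOf_smul_semilinear g s S.mem S.pi S.stab_f_inv (S.res_f' v) h

/-- the reduction on the chart at infinity -/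
theorem isRedOf_inf (h : IsRedOf A π D.Rinf (D.O v) (D.res v) (D.hinf v) P Q) :
    IsRedOf A π D.Rinf (D.O v) (D.res v) (D.hinf v) (g • P) (s • Q) :=
  isRedOf_smul_semilinear g s S.mem S.pi S.stab_i_inv (S.res_i' v) h

/-- **Equivariance of the relation `Red`.** -/
theorem red (h : Red D v P Q) : Red D v (g • P) (s • Q) := by
  rcases h with h | h
  · exact Or.inl (S.isRedOf_fin h)
  · exact Or.inr ⟨fun hf => h.1 (S.integralAt_fin_iff.mp hf), S.isRedOf_inf h.2⟩

theorem red_iff : Red D v (g • P) (s • Q) ↔ Red D v P Q := by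
  refine ⟨fun h => ?_, S.red⟩
  have := S.inv.red h
  rwa [inv_smul_smul, inv_smul_smul] at this

/-- **`g` permutes the glued pairs.** -/
theorem gluedF (h : GluedF D Q₁ Q₂) : GluedF D (s • Q₁) (s • Q₂) := by
  intro y hy
  obtain ⟨c, hc₁, hc₂⟩ := h _ (S.stab_f_inv y hy)
  refine ⟨SemilinearAut.baseAut s c, ?_, ?_⟩
  · rw [← S.res_f' 0 y hy]
    exact AnnulusRed.isValueAt_smul s hc₁
  · rw [← S.res_f' 1 y hy]
    exact AnnulusRed.isValueAt_smul s hc₂

theorem gluedF_iff : GluedF D (s • Q₁) (s • Q₂) ↔ GluedF D Q₁ Q₂ := by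
  refine ⟨fun h => ?_, S.gluedF⟩
  have := S.inv.gluedF h
  rwa [inv_smul_smul, inv_smul_smul] at this

/-- the permutation of the crossings induced by a symmetry -/
def crossingMap (e : Crossing D) : Crossing D := ⟨(s • e.1.1, s • e.1.2), S.gluedF e.2⟩

omit S in
@[simp] theorem z₁_crossingMap (S : ChartSymm D g s) (e : Crossing D) :
    z₁ D (S.crossingMap e) = s • z₁ D e := rfl

omit S in
@[simp] theorem z₂_crossingMap (S : ChartSymm D g s) (e : Crossing D) :
    z₂ D (S.crossingMap e) = s • z₂ D e := rfl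

/-- **The permutation of the crossings** induced by a symmetry. -/
def crossingEquiv : Crossing D ≃ Crossing D where
  toFun := S.crossingMap
  invFun := S.inv.crossingMap
  left_inv e := Subtype.ext (Prod.ext (inv_smul_smul s e.1.1) (inv_smul_smul s e.1.2))
  right_inv e := Subtype.ext (Prod.ext (smul_inv_smul s e.1.1) (smul_inv_smul s e.1.2))

/-- a point of the component `0` is a crossing iff its image is -/
theorem exists_z₁_eq_smul_iff : (∃ e, z₁ D e = s • Q) ↔ ∃ e, z₁ D e = Q := by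
  constructor
  · rintro ⟨e, he⟩
    refine ⟨S.inv.crossingMap e, ?_⟩
    rw [z₁_crossingMap, he, inv_smul_smul]
  · rintro ⟨e, he⟩
    exact ⟨S.crossingMap e, by rw [z₁_crossingMap, he]⟩

theorem exists_z₂_eq_smul_iff : (∃ e, z₂ D e = s • Q) ↔ ∃ e, z₂ D e = Q := by
  constructor
  · rintro ⟨e, he⟩
    refine ⟨S.inv.crossingMap e, ?_⟩
    rw [z₂_crossingMap, he, inv_smul_smul]
  · rintro ⟨e, he⟩
    exact ⟨S.crossingMap e, by rw [z₂_crossingMap, he]⟩

/-- **Equivariance of the reduction map** of an atlas: `r (g • P) = s • r P` (componentwise). -/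
theorem r_smul_of_eq {x : F} (H : AtlasHyp D x) {i : Fin 2} (h : H.r P = ⟨i, Q⟩) :
    H.r (g • P) = ⟨i, s • Q⟩ := by
  have hi : i = 0 ∨ i = 1 := by
    fin_cases i
    · exact Or.inl rfl
    · exact Or.inr rfl
  rcases hi with rfl | rfl
  · exact H.r_eq_zero_iff.mpr (S.red (H.r_eq_zero_iff.mp h))
  · obtain ⟨h1, h0⟩ := H.r_eq_one_iff.mp h
    refine H.r_eq_one_iff.mpr ⟨S.red h1, ?_⟩
    rintro ⟨Q', hQ'⟩
    apply h0
    refine ⟨s⁻¹ • Q', ?_⟩
    have := S.inv.red hQ'
    rwa [inv_smul_smul] at this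

theorem r_smul {x : F} (H : AtlasHyp D x) (P : Place K F) :
    H.r (g • P) = ⟨(H.r P).1, s • (H.r P).2⟩ :=
  S.r_smul_of_eq H rfl

/-- the tube of `s • Q` is the image of the tube of `Q` -/
theorem r_smul_eq_iff {x : F} (H : AtlasHyp D x) {i : Fin 2} :
    H.r (g • P) = ⟨i, s • Q⟩ ↔ H.r P = ⟨i, Q⟩ := by
  refine ⟨fun h => ?_, S.r_smul_of_eq H⟩
  have := S.inv.r_smul_of_eq H h
  rwa [inv_smul_smul, inv_smul_smul] at this

end ChartSymm

/-! ### the Kronecker criterion: the two branches of a crossing are exchanged by the Frobenius -/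

section Kronecker

open Fermat.Agent.BR.S0.DedekindPlaces

variable {Dk : Type*} [CommRing Dk] [IsDedekindDomain Dk] [Algebra Dk Ft] [IsFractionRing Dk Ft]
  [Algebra k Dk] [IsScalarTower k Dk Ft]

/-- In characteristic `p` (perfect constant field), a function whose `p`-th power takes the value
`c` at a place takes the value `c^{1/p}`. -/
theorem isValueAt_of_pow_char (p : ℕ) [hp : Fact p.Prime] [CharP k p] [PerfectRing k p]
    (Q : Place k Ft) {z : Ft} {c : k} (h : IsValueAt Q (z ^ p) c) :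
    IsValueAt Q z ((frobeniusEquiv k p).symm c) := by
  have : CharP Ft p := charP_of_injective_algebraMap (algebraMap k Ft).injective p
  set c' : k := (frobeniusEquiv k p).symm c with hc'
  have hcc : c' ^ p = c := by
    rw [hc', ← frobenius_def, frobenius_apply_frobeniusEquiv_symm]
  have e : z ^ p - algebraMap k Ft c = (z - algebraMap k Ft c') ^ p := by
    rw [sub_pow_char, ← map_pow, hcc]
  rw [IsValueAt, e, map_pow] at h
  exact (pow_lt_one_iff_of_nonneg zero_le hp.out.ne_zero).mp h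

/-- Two places at which a `k`-spanning set of the Dedekind coordinate ring takes the same values
are equal. -/
theorem place_eq_of_span (Z : Set Ft) (hspan : ∀ d : Dk, algebraMap Dk Ft d ∈ Submodule.span k Z)
    (Q Q' : Place k Ft) (h : ∀ z ∈ Z, ∃ c : k, IsValueAt Q z c ∧ IsValueAt Q' z c) : Q = Q' := by
  refine place_eq_of_forall_isValueAt (R := Dk) Q Q' fun d => ?_
  refine Submodule.span_induction
    (p := fun z _ => ∃ c : k, IsValueAt Q z c ∧ IsValueAt Q' z c) ?_ ?_ ?_ ?_ (hspan d)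
  · exact fun z hz => h z hz
  · exact ⟨0, isValueAt_zero Q, isValueAt_zero Q'⟩
  · rintro z₁ z₂ _ _ ⟨c₁, h₁, h₁'⟩ ⟨c₂, h₂, h₂'⟩
    exact ⟨c₁ + c₂, h₁.add h₂, h₁'.add h₂'⟩
  · rintro a z _ ⟨c, h₁, h₁'⟩
    exact ⟨a * c, h₁.smul a, h₁'.smul a⟩

variable (p : ℕ) [hp : Fact p.Prime] [CharP k p] [PerfectRing k p]
  (D : ChartData A π Ft F) (s : SemilinearAut k Ft)
  (hs : ∀ c : k, SemilinearAut.baseAut s c = c ^ p)
  (Z : Set Ft) (hspan : ∀ d : Dk, algebraMap Dk Ft d ∈ Submodule.span k Z)
  (hfix : ∀ z ∈ Z, s • z = z)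

include hs hspan hfix

/-- **Kronecker criterion, `β` half**: if every `z ∈ Z` is the residue on the component `1` of a
function of the finite chart whose residue on the component `0` is `z ^ p`, then the branch on the
component `1` of a crossing is the Frobenius image of the branch on the component `0`. -/
theorem glued_snd_eq_smul
    (hβ : ∀ z ∈ Z, ∃ (y : F) (hy : y ∈ D.Rfin), D.res 0 ⟨y, D.hfin 0 hy⟩ = z ^ p ∧
      D.res 1 ⟨y, D.hfin 1 hy⟩ = z)
    {Q₁ Q₂ : Place k Ft} (h : GluedF D Q₁ Q₂) : Q₂ = s • Q₁ := by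
  refine place_eq_of_span (Dk := Dk) Z hspan Q₂ (s • Q₁) fun z hz => ?_
  obtain ⟨y, hy, h0, h1⟩ := hβ z hz
  obtain ⟨c, hc₁, hc₂⟩ := h y hy
  rw [h0] at hc₁
  rw [h1] at hc₂
  refine ⟨c, hc₂, ?_⟩
  have h2 := AnnulusRed.isValueAt_smul s (isValueAt_of_pow_char p Q₁ hc₁)
  rw [hfix z hz, hs, ← frobenius_def, frobenius_apply_frobeniusEquiv_symm] at h2
  exact h2

/-- **Kronecker criterion, `α` half**: if every `z ∈ Z` is the residue on the component `0` of a
function of the finite chart whose residue on the component `1` is `z ^ p`, then the branch on the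
component `0` of a crossing is the Frobenius image of the branch on the component `1`. -/
theorem glued_fst_eq_smul
    (hα : ∀ z ∈ Z, ∃ (y : F) (hy : y ∈ D.Rfin), D.res 0 ⟨y, D.hfin 0 hy⟩ = z ∧
      D.res 1 ⟨y, D.hfin 1 hy⟩ = z ^ p)
    {Q₁ Q₂ : Place k Ft} (h : GluedF D Q₁ Q₂) : Q₁ = s • Q₂ := by
  refine place_eq_of_span (Dk := Dk) Z hspan Q₁ (s • Q₂) fun z hz => ?_
  obtain ⟨y, hy, h0, h1⟩ := hα z hz
  obtain ⟨c, hc₁, hc₂⟩ := h y hy
  rw [h0] at hc₁
  rw [h1] at hc₂
  refine ⟨c, hc₁, ?_⟩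
  have h2 := AnnulusRed.isValueAt_smul s (isValueAt_of_pow_char p Q₂ hc₂)
  rw [hfix z hz, hs, ← frobenius_def, frobenius_apply_frobeniusEquiv_symm] at h2
  exact h2

/-- **The branch of a crossing on the component `0` is fixed by the square of the Frobenius.** -/
theorem glued_fst_fixed
    (hα : ∀ z ∈ Z, ∃ (y : F) (hy : y ∈ D.Rfin), D.res 0 ⟨y, D.hfin 0 hy⟩ = z ∧
      D.res 1 ⟨y, D.hfin 1 hy⟩ = z ^ p)
    (hβ : ∀ z ∈ Z, ∃ (y : F) (hy : y ∈ D.Rfin), D.res 0 ⟨y, D.hfin 0 hy⟩ = z ^ p ∧
      D.res 1 ⟨y, D.hfin 1 hy⟩ = z)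
    {Q₁ Q₂ : Place k Ft} (h : GluedF D Q₁ Q₂) : (s * s) • Q₁ = Q₁ := by
  rw [mul_smul, ← glued_snd_eq_smul (Dk := Dk) p D s hs Z hspan hfix hβ h,
    ← glued_fst_eq_smul (Dk := Dk) p D s hs Z hspan hfix hα h]

/-- **The branch of a crossing on the component `1` is fixed by the square of the Frobenius.** -/
theorem glued_snd_fixed
    (hα : ∀ z ∈ Z, ∃ (y : F) (hy : y ∈ D.Rfin), D.res 0 ⟨y, D.hfin 0 hy⟩ = z ∧
      D.res 1 ⟨y, D.hfin 1 hy⟩ = z ^ p)
    (hβ : ∀ z ∈ Z, ∃ (y : F) (hy : y ∈ D.Rfin), D.res 0 ⟨y, D.hfin 0 hy⟩ = z ^ p ∧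
      D.res 1 ⟨y, D.hfin 1 hy⟩ = z)
    {Q₁ Q₂ : Place k Ft} (h : GluedF D Q₁ Q₂) : (s * s) • Q₂ = Q₂ := by
  rw [mul_smul, ← glued_fst_eq_smul (Dk := Dk) p D s hs Z hspan hfix hα h,
    ← glued_snd_eq_smul (Dk := Dk) p D s hs Z hspan hfix hβ h]

end Kronecker

end Fermat.Agent.BR2.G3Prep
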