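import Fermat.Agent.BR.GaloisTwo
import Fermat.Agent.BR.S0.RedModularInst
import Fermat.Agent.Hecke.FrobPlaces
import Fermat.Agent.BR2.Filtration
import Fermat.Agent.BR.S0.TwoCompInput

/-!
# Phase 2, node (G3-prep)(a): a Frobenius lift acts on the two components through Frobenius

`B` a valuation ring of `ℚ̄ = Kb` over `q ∤ M`, `k` its residue field, `Ft = F̃_M`,
`compW B hB hqM v` (`v : Fin 2`) the two components of the model of `X₀(qM)` at `q`
(`BR/S0/RedModularInst`), `gal (M q) σ` the coefficientwise action of `σ ∈ Gal(ℚ̄/ℚ)` on `F̄_{Mq}`,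
`Φ = frobAutFullC k M q` the coefficientwise `q`-Frobenius of `F̃_M`.

* `smul_mem_compW_iff`, `smul_mem_compW` : the decomposition group of `B` preserves both
  valuation rings;
* `compW_res_smul_decomp` : `res_v (σ • y) = σ̄ • res_v y` for `σ` in the decomposition group
  (`σ̄ = coeffAutFullC M (decompResAut B σ)`);
* `compW_res_smul` : for a Frobenius element `σ` at `q`: `res_v (σ • y) = Φ • res_v y`;
* `frob_smul_res_of_smul_eq`, `frob_smul_res_of_mem_chartFin`, `frob_smul_res_of_mem_chartInf` :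
  `Φ` fixes the residues of the `σ`-fixed functions, in particular of the two rational charts;
* `compW_res_pow_smul` : `res_v (σ ^ n • y) = Φ ^ n • res_v y`;
* generic: `equivariant_one`, `equivariant_mul`, `equivariant_pow` for `Filt.Equivariant`;
* `equivariant_pow_of_C_eq` : `Filt.Equivariant I.toSetup (gal (M q) σ ^ n) (fun _ => Φ ^ n)` for
  every two-component bundle `I` with `I.C = compW B hB hqM` whose crossing branches are fixed by
  `Φ ^ n`.
-/

set_option autoImplicit false
set_option linter.unusedSectionVars false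
set_option linter.style.haveILetI false

noncomputable section

set_option synthInstance.maxHeartbeats 400000

namespace Fermat.Agent.BR2.G3PrepRes

open ModularCurve AlgebraicCurve HahnSeries Fermat.Agent.X0 Fermat.Agent.Val Fermat.Agent.Red
  Fermat.Agent.Hecke Fermat.Agent.BR.TwoVal Fermat.Agent.BR.ValTwo Fermat.Agent.BR.GaloisTwo
  Fermat.Agent.BR.ConstRedTwo Fermat.Agent.BR.S0.RedModular Fermat.Agent.BR.SS

/-! ### generic: products and powers of equivariant automorphisms -/

section Generic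

variable {K F k : Type*} [Field K] [Field F] [Algebra K F] [Field k]
  {A : ValuationSubring K} {π : A →+* k} {ι : Type*} {Ft : ι → Type*}
  [∀ v, Field (Ft v)] [∀ v, Algebra k (Ft v)] {ν : Type*}
  {S : SemistableSetup (F := F) A π ι Ft ν}

theorem equivariant_one : Filt.Equivariant S (1 : SemilinearAut K F) (fun _ => 1) where
  smul_mem v y hy := by rwa [one_smul]
  res_smul v y hy hy' := by
    have e : (⟨(1 : SemilinearAut K F) • y, hy'⟩ : S.O v) = ⟨y, hy⟩ :=
      Subtype.ext (one_smul _ y)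
    rw [e, one_smul]
  s₁_fixed e := one_smul _ _
  s₂_fixed e := one_smul _ _

theorem equivariant_mul {g g' : SemilinearAut K F} {a a' : ∀ v, SemilinearAut k (Ft v)}
    (h : Filt.Equivariant S g a) (h' : Filt.Equivariant S g' a') :
    Filt.Equivariant S (g * g') (fun v => a v * a' v) where
  smul_mem v y hy := by
    rw [mul_smul]
    exact h.smul_mem v _ (h'.smul_mem v y hy)
  res_smul v y hy hy' := by
    have e : (⟨(g * g') • y, hy'⟩ : S.O v) =
        ⟨g • (g' • y), h.smul_mem v _ (h'.smul_mem v y hy)⟩ := Subtype.ext (mul_smul g g' y)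
    rw [e, h.res_smul v _ (h'.smul_mem v y hy), h'.res_smul v y hy, mul_smul]
  s₁_fixed e := by
    show (a (S.src e) * a' (S.src e)) • S.s₁ e = S.s₁ e
    rw [mul_smul, h'.s₁_fixed, h.s₁_fixed]
  s₂_fixed e := by
    show (a (S.tgt e) * a' (S.tgt e)) • S.s₂ e = S.s₂ e
    rw [mul_smul, h'.s₂_fixed, h.s₂_fixed]

theorem equivariant_pow {g : SemilinearAut K F} {a : ∀ v, SemilinearAut k (Ft v)}
    (h : Filt.Equivariant S g a) (n : ℕ) :
    Filt.Equivariant S (g ^ n) (fun v => a v ^ n) := by
  induction n with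
  | zero =>
    simp only [pow_zero]
    exact equivariant_one
  | succ n ih =>
    simp only [pow_succ]
    exact equivariant_mul ih h

end Generic

/-! ### the two components of `X₀(qM)` -/

variable {M q : ℕ} [NeZero M] [hq : Fact q.Prime] (hqM : ¬ q ∣ M)
variable (B : ValuationSubring Kb) (hB : B.LiesOverPrime q)

local notation "kB" => IsLocalRing.ResidueField B
local notation "FtM" => modularFunctionFieldFullC (IsLocalRing.ResidueField B) M

variable {σ : Kb ≃ₐ[ℚ] Kb}

/-- The decomposition group of `B` preserves the valuation rings of both components. -/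
theorem smul_mem_compW_iff (hσ : σ ∈ B.decompositionSubgroup ℚ) (v : Fin 2) {y : Fb (M * q)} :
    gal (M * q) σ • y ∈ (compW B hB hqM v).O ↔ y ∈ (compW B hB hqM v).O := by
  fin_cases v
  · exact gal_smul_mem_O1_iff B hB hσ
  · exact gal_smul_mem_O2_iff hqM B hB hσ

theorem smul_mem_compW (hσ : σ ∈ B.decompositionSubgroup ℚ) (v : Fin 2) {y : Fb (M * q)}
    (hy : y ∈ (compW B hB hqM v).O) : gal (M * q) σ • y ∈ (compW B hB hqM v).O :=
  (smul_mem_compW_iff hqM B hB hσ v).mpr hy

/-- `res_v (σ • y) = σ̄ (res_v y)` coefficientwise, for `σ` in the decomposition group. -/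
theorem coe_compW_res_smul_decomp (hσ : σ ∈ B.decompositionSubgroup ℚ) (v : Fin 2)
    (y : Fb (M * q)) (hy : y ∈ (compW B hB hqM v).O)
    (hy' : gal (M * q) σ • y ∈ (compW B hB hqM v).O) :
    (((compW B hB hqM v).res ⟨gal (M * q) σ • y, hy'⟩ : FtM) : LaurentSeries kB) =
      coeffMap ((decompResAut B ⟨σ, hσ⟩ : kB ≃+* kB) : kB →+* kB)
        (((compW B hB hqM v).res ⟨y, hy⟩ : FtM) : LaurentSeries kB) := by
  fin_cases v
  · exact res1_gal_smul B hB hσ ⟨y, hy⟩
  · exact res2_gal_smul hqM B hB hσ ⟨y, hy⟩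

variable [CharP (IsLocalRing.ResidueField B) q] [PerfectField (IsLocalRing.ResidueField B)]

/-- **A Frobenius element at `q` acts on the residues of both components as the coefficientwise
Frobenius `Φ = frobAutFullC k M q`.** -/
theorem compW_res_smul (hσ : B.IsFrobeniusAt σ q) (v : Fin 2)
    (y : Fb (M * q)) (hy : y ∈ (compW B hB hqM v).O)
    (hy' : gal (M * q) σ • y ∈ (compW B hB hqM v).O) :
    (compW B hB hqM v).res ⟨gal (M * q) σ • y, hy'⟩ =
      frobAutFullC kB M q • (compW B hB hqM v).res ⟨y, hy⟩ := by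
  apply Subtype.ext
  rw [coe_frobAutFullC_smul]
  ext n
  rw [coeffMap_coeff, frobenius_def]
  fin_cases v
  · exact coeff_res1_gal_smul_of_isFrobeniusAt B hB hσ ⟨y, hy⟩ n
  · exact coeff_res2_gal_smul_of_isFrobeniusAt hqM B hB hσ ⟨y, hy⟩ n

/-! ### `Φ` fixes the residues of the rational functions -/

/-- The residue of a `σ`-fixed function is fixed by `Φ` (`σ` a Frobenius element at `q`). -/
theorem frob_smul_res_of_smul_eq (hσ : B.IsFrobeniusAt σ q) (v : Fin 2) {y : Fb (M * q)}
    (hy : y ∈ (compW B hB hqM v).O) (hfix : gal (M * q) σ • y = y) :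
    frobAutFullC kB M q • (compW B hB hqM v).res ⟨y, hy⟩ = (compW B hB hqM v).res ⟨y, hy⟩ := by
  have hy' : gal (M * q) σ • y ∈ (compW B hB hqM v).O := by rw [hfix]; exact hy
  rw [← compW_res_smul hqM B hB hσ v y hy hy']
  congr 1
  exact Subtype.ext hfix

/-- `Φ` fixes the residues of the finite rational chart. -/
theorem frob_smul_res_of_mem_chartFin (hσ : B.IsFrobeniusAt σ q) (v : Fin 2) {y : Fb (M * q)}
    (hy : y ∈ chartFin (M := M) (q := q)) :
    frobAutFullC kB M q • (compW B hB hqM v).res ⟨y, chartFin_le B hB hqM v hy⟩ =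
      (compW B hB hqM v).res ⟨y, chartFin_le B hB hqM v hy⟩ :=
  frob_smul_res_of_smul_eq hqM B hB hσ v _ (gal_smul_of_mem_chartFin σ hy)

/-- `Φ` fixes the residues of the rational chart at infinity. -/
theorem frob_smul_res_of_mem_chartInf (hσ : B.IsFrobeniusAt σ q) (v : Fin 2) {y : Fb (M * q)}
    (hy : y ∈ chartInf (M := M) (q := q)) :
    frobAutFullC kB M q • (compW B hB hqM v).res ⟨y, chartInf_le B hB hqM v hy⟩ =
      (compW B hB hqM v).res ⟨y, chartInf_le B hB hqM v hy⟩ :=
  frob_smul_res_of_smul_eq hqM B hB hσ v _ (gal_smul_of_mem_chartInf σ hy)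

/-- powers of `Φ` fix what `Φ` fixes -/
theorem pow_smul_eq_of_smul_eq {G X : Type*} [Monoid G] [MulAction G X] {g : G} {x : X}
    (h : g • x = x) (n : ℕ) : g ^ n • x = x := by
  induction n with
  | zero => rw [pow_zero, one_smul]
  | succ n ih => rw [pow_succ, mul_smul, h, ih]

/-! ### powers -/

omit [CharP (IsLocalRing.ResidueField B) q] [PerfectField (IsLocalRing.ResidueField B)] in
theorem pow_smul_mem_compW (hσ : σ ∈ B.decompositionSubgroup ℚ) (v : Fin 2) (n : ℕ)
    {y : Fb (M * q)} (hy : y ∈ (compW B hB hqM v).O) :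
    gal (M * q) σ ^ n • y ∈ (compW B hB hqM v).O := by
  induction n with
  | zero => rwa [pow_zero, one_smul]
  | succ n ih =>
    rw [pow_succ', mul_smul]
    exact smul_mem_compW hqM B hB hσ v ih

/-- `res_v (σ ^ n • y) = Φ ^ n • res_v y` for a Frobenius element `σ` at `q`. -/
theorem compW_res_pow_smul (hσ : B.IsFrobeniusAt σ q) (v : Fin 2) (n : ℕ)
    (y : Fb (M * q)) (hy : y ∈ (compW B hB hqM v).O)
    (hy' : gal (M * q) σ ^ n • y ∈ (compW B hB hqM v).O) :
    (compW B hB hqM v).res ⟨gal (M * q) σ ^ n • y, hy'⟩ =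
      frobAutFullC kB M q ^ n • (compW B hB hqM v).res ⟨y, hy⟩ := by
  induction n with
  | zero =>
    have e : (⟨gal (M * q) σ ^ 0 • y, hy'⟩ : (compW B hB hqM v).O) = ⟨y, hy⟩ :=
      Subtype.ext (show gal (M * q) σ ^ 0 • y = y by rw [pow_zero, one_smul])
    rw [e, pow_zero, one_smul]
  | succ n ih =>
    have hn := pow_smul_mem_compW hqM B hB hσ.mem_decompositionSubgroup v n hy
    have e : (⟨gal (M * q) σ ^ (n + 1) • y, hy'⟩ : (compW B hB hqM v).O) =
        ⟨gal (M * q) σ • (gal (M * q) σ ^ n • y),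
          smul_mem_compW hqM B hB hσ.mem_decompositionSubgroup v hn⟩ :=
      Subtype.ext (show gal (M * q) σ ^ (n + 1) • y = gal (M * q) σ • (gal (M * q) σ ^ n • y) by
        rw [pow_succ', mul_smul])
    rw [e, compW_res_smul hqM B hB hσ v _ hn, ih hn, pow_succ', mul_smul]

/-! ### the shape of `Filt.Equivariant` -/

/-- **(G3-prep)(a)**: for a two-component bundle `I` over the components `compW B hB hqM` of
`X₀(qM)` and a Frobenius element `σ` at `q`, the automorphism `σ ^ n` of `F̄_{Mq}` acts on the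
semistable setup `I.toSetup` through `Φ ^ n` on both components, as soon as `Φ ^ n` fixes the
branches of the crossings. -/
theorem equivariant_pow_of_C_eq {ν : Type*}
    (I : Fermat.Agent.BR.S0.TwoCompInput (F := Fb (M * q)) B (IsLocalRing.residue B) FtM ν)
    (hC : I.C = compW B hB hqM) (hσ : B.IsFrobeniusAt σ q) (n : ℕ)
    (hz₁ : ∀ e, frobAutFullC kB M q ^ n • I.z₁ e = I.z₁ e)
    (hz₂ : ∀ e, frobAutFullC kB M q ^ n • I.z₂ e = I.z₂ e) :
    Filt.Equivariant I.toSetup (gal (M * q) σ ^ n) (fun _ => frobAutFullC kB M q ^ n) := by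
  have key : ∀ (C : Fin 2 → ConstRed (F := Fb (M * q)) (Ft := FtM) B (IsLocalRing.residue B)),
      C = compW B hB hqM →
      (∀ v (y : Fb (M * q)), y ∈ (C v).O → gal (M * q) σ ^ n • y ∈ (C v).O) ∧
      (∀ v (y : Fb (M * q)) (hy : y ∈ (C v).O) (hy' : gal (M * q) σ ^ n • y ∈ (C v).O),
        (C v).res ⟨gal (M * q) σ ^ n • y, hy'⟩ =
          frobAutFullC kB M q ^ n • (C v).res ⟨y, hy⟩) := by
    rintro C rfl
    exact ⟨fun v y hy => pow_smul_mem_compW hqM B hB hσ.mem_decompositionSubgroup v n hy,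
      fun v y hy hy' => compW_res_pow_smul hqM B hB hσ v n y hy hy'⟩
  obtain ⟨h1, h2⟩ := key I.C hC
  exact
    { smul_mem := h1
      res_smul := h2
      s₁_fixed := hz₁
      s₂_fixed := hz₂ }

end Fermat.Agent.BR2.G3PrepRes
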