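/-
Program B, Phase 2, node (G3-prep)(b), concrete part (helper26): the reduction map of the
two-component model of `X₀(qM)` at `q` is equivariant for the decomposition group of `B`, and a
Frobenius element acts through the coefficientwise Frobenius `Φ = frobAutFullC k M q`.

* `ChartSymm.pow` : powers of a symmetry of a chart data (generic);
* `chartSymm_modular_decomp` : for `σ` in the decomposition group of `B`,
  `ChartSymm (chartDataModular B hB hqM) (gal (M*q) σ) (coeffAutFullC M (decompResAut B ⟨σ, hσ⟩))`;
* `chartSymm_modular_frob` : for a Frobenius element `σ` at `q`,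
  `ChartSymm (chartDataModular B hB hqM) (gal (M*q) σ) (frobAutFullC k M q)`; `_pow` versions;
* **`rModular_frob_smul`, `rModular_frob_pow_smul`** : for every atlas
  `H : AtlasHyp (chartDataModular B hB hqM) x`,
  `H.r (gal (M*q) σ ^ n • P) = ⟨(H.r P).1, Φ ^ n • (H.r P).2⟩`;
  `rModular_decomp_smul` for the decomposition group;
* `frob_pow_crossingEquiv` : a Frobenius element permutes the crossings.
-/
import Fermat.Agent.BR2.G3PrepRed
import Fermat.Agent.BR2.G3PrepRes

set_option autoImplicit false
set_option linter.unusedSectionVars false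
set_option linter.style.haveILetI false

noncomputable section

set_option synthInstance.maxHeartbeats 400000

namespace Fermat.Agent.BR2.G3Prep

open ModularCurve AlgebraicCurve HahnSeries Fermat.Agent.X0 Fermat.Agent.Val Fermat.Agent.Red
  Fermat.Agent.Hecke Fermat.Agent.BR.TwoVal Fermat.Agent.BR.ValTwo Fermat.Agent.BR.GaloisTwo
  Fermat.Agent.BR.ConstRedTwo Fermat.Agent.BR.S0.RedModular Fermat.Agent.BR.S0.PointDict
  Fermat.Agent.BR2.G3PrepRes

/-! ### generic: powers of a symmetry -/

section Generic

variable {K F k Ft : Type*} [Field K] [Field F] [Algebra K F] [Field k] [Field Ft] [Algebra k Ft]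
variable {A : ValuationSubring K} {π : A →+* k} {D : ChartData A π Ft F}
  {g : SemilinearAut K F} {s : SemilinearAut k Ft}

/-- Powers of a symmetry are symmetries. -/
theorem ChartSymm.pow (S : ChartSymm D g s) (n : ℕ) : ChartSymm D (g ^ n) (s ^ n) := by
  induction n with
  | zero =>
    rw [pow_zero, pow_zero]
    exact ChartSymm.one D
  | succ n ih =>
    rw [pow_succ, pow_succ]
    exact ih.mul S

end Generic

/-! ### the model of `X₀(qM)` at `q` -/

variable {M q : ℕ} [NeZero M] [hq : Fact q.Prime] (hqM : ¬ q ∣ M)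
variable (B : ValuationSubring Kb) (hB : B.LiesOverPrime q)

local notation "kB" => IsLocalRing.ResidueField B
local notation "FtM" => modularFunctionFieldFullC (IsLocalRing.ResidueField B) M

variable {σ : Kb ≃ₐ[ℚ] Kb}

/-- **The decomposition group of `B` acts on the chart data of `X₀(qM)`** through the
coefficientwise action of the induced automorphism of the residue field. -/
theorem chartSymm_modular_decomp (hσ : σ ∈ B.decompositionSubgroup ℚ) :
    ChartSymm (chartDataModular B hB hqM) (gal (M * q) σ)
      (coeffAutFullC M (decompResAut B ⟨σ, hσ⟩)) := by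
  refine ChartSymm.of_fixed ?_ ?_ (fun y hy => gal_smul_of_mem_chartFin σ hy)
    (fun y hy => gal_smul_of_mem_chartInf σ hy) ?_ ?_
  · intro c
    show σ c ∈ B ↔ c ∈ B
    constructor
    · intro h
      have h1 := mem_of_mem_decompositionSubgroup (symm_mem_decompositionSubgroup hσ) h
      rwa [AlgEquiv.symm_apply_apply] at h1
    · exact mem_of_mem_decompositionSubgroup hσ
  · intro c hc
    show IsLocalRing.residue B ⟨σ c, _⟩ = decompResAut B ⟨σ, hσ⟩ (IsLocalRing.residue B ⟨c, hc⟩)
    rw [decompResAut_residue]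
    rfl
  · intro v y hy
    have hyO : y ∈ (compW B hB hqM v).O := chartFin_le B hB hqM v hy
    have hfix : gal (M * q) σ • y = y := gal_smul_of_mem_chartFin σ hy
    have hyO' : gal (M * q) σ • y ∈ (compW B hB hqM v).O := by rw [hfix]; exact hyO
    have h1 := coe_compW_res_smul_decomp hqM B hB hσ v y hyO hyO'
    apply Subtype.ext
    rw [coe_coeffAutFullC_smul]
    refine Eq.trans h1.symm ?_
    congr 2
    exact Subtype.ext hfix
  · intro v y hy
    have hyO : y ∈ (compW B hB hqM v).O := chartInf_le B hB hqM v hy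
    have hfix : gal (M * q) σ • y = y := gal_smul_of_mem_chartInf σ hy
    have hyO' : gal (M * q) σ • y ∈ (compW B hB hqM v).O := by rw [hfix]; exact hyO
    have h1 := coe_compW_res_smul_decomp hqM B hB hσ v y hyO hyO'
    apply Subtype.ext
    rw [coe_coeffAutFullC_smul]
    refine Eq.trans h1.symm ?_
    congr 2
    exact Subtype.ext hfix

/-- **The reduction map is equivariant for the decomposition group.** -/
theorem rModular_decomp_smul {x : Fb (M * q)} (H : AtlasHyp (chartDataModular B hB hqM) x)
    (hσ : σ ∈ B.decompositionSubgroup ℚ) (P : Place Kb (Fb (M * q))) :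
    H.r (gal (M * q) σ • P) =
      ⟨(H.r P).1, coeffAutFullC M (decompResAut B ⟨σ, hσ⟩) • (H.r P).2⟩ :=
  (chartSymm_modular_decomp hqM B hB hσ).r_smul H P

variable [CharP (IsLocalRing.ResidueField B) q] [PerfectField (IsLocalRing.ResidueField B)]

/-- the automorphism of the residue field induced by a Frobenius element is the Frobenius -/
theorem decompResAut_eq_frobeniusEquiv (hσ : B.IsFrobeniusAt σ q) :
    decompResAut B ⟨σ, hσ.mem_decompositionSubgroup⟩ = frobeniusEquiv kB q := by
  ext c
  rw [decompResAut_of_isFrobeniusAt hσ, frobeniusEquiv_apply, frobenius_def]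

/-- **A Frobenius element at `q` acts on the chart data of `X₀(qM)` through the coefficientwise
Frobenius `Φ`.** -/
theorem chartSymm_modular_frob (hσ : B.IsFrobeniusAt σ q) :
    ChartSymm (chartDataModular B hB hqM) (gal (M * q) σ) (frobAutFullC kB M q) := by
  have h := chartSymm_modular_decomp hqM B hB hσ.mem_decompositionSubgroup
  rwa [decompResAut_eq_frobeniusEquiv B hσ] at h

theorem chartSymm_modular_frob_pow (hσ : B.IsFrobeniusAt σ q) (n : ℕ) :
    ChartSymm (chartDataModular B hB hqM) (gal (M * q) σ ^ n) (frobAutFullC kB M q ^ n) :=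
  (chartSymm_modular_frob hqM B hB hσ).pow n

/-- **(G3-prep)(b)**: `r (σ • P) = Φ • r P` for a Frobenius element `σ` at `q`. -/
theorem rModular_frob_smul {x : Fb (M * q)} (H : AtlasHyp (chartDataModular B hB hqM) x)
    (hσ : B.IsFrobeniusAt σ q) (P : Place Kb (Fb (M * q))) :
    H.r (gal (M * q) σ • P) = ⟨(H.r P).1, frobAutFullC kB M q • (H.r P).2⟩ :=
  (chartSymm_modular_frob hqM B hB hσ).r_smul H P

/-- **(G3-prep)(b), powers**: `r (σ ^ n • P) = Φ ^ n • r P` for a Frobenius element `σ` at `q`
(`n = 2` is the hypothesis `hr` of `G4Modular.theta_torSub_modular`). -/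
theorem rModular_frob_pow_smul {x : Fb (M * q)} (H : AtlasHyp (chartDataModular B hB hqM) x)
    (hσ : B.IsFrobeniusAt σ q) (n : ℕ) (P : Place Kb (Fb (M * q))) :
    H.r (gal (M * q) σ ^ n • P) = ⟨(H.r P).1, frobAutFullC kB M q ^ n • (H.r P).2⟩ :=
  (chartSymm_modular_frob_pow hqM B hB hσ n).r_smul H P

/-- the same for a two-component bundle whose reduction map is the one of an atlas -/
theorem twoCompInput_frob_pow_smul {ν : Type*} {x : Fb (M * q)}
    (H : AtlasHyp (chartDataModular B hB hqM) x)
    (I : Fermat.Agent.BR.S0.TwoCompInput (F := Fb (M * q)) B (IsLocalRing.residue B) FtM ν)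
    (hr : I.r = H.r) (hσ : B.IsFrobeniusAt σ q) (n : ℕ) (P : Place Kb (Fb (M * q))) :
    I.toSetup.r (gal (M * q) σ ^ n • P) =
      ⟨(I.toSetup.r P).1, frobAutFullC kB M q ^ n • (I.toSetup.r P).2⟩ := by
  show I.r (gal (M * q) σ ^ n • P) = ⟨(I.r P).1, frobAutFullC kB M q ^ n • (I.r P).2⟩
  rw [hr]
  exact rModular_frob_pow_smul hqM B hB H hσ n P

/-- A Frobenius element permutes the crossings: `z₁ (e') = Φ ^ n • z₁ e`, `z₂ (e') = Φ ^ n • z₂ e`
for `e' = frob_pow_crossingEquiv … n e`. -/
def frob_pow_crossingEquiv (hσ : B.IsFrobeniusAt σ q) (n : ℕ) :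
    Crossing (chartDataModular B hB hqM) ≃ Crossing (chartDataModular B hB hqM) :=
  (chartSymm_modular_frob_pow hqM B hB hσ n).crossingEquiv

theorem z₁_frob_pow_crossingEquiv (hσ : B.IsFrobeniusAt σ q) (n : ℕ)
    (e : Crossing (chartDataModular B hB hqM)) :
    z₁ (chartDataModular B hB hqM) (frob_pow_crossingEquiv hqM B hB hσ n e) =
      frobAutFullC kB M q ^ n • z₁ (chartDataModular B hB hqM) e := rfl

theorem z₂_frob_pow_crossingEquiv (hσ : B.IsFrobeniusAt σ q) (n : ℕ)
    (e : Crossing (chartDataModular B hB hqM)) :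
    z₂ (chartDataModular B hB hqM) (frob_pow_crossingEquiv hqM B hB hσ n e) =
      frobAutFullC kB M q ^ n • z₂ (chartDataModular B hB hqM) e := rfl

end Fermat.Agent.BR2.G3Prep
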