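import Mathlib
import Fermat.Agent.BR2.FrobDiff
import Fermat.Agent.BR.Refine.Galois

/-!
# Phase 2 (S35), node (G4): the functions `u v` on the refined model

The hypothesis `hu` of `FrobDiff.frob_smul_mem_principal(')` for the nodal reduction
`C.refined.toNodalRed` of a chain family `C` over a semistable setup `S₀`:

* `not_isBranch_of_not_isBranch_refined`, `mapDomain_rRef_inl` : on an old component, off the
  branch points, the refined reduction of a divisor is its reduction on the base model;
* **`hu_refined`** : if the reduction of `D` on every component of `S₀` is, off the branch points,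
  the divisor of a function, then on every component `v` of the refined model there is a function
  `u v ≠ 0` with `redDiv v D = div (u v)` off the node places (exceptional projective lines:
  `FrobDiff.exists_ord_eq_of_divisor`);
* `exists_hu_refined` : the same in the shape of the (G4) statement layer (representative of a
  class of `Filt.torSub S₀ m`, cf. `FrobDiff.exists_rep_of_isTor`).
-/

set_option autoImplicit false
set_option linter.unusedSectionVars false

namespace Fermat.Agent.BR2.G4Hu

open AlgebraicCurve IsLocalRing Fermat.Agent.Red Fermat.Agent.BR.SS Fermat.Agent.BR.P1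
  Fermat.Agent.BR.Nodal Fermat.Agent.BR.Refine Fermat.Agent.BR.POne Fermat.Agent.BR2.FrobDiff

variable {K : Type} {F : Type*} [Field K] [Field F] [Algebra K F]
  {A : ValuationSubring K} [IsAlgClosed (ResidueField A)]
  {ι₀ : Type} {Ft₀ : ι₀ → Type} [∀ v, Field (Ft₀ v)] [∀ v, Algebra (ResidueField A) (Ft₀ v)]
  {ν₀ : Type}
  {S₀ : SemistableSetup (F := F) A (residue A) ι₀ Ft₀ ν₀} (C : ChainFamily S₀)

/-- A non-branch point of an old component of the refined model is a non-branch point of the base
model. -/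
theorem not_isBranch_of_not_isBranch_refined {v : ι₀} {Q : Place (ResidueField A) (Ft₀ v)}
    (hQ : ¬ C.refined.IsBranch (⟨Sum.inl v, Q⟩ : C.PtR)) : ¬ S₀.IsBranch ⟨v, Q⟩ := by
  rintro ⟨e, he | he⟩
  · apply hQ
    refine (C.isBranch_refined_iff _).2 ⟨Sum.inl e, Or.inl ?_⟩
    rw [ChainFamily.srcPt_inl, ← he]
    rfl
  · apply hQ
    refine (C.isBranch_refined_iff _).2 ⟨C.lastEdge e, Or.inr ?_⟩
    rw [ChainFamily.tgtPt_lastEdge, ← he]
    rfl

/-- On an old component, off the branch points, the reduction of a divisor on the refined model is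
its reduction on the base model. -/
theorem mapDomain_rRef_inl (D : Divisor K F) {v : ι₀} {Q : Place (ResidueField A) (Ft₀ v)}
    (hQ : ¬ C.refined.IsBranch (⟨Sum.inl v, Q⟩ : C.PtR)) :
    Finsupp.mapDomain C.rRef D (⟨Sum.inl v, Q⟩ : C.PtR) =
      Finsupp.mapDomain S₀.r D ⟨v, Q⟩ := by
  have hs₀ : ∀ e, (⟨v, Q⟩ : Σ v, Place (ResidueField A) (Ft₀ v)) ≠ ⟨S₀.src e, S₀.s₁ e⟩ := by
    intro e h
    exact not_isBranch_of_not_isBranch_refined C hQ ⟨e, Or.inl h⟩
  apply mapDomain_congr_fibre
  intro P _
  rw [ChainFamily.rRef_eq_inl_iff]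
  constructor
  · exact fun h => h.1
  · intro h
    refine ⟨h, Or.inr fun e he => ?_⟩
    have he' : S₀.r P = ⟨S₀.src e, S₀.s₁ e⟩ := he
    exact hs₀ e (h.symm.trans he')

/-- **The functions `u v` on the refined model.**  If the reduction of `D` on every component of
the base model is, off the branch points, the divisor of a function, the same holds on every
component of the refined model (on the exceptional projective lines every divisor on the torus is
the divisor of a function there): the hypothesis `hu` of `FrobDiff.frob_smul_mem_principal`. -/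
theorem hu_refined (D : Divisor K F) (hsm : ∀ P ∈ D.support, C.refined.IsSmoothPlace P)
    (hold : ∀ v, ∃ u : Ft₀ v, u ≠ 0 ∧ ∀ Q : Place (ResidueField A) (Ft₀ v),
      ¬ S₀.IsBranch ⟨v, Q⟩ → Finsupp.mapDomain S₀.r D ⟨v, Q⟩ = Q.ord u) :
    ∀ v : ι₀ ⊕ C.X, ∃ u : FtR Ft₀ A C.X v, u ≠ 0 ∧
      ∀ P : Place (ResidueField A) (FtR Ft₀ A C.X v),
        P ∉ C.refined.toNodalRed.nodePts v → C.refined.toNodalRed.redDiv v D P = P.ord u := by
  rintro (v | x)
  · obtain ⟨u, hu0, hu⟩ := hold v
    refine ⟨u, hu0, fun Q hQ => ?_⟩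
    have hQ' : ¬ C.refined.IsBranch (⟨Sum.inl v, Q⟩ : C.PtR) := hQ
    rw [C.refined.toNodalRed_redDiv_apply D hsm (Sum.inl v) Q]
    have h1 : Finsupp.mapDomain C.refined.r D (⟨Sum.inl v, Q⟩ : C.PtR) =
        Finsupp.mapDomain C.rRef D (⟨Sum.inl v, Q⟩ : C.PtR) := rfl
    rw [h1, mapDomain_rRef_inl C D hQ']
    exact hu Q (not_isBranch_of_not_isBranch_refined C hQ')
  · set B : Divisor (ResidueField A) (RatFunc (ResidueField A)) :=
      C.refined.toNodalRed.redDiv (Sum.inr x) D with hB
    have hval : ∀ Q : Place (ResidueField A) (RatFunc (ResidueField A)),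
        Q ∉ C.refined.toNodalRed.nodePts (Sum.inr x) →
          Q.adicValuation (RatFunc.X : RatFunc (ResidueField A)) = 1 := by
      intro Q hQ
      have hQ' : ¬ C.refined.IsBranch (⟨Sum.inr x, Q⟩ : C.PtR) := hQ
      rw [C.mem_nodePts_inr_iff x Q, not_or] at hQ'
      exact (val_X_eq_one_iff Q).2 hQ'
    have hsupp : ∀ Q ∈ B.support,
        Q.adicValuation (RatFunc.X : RatFunc (ResidueField A)) = 1 := by
      intro Q hQ
      exact hval Q (NodalRed.redDiv_support_not_node (S := C.refined.toNodalRed)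
        (Sum.inr x) D Q hQ)
    obtain ⟨r, hr0, hr⟩ := exists_ord_eq_of_divisor
      (generates_ratFunc (k := ResidueField A)) B hsupp
    exact ⟨r, hr0, fun P hP => hr P (hval P hP)⟩

/-- `hu_refined` in the shape of the (G4) statement layer. -/
theorem exists_hu_refined {m : ℕ} (_hm : m ≠ 0) {x : Pic0 K F}
    {D : Divisor.degZero (K := K) (F := F)} {f : F} (_hR : Fermat.Agent.BR2.Filt.IsRep m x D f)
    (htor : ∀ v, ∃ u : Ft₀ v, u ≠ 0 ∧ ∀ Q : Place (ResidueField A) (Ft₀ v),
      ¬ S₀.IsBranch ⟨v, Q⟩ → Finsupp.mapDomain S₀.r (D : Divisor K F) ⟨v, Q⟩ = Q.ord u)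
    (hsm : ∀ P ∈ (D : Divisor K F).support, C.refined.IsSmoothPlace P) :
    ∀ v : ι₀ ⊕ C.X, ∃ u : FtR Ft₀ A C.X v, u ≠ 0 ∧
      ∀ P : Place (ResidueField A) (FtR Ft₀ A C.X v),
        P ∉ C.refined.toNodalRed.nodePts v →
          C.refined.toNodalRed.redDiv v (D : Divisor K F) P = P.ord u :=
  hu_refined C (D : Divisor K F) hsm htor

end Fermat.Agent.BR2.G4Hu
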