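import Mathlib
import Fermat.Agent.BR.Refine.Galois
import Fermat.Agent.BR.Refine.Genus
import Fermat.Agent.BR2.FrobRot

/-!
# Phase 2 (S35), node (G4.D): a Frobenius-like automorphism on the refined model

Semilinear twin of `BR/Refine/Galois.lean`.  `g : SemilinearAut K F` acts on the base model `S₀`
through the semilinear automorphisms `a v` of the components (`hr₀`), fixing the branch points;
it preserves the circles of the annuli (`habs`, ON THE TUBES) and acts on the angular reductions of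
the level `x` by `t ↦ z x * φ t` (`hrot`; `BR2/AnnulusFrob.ubar_smul_frob`).

* `alphaF C a φ z hz` : the automorphisms of the components of the refined model (`a v` on the old
  components, `FrobRot.rotSemi φ (z x)` on the exceptional component `x`);
* `compat_refined_frob` : `C.refined.toNodalRed.Compat g (alphaF C a φ z hz)`;
* `alphaF_smul_algebraMap` : all `alphaF … v` act on the constants by `c ↦ c ^ Q`;
* `alphaF_fix` : the node points of the refined model are fixed by `alphaF … v` and have degree one.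
-/

set_option autoImplicit false
set_option linter.unusedSectionVars false

namespace Fermat.Agent.BR2.RefineFrob

open AlgebraicCurve IsLocalRing Fermat.Agent.Red Fermat.Agent.BR.SS Fermat.Agent.BR.P1
  Fermat.Agent.BR.InertiaRed Fermat.Agent.BR.Nodal
  Fermat.Agent.BR.Refine Fermat.Agent.BR2.FrobRot

open Fermat.Agent.BR.AnnulusRed (ubar)

variable {K : Type} {F : Type*} [Field K] [Field F] [Algebra K F]
  {A : ValuationSubring K} [IsAlgClosed (ResidueField A)]
  {ι₀ : Type} {Ft₀ : ι₀ → Type} [∀ v, Field (Ft₀ v)] [∀ v, Algebra (ResidueField A) (Ft₀ v)]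
  {ν₀ : Type} {S₀ : SemistableSetup (F := F) A (residue A) ι₀ Ft₀ ν₀}

/-! ### Invariance of the positions -/

section Invariance

variable {C : ChainFamily S₀} {g : SemilinearAut K F}
  {a : ∀ v, SemilinearAut (ResidueField A) (Ft₀ v)}
  (hr₀ : ∀ P, S₀.r (g • P) = ⟨(S₀.r P).1, a (S₀.r P).1 • (S₀.r P).2⟩)
  (hs₁ : ∀ e, a (S₀.src e) • S₀.s₁ e = S₀.s₁ e)
  (habs : ∀ e P, P ∈ tube S₀ e → C.absU e (g • P) = C.absU e P)

include hr₀ hs₁ in
theorem frob_smul_mem_tube_iff {e : ν₀} {P : Place K F} : g • P ∈ tube S₀ e ↔ P ∈ tube S₀ e := by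
  show S₀.r (g • P) = ⟨S₀.src e, S₀.s₁ e⟩ ↔ S₀.r P = ⟨S₀.src e, S₀.s₁ e⟩
  rw [hr₀ P]
  generalize S₀.r P = p
  obtain ⟨v, Q⟩ := p
  constructor
  · intro h
    obtain ⟨rfl, h2⟩ := Sigma.mk.inj_iff.mp h
    have h3 : a (S₀.src e) • Q = S₀.s₁ e := eq_of_heq h2
    have h4 : Q = S₀.s₁ e := by
      have h5 : a (S₀.src e) • Q = a (S₀.src e) • S₀.s₁ e := by rw [h3, hs₁]
      exact (MulAction.injective (a (S₀.src e))) h5
    rw [h4]
  · intro h
    obtain ⟨rfl, h2⟩ := Sigma.mk.inj_iff.mp h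
    have h3 : Q = S₀.s₁ e := eq_of_heq h2
    rw [h3]
    show (⟨S₀.src e, a (S₀.src e) • S₀.s₁ e⟩ : Σ v, Place (ResidueField A) (Ft₀ v)) = _
    rw [hs₁]

include hr₀ hs₁ habs in
theorem frob_onLevel_smul_iff {x : C.X} {P : Place K F} : C.OnLevel x (g • P) ↔ C.OnLevel x P := by
  unfold ChainFamily.OnLevel
  constructor
  · rintro ⟨h1, h2⟩
    have h3 := (frob_smul_mem_tube_iff hr₀ hs₁).1 h1
    exact ⟨h3, by rw [← habs _ _ h3]; exact h2⟩
  · rintro ⟨h1, h2⟩
    exact ⟨(frob_smul_mem_tube_iff hr₀ hs₁).2 h1, by rw [habs _ _ h1]; exact h2⟩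

end Invariance

/-! ### The automorphisms of the components -/

variable (C : ChainFamily S₀)

/-- The automorphisms of the components of the refined model: `a v` on the old component `v`, the
semilinear rotation `X = t ↦ X = z x * φ t` on the exceptional component `x`. -/
noncomputable def alphaF (a : ∀ v, SemilinearAut (ResidueField A) (Ft₀ v))
    (φ : ResidueField A ≃+* ResidueField A) (z : C.X → ResidueField A) (hz : ∀ x, z x ≠ 0) :
    ∀ v : ι₀ ⊕ C.X, SemilinearAut (ResidueField A) (FtR Ft₀ A C.X v)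
  | Sum.inl v => a v
  | Sum.inr x => rotSemi φ (z x) (hz x)

section

variable (a : ∀ v, SemilinearAut (ResidueField A) (Ft₀ v))
  (φ : ResidueField A ≃+* ResidueField A) (z : C.X → ResidueField A) (hz : ∀ x, z x ≠ 0)

theorem alphaF_inl (v : ι₀) : alphaF C a φ z hz (Sum.inl v) = a v := rfl

theorem alphaF_inr (x : C.X) : alphaF C a φ z hz (Sum.inr x) = rotSemi φ (z x) (hz x) := rfl

/-- All the automorphisms `alphaF … v` act on the constants by `c ↦ c ^ Q`. -/
theorem alphaF_smul_algebraMap (Q : ℕ)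
    (haQ : ∀ v c, a v • algebraMap (ResidueField A) (Ft₀ v) c =
      algebraMap (ResidueField A) (Ft₀ v) (c ^ Q))
    (hφQ : ∀ c, φ c = c ^ Q) (v : ι₀ ⊕ C.X) (c : ResidueField A) :
    alphaF C a φ z hz v • algebraMap (ResidueField A) (FtR Ft₀ A C.X v) c =
      algebraMap (ResidueField A) (FtR Ft₀ A C.X v) (c ^ Q) := by
  rcases v with v | x
  · exact haQ v c
  · show rotSemi φ (z x) (hz x) • algebraMap (ResidueField A) (RatFunc (ResidueField A)) c = _
    rw [rotSemi_smul_const, hφQ]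
    rfl

/-- The node points of the refined model are fixed by `alphaF … v` and have degree one. -/
theorem alphaF_fix (hFt : ∀ v, RiemannPkg (ResidueField A) (Ft₀ v))
    (hs₁ : ∀ e, a (S₀.src e) • S₀.s₁ e = S₀.s₁ e)
    (hs₂ : ∀ e, a (S₀.tgt e) • S₀.s₂ e = S₀.s₂ e) (v : ι₀ ⊕ C.X)
    (P : Place (ResidueField A) (FtR Ft₀ A C.X v)) (hP : P ∈ C.refined.toNodalRed.nodePts v) :
    alphaF C a φ z hz v • P = P ∧ P.deg = 1 := by
  have hP' : C.refined.IsBranch ⟨v, P⟩ := hP
  rcases v with v | x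
  · refine ⟨?_, (hFt v).deg_one P⟩
    rw [ChainFamily.isBranch_refined_iff] at hP'
    obtain ⟨x', h | h⟩ := hP'
    · rcases x' with e | x'
      · rw [ChainFamily.srcPt_inl] at h
        have h1 : (⟨v, P⟩ : Σ v, Place (ResidueField A) (Ft₀ v)) = ⟨S₀.src e, S₀.s₁ e⟩ :=
          ChainFamily.inlPt_injective (C := C) h
        obtain ⟨rfl, h2⟩ := Sigma.mk.inj_iff.mp h1
        rw [eq_of_heq h2]
        exact hs₁ e
      · rw [ChainFamily.srcPt_inr] at h
        exact absurd h (ChainFamily.inlPt_ne_inrPt (p := ⟨v, P⟩))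
    · rcases ChainFamily.tgtPt_cases x' with ⟨x'', h'⟩ | ⟨e', h'⟩
      · rw [h'] at h
        exact absurd h (ChainFamily.inlPt_ne_inrPt (p := ⟨v, P⟩))
      · rw [h'] at h
        have h1 : (⟨v, P⟩ : Σ v, Place (ResidueField A) (Ft₀ v)) = ⟨S₀.tgt e', S₀.s₂ e'⟩ :=
          ChainFamily.inlPt_injective (C := C) h
        obtain ⟨rfl, h2⟩ := Sigma.mk.inj_iff.mp h1
        rw [eq_of_heq h2]
        exact hs₂ e'
  · refine ⟨?_, (Fermat.Agent.BR.POne.riemannPkg_ratFunc (ResidueField A)).deg_one P⟩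
    rcases (C.mem_nodePts_inr_iff x P).1 hP' with rfl | rfl
    · exact rotSemi_smul_placeAt_zero φ (z x) (hz x)
    · exact rotSemi_smul_placeInfty φ (z x) (hz x)

/-- **Compatibility**: `g` acts on the reductions of the refined model through `alphaF`. -/
theorem compat_refined_frob {g : SemilinearAut K F}
    (hr₀ : ∀ P, S₀.r (g • P) = ⟨(S₀.r P).1, a (S₀.r P).1 • (S₀.r P).2⟩)
    (hs₁ : ∀ e, a (S₀.src e) • S₀.s₁ e = S₀.s₁ e)
    (habs : ∀ e P, P ∈ tube S₀ e → C.absU e (g • P) = C.absU e P)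
    (hrot : ∀ (x : C.X) (P : Place K F), C.OnLevel x P →
      ubar A (C.u x.1) (C.a x.1 x.2) (g • P) =
        z x * φ (ubar A (C.u x.1) (C.a x.1 x.2) P)) :
    C.refined.toNodalRed.Compat g (alphaF C a φ z hz) := by
  have hsm : ∀ P, C.refined.IsSmoothPlace P ↔ C.refined.IsSmoothPlace (g • P) := by
    intro P
    rw [ChainFamily.isSmoothPlace_refined_iff, ChainFamily.isSmoothPlace_refined_iff]
    constructor
    · rintro (⟨x, hx⟩ | hno)
      · exact Or.inl ⟨x, (frob_onLevel_smul_iff hr₀ hs₁ habs).2 hx⟩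
      · exact Or.inr fun e he => hno e ((frob_smul_mem_tube_iff hr₀ hs₁).1 he)
    · rintro (⟨x, hx⟩ | hno)
      · exact Or.inl ⟨x, (frob_onLevel_smul_iff hr₀ hs₁ habs).1 hx⟩
      · exact Or.inr fun e he => hno e ((frob_smul_mem_tube_iff hr₀ hs₁).2 he)
  apply SemistableSetup.toNodalRed_compat
  · intro P hP
    have hr : ∀ P, C.refined.r P = C.rRef P := fun _ => rfl
    rw [hr, hr]
    rw [ChainFamily.isSmoothPlace_refined_iff] at hP
    rcases hP with ⟨x, hx⟩ | hno
    · rw [ChainFamily.rRef_of_onLevel hx,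
        ChainFamily.rRef_of_onLevel ((frob_onLevel_smul_iff hr₀ hs₁ habs).2 hx), hrot x P hx]
      show (⟨Sum.inr x, placeAt (ResidueField A)
          (z x * φ (ubar A (C.u x.1) (C.a x.1 x.2) P))⟩ : C.PtR) =
        ⟨Sum.inr x, rotSemi φ (z x) (hz x) •
          placeAt (ResidueField A) (ubar A (C.u x.1) (C.a x.1 x.2) P)⟩
      rw [rotSemi_smul_placeAt]
    · have hno' : ∀ e, g • P ∉ tube S₀ e := fun e he =>
        hno e ((frob_smul_mem_tube_iff hr₀ hs₁).1 he)
      rw [ChainFamily.rRef_of_not_tube hno, ChainFamily.rRef_of_not_tube hno', hr₀ P]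
      rfl
  · exact fun P hP => (hsm P).1 hP
  · exact fun P hP h => hP ((hsm P).2 h)

end

end Fermat.Agent.BR2.RefineFrob
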