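import Mathlib
import Fermat.Agent.BR.Refine.Final
import Fermat.Agent.BR2.Filtration
import Fermat.Agent.BR2.FrobDiffShape
import Fermat.Agent.BR2.AnnulusFrob
import Fermat.Agent.BR2.RefineFrob
import Fermat.Agent.BR2.G4Hu

/-!
# Phase 2 (S35), node (G4.F): `(g - 1)(g - Q)` kills the toric part

`S₀` a semistable setup with a chain provider (Program B), `g : SemilinearAut K F` a
*Frobenius-like* automorphism: it acts on the base model through semilinear automorphisms `a v` of
the components fixing the branch points (`Filt.Equivariant`, `hr₀`), its base automorphism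
preserves the valuation of `A` and induces `c ↦ c ^ Q` on the residue field, and it multiplies
every annulus coordinate by a function with constant unit residue on the tube (`hu`; a theorem for
annulus charts: `BR2/G4Unit`).  Then

  `g • g • x - (1 + Q) • g • x + Q • x = 0`   for every `x ∈ Filt.torSub S₀ m`, `m` prime to the
  residue characteristic

(`theta_torSub_eq_zero`) : the hypothesis `G4` of `BR2.FrobSquare.kill_of_filtration` with
`g = s²`, `Q = q²`.

Proof: a representative `(D, f)` of `x` whose reductions on the components of `S₀` are divisors of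
functions off the branch points (`FrobDiff.exists_rep_of_isTor`); the refined model adapted to the
support of `D` (chain provider); `g` acts on it through `RefineFrob.alphaF`
(`RefineFrob.compat_refined_frob`, from `AnnulusFrob.ubar_smul_frob`); the reductions of `D` on all
components of the refined model are divisors of functions off the node points (`G4Hu`); conclude by
`FrobDiff.frob_smul_pic0_eq_zero'` (no torsion in the kernel of reduction + the value-one lemma).
-/

set_option autoImplicit false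

namespace Fermat.Agent.BR2.G4

open AlgebraicCurve IsLocalRing Fermat.Agent.Red Fermat.Agent.BR.SS Fermat.Agent.BR.Refine
  Fermat.Agent.BR.InertiaRed Fermat.Agent.BR.Nodal

open Fermat.Agent.BR.AnnulusRed (ubar)

variable {K : Type} {F : Type*} [Field K] [Field F] [Algebra K F]
  {A : ValuationSubring K} [IsAlgClosed (ResidueField A)]
  {ι₀ : Type} {Ft₀ : ι₀ → Type} [∀ v, Field (Ft₀ v)] [∀ v, Algebra (ResidueField A) (Ft₀ v)]
  {ν₀ : Type}

omit [IsAlgClosed (ResidueField A)] in
/-- A nonzero `evalAt` is a genuine value. -/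
theorem isValueAt_evalAt_of_ne_zero {P : Place K F} {h : F} (h0 : evalAt P h ≠ 0) :
    IsValueAt P h (evalAt P h) := by
  by_cases hex : ∃ c : K, IsValueAt P h c
  · obtain ⟨c, hc⟩ := hex
    rwa [evalAt_eq_of_isValueAt hc]
  · exfalso
    apply h0
    rw [evalAt, dif_neg hex]

/-- **(G4), abstract form**: `(g - 1)(g - Q)` kills the toric part of the `m`-torsion. -/
theorem theta_torSub_eq_zero [Fintype ι₀] [Fintype ν₀] [IsAlgClosed K]
    (S₀ : SemistableSetup (F := F) A (residue A) ι₀ Ft₀ ν₀) (hA : IsRankOne A)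
    (hF : RiemannPkg K F) (hFt : ∀ v, RiemannPkg (ResidueField A) (Ft₀ v))
    (hgen : (genusFF K F : ℤ) = ∑ v, (genusFF (ResidueField A) (Ft₀ v) : ℤ)
      + Fintype.card ν₀ - Fintype.card ι₀ + 1)
    (Pr : ChainProvider S₀)
    (g : SemilinearAut K F) (a : ∀ v, SemilinearAut (ResidueField A) (Ft₀ v))
    (hEq : Filt.Equivariant S₀ g a)
    (hr₀ : ∀ P, S₀.r (g • P) = ⟨(S₀.r P).1, a (S₀.r P).1 • (S₀.r P).2⟩)
    (hval : ∀ x : K, A.valuation (SemilinearAut.baseAut g x) = A.valuation x)
    (Q : ℕ) (φ : ResidueField A ≃+* ResidueField A) (hφQ : ∀ c, φ c = c ^ Q)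
    (hφ : ∀ x : K, x ∈ A → resOf A (SemilinearAut.baseAut g x) = φ (resOf A x))
    (haQ : ∀ v c, a v • algebraMap (ResidueField A) (Ft₀ v) c =
      algebraMap (ResidueField A) (Ft₀ v) (c ^ Q))
    (hu : ∀ e, ∃ (w : F) (c : K), g • Pr.u e = w * Pr.u e ∧ A.valuation c = 1 ∧
      ∀ P ∈ tube S₀ e, ∃ c' : K, IsValueAt P w c' ∧ A.valuation (c' - c) < 1)
    {m : ℕ} (hm : (m : ResidueField A) ≠ 0) (x : Pic0 K F) (hx : x ∈ Filt.torSub S₀ m) :
    g • g • x - ((1 + Q : ℕ) : ℤ) • g • x + (Q : ℤ) • x = 0 := by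
  classical
  have hm0 : m ≠ 0 := by
    rintro rfl
    exact hm (by simp)
  obtain ⟨D, f, hR, htor⟩ := FrobDiff.exists_rep_of_isTor hm0 hx
  have hR' := hR
  obtain ⟨rfl, hf, hD⟩ := hR
  -- the refined model adapted to the support of `D`
  choose n P hPt hPanti hPcov using
    fun e => exists_levels S₀ (Pr.u e) e (D : Divisor K F).support
  obtain ⟨C, hCu, hn, ha⟩ := Pr.chain n (fun e i => evalAt (P e i) (Pr.u e))
    (fun e i => Pr.adm_tube e _ (hPt e i)) hPanti
  -- the unit factors of the annulus coordinates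
  choose w c hw hc hwv using hu
  have hs₁ := hEq.s₁_fixed
  have htube : ∀ {e : ν₀} {P : Place K F}, g • P ∈ tube S₀ e ↔ P ∈ tube S₀ e :=
    RefineFrob.frob_smul_mem_tube_iff (S₀ := S₀) hr₀ hs₁
  have hvalue : ∀ e P, P ∈ tube S₀ e → IsValueAt P (C.u e) (evalAt P (C.u e)) := by
    intro e P hP
    rw [hCu]
    exact isValueAt_evalAt_of_ne_zero (Pr.adm_ne e _ (Pr.adm_tube e P hP))
  have hw' : ∀ e, g • C.u e = w e * C.u e := fun e => by rw [hCu]; exact hw e
  -- the circles are preserved
  have habs : ∀ e P, P ∈ tube S₀ e → C.absU e (g • P) = C.absU e P := by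
    intro e P hP
    obtain ⟨cw, hcw, hcwc⟩ := hwv e (g • P) (htube.2 hP)
    exact AnnulusFrob.valuation_evalAt_smul_of_unit g hval (hw' e) (hvalue e P hP) hcw
      (AnnulusFrob.valuation_eq_one_of_sub_lt (hc e) hcwc)
  -- the twisted rotations
  let z : C.X → ResidueField A := fun x =>
    resOf A (SemilinearAut.baseAut g (C.a x.1 x.2) / C.a x.1 x.2) / resOf A (c x.1)
  have hz : ∀ x, z x ≠ 0 := fun x =>
    div_ne_zero
      (resOf_ne_zero A (valuation_div_eq_one A (C.a_ne x.1 x.2) (hval _)))
      (resOf_ne_zero A (hc x.1))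
  have hrot : ∀ (x : C.X) (P : Place K F), C.OnLevel x P →
      ubar A (C.u x.1) (C.a x.1 x.2) (g • P) =
        z x * φ (ubar A (C.u x.1) (C.a x.1 x.2) P) := by
    intro x P hx
    obtain ⟨cw, hcw, hcwc⟩ := hwv x.1 (g • P) (htube.2 hx.1)
    exact AnnulusFrob.ubar_smul_frob g hval φ hφ (hw' x.1) (C.a_ne x.1 x.2)
      (hvalue x.1 P hx.1) hx.2 hcw (hc x.1) hcwc
  have hcompat := RefineFrob.compat_refined_frob C a φ z hz hr₀ hs₁ habs hrot
  -- smoothness of the support
  have hsmooth : ∀ P ∈ (D : Divisor K F).support, C.refined.IsSmoothPlace P := by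
    intro P' hP'
    rw [ChainFamily.isSmoothPlace_refined_iff]
    by_cases hex : ∃ e, P' ∈ tube S₀ e
    · obtain ⟨e, he⟩ := hex
      obtain ⟨i₀, hi₀⟩ := hPcov e P' hP' he
      refine Or.inl ⟨⟨e, Fin.cast (congrFun hn e).symm i₀⟩, he, ?_⟩
      show A.valuation (evalAt P' (C.u e)) =
        A.valuation (C.a e (Fin.cast (congrFun hn e).symm i₀))
      rw [ha, hCu, hi₀]
      simp
    · push Not at hex
      exact Or.inr hex
  have hmD : m • (D : Divisor K F) ∈ Divisor.principal (K := K) (F := F) := ⟨f, hf, hD⟩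
  exact FrobDiff.frob_smul_pic0_eq_zero'
    (ntk_of_noTorsionInKernel _ (C.noTorsionInKernel_refined hA hF hFt hgen)) hcompat
    (RefineFrob.alphaF_smul_algebraMap C a φ z hz Q haQ hφQ)
    (RefineFrob.alphaF_fix C a φ z hz hFt hEq.s₁_fixed hEq.s₂_fixed) hm D
    (fun P hP => (C.refined.toNodalRed_isSmooth_iff P).2 (hsmooth P hP)) hmD
    (G4Hu.exists_hu_refined C hm0 hR' htor hsmooth)

end Fermat.Agent.BR2.G4
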