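import Mathlib
import Fermat.Agent.BR.Circle.Chart
import Fermat.Agent.BR.Circle.Conserve
import Fermat.Agent.BR2.Filtration

/-!
# Phase 2 (S35), node (G4)(G): a semilinear automorphism multiplies an annulus coordinate by a unit

`S₀` a semistable setup, `e` a node, `ch : Circle.AnnulusChart S₀ e` an annulus chart of `e`
(Program B, B7.5), `g` a semilinear automorphism of `F / K` acting on the setup through semilinear
automorphisms `a v` of the components (`Filt.Equivariant S₀ g a`) and compatibly with the reduction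
of places (`hr₀`).  Then

  `g • ch.u = (c • ε) * ch.u`,   `|c| = 1`,   `ε ≡ 1` on the tube and at the two branches of `e`

(`exists_smul_u_eq`).  Proof: factor `g • u = c • u ^ b • ∏ (u - u(Q)) ^ n Q • ε` (`ch.factor`);
`g` preserves the tube of `e` (`hr₀` + `s₁ e` fixed), so `g • u` has neither zeros nor poles on the
tube and all the `n Q` vanish (`Circle.ord_of_factor`); on the component `src e` the functions
`u`, `g • u`, `ε` are units, hence `c` is a unit of `A`, and comparing the orders of the residues at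
the branch `s₁ e` (`res (g • u) = a • res u` has a simple zero at `a • s₁ e = s₁ e`) gives `b = 1`.

`exists_hu` is the same statement in the literal shape of the hypothesis `hu` of
`BR2/G4.theta_torSub_eq_zero`.
-/

set_option autoImplicit false

noncomputable section

namespace Fermat.Agent.BR2.G4Unit

open AlgebraicCurve IsLocalRing Fermat.Agent.Red Fermat.Agent.BR.SS Fermat.Agent.BR.Refine
  Fermat.Agent.BR.Circle

variable {K : Type} {F : Type*} [Field K] [Field F] [Algebra K F]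
  {A : ValuationSubring K} [IsAlgClosed (ResidueField A)]
  {ι₀ : Type} {Ft₀ : ι₀ → Type} [∀ v, Field (Ft₀ v)] [∀ v, Algebra (ResidueField A) (Ft₀ v)]
  {ν₀ : Type}
  {S₀ : SemistableSetup (F := F) A (residue A) ι₀ Ft₀ ν₀}

local notation "k" => ResidueField A

/-! ### The tube of a node is stable -/

omit [IsAlgClosed (ResidueField A)] in
theorem smul_mem_tube {g : SemilinearAut K F} {a : ∀ v, SemilinearAut k (Ft₀ v)}
    (hEq : Filt.Equivariant S₀ g a)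
    (hr₀ : ∀ P, S₀.r (g • P) = ⟨(S₀.r P).1, a (S₀.r P).1 • (S₀.r P).2⟩)
    {e : ν₀} {P : Place K F} (hP : P ∈ tube S₀ e) : g • P ∈ tube S₀ e := by
  have hP' : S₀.r P = ⟨S₀.src e, S₀.s₁ e⟩ := hP
  show S₀.r (g • P) = ⟨S₀.src e, S₀.s₁ e⟩
  rw [hr₀ P, hP']
  show (⟨S₀.src e, a (S₀.src e) • S₀.s₁ e⟩ : Σ v, Place k (Ft₀ v)) = _
  rw [hEq.s₁_fixed e]

omit [IsAlgClosed (ResidueField A)] in
theorem inv_smul_mem_tube {g : SemilinearAut K F} {a : ∀ v, SemilinearAut k (Ft₀ v)}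
    (hEq : Filt.Equivariant S₀ g a)
    (hr₀ : ∀ P, S₀.r (g • P) = ⟨(S₀.r P).1, a (S₀.r P).1 • (S₀.r P).2⟩)
    {e : ν₀} {P : Place K F} (hP : P ∈ tube S₀ e) : g⁻¹ • P ∈ tube S₀ e := by
  have hP' : S₀.r P = ⟨S₀.src e, S₀.s₁ e⟩ := hP
  have h := hr₀ (g⁻¹ • P)
  rw [smul_inv_smul, hP'] at h
  show S₀.r (g⁻¹ • P) = ⟨S₀.src e, S₀.s₁ e⟩
  rcases hx : S₀.r (g⁻¹ • P) with ⟨v, Q⟩
  rw [hx] at h
  obtain ⟨h1, h2⟩ := Sigma.mk.inj_iff.mp h
  have h1' : S₀.src e = v := h1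
  subst h1'
  have h3 : S₀.s₁ e = a (S₀.src e) • Q := eq_of_heq h2
  have h4 : a (S₀.src e) • S₀.s₁ e = a (S₀.src e) • Q := by rw [hEq.s₁_fixed e]; exact h3
  have h5 : S₀.s₁ e = Q := smul_left_cancel _ h4
  rw [h5]

/-! ### Units of a valuation ring and their residues -/

omit [IsAlgClosed (ResidueField A)] in
theorem zpow_mem_of_unit (O : ValuationSubring F) {x : F} (hx : x ∈ O) (hx' : x⁻¹ ∈ O) (b : ℤ) :
    x ^ b ∈ O := by
  cases b with
  | ofNat n => rw [Int.ofNat_eq_natCast, zpow_natCast]; exact O.pow_mem hx n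
  | negSucc n => rw [zpow_negSucc, ← inv_pow]; exact O.pow_mem hx' _

omit [IsAlgClosed (ResidueField A)] in
/-- The residue of the inverse of a unit. -/
theorem res_inv (v : ι₀) {x : F} (hx : x ∈ S₀.O v) (hx' : x⁻¹ ∈ S₀.O v) (hx0 : x ≠ 0) :
    S₀.res v ⟨x⁻¹, hx'⟩ = (S₀.res v ⟨x, hx⟩)⁻¹ := by
  have h1 : (⟨x, hx⟩ : S₀.O v) * ⟨x⁻¹, hx'⟩ = 1 := Subtype.ext (mul_inv_cancel₀ hx0)
  have h2 : S₀.res v ⟨x, hx⟩ * S₀.res v ⟨x⁻¹, hx'⟩ = 1 := by rw [← map_mul, h1, map_one]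
  exact eq_inv_of_mul_eq_one_right h2

omit [IsAlgClosed (ResidueField A)] in
/-- The order of the residue of an integral power of a unit. -/
theorem ord_res_zpow (v : ι₀) {x : F} (hx : x ∈ S₀.O v) (hx' : x⁻¹ ∈ S₀.O v) (hx0 : x ≠ 0)
    (b : ℤ) (hb : x ^ b ∈ S₀.O v) (Q : Place k (Ft₀ v)) :
    Q.ord (S₀.res v ⟨x ^ b, hb⟩) = b * Q.ord (S₀.res v ⟨x, hx⟩) := by
  cases b with
  | ofNat n =>
    have h1 : (⟨x ^ (Int.ofNat n), hb⟩ : S₀.O v) = ⟨x, hx⟩ ^ n :=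
      Subtype.ext (by show x ^ (Int.ofNat n) = x ^ n; rw [Int.ofNat_eq_natCast, zpow_natCast])
    rw [h1, map_pow, ← zpow_natCast, Q.ord_zpow, Int.ofNat_eq_natCast]
  | negSucc n =>
    have h1 : (⟨x ^ (Int.negSucc n), hb⟩ : S₀.O v) = ⟨x⁻¹, hx'⟩ ^ (n + 1) :=
      Subtype.ext (by show x ^ (Int.negSucc n) = x⁻¹ ^ (n + 1); rw [zpow_negSucc, inv_pow])
    rw [h1, map_pow, ← zpow_natCast, Q.ord_zpow, res_inv v hx hx' hx0, Q.ord_inv, Int.negSucc_eq]
    push_cast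
    ring

omit [IsAlgClosed (ResidueField A)] in
/-- An element with nonzero residue is a unit. -/
theorem inv_mem_of_res_ne_zero (v : ι₀) {x : F} (hx : x ∈ S₀.O v)
    (h : S₀.res v ⟨x, hx⟩ ≠ 0) : x⁻¹ ∈ S₀.O v := by
  have hu : IsUnit (⟨x, hx⟩ : S₀.O v) := by
    by_contra hnu
    exact h ((S₀.res_eq_zero_iff _ _).mpr hnu)
  obtain ⟨w, hw⟩ := hu.exists_right_inv
  have h1 : x * (w : F) = 1 := congrArg Subtype.val hw
  rw [← eq_inv_of_mul_eq_one_right h1]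
  exact w.2

/-! ### The main statement -/

omit [IsAlgClosed (ResidueField A)] in
/-- On the tube of `e` the function `g • u` has neither zeros nor poles. -/
theorem ord_smul_u {e : ν₀} (ch : AnnulusChart S₀ e) {g : SemilinearAut K F}
    {a : ∀ v, SemilinearAut k (Ft₀ v)} (hEq : Filt.Equivariant S₀ g a)
    (hr₀ : ∀ P, S₀.r (g • P) = ⟨(S₀.r P).1, a (S₀.r P).1 • (S₀.r P).2⟩)
    {P : Place K F} (hP : P ∈ tube S₀ e) : P.ord (g • ch.u) = 0 := by
  have h2 := SemilinearAut.ord_smul g (g⁻¹ • P) ch.u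
  rw [smul_inv_smul] at h2
  rw [h2]
  exact ord_u_eq_zero ch.toCore (inv_smul_mem_tube hEq hr₀ hP)

omit [IsAlgClosed (ResidueField A)] in
/-- **(G4)(G).** A semilinear automorphism acting on the semistable setup multiplies the annulus
coordinate of a chart by a constant of absolute value `1` times a node unit. -/
theorem exists_smul_u_eq {e : ν₀} (ch : AnnulusChart S₀ e) (g : SemilinearAut K F)
    (a : ∀ v, SemilinearAut k (Ft₀ v)) (hEq : Filt.Equivariant S₀ g a)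
    (hr₀ : ∀ P, S₀.r (g • P) = ⟨(S₀.r P).1, a (S₀.r P).1 • (S₀.r P).2⟩) :
    ∃ (c : K) (ε : F), A.valuation c = 1 ∧ NodeUnit S₀ e ε ∧ g • ch.u = (c • ε) * ch.u := by
  classical
  have hu : ch.u ∈ S₀.O (S₀.src e) := ch.u_src
  have hu' : ch.u⁻¹ ∈ S₀.O (S₀.src e) := ch.u_inv_mem_src
  have hu0 : ch.u ≠ 0 := by
    intro h0
    apply ch.res_u_src_ne_zero
    have : (⟨ch.u, ch.u_src⟩ : S₀.O (S₀.src e)) = 0 := Subtype.ext h0
    rw [this, map_zero]
  have hgu0 : g • ch.u ≠ 0 := by rwa [Ne, smul_eq_zero_iff_eq]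
  obtain ⟨S, n, b, c, hS, hc, hε⟩ := ch.factor (g • ch.u) hgu0
  -- all the exponents `n Q` vanish
  have hn : ∀ Q ∈ S, n Q = 0 := by
    intro Q hQ
    have h1 := ord_of_factor ch.toCore hS hc hε.1 (hS Q hQ)
    rw [if_pos hQ, ord_smul_u ch hEq hr₀ (hS Q hQ)] at h1
    exact h1.symm
  have hprod : ∏ Q ∈ S, (ch.u - algebraMap K F (evalAt Q ch.u)) ^ n Q = 1 :=
    Finset.prod_eq_one fun Q hQ => by rw [hn Q hQ, zpow_zero]
  rw [hprod, mul_one] at hε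
  obtain ⟨ε₀, hε₀⟩ : ∃ ε₀ : F, ε₀ = g • ch.u * (c • ch.u ^ b)⁻¹ := ⟨_, rfl⟩
  rw [← hε₀] at hε
  have hcu0 : c • ch.u ^ b ≠ 0 := smul_ne_zero hc (zpow_ne_zero _ hu0)
  have hfac : g • ch.u = ε₀ * (c • ch.u ^ b) := by
    rw [hε₀, mul_assoc, inv_mul_cancel₀ hcu0, mul_one]
  -- `ε₀`, `g • u`, `u ^ b` are units on the component `src e`
  obtain ⟨hεm, hε₁⟩ := hε.2.1
  have hεres0 : S₀.res (S₀.src e) ⟨ε₀, hεm⟩ ≠ 0 := by
    intro h0
    rw [h0] at hε₁
    exact one_ne_zero (hε₁.unique (isValueAt_zero _))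
  have hε0 : ε₀ ≠ 0 := by
    intro h0
    apply hεres0
    have : (⟨ε₀, hεm⟩ : S₀.O (S₀.src e)) = 0 := Subtype.ext h0
    rw [this, map_zero]
  have hεm' : ε₀⁻¹ ∈ S₀.O (S₀.src e) := inv_mem_of_res_ne_zero _ hεm hεres0
  have hgu : g • ch.u ∈ S₀.O (S₀.src e) := hEq.smul_mem _ _ hu
  have hgures : S₀.res (S₀.src e) ⟨g • ch.u, hgu⟩ =
      a (S₀.src e) • S₀.res (S₀.src e) ⟨ch.u, hu⟩ := hEq.res_smul _ _ hu hgu
  have hgures0 : S₀.res (S₀.src e) ⟨g • ch.u, hgu⟩ ≠ 0 := by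
    rw [hgures, Ne, smul_eq_zero_iff_eq]
    exact ch.res_u_src_ne_zero
  have hgu' : (g • ch.u)⁻¹ ∈ S₀.O (S₀.src e) := inv_mem_of_res_ne_zero _ hgu hgures0
  have hub : ch.u ^ b ∈ S₀.O (S₀.src e) := zpow_mem_of_unit _ hu hu' b
  have hub' : (ch.u ^ b)⁻¹ ∈ S₀.O (S₀.src e) := by
    rw [← zpow_neg]
    exact zpow_mem_of_unit _ hu hu' (-b)
  have hub0 : ch.u ^ b ≠ 0 := zpow_ne_zero _ hu0
  -- the constant is a unit of `A`
  have hc_eq : algebraMap K F c = g • ch.u * ε₀⁻¹ * (ch.u ^ b)⁻¹ := by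
    rw [hfac, Algebra.smul_def]
    field_simp
  have hc_eq' : algebraMap K F c⁻¹ = (g • ch.u)⁻¹ * ε₀ * ch.u ^ b := by
    rw [map_inv₀, hc_eq, mul_inv, mul_inv, inv_inv, inv_inv]
  have hcO : algebraMap K F c ∈ S₀.O (S₀.src e) := by
    rw [hc_eq]
    exact mul_mem (mul_mem hgu hεm') hub'
  have hcA : c ∈ A := (S₀.algebraMap_mem_iff _ c).mp hcO
  have hcA' : c⁻¹ ∈ A := by
    refine (S₀.algebraMap_mem_iff (S₀.src e) c⁻¹).mp ?_
    rw [hc_eq']
    exact mul_mem (mul_mem hgu' hεm) hub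
  have hval : A.valuation c = 1 := by
    have h1 : A.valuation c ≤ 1 := (A.valuation_le_one_iff c).mpr hcA
    have h2 : A.valuation c⁻¹ ≤ 1 := (A.valuation_le_one_iff _).mpr hcA'
    rw [map_inv₀] at h2
    have h3 : A.valuation c ≠ 0 := (A.valuation.ne_zero_iff).mpr hc
    exact le_antisymm h1 ((inv_le_one₀ (zero_lt_iff.mpr h3)).mp h2)
  -- comparison of the residues at the branch `s₁ e`
  have hres : S₀.res (S₀.src e) ⟨g • ch.u, hgu⟩ = S₀.res (S₀.src e) ⟨ε₀, hεm⟩ *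
      (S₀.res (S₀.src e) ⟨algebraMap K F c, hcO⟩ * S₀.res (S₀.src e) ⟨ch.u ^ b, hub⟩) := by
    rw [← map_mul, ← map_mul]
    congr 1
    exact Subtype.ext (by
      show g • ch.u = ε₀ * (algebraMap K F c * ch.u ^ b)
      rw [hfac, Algebra.smul_def])
  have hne := hgures0
  rw [hres] at hne
  have hne1 := left_ne_zero_of_mul hne
  have hne2 := left_ne_zero_of_mul (right_ne_zero_of_mul hne)
  have hne3 := right_ne_zero_of_mul (right_ne_zero_of_mul hne)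
  have hord := congrArg (S₀.s₁ e).ord hres
  have hfix : (a (S₀.src e))⁻¹ • S₀.s₁ e = S₀.s₁ e :=
    inv_smul_eq_iff.mpr (hEq.s₁_fixed e).symm
  have hL : (S₀.s₁ e).ord (S₀.res (S₀.src e) ⟨g • ch.u, hgu⟩) = 1 := by
    have h2 := SemilinearAut.ord_smul (a (S₀.src e)) ((a (S₀.src e))⁻¹ • S₀.s₁ e)
      (S₀.res (S₀.src e) ⟨ch.u, hu⟩)
    rw [smul_inv_smul, hfix] at h2
    rw [hgures, h2]
    exact ch.ord_src
  have hcres : (S₀.s₁ e).ord (S₀.res (S₀.src e) ⟨algebraMap K F c, hcO⟩) = 0 := by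
    rw [S₀.res_algebraMap _ c hcA hcO]
    exact Fermat.Agent.X0.Place.ord_algebraMap _ _
  rw [hL, (S₀.s₁ e).ord_mul hne1 (mul_ne_zero hne2 hne3), (S₀.s₁ e).ord_mul hne2 hne3,
    hε₁.ord_eq_zero one_ne_zero, hcres, ord_res_zpow _ hu hu' hu0 b hub, ch.ord_src] at hord
  have hb : b = 1 := by omega
  refine ⟨c, ε₀, hval, hε, ?_⟩
  rw [hfac, hb, zpow_one, Algebra.smul_def, Algebra.smul_def]
  ring

omit [IsAlgClosed (ResidueField A)] in
/-- **(G4)(G), in the shape of the hypothesis `hu` of `BR2/G4`**: `g • u = w * u` with `w`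
congruent to a constant of absolute value `1` on the tube. -/
theorem exists_hu {e : ν₀} (ch : AnnulusChart S₀ e) (g : SemilinearAut K F)
    (a : ∀ v, SemilinearAut k (Ft₀ v)) (hEq : Filt.Equivariant S₀ g a)
    (hr₀ : ∀ P, S₀.r (g • P) = ⟨(S₀.r P).1, a (S₀.r P).1 • (S₀.r P).2⟩) :
    ∃ (w : F) (c : K), g • ch.u = w * ch.u ∧ A.valuation c = 1 ∧
      ∀ P ∈ tube S₀ e, ∃ c' : K, IsValueAt P w c' ∧ A.valuation (c' - c) < 1 := by
  obtain ⟨c, ε, hc, hε, h⟩ := exists_smul_u_eq ch g a hEq hr₀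
  refine ⟨c • ε, c, h, hc, fun P hP => ?_⟩
  obtain ⟨d, hd, hd1⟩ := hε.1 P hP
  refine ⟨c * d, hd.smul c, ?_⟩
  have e1 : c * d - c = c * (d - 1) := by ring
  rw [e1, map_mul, hc, one_mul]
  exact hd1

end Fermat.Agent.BR2.G4Unit
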