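import Fermat.Agent.BR2.GeoAbstract
import Fermat.Agent.BR2.S35Span

/-!
# Phase 2 (S35), node (PLUG): `GeoInputSpan` from the outputs of the nodes

`geoInputSpan_of_nodes` : the deliverable `GeoInputSpan M lam S' χ' q σ` of `BR2/S35Span.lean` from

* **(E7'-OUT)** at the level `M`: Kummer maps `rho K`, the comparison `Ψ`, an element `P` of the
  Hecke algebra of `Lam M` and a Hecke polynomial `Q ∈ ℤ[T_ℓ : ℓ ∉ S']` intertwined with `P` along
  every `rho K`, with `χ' (Ψ P) ≠ 0`, such that `Q • rho K x` is killed by the degeneracy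
  correspondences `EαM = α^* α_*`, `EβM = β^* β_*` of level `M`;
* **(M1-OUT)** : `pull = π^* : J₀(M) → J₀(N)`, `push = π_*` (`N` the auxiliary level),
  `push ∘ pull = d`, both `G_ℚ`- and Hecke-equivariant (`ℓ ∉ S'`), and
  `EαN ∘ pull = pull ∘ EαM`, `EβN ∘ pull = pull ∘ EβM`, with `EαN`, `EβN` `G_ℚ`-equivariant;
* **(G3), (G4), (G5)** at the level `N` for subgroups `nat m`, `tor m ≤ J₀(N)`
  (`Filt.natSub S₀ (lam ^ m)`, `Filt.torSub S₀ (lam ^ m)`).

All level maps are variables here: the instantiation is a separate (short) file.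
-/

set_option autoImplicit false
set_option linter.style.haveILetI false
set_option linter.unusedSectionVars false

open ModularCurve CuspForm

namespace Fermat.Agent.BR2

open Fermat.Agent.Pseudo Fermat.Agent.Pseudo.GQSys Fermat.Agent.Pseudo.JZ Fermat.Agent.Jac
  Fermat.Agent.BR2.FrobSquare

local notation "Qb" => AlgebraicClosure ℚ
local notation "GQ" => (AlgebraicClosure ℚ ≃ₐ[ℚ] AlgebraicClosure ℚ)

/-- The action of `σ ∈ G_ℚ` as a `ℤ`-linear endomorphism. -/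
noncomputable def galEnd (X : Type*) [AddCommGroup X] [DistribMulAction GQ X] (σ : GQ) :
    Module.End ℤ X :=
  (DistribSMul.toAddMonoidHom X σ).toIntLinearMap

@[simp] theorem galEnd_apply (X : Type*) [AddCommGroup X] [DistribMulAction GQ X] (σ : GQ)
    (x : X) : galEnd X σ x = σ • x := rfl

section HeckePoly

variable {X Y : Type*} [AddCommGroup X] [AddCommGroup Y] [Module HeckeAlg X] [Module HeckeAlg Y]

/-- An additive map commuting with the generators `T_ℓ`, `ℓ ∈ s`, commutes with every Hecke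
polynomial in these generators. -/
theorem map_smul_of_mem_adjoin (s : Set Nat.Primes) (f : X →+ Y)
    (hf : ∀ ℓ ∈ s, ∀ x, f (heckeGen ℓ • x) = heckeGen ℓ • f x) {Q : HeckeAlg}
    (hQ : Q ∈ Algebra.adjoin ℤ (heckeGen '' s)) (x : X) : f (Q • x) = Q • f x := by
  induction hQ using Algebra.adjoin_induction generalizing x with
  | mem t ht =>
    obtain ⟨ℓ, hℓ, rfl⟩ := ht
    exact hf ℓ hℓ x
  | algebraMap r =>
    rw [algebraMap_smul, algebraMap_smul, map_zsmul]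
  | add a b _ _ ha hb => rw [add_smul, add_smul, map_add, ha, hb]
  | mul a b _ _ ha hb => rw [mul_smul, mul_smul, ha, hb]

end HeckePoly

section Plug

variable {M N : ℕ} [NeZero M] [NeZero N] (lam : ℕ) (S' : Finset ℕ)
  {O' : Type} [CommRing O'] (χ' : heckeAlgebra M 2 (↑S' : Set ℕ) →+* O') (q : ℕ) (σ : GQ)

/-- **(PLUG)** -/
theorem geoInputSpan_of_nodes (hlam : lam ≠ 0)
    -- (E7'-OUT)
    (rho : ℕ → Lam M →+ JZero M) (A : Subalgebra ℤ (Module.End ℤ (Lam M)))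
    (hA : ∀ i : Idx S', TLam M i.1 ∈ A) (Ψ : A →+* heckeAlgebra M 2 (↑S' : Set ℕ))
    (P : A) (Q : HeckeAlg)
    (hker : ∀ K : ℕ, 0 < K → ∀ x, rho K x = 0 ↔ ∃ mu, x = K • mu)
    (hTL : letI := heckeModuleBar M
      ∀ K : ℕ, 0 < K → ∀ (ℓ : Nat.Primes) (x : Lam M), rho K (TLam M ℓ x) = heckeGen ℓ • rho K x)
    (hΨ : ∀ (ℓ : ℕ) (hℓ : ℓ.Prime) (hℓM : ¬ ℓ ∣ M) (hℓS : ℓ ∉ (↑S' : Set ℕ)),
      Ψ ⟨TLam M ⟨ℓ, hℓ⟩, hA ⟨⟨ℓ, hℓ⟩, hℓS⟩⟩ = heckeAlgebra.T hℓ hℓM hℓS)
    (hQ : Q ∈ Algebra.adjoin ℤ (heckeGen '' {ℓ : Nat.Primes | (ℓ : ℕ) ∉ S'}))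
    (hPQ : letI := heckeModuleBar M
      ∀ K : ℕ, 0 < K → Intertwined (rho K) (P : Module.End ℤ (Lam M)) (heckeEnd (JZero M) Q))
    (hχ : χ' (Ψ P) ≠ 0)
    (EαM EβM : JZero M →+ JZero M)
    (hEαM : ∀ (g : GQ) x, EαM (g • x) = g • EαM x) (hEβM : ∀ (g : GQ) x, EβM (g • x) = g • EβM x)
    (hE7 : letI := heckeModuleBar M
      ∀ K : ℕ, 0 < K → ∀ x : Lam M, EαM (Q • rho K x) = 0 ∧ EβM (Q • rho K x) = 0)
    -- (M1-OUT)
    (pull : JZero M →+ JZero N) (push : JZero N →+ JZero M) (d : ℕ) (hd : d ≠ 0)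
    (hpp : ∀ x, push (pull x) = d • x)
    (hpull_smul : ∀ (g : GQ) x, pull (g • x) = g • pull x)
    (hpull_hecke : letI := heckeModuleBar M; letI := heckeModuleBar N
      ∀ ℓ : Nat.Primes, (ℓ : ℕ) ∉ S' → ∀ x, pull (heckeGen ℓ • x) = heckeGen ℓ • pull x)
    (hpush_hecke : letI := heckeModuleBar M; letI := heckeModuleBar N
      ∀ ℓ : Nat.Primes, (ℓ : ℕ) ∉ S' → ∀ x, push (heckeGen ℓ • x) = heckeGen ℓ • push x)
    (EαN EβN : JZero N →+ JZero N)
    (hEαN : ∀ (g : GQ) x, EαN (g • x) = g • EαN x) (hEβN : ∀ (g : GQ) x, EβN (g • x) = g • EβN x)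
    (hsqα : ∀ x, EαN (pull x) = pull (EαM x)) (hsqβ : ∀ x, EβN (pull x) = pull (EβM x))
    -- geometry at level `N`
    (nat tor : ℕ → AddSubgroup (JZero N)) (e₀ : ℕ) (he₀ : e₀ ≠ 0)
    (G3 : ∀ (m : ℕ) (w : JZero N), (lam ^ m) • w = 0 → σ • σ • w - w ∈ nat m)
    (G4 : ∀ (m : ℕ), ∀ v ∈ tor m, theta (galEnd (JZero N) σ) (q : ℤ) v = 0)
    (G5 : ∀ (m : ℕ), ∀ v ∈ nat m, EαN v = 0 → EβN v = 0 → e₀ • v ∈ tor m) :
    GeoInputSpan M lam S' χ' q σ := by
  letI := heckeModuleBar M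
  letI hN := heckeModuleBar N
  haveI := smulCommClass_GQ_heckeAlg M
  haveI := smulCommClass_GQ_heckeAlg N
  have hPXG : ∀ (g : GQ) (x : JZero M), heckeEnd (JZero M) Q (g • x) = g • heckeEnd (JZero M) Q x :=
    fun g x => by
      rw [heckeEnd_apply, heckeEnd_apply]
      exact (smul_comm g Q x).symm
  refine ⟨rho, A, hA, Ψ, P, heckeEnd (JZero M) Q, d * e₀, hker, hTL, hΨ, hPQ, hPXG, hχ,
    Nat.mul_ne_zero hd he₀, ?_⟩
  intro m W hW hWG hWT hWP hWkill i hrel x hx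
  -- `Q` commutes with `pull`, `push`
  have hpullQ : ∀ x, pull (Q • x) = Q • pull x :=
    map_smul_of_mem_adjoin _ pull (fun ℓ hℓ x => hpull_hecke ℓ hℓ x) hQ
  have hpushQ : ∀ x, push (Q • x) = Q • push x :=
    map_smul_of_mem_adjoin _ push (fun ℓ hℓ x => hpush_hecke ℓ hℓ x) hQ
  -- `Q • W` is killed by the degeneracy correspondences
  have hlamm : 0 < lam ^ m := pow_pos (Nat.pos_of_ne_zero hlam) m
  have hαP : ∀ x ∈ W, EαM (Q • x) = 0 := by
    intro x hx
    rw [hW] at hx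
    induction hx using AddSubgroup.closure_induction with
    | mem y hy =>
      obtain ⟨a, l, rfl⟩ := hy
      rw [← smul_comm a Q, hEαM, (hE7 _ hlamm l).1]
      exact smul_zero (A := JZero M) a
    | zero => rw [smul_zero, map_zero]
    | add y z _ _ hy hz => rw [smul_add, map_add, hy, hz, add_zero]
    | neg y _ hy => rw [smul_neg, map_neg, hy, neg_zero]
  have hβP : ∀ x ∈ W, EβM (Q • x) = 0 := by
    intro x hx
    rw [hW] at hx
    induction hx using AddSubgroup.closure_induction with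
    | mem y hy =>
      obtain ⟨a, l, rfl⟩ := hy
      rw [← smul_comm a Q, hEβM, (hE7 _ hlamm l).2]
      exact smul_zero (A := JZero M) a
    | zero => rw [smul_zero, map_zero]
    | add y z _ _ hy hz => rw [smul_add, map_add, hy, hz, add_zero]
    | neg y _ hy => rw [smul_neg, map_neg, hy, neg_zero]
  exact GeoAbstract.kill_of_levels
    (galEnd (JZero N) σ) (heckeEnd (JZero N) (heckeGen i.1)) (heckeEnd (JZero N) Q)
    EαN.toIntLinearMap EβN.toIntLinearMap
    (galEnd (JZero M) σ) (heckeEnd (JZero M) (heckeGen i.1)) (heckeEnd (JZero M) Q)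
    EαM.toIntLinearMap EβM.toIntLinearMap (q : ℤ) e₀ d pull push hpp
    (fun a b hab => by
      have := congrArg (fun z => σ⁻¹ • z) hab
      simpa using this)
    (fun x' => hpull_smul σ x') (fun x' => hpull_hecke i.1 i.2 x') hpullQ
    hsqα hsqβ (fun x => hpush_hecke i.1 i.2 x) hpushQ
    (fun x => (smul_comm σ (heckeGen i.1) x))
    (fun x => hEαN σ x) (fun x => hEβN σ x)
    W (fun x hx => hWG σ x hx) (fun x hx => hWT i x hx) (fun x hx => hWP x hx)
    hrel hαP hβP (nat m) (tor m)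
    (by
      rintro _ ⟨z, hz, rfl⟩
      refine G3 m (pull z) ?_
      rw [← map_nsmul, hWkill z hz, map_zero])
    (G4 m)
    (fun v hv _ ha hb => G5 m v hv ha hb) x hx

end Plug

end Fermat.Agent.BR2
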