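import Fermat.Agent.BR2.G4Modular
import Fermat.Agent.BR2.GeoPlug
import Fermat.Agent.BR2.G4
import Fermat.Agent.BR2.G4Unit

/-!
# Phase 2, node (G4)(H): the conclusion of `(F)` at a Frobenius lift, in the shape of the plug

`B` a valuation ring of `ℚ̄ = Kb` over `q`, `σ` a Frobenius element at `q`,
`g := gal N σ ^ 2` (`gal N σ = arithmeticGalois (modularFunctionFieldFull N) σ`, the coefficientwise
action of `σ` on `F̄_N`), `Q := q ^ 2`.

* `gal_smul_pic0`, `gal_pow_two_smul_pic0` : `gal N σ ^ 2 • x = σ • σ • x` on `J₀(N)`;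
* `theta_galEnd_eq` / `theta_galEnd_eq_zero` : the conclusion of `BR2/G4.theta_torSub_eq_zero` for
  `g = gal N σ ^ 2`, `Q = q ^ 2` is `FrobSquare.theta (galEnd (JZero N) σ) q x = 0`, the literal
  shape of the hypothesis `G4` of `BR2/GeoPlug.geoInputSpan_of_nodes`;
* `theta_galEnd_of_setup` : `theta_torSub_eq_zero` at a Frobenius lift with the arithmetic
  hypotheses `hval`, `φ`, `hφQ`, `hφ` discharged by `BR2/G4Modular` (part 1): only the geometric
  hypotheses (`hEq`, `hr₀`, `haQ`, `hu` and the data of the setup) remain;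
* `theta_galEnd_of_charts` : the same with `hu` discharged by annulus charts (`BR2/G4Unit`).
-/

set_option autoImplicit false
set_option linter.unusedSectionVars false
set_option linter.style.haveILetI false

noncomputable section

set_option synthInstance.maxHeartbeats 400000

namespace Fermat.Agent.BR2.G4FrobLift

open ModularCurve AlgebraicCurve Fermat.Agent.X0 Fermat.Agent.Hecke Fermat.Agent.BR.ValTwo
  Fermat.Agent.BR.InertiaRed IsLocalRing

/-! ### the conclusion of `theta_torSub_eq_zero` in the shape of the plug -/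

theorem gal_smul_pic0 (N : ℕ) (σ : Kb ≃ₐ[ℚ] Kb) (x : JZero N) : gal N σ • x = σ • x := rfl

theorem gal_pow_two_smul_pic0 (N : ℕ) (σ : Kb ≃ₐ[ℚ] Kb) (x : JZero N) :
    gal N σ ^ 2 • x = σ • σ • x := by
  rw [pow_two, mul_smul]
  rfl

/-- The conclusion of `BR2/G4.theta_torSub_eq_zero` for `g = gal N σ ^ 2`, `Q = q ^ 2` is
`FrobSquare.theta (galEnd (JZero N) σ) q x`. -/
theorem theta_galEnd_eq (N : ℕ) (σ : Kb ≃ₐ[ℚ] Kb) (q : ℕ) (x : JZero N) :
    FrobSquare.theta (galEnd (JZero N) σ) (q : ℤ) x =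
      (gal N σ ^ 2) • (gal N σ ^ 2) • x - ((1 + q ^ 2 : ℕ) : ℤ) • (gal N σ ^ 2) • x +
        ((q ^ 2 : ℕ) : ℤ) • x := by
  unfold FrobSquare.theta
  rw [gal_pow_two_smul_pic0, gal_pow_two_smul_pic0]
  simp only [galEnd_apply]
  push_cast
  rfl

theorem theta_galEnd_eq_zero (N : ℕ) (σ : Kb ≃ₐ[ℚ] Kb) (q : ℕ) (x : JZero N)
    (h : (gal N σ ^ 2) • (gal N σ ^ 2) • x - ((1 + q ^ 2 : ℕ) : ℤ) • (gal N σ ^ 2) • x +
        ((q ^ 2 : ℕ) : ℤ) • x = 0) :
    FrobSquare.theta (galEnd (JZero N) σ) (q : ℤ) x = 0 := by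
  rw [theta_galEnd_eq, h]

/-! ### `theta_torSub_eq_zero` at a Frobenius lift: only the geometric hypotheses remain -/

section Consumer

open Fermat.Agent.Red Fermat.Agent.BR.SS Fermat.Agent.BR.Refine

variable (B : ValuationSubring Kb) {σ : Kb ≃ₐ[ℚ] Kb}
  {q : ℕ} [hq : Fact q.Prime] [CharP (IsLocalRing.ResidueField B) q]
  [IsAlgClosed (IsLocalRing.ResidueField B)] {N : ℕ} [NeZero N]
  {ι₀ : Type} {Ft₀ : ι₀ → Type} [∀ v, Field (Ft₀ v)]
  [∀ v, Algebra (IsLocalRing.ResidueField B) (Ft₀ v)] {ν₀ : Type}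

/-- **(G4) at a Frobenius lift, arithmetic hypotheses discharged** : for a semistable setup `S₀`
of `F̄_N` over `B`, `σ` a Frobenius element at `q`, `g = gal N σ ^ 2`, the hypotheses `hval`, `φ`,
`hφQ`, `hφ` of `BR2/G4.theta_torSub_eq_zero` hold with `Q = q ^ 2` (`BR2/G4Modular`); the
conclusion is in the shape of the hypothesis `G4` of `BR2/GeoPlug.geoInputSpan_of_nodes`. -/
theorem theta_galEnd_of_setup [Fintype ι₀] [Fintype ν₀]
    (S₀ : SemistableSetup (F := Fb N) B (IsLocalRing.residue B) ι₀ Ft₀ ν₀) (hA : IsRankOne B)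
    (hF : RiemannPkg Kb (Fb N)) (hFt : ∀ v, RiemannPkg (IsLocalRing.ResidueField B) (Ft₀ v))
    (hgen : (genusFF Kb (Fb N) : ℤ) = ∑ v, (genusFF (IsLocalRing.ResidueField B) (Ft₀ v) : ℤ)
      + Fintype.card ν₀ - Fintype.card ι₀ + 1)
    (Pr : ChainProvider S₀) (hσ : B.IsFrobeniusAt σ q)
    (a : ∀ v, SemilinearAut (IsLocalRing.ResidueField B) (Ft₀ v))
    (hEq : Filt.Equivariant S₀ (gal N σ ^ 2) a)
    (hr₀ : ∀ P, S₀.r ((gal N σ ^ 2) • P) = ⟨(S₀.r P).1, a (S₀.r P).1 • (S₀.r P).2⟩)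
    (haQ : ∀ v c, a v • algebraMap (IsLocalRing.ResidueField B) (Ft₀ v) c =
      algebraMap (IsLocalRing.ResidueField B) (Ft₀ v) (c ^ (q ^ 2)))
    (hu : ∀ e, ∃ (w : Fb N) (c : Kb), (gal N σ ^ 2) • Pr.u e = w * Pr.u e ∧
      B.valuation c = 1 ∧
      ∀ P ∈ tube S₀ e, ∃ c' : Kb, IsValueAt P w c' ∧ B.valuation (c' - c) < 1)
    {m : ℕ} (hm : (m : IsLocalRing.ResidueField B) ≠ 0) (x : JZero N)
    (hx : x ∈ Filt.torSub S₀ m) :
    FrobSquare.theta (galEnd (JZero N) σ) (q : ℤ) x = 0 :=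
  theta_galEnd_eq_zero N σ q x
    (G4.theta_torSub_eq_zero S₀ hA hF hFt hgen Pr (gal N σ ^ 2) a hEq hr₀
      (G4Modular.valuation_baseAut_gal_pow B N hσ.mem_decompositionSubgroup 2) (q ^ 2)
      (G4Modular.frobSq B (q := q)) (G4Modular.frobSq_apply B)
      (G4Modular.resOf_baseAut_gal_sq B N hσ) haQ hu hm x hx)

/-- **(G4) at a Frobenius lift, `hu` discharged by annulus charts** (`BR2/G4Unit.exists_hu`):
the annulus coordinates of the chain provider are chart coordinates. -/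
theorem theta_galEnd_of_charts [Fintype ι₀] [Fintype ν₀]
    (S₀ : SemistableSetup (F := Fb N) B (IsLocalRing.residue B) ι₀ Ft₀ ν₀) (hA : IsRankOne B)
    (hF : RiemannPkg Kb (Fb N)) (hFt : ∀ v, RiemannPkg (IsLocalRing.ResidueField B) (Ft₀ v))
    (hgen : (genusFF Kb (Fb N) : ℤ) = ∑ v, (genusFF (IsLocalRing.ResidueField B) (Ft₀ v) : ℤ)
      + Fintype.card ν₀ - Fintype.card ι₀ + 1)
    (Pr : ChainProvider S₀) (ch : ∀ e, Fermat.Agent.BR.Circle.AnnulusChart S₀ e)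
    (hch : ∀ e, Pr.u e = (ch e).u) (hσ : B.IsFrobeniusAt σ q)
    (a : ∀ v, SemilinearAut (IsLocalRing.ResidueField B) (Ft₀ v))
    (hEq : Filt.Equivariant S₀ (gal N σ ^ 2) a)
    (hr₀ : ∀ P, S₀.r ((gal N σ ^ 2) • P) = ⟨(S₀.r P).1, a (S₀.r P).1 • (S₀.r P).2⟩)
    (haQ : ∀ v c, a v • algebraMap (IsLocalRing.ResidueField B) (Ft₀ v) c =
      algebraMap (IsLocalRing.ResidueField B) (Ft₀ v) (c ^ (q ^ 2)))
    {m : ℕ} (hm : (m : IsLocalRing.ResidueField B) ≠ 0) (x : JZero N)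
    (hx : x ∈ Filt.torSub S₀ m) :
    FrobSquare.theta (galEnd (JZero N) σ) (q : ℤ) x = 0 :=
  theta_galEnd_of_setup B S₀ hA hF hFt hgen Pr hσ a hEq hr₀ haQ
    (fun e => by
      rw [hch e]
      exact G4Unit.exists_hu (ch e) (gal N σ ^ 2) a hEq hr₀) hm x hx

end Consumer

end Fermat.Agent.BR2.G4FrobLift
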