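import Mathlib

/-!
# Phase 2, piece (T) TAME RELATION: the valuation-theoretic core

`Ω` a field, `A` a valuation subring with valuation `v`, `L ⊆ Ω` a subfield on which `v` is
DISCRETE with uniformizer `π` (`DiscreteOn`: `v x ∈ ⟨v π⟩` for `x ∈ Lˣ`), `τ : Ω →+* Ω` a ring
endomorphism with `τ L ⊆ L` which

* preserves `v` (decomposition group),
* acts trivially on the residue field of `A ∩ L` (inertia group),
* has trivial tame character: `v (τ π - π) < v π`,
* has finite order `m` on `L`, `m` prime to the residue characteristic: `v m = 1`.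

Then `τ` is the identity on `L` (`apply_eq_of_tame_trivial`): the kernel of the tame character is
a `q`-group. Elementary proof (no ramification groups, no `e f g`): by induction on `n`,
`τ` acts trivially on `(A ∩ L) / π^n`, because `0 = τ^m x - x ≡ m (τ x - x)` modulo `π^(n+1)`.
-/

set_option autoImplicit false

namespace Fermat.Agent.BR2.TameCore

variable {Ω : Type*} [Field Ω] (A : ValuationSubring Ω)

/-- `v` is discrete on the subfield `L`, with uniformizer `π`. -/
def DiscreteOn (L : Subfield Ω) (π : Ω) : Prop :=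
  π ∈ L ∧ π ≠ 0 ∧ A.valuation π < 1 ∧
    ∀ x ∈ L, x ≠ 0 → ∃ n : ℤ, A.valuation x = A.valuation π ^ n

variable {A}

section Discrete

variable {L : Subfield Ω} {π : Ω}

theorem DiscreteOn.val_pos (h : DiscreteOn A L π) : 0 < A.valuation π :=
  zero_lt_iff.mpr ((map_ne_zero _).mpr h.2.1)

/-- discreteness: `v y < v π ^ n` implies `v y ≤ v π ^ (n + 1)` -/
theorem DiscreteOn.le_of_lt (h : DiscreteOn A L π) {y : Ω} (hy : y ∈ L) {n : ℕ}
    (hlt : A.valuation y < A.valuation π ^ n) : A.valuation y ≤ A.valuation π ^ (n + 1) := by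
  rcases eq_or_ne y 0 with rfl | hy0
  · rw [map_zero]; exact zero_le
  obtain ⟨j, hj⟩ := h.2.2.2 y hy hy0
  have hpos := h.val_pos
  have hlt1 := h.2.2.1
  rw [hj, ← zpow_natCast, zpow_lt_zpow_iff_right_of_lt_one₀ hpos hlt1] at hlt
  rw [hj, ← zpow_natCast, zpow_le_zpow_iff_right_of_lt_one₀ hpos hlt1]
  push_cast
  omega

/-- a nonzero element of `L` cannot be divisible by all powers of `π` -/
theorem DiscreteOn.eq_zero_of_forall_le (h : DiscreteOn A L π) {y : Ω} (hy : y ∈ L)
    (hle : ∀ n : ℕ, A.valuation y ≤ A.valuation π ^ n) : y = 0 := by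
  by_contra hy0
  obtain ⟨j, hj⟩ := h.2.2.2 y hy hy0
  have hpos := h.val_pos
  have hlt1 := h.2.2.1
  have h1 := hle (j.toNat + 1)
  rw [hj, ← zpow_natCast, zpow_le_zpow_iff_right_of_lt_one₀ hpos hlt1] at h1
  push_cast at h1
  have := Int.self_le_toNat j
  omega

end Discrete

section Core

variable {L : Subfield Ω} {π : Ω} (hd : DiscreteOn A L π) (τ : Ω →+* Ω)
  (hτL : ∀ x ∈ L, τ x ∈ L) (hτv : ∀ x : Ω, A.valuation (τ x) = A.valuation x)
  (hτI : ∀ x ∈ L, A.valuation x ≤ 1 → A.valuation (τ x - x) < 1)

include hd hτL hτI in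
/-- base case: `τ x ≡ x` modulo `π` on `A ∩ L` -/
theorem val_sub_le_pi {x : Ω} (hx : x ∈ L) (hx1 : A.valuation x ≤ 1) :
    A.valuation (τ x - x) ≤ A.valuation π := by
  have h1 := hd.le_of_lt (L.sub_mem (hτL x hx) hx) (n := 0) (by rw [pow_zero]; exact hτI x hx hx1)
  rwa [zero_add, pow_one] at h1

variable (hθ : A.valuation (τ π - π) < A.valuation π)

include hd hτL hτv hτI hθ in
/-- `τ` acts trivially on `π^n (A ∩ L) / π^(n+1) (A ∩ L)` -/
theorem val_sub_le_of_le {n : ℕ} {δ : Ω} (hδL : δ ∈ L)
    (hδ : A.valuation δ ≤ A.valuation π ^ n) :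
    A.valuation (τ δ - δ) ≤ A.valuation π ^ (n + 1) := by
  have hπL := hd.1
  have hπ0 := hd.2.1
  have hvπ0 : A.valuation π ≠ 0 := (map_ne_zero _).mpr hπ0
  set w := δ / π ^ n with hw
  have hwL : w ∈ L := L.div_mem hδL (L.pow_mem hπL n)
  have hw1 : A.valuation w ≤ 1 := by
    rw [hw, map_div₀, map_pow]
    exact div_le_one_of_le₀ hδ zero_le
  have hδw : δ = w * π ^ n := by
    rw [hw, div_mul_cancel₀ _ (pow_ne_zero n hπ0)]
  have hsplit : τ δ - δ = (τ w - w) * τ π ^ n + w * (τ π ^ n - π ^ n) := by
    rw [hδw, map_mul, map_pow]; ring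
  -- first term
  have h1 : A.valuation ((τ w - w) * τ π ^ n) ≤ A.valuation π ^ (n + 1) := by
    rw [map_mul, map_pow, hτv, pow_succ']
    exact mul_le_mul_left (val_sub_le_pi hd τ hτL hτI hwL hw1) _
  -- second term
  have hθ2 : A.valuation (τ π - π) ≤ A.valuation π ^ 2 := by
    have := hd.le_of_lt (L.sub_mem (hτL π hπL) hπL) (n := 1) (by rwa [pow_one])
    exact this
  have h2 : A.valuation (w * (τ π ^ n - π ^ n)) ≤ A.valuation π ^ (n + 1) := by
    rcases Nat.eq_zero_or_pos n with rfl | hn
    · simp
    have hgeom : τ π ^ n - π ^ n =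
        (∑ i ∈ Finset.range n, τ π ^ i * π ^ (n - 1 - i)) * (τ π - π) :=
      ((Commute.all (τ π) π).geom_sum₂_mul n).symm
    have hsum : A.valuation (∑ i ∈ Finset.range n, τ π ^ i * π ^ (n - 1 - i)) ≤
        A.valuation π ^ (n - 1) := by
      apply Valuation.map_sum_le
      intro i hi
      rw [Finset.mem_range] at hi
      rw [map_mul, map_pow, map_pow, hτv, ← pow_add]
      have : i + (n - 1 - i) = n - 1 := by omega
      rw [this]
    rw [map_mul, hgeom, map_mul]
    have hn' : n + 1 = (n - 1) + 2 := by omega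
    calc A.valuation w * (A.valuation (∑ i ∈ Finset.range n, τ π ^ i * π ^ (n - 1 - i)) *
          A.valuation (τ π - π))
        ≤ 1 * (A.valuation π ^ (n - 1) * A.valuation π ^ 2) :=
          mul_le_mul' hw1 (mul_le_mul' hsum hθ2)
      _ = A.valuation π ^ (n + 1) := by rw [one_mul, ← pow_add, hn']
  rw [hsplit]
  exact le_trans (A.valuation.map_add _ _) (max_le h1 h2)

include hd hτL hτv hτI hθ in
/-- **The kernel of the tame character is a `q`-group** (core form): `τ` preserving `v`, acting
trivially on the residue field of `A ∩ L`, with `τ π ≡ π` modulo `π²`, and of finite order `m` on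
`L` with `v m = 1`, is the identity on `L`. -/
theorem apply_eq_of_tame_trivial {m : ℕ} (hm : A.valuation (m : Ω) = 1)
    (hτm : ∀ x ∈ L, τ^[m] x = x) : ∀ x ∈ L, τ x = x := by
  -- integral elements
  have key : ∀ n : ℕ, ∀ x ∈ L, A.valuation x ≤ 1 →
      A.valuation (τ x - x) ≤ A.valuation π ^ (n + 1) := by
    intro n
    induction n with
    | zero =>
      intro x hx hx1
      rw [zero_add, pow_one]
      exact val_sub_le_pi hd τ hτL hτI hx hx1
    | succ n ih =>
      intro x hx hx1
      set δ := τ x - x with hδ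
      have hδL : δ ∈ L := L.sub_mem (hτL x hx) hx
      have hδn : A.valuation δ ≤ A.valuation π ^ (n + 1) := ih x hx hx1
      have hτδ := val_sub_le_of_le hd τ hτL hτv hτI hθ hδL hδn
      have hiter : ∀ j : ℕ, A.valuation (τ^[j] x - x - (j : Ω) * δ) ≤
          A.valuation π ^ (n + 1 + 1) := by
        intro j
        induction j with
        | zero => simp
        | succ j ihj =>
          have e : τ^[j + 1] x - x - ((j + 1 : ℕ) : Ω) * δ =
              τ (τ^[j] x - x - (j : Ω) * δ) + (j : Ω) * (τ δ - δ) := by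
            rw [Function.iterate_succ_apply', map_sub, map_sub, map_mul, map_natCast, hδ]
            push_cast
            ring
          rw [e]
          refine le_trans (A.valuation.map_add _ _) (max_le ?_ ?_)
          · rw [hτv]; exact ihj
          · rw [map_mul]
            have hj1 : A.valuation (j : Ω) ≤ 1 :=
              (A.valuation_le_one_iff _).mpr (natCast_mem A j)
            calc A.valuation (j : Ω) * A.valuation (τ δ - δ)
                ≤ 1 * A.valuation π ^ (n + 1 + 1) := mul_le_mul' hj1 hτδ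
              _ = _ := one_mul _
      have hm' := hiter m
      rw [hτm x hx, sub_self, zero_sub, Valuation.map_neg, map_mul, hm, one_mul] at hm'
      exact hm'
  have hint : ∀ x ∈ L, A.valuation x ≤ 1 → τ x = x := by
    intro x hx hx1
    have h0 : τ x - x = 0 := by
      apply hd.eq_zero_of_forall_le (L.sub_mem (hτL x hx) hx)
      intro n
      rcases n with _ | n
      · rw [pow_zero]
        exact (hτI x hx hx1).le
      · exact key n x hx hx1
    exact sub_eq_zero.mp h0
  intro x hx
  rcases le_total (A.valuation x) 1 with h1 | h1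
  · exact hint x hx h1
  · rcases eq_or_ne x 0 with rfl | hx0
    · exact map_zero τ
    have hinv : A.valuation x⁻¹ ≤ 1 := by
      rw [map_inv₀]
      exact inv_le_one_of_one_le₀ h1
    have h2 := hint x⁻¹ (L.inv_mem hx) hinv
    rw [map_inv₀] at h2
    exact inv_injective h2

end Core

end Fermat.Agent.BR2.TameCore
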