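import Mathlib
import Fermat.Prelude.Def_FLTPrelim_Ramification
import Fermat.Prelude.Def_EllipticCurve_FrobeniusTrace
import Fermat.Agent.S05.Val
import Fermat.Agent.BR2.TameCore

/-!
# Phase 2, piece (T) TAME RELATION: the tame character and the relation `σ τ σ⁻¹ ≡ τ^q`

`Ω / K` algebraic, `A` a valuation subring of `Ω`, `D`, `I` its decomposition and inertia groups
in `Ω ≃ₐ[K] Ω` (`ValuationSubring.decompositionSubgroup`, `ValuationSubring.inertiaSubgroupIn`).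

* `mem_inertia_iff`, `isFrobeniusAt_iff` : elementwise forms;
* `conj_mem_inertia` : `I` is normalised by `D`;
* `tameChar A π hπ : I →* kˣ`, `g ↦ g π / π mod 𝔪` (`k` the residue field of `A`), a group
  homomorphism; `tameChar_eq_one_iff : θ g = 1 ↔ v (g π - π) < v π`;
* `tameChar_conj_frob` : `θ (σ g σ⁻¹) = θ g ^ q` for `σ` a Frobenius element at `A`;
* `tameChar_comm_eq_one` : `θ (σ τ σ⁻¹ τ^{-q}) = 1`;
* `exists_pow_apply_eq` : **the tame relation at finite level**: for `L / K` finite normal on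
  which `v` is discrete, `A` over the prime `q`: there is `a` such that
  `(σ τ σ⁻¹ τ^{-q}) ^ (q ^ a)` is the identity on `L`.
-/

set_option autoImplicit false

namespace Fermat.Agent.BR2.TameChar

open Fermat.Agent.BR2.TameCore IsLocalRing

variable {K Ω : Type*} [Field K] [Field Ω] [Algebra K Ω] (A : ValuationSubring Ω)

/-! ### Elementwise forms -/

theorem mem_inertia_iff (σ : Ω ≃ₐ[K] Ω) :
    σ ∈ A.inertiaSubgroupIn K ↔
      σ ∈ A.decompositionSubgroup K ∧ ∀ x ∈ A, A.valuation (σ x - x) < 1 := by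
  constructor
  · intro hσ
    exact ⟨Fermat.Agent.S05.mem_decompositionSubgroup_of_mem_inertiaSubgroupIn A hσ,
      fun x hx => Fermat.Agent.S05.valuation_apply_sub_lt_one A hσ
        ((A.valuation_le_one_iff x).mpr hx)⟩
  · rintro ⟨hD, hI⟩
    refine ⟨⟨σ, hD⟩, ?_, rfl⟩
    show MulSemiringAction.toRingAut (A.decompositionSubgroup K) (ResidueField A) ⟨σ, hD⟩ = 1
    ext y
    obtain ⟨x, rfl⟩ := residue_surjective y
    show (⟨σ, hD⟩ : A.decompositionSubgroup K) • residue A x = residue A x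
    rw [← ResidueField.residue_smul, ← sub_eq_zero, ← map_sub, residue_eq_zero_iff,
      A.valuation_lt_one_iff]
    exact hI x x.2

theorem isFrobeniusAt_iff {φ : Ω ≃ₐ[K] Ω} {q : ℕ} :
    A.IsFrobeniusAt φ q ↔
      φ ∈ A.decompositionSubgroup K ∧ ∀ y ∈ A, A.valuation (φ y - y ^ q) < 1 := by
  constructor
  · rintro ⟨hD, hres⟩
    refine ⟨hD, fun y hy => ?_⟩
    have h1 := hres (residue A ⟨y, hy⟩)
    rw [← ResidueField.residue_smul, ← map_pow, ← sub_eq_zero, ← map_sub,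
      residue_eq_zero_iff, A.valuation_lt_one_iff] at h1
    exact h1
  · rintro ⟨hD, h⟩
    refine ⟨hD, fun y => ?_⟩
    obtain ⟨x, rfl⟩ := residue_surjective y
    rw [← ResidueField.residue_smul, ← map_pow, ← sub_eq_zero, ← map_sub,
      residue_eq_zero_iff, A.valuation_lt_one_iff]
    exact h x x.2

variable [Algebra.IsAlgebraic K Ω]

variable {A}

theorem val_apply {σ : Ω ≃ₐ[K] Ω} (hσ : σ ∈ A.decompositionSubgroup K) (x : Ω) :
    A.valuation (σ x) = A.valuation x :=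
  Fermat.Agent.S05.valuation_apply_eq A hσ (Algebra.IsAlgebraic.isAlgebraic x)

theorem apply_mem {σ : Ω ≃ₐ[K] Ω} (hσ : σ ∈ A.decompositionSubgroup K) {x : Ω} (hx : x ∈ A) :
    σ x ∈ A := by
  rw [← A.valuation_le_one_iff, val_apply hσ]
  exact (A.valuation_le_one_iff x).mpr hx

/-- the inertia group is normalised by the decomposition group -/
theorem conj_mem_inertia {σ g : Ω ≃ₐ[K] Ω} (hσ : σ ∈ A.decompositionSubgroup K)
    (hg : g ∈ A.inertiaSubgroupIn K) : σ * g * σ⁻¹ ∈ A.inertiaSubgroupIn K := by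
  rw [mem_inertia_iff] at hg ⊢
  have hσi : σ⁻¹ ∈ A.decompositionSubgroup K := inv_mem hσ
  refine ⟨mul_mem (mul_mem hσ hg.1) hσi, fun x hx => ?_⟩
  have hy : σ⁻¹ x ∈ A := apply_mem hσi hx
  have e : (σ * g * σ⁻¹) x - x = σ (g (σ⁻¹ x) - σ⁻¹ x) := by
    rw [map_sub]
    have : σ (σ⁻¹ x) = x := by
      show (σ * σ⁻¹) x = x
      rw [mul_inv_cancel]; rfl
    rw [this]
    rfl
  rw [e, val_apply hσ]
  exact hg.2 _ hy

/-! ### The tame character -/

section Char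

variable (A) (π : Ω) (hπ : π ≠ 0)

include hπ in
theorem val_tameUnit {g : Ω ≃ₐ[K] Ω} (hg : g ∈ A.inertiaSubgroupIn K) :
    A.valuation (g π / π) = 1 := by
  have hD := ((mem_inertia_iff A g).mp hg).1
  rw [map_div₀, val_apply hD, div_self ((map_ne_zero _).mpr hπ)]

include hπ in
theorem tameUnit_mem {g : Ω ≃ₐ[K] Ω} (hg : g ∈ A.inertiaSubgroupIn K) : g π / π ∈ A :=
  (A.valuation_le_one_iff _).mp (val_tameUnit A π hπ hg).le

theorem residue_eq_iff {a b : Ω} (ha : a ∈ A) (hb : b ∈ A) :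
    residue A ⟨a, ha⟩ = residue A ⟨b, hb⟩ ↔ A.valuation (a - b) < 1 := by
  rw [← sub_eq_zero, ← map_sub, residue_eq_zero_iff, A.valuation_lt_one_iff]
  rfl

theorem residue_ne_zero_of_val_eq_one {a : Ω} (ha : a ∈ A) (h1 : A.valuation a = 1) :
    residue A ⟨a, ha⟩ ≠ 0 := by
  intro h0
  rw [residue_eq_zero_iff, A.valuation_lt_one_iff] at h0
  have : A.valuation a < 1 := h0
  rw [h1] at this
  exact lt_irrefl _ this

/-- **The tame character** `θ : I → kˣ`, `g ↦ g π / π mod 𝔪`. -/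
noncomputable def tameChar : ↥(A.inertiaSubgroupIn K) →* (ResidueField A)ˣ where
  toFun g := Units.mk0 (residue A ⟨(g : Ω ≃ₐ[K] Ω) π / π, tameUnit_mem A π hπ g.2⟩)
    (residue_ne_zero_of_val_eq_one A _ (val_tameUnit A π hπ g.2))
  map_one' := by
    apply Units.ext
    show residue A ⟨((1 : ↥(A.inertiaSubgroupIn K)) : Ω ≃ₐ[K] Ω) π / π, _⟩ = 1
    have : ((1 : ↥(A.inertiaSubgroupIn K)) : Ω ≃ₐ[K] Ω) π / π = 1 := by
      show (1 : Ω ≃ₐ[K] Ω) π / π = 1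
      rw [AlgEquiv.one_apply, div_self hπ]
    rw [← map_one (residue A)]
    congr 1
    exact Subtype.ext this
  map_mul' := by
    intro g h
    apply Units.ext
    show residue A ⟨((g * h : ↥(A.inertiaSubgroupIn K)) : Ω ≃ₐ[K] Ω) π / π, _⟩ =
      residue A ⟨(g : Ω ≃ₐ[K] Ω) π / π, tameUnit_mem A π hπ g.2⟩ *
        residue A ⟨(h : Ω ≃ₐ[K] Ω) π / π, tameUnit_mem A π hπ h.2⟩
    rw [← map_mul]
    have hmem : (g : Ω ≃ₐ[K] Ω) π / π * ((h : Ω ≃ₐ[K] Ω) π / π) ∈ A :=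
      A.mul_mem _ _ (tameUnit_mem A π hπ g.2) (tameUnit_mem A π hπ h.2)
    have e : (⟨(g : Ω ≃ₐ[K] Ω) π / π, tameUnit_mem A π hπ g.2⟩ : A) *
        ⟨(h : Ω ≃ₐ[K] Ω) π / π, tameUnit_mem A π hπ h.2⟩ =
        ⟨(g : Ω ≃ₐ[K] Ω) π / π * ((h : Ω ≃ₐ[K] Ω) π / π), hmem⟩ := rfl
    rw [e, residue_eq_iff]
    -- `(g h) π / π = g (h π / π) * (g π / π)`
    set u := (h : Ω ≃ₐ[K] Ω) π / π with hu
    have huA : u ∈ A := tameUnit_mem A π hπ h.2
    have h1 : ((g * h : ↥(A.inertiaSubgroupIn K)) : Ω ≃ₐ[K] Ω) π / π =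
        (g : Ω ≃ₐ[K] Ω) u * ((g : Ω ≃ₐ[K] Ω) π / π) := by
      show (g : Ω ≃ₐ[K] Ω) ((h : Ω ≃ₐ[K] Ω) π) / π = _
      have : (h : Ω ≃ₐ[K] Ω) π = u * π := by rw [hu, div_mul_cancel₀ _ hπ]
      rw [this, map_mul]
      ring
    rw [h1]
    have h2 : (g : Ω ≃ₐ[K] Ω) u * ((g : Ω ≃ₐ[K] Ω) π / π) - (g : Ω ≃ₐ[K] Ω) π / π * u =
        ((g : Ω ≃ₐ[K] Ω) u - u) * ((g : Ω ≃ₐ[K] Ω) π / π) := by ring
    rw [h2, map_mul, val_tameUnit A π hπ g.2, mul_one]
    exact ((mem_inertia_iff A _).mp g.2).2 u huA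

theorem coe_tameChar (g : ↥(A.inertiaSubgroupIn K)) :
    ((tameChar A π hπ g : (ResidueField A)ˣ) : ResidueField A) =
      residue A ⟨(g : Ω ≃ₐ[K] Ω) π / π, tameUnit_mem A π hπ g.2⟩ := rfl

/-- the kernel of the tame character: `g π ≡ π` modulo `π 𝔪` -/
theorem tameChar_eq_one_iff (g : ↥(A.inertiaSubgroupIn K)) :
    tameChar A π hπ g = 1 ↔ A.valuation ((g : Ω ≃ₐ[K] Ω) π - π) < A.valuation π := by
  rw [Units.ext_iff, coe_tameChar, Units.val_one, ← map_one (residue A)]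
  have h1 : (1 : A) = ⟨(1 : Ω), A.one_mem⟩ := rfl
  rw [h1, residue_eq_iff]
  have hvπ : 0 < A.valuation π := zero_lt_iff.mpr ((map_ne_zero _).mpr hπ)
  have e : (g : Ω ≃ₐ[K] Ω) π / π - 1 = ((g : Ω ≃ₐ[K] Ω) π - π) / π := by
    field_simp
  rw [e, map_div₀, div_lt_one₀ hvπ]

/-- **Conjugation by a Frobenius element raises the tame character to the `q`-th power.** -/
theorem tameChar_conj_frob {σ : Ω ≃ₐ[K] Ω} {q : ℕ} (hσ : A.IsFrobeniusAt σ q)
    (g : ↥(A.inertiaSubgroupIn K)) :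
    tameChar A π hπ ⟨σ * (g : Ω ≃ₐ[K] Ω) * σ⁻¹,
        conj_mem_inertia hσ.mem_decompositionSubgroup g.2⟩ =
      tameChar A π hπ g ^ q := by
  obtain ⟨hD, hF⟩ := (isFrobeniusAt_iff A).mp hσ
  have hDi : σ⁻¹ ∈ A.decompositionSubgroup K := inv_mem hD
  have hgI := (mem_inertia_iff A _).mp g.2
  apply Units.ext
  rw [Units.val_pow_eq_pow_val, coe_tameChar, coe_tameChar, ← map_pow]
  set u := (g : Ω ≃ₐ[K] Ω) π / π with hu
  have huA : u ∈ A := tameUnit_mem A π hπ g.2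
  have hu1 : A.valuation u = 1 := val_tameUnit A π hπ g.2
  have e : (⟨u, huA⟩ : A) ^ q = ⟨u ^ q, A.pow_mem huA q⟩ := rfl
  rw [e, residue_eq_iff]
  -- `π' = σ⁻¹ π = w π`
  set π' := σ⁻¹ π with hπ'
  have hπ'0 : π' ≠ 0 := by
    rw [hπ']
    exact (map_ne_zero _).mpr hπ
  set w := π' / π with hw
  have hw1 : A.valuation w = 1 := by
    rw [hw, map_div₀, hπ', val_apply hDi, div_self ((map_ne_zero _).mpr hπ)]
  have hwA : w ∈ A := (A.valuation_le_one_iff _).mp hw1.le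
  have hw0 : w ≠ 0 := by
    intro h0
    rw [h0, map_zero] at hw1
    exact zero_ne_one hw1
  set u' := (g : Ω ≃ₐ[K] Ω) π' / π' with hu'
  -- `(σ g σ⁻¹) π / π = σ u'`
  have h1 : (σ * (g : Ω ≃ₐ[K] Ω) * σ⁻¹) π / π = σ u' := by
    have hσπ' : σ π' = π := by
      show (σ * σ⁻¹) π = π
      rw [mul_inv_cancel]; rfl
    show σ ((g : Ω ≃ₐ[K] Ω) π') / π = σ u'
    rw [hu', map_div₀, hσπ']
  -- `u' - u = (g w / w - 1) u`
  have h2 : u' - u = (((g : Ω ≃ₐ[K] Ω) w - w) / w) * u := by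
    have hπ'w : π' = w * π := by rw [hw, div_mul_cancel₀ _ hπ]
    rw [hu', hu, hπ'w, map_mul]
    field_simp
  have h3 : A.valuation (u' - u) < 1 := by
    rw [h2, map_mul, map_div₀, hw1, div_one, hu1, mul_one]
    exact hgI.2 w hwA
  have h4 : A.valuation (σ u' - σ u) < 1 := by
    rw [← map_sub, val_apply hD]
    exact h3
  have h5 : A.valuation (σ u - u ^ q) < 1 := hF u huA
  show A.valuation ((σ * (g : Ω ≃ₐ[K] Ω) * σ⁻¹) π / π - u ^ q) < 1
  rw [h1]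
  have e2 : σ u' - u ^ q = (σ u' - σ u) + (σ u - u ^ q) := by ring
  rw [e2]
  exact lt_of_le_of_lt (A.valuation.map_add _ _) (max_lt h4 h5)

/-- the commutator-like element `σ τ σ⁻¹ τ^{-q}` of the inertia group -/
theorem comm_mem_inertia {σ τ : Ω ≃ₐ[K] Ω} (hσ : σ ∈ A.decompositionSubgroup K)
    (hτ : τ ∈ A.inertiaSubgroupIn K) (q : ℕ) :
    σ * τ * σ⁻¹ * (τ ^ q)⁻¹ ∈ A.inertiaSubgroupIn K :=
  mul_mem (conj_mem_inertia hσ hτ) (inv_mem (pow_mem hτ q))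

/-- **The tame relation for the tame character**: `θ (σ τ σ⁻¹ τ^{-q}) = 1`. -/
theorem tameChar_comm_eq_one {σ τ : Ω ≃ₐ[K] Ω} {q : ℕ} (hσ : A.IsFrobeniusAt σ q)
    (hτ : τ ∈ A.inertiaSubgroupIn K) :
    tameChar A π hπ ⟨σ * τ * σ⁻¹ * (τ ^ q)⁻¹,
      comm_mem_inertia A hσ.mem_decompositionSubgroup hτ q⟩ = 1 := by
  have e : (⟨σ * τ * σ⁻¹ * (τ ^ q)⁻¹,
      comm_mem_inertia A hσ.mem_decompositionSubgroup hτ q⟩ : ↥(A.inertiaSubgroupIn K)) =
      ⟨σ * τ * σ⁻¹, conj_mem_inertia hσ.mem_decompositionSubgroup hτ⟩ *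
        ((⟨τ, hτ⟩ : ↥(A.inertiaSubgroupIn K)) ^ q)⁻¹ := rfl
  rw [e, map_mul, map_inv, map_pow, tameChar_conj_frob A π hπ hσ ⟨τ, hτ⟩, mul_inv_cancel]

end Char

/-! ### The tame relation at finite level -/

section Finite

variable (A)

/-- **The tame relation at finite level.** `A` over the prime `q`, `σ` a Frobenius element, `τ`
in the inertia group, `L / K` finite normal with `v` discrete on `L`: some `q`-power of
`σ τ σ⁻¹ τ^{-q}` is the identity on `L`. -/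
theorem exists_pow_apply_eq {q : ℕ} (hq : q.Prime) (hA : A.LiesOverPrime q)
    (L : IntermediateField K Ω) [Normal K L] [FiniteDimensional K L] {π : Ω}
    (hd : DiscreteOn A L.toSubfield π) {σ τ : Ω ≃ₐ[K] Ω} (hσ : A.IsFrobeniusAt σ q)
    (hτ : τ ∈ A.inertiaSubgroupIn K) :
    ∃ a : ℕ, ∀ x ∈ L, ((σ * τ * σ⁻¹ * (τ ^ q)⁻¹) ^ (q ^ a)) x = x := by
  classical
  have hπ0 : π ≠ 0 := hd.2.1
  set c : Ω ≃ₐ[K] Ω := σ * τ * σ⁻¹ * (τ ^ q)⁻¹ with hc
  have hcI : c ∈ A.inertiaSubgroupIn K := comm_mem_inertia A hσ.mem_decompositionSubgroup hτ q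
  have hθc : tameChar A π hπ0 ⟨c, hcI⟩ = 1 := tameChar_comm_eq_one A π hπ0 hσ hτ
  -- stability of `L`
  have hstab : ∀ g : Ω ≃ₐ[K] Ω, ∀ x ∈ L, g x ∈ L := by
    intro g x hx
    have := AlgEquiv.restrictNormal_commutes g L ⟨x, hx⟩
    rw [show algebraMap L Ω ⟨x, hx⟩ = x from rfl] at this
    rw [← this]
    exact (g.restrictNormal L ⟨x, hx⟩).2
  -- the order of `c` on `L`
  have : Finite (L ≃ₐ[K] L) := inferInstance
  set N := Nat.card (L ≃ₐ[K] L) with hN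
  have hN0 : N ≠ 0 := Nat.card_pos.ne'
  have hcN : ∀ x ∈ L, (c ^ N) x = x := by
    intro x hx
    have h1 : (AlgEquiv.restrictNormalHom L c) ^ N = 1 := pow_card_eq_one'
    rw [← map_pow] at h1
    have h2 := AlgEquiv.restrictNormal_commutes (c ^ N) L ⟨x, hx⟩
    have h3 : (c ^ N).restrictNormal L = 1 := h1
    rw [h3] at h2
    exact h2.symm
  obtain ⟨a, m, hqm, hNam⟩ := Nat.exists_eq_pow_mul_and_not_dvd hN0 q hq.ne_one
  refine ⟨a, ?_⟩
  set c₁ : Ω ≃ₐ[K] Ω := c ^ (q ^ a) with hc₁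
  have hc₁I : c₁ ∈ A.inertiaSubgroupIn K := pow_mem hcI _
  have hθc₁ : tameChar A π hπ0 ⟨c₁, hc₁I⟩ = 1 := by
    have e : (⟨c₁, hc₁I⟩ : ↥(A.inertiaSubgroupIn K)) = ⟨c, hcI⟩ ^ (q ^ a) := rfl
    rw [e, map_pow, hθc, one_pow]
  have hc₁D := ((mem_inertia_iff A c₁).mp hc₁I)
  have hvm : A.valuation (m : Ω) = 1 := by
    have h := Fermat.Agent.S05.valuation_intCast_eq_one_of_not_dvd A hq hA (n := (m : ℤ))
      (by exact_mod_cast hqm)
    simpa using h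
  have hc₁m : ∀ x ∈ L, (c₁ : Ω →+* Ω)^[m] x = x := by
    intro x hx
    have h1 : (c₁ ^ m) x = x := by
      rw [hc₁, ← pow_mul, ← hNam]
      exact hcN x hx
    have h2 : ((c₁ : Ω →+* Ω) : Ω → Ω)^[m] = ⇑(c₁ ^ m) := by
      rw [AlgEquiv.coe_pow]
      rfl
    rw [h2]
    exact h1
  intro x hx
  exact apply_eq_of_tame_trivial hd (c₁ : Ω →+* Ω) (fun y hy => hstab c₁ y hy)
    (fun y => val_apply hc₁D.1 y)
    (fun y _ hy1 => hc₁D.2 y ((A.valuation_le_one_iff y).mp hy1))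
    ((tameChar_eq_one_iff A π hπ0 ⟨c₁, hc₁I⟩).mp hθc₁) hvm hc₁m x hx

end Finite

end Fermat.Agent.BR2.TameChar
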