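import Fermat.Agent.BR2.G3PrepRes
import Fermat.Agent.BR2.TameChar
import Fermat.Agent.BR2.FrobFixedFinite
import Fermat.Agent.BR.InertiaRed

/-!
# Phase 2, node (G4)(H), part 1: the arithmetic hypotheses of `(F)` at the modular setup

`B` a valuation ring of `ℚ̄ = Kb` over `q`, `k` its residue field, `σ` a Frobenius element at `q`
(`B.IsFrobeniusAt σ q`), `g := gal N σ ^ 2` the coefficientwise action of `σ²` on `F̄_N`,
`Q := q ^ 2`, `Φ := frobAutFullC k M q`.  The hypotheses of helper16's `(F)`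
(`G4.theta_torSub_eq_zero`) which do not depend on the semistable setup:

* `valuation_baseAut_gal_pow` (`hval`) : `v (g x) = v x`;
* `frobSq`, `frobSq_apply` (`φ`, `hφQ`) : `φ c = c ^ q ^ 2`;
* `resOf_baseAut_gal_sq` (`hφ`) : `res (g x) = φ (res x)` for `x ∈ B`;
* `frobAutFullC_sq_smul_algebraMap` (`haQ`) : `Φ² • c = c ^ q ^ 2` on the constants of `F̃_M`.
-/

set_option autoImplicit false
set_option linter.unusedSectionVars false
set_option linter.style.haveILetI false

noncomputable section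

set_option synthInstance.maxHeartbeats 400000

namespace Fermat.Agent.BR2.G4Modular

open ModularCurve AlgebraicCurve IsLocalRing Fermat.Agent.X0 Fermat.Agent.Hecke
  Fermat.Agent.BR.ValTwo Fermat.Agent.BR.InertiaRed

variable (B : ValuationSubring Kb) {σ : Kb ≃ₐ[ℚ] Kb}

local notation "kB" => IsLocalRing.ResidueField B

/-- `ℚ̄ / ℚ` is algebraic, for the `ℚ`-algebra structure in force -/
theorem isAlgebraic_Kb [inst : Algebra ℚ Kb] : Algebra.IsAlgebraic ℚ Kb :=
  ⟨fun x => Fermat.Agent.S05.isAlgebraic_rat_algebraicClosure x⟩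

/-! ### `hval` -/

theorem gal_pow (N : ℕ) [NeZero N] (σ : Kb ≃ₐ[ℚ] Kb) (n : ℕ) : gal N σ ^ n = gal N (σ ^ n) :=
  (map_pow (arithmeticGalois (modularFunctionFieldFull N)) σ n).symm

theorem baseAut_gal_pow (N : ℕ) [NeZero N] (σ : Kb ≃ₐ[ℚ] Kb) (n : ℕ) (x : Kb) :
    SemilinearAut.baseAut (gal N σ ^ n) x = (σ ^ n) x := by
  rw [gal_pow]
  rfl

/-- **`hval`**: the decomposition group preserves the valuation. -/
theorem valuation_baseAut_gal_pow (N : ℕ) [NeZero N] (hσ : σ ∈ B.decompositionSubgroup ℚ)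
    (n : ℕ) (x : Kb) :
    B.valuation (SemilinearAut.baseAut (gal N σ ^ n) x) = B.valuation x := by
  have := isAlgebraic_Kb
  rw [baseAut_gal_pow]
  exact TameChar.val_apply (Subgroup.pow_mem _ hσ n) x

/-! ### `φ`, `hφQ`, `hφ` -/

theorem resOf_eq_of_valuation_sub_lt_one {x y : Kb} (hx : x ∈ B) (hy : y ∈ B)
    (h : B.valuation (x - y) < 1) : resOf B x = resOf B y := by
  rw [resOf_of_mem B hx, resOf_of_mem B hy, ← sub_eq_zero, ← map_sub, residue_eq_zero_iff,
    B.valuation_lt_one_iff]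
  exact h

theorem resOf_pow {x : Kb} (hx : x ∈ B) (n : ℕ) : resOf B (x ^ n) = resOf B x ^ n := by
  rw [resOf_of_mem B hx, resOf_of_mem B (B.pow_mem hx n), ← map_pow]
  rfl

/-- a Frobenius element at `q` acts on the residues as `c ↦ c ^ q` -/
theorem resOf_apply_of_isFrobeniusAt {q : ℕ} (hσ : B.IsFrobeniusAt σ q) {x : Kb} (hx : x ∈ B) :
    resOf B (σ x) = resOf B x ^ q := by
  have := isAlgebraic_Kb
  obtain ⟨hD, hF⟩ := (TameChar.isFrobeniusAt_iff B).mp hσ
  rw [← resOf_pow B hx]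
  exact resOf_eq_of_valuation_sub_lt_one B (TameChar.apply_mem hD hx) (B.pow_mem hx q) (hF x hx)

variable {q : ℕ} [hq : Fact q.Prime] [CharP (IsLocalRing.ResidueField B) q]
  [PerfectField (IsLocalRing.ResidueField B)]

/-- **`φ`**: the `q²`-Frobenius of the residue field -/
def frobSq : kB ≃+* kB := (frobeniusEquiv kB q).trans (frobeniusEquiv kB q)

/-- **`hφQ`** -/
theorem frobSq_apply (c : kB) : frobSq B (q := q) c = c ^ q ^ 2 := by
  show frobeniusEquiv kB q (frobeniusEquiv kB q c) = c ^ q ^ 2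
  rw [frobeniusEquiv_apply, frobeniusEquiv_apply, frobenius_def, frobenius_def, ← pow_mul, sq]

/-- **`hφ`**: `res (σ² x) = φ (res x)` for `x ∈ B`. -/
theorem resOf_baseAut_gal_sq (N : ℕ) [NeZero N] (hσ : B.IsFrobeniusAt σ q) (x : Kb)
    (hx : x ∈ B) :
    resOf B (SemilinearAut.baseAut (gal N σ ^ 2) x) = frobSq B (q := q) (resOf B x) := by
  have := isAlgebraic_Kb
  rw [baseAut_gal_pow, frobSq_apply]
  have h1 : (σ ^ 2) x = σ (σ x) := by rw [sq]; rfl
  rw [h1, resOf_apply_of_isFrobeniusAt B hσ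
    (TameChar.apply_mem hσ.mem_decompositionSubgroup hx),
    resOf_apply_of_isFrobeniusAt B hσ hx, ← pow_mul, sq]

/-! ### `haQ` -/

/-- **`haQ`**: `Φ²` acts on the constants of `F̃_M` as `c ↦ c ^ q ^ 2`. -/
theorem frobAutFullC_sq_smul_algebraMap (M : ℕ) [NeZero M] (c : kB) :
    frobAutFullC kB M q ^ 2 • algebraMap kB (modularFunctionFieldFullC kB M) c =
      algebraMap kB (modularFunctionFieldFullC kB M) (c ^ q ^ 2) := by
  rw [SemilinearAut.smul_algebraMap]
  congr 1
  rw [sq, SemilinearAut.baseAut_mul]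
  show SemilinearAut.baseAut (frobAutFullC kB M q)
    (SemilinearAut.baseAut (frobAutFullC kB M q) c) = c ^ q ^ 2
  rw [baseAut_frobAutFullC, frobeniusEquiv_apply, frobeniusEquiv_apply, frobenius_def,
    frobenius_def, ← pow_mul, sq]

end Fermat.Agent.BR2.G4Modular
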