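import Fermat.Agent.BR2.G4Modular
import Fermat.Agent.BR2.G4
import Fermat.Agent.BR2.G4Unit
import Fermat.Agent.BR.S0.ModularInput

/-!
# Phase 2, node (G4)(H), part 2: `(G4)` at the modular setup

`B` a valuation ring of `ℚ̄` over `q ∤ M`, `M` without elliptic points, `I` a two-component bundle
on `F̄_{Mq}` over the components `compW B hB hqM` of `X₀(qM)` (e.g. `S0.Modular.modularInput`, for
which `hC` is `rfl`), with the lower bound `hlow` for the number of crossings, a chain provider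
`Pr` whose annulus coordinates are coordinates of annulus charts, `σ` a Frobenius element at `q`.

`theta_torSub_modular` : with `g := gal (M q) σ ^ 2` (the coefficientwise action of `σ²`),
`(g - 1)(g - q²) = 0` on the toric part `Filt.torSub I.toSetup m` of the `m`-torsion, `m` prime to
`q` — the hypothesis `G4` of `FrobSquare.kill_of_filtration` with `s • s = g`.

Named inputs (owners): `hz₁ hz₂` (crossing branches fixed by `Φ²`, helper26 (G3-prep)(c)), `hr`
(`r (σ² P) = Φ² • r P`, helper26 (G3-prep)(b)).  Everything else is discharged: `hEq` :=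
helper6's `G3PrepRes.equivariant_pow_of_C_eq`, `hu` := helper21's `G4Unit.exists_hu`,
`hval hφQ hφ haQ` := `BR2/G4Modular`, `hA hF hFt hgen` := Program B (`S0/Genus`).
-/

set_option autoImplicit false
set_option linter.unusedSectionVars false
set_option linter.style.haveILetI false

noncomputable section

set_option synthInstance.maxHeartbeats 400000

namespace Fermat.Agent.BR2.G4Modular

open ModularCurve AlgebraicCurve IsLocalRing Fermat.Agent.Red Fermat.Agent.X0 Fermat.Agent.Hecke
  Fermat.Agent.BR.ValTwo Fermat.Agent.BR.SS Fermat.Agent.BR.Refine Fermat.Agent.BR.GenusCount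
  Fermat.Agent.BR.S0 Fermat.Agent.BR.S0.RedModular

set_option maxHeartbeats 1600000 in
/-- **(G4) at the modular setup.** -/
theorem theta_torSub_modular {M q : ℕ} [NeZero M] [hq : Fact q.Prime] (hqM : ¬ q ∣ M)
    (h2 : nuTwo M = 0) (h3 : nuThree M = 0)
    (B : ValuationSubring Kb) [IsAlgClosed (ResidueField B)] [CharP (ResidueField B) q]
    (hB : B.LiesOverPrime q) {ν : Type} [Fintype ν]
    (I : TwoCompInput (F := Fb (M * q)) B (residue B)
      (modularFunctionFieldFullC (ResidueField B) M) ν)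
    (hC : I.C = compW B hB hqM)
    (hlow : ((q : ℚ) - 1) * (dedekindPsi M : ℚ) ≤ 12 * (Fintype.card ν : ℚ))
    (Pr : ChainProvider I.toSetup)
    (ch : ∀ e, Fermat.Agent.BR.Circle.AnnulusChart I.toSetup e) (hch : ∀ e, Pr.u e = (ch e).u)
    {σ : Kb ≃ₐ[ℚ] Kb} (hσ : B.IsFrobeniusAt σ q)
    (hz₁ : ∀ e, frobAutFullC (ResidueField B) M q ^ 2 • I.z₁ e = I.z₁ e)
    (hz₂ : ∀ e, frobAutFullC (ResidueField B) M q ^ 2 • I.z₂ e = I.z₂ e)
    (hr : ∀ P : Place Kb (Fb (M * q)), I.toSetup.r (gal (M * q) σ ^ 2 • P) =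
      ⟨(I.toSetup.r P).1, frobAutFullC (ResidueField B) M q ^ 2 • (I.toSetup.r P).2⟩)
    {m : ℕ} (hm : (m : ResidueField B) ≠ 0) (x : Pic0 Kb (Fb (M * q)))
    (hx : x ∈ Filt.torSub I.toSetup m) :
    gal (M * q) σ ^ 2 • gal (M * q) σ ^ 2 • x - ((1 + q ^ 2 : ℕ) : ℤ) • gal (M * q) σ ^ 2 • x +
      ((q ^ 2 : ℕ) : ℤ) • x = 0 := by
  have : NeZero (M * q) := ⟨Nat.mul_ne_zero (NeZero.ne M) hq.out.ne_zero⟩
  have hcard : (Fintype.card ν : ℚ) = nodeCount q M :=
    card_eq_nodeCount_of_le M q B hB hqM I.toSetup h2 h3 hlow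
  have hEq : Filt.Equivariant I.toSetup (gal (M * q) σ ^ 2)
      (fun _ => frobAutFullC (ResidueField B) M q ^ 2) :=
    G3PrepRes.equivariant_pow_of_C_eq hqM B hB I hC hσ 2 hz₁ hz₂
  exact G4.theta_torSub_eq_zero I.toSetup (Fermat.Agent.Val.isRankOne B hB)
    (Fermat.Agent.Val.riemannPkg_bar (M * q))
    (fun _ => Fermat.Agent.Val.riemannPkg_modL_residueField M hqM B hB)
    ((genus_hyp_iff M q B hB hqM ν).mpr hcard) Pr (gal (M * q) σ ^ 2)
    (fun _ => frobAutFullC (ResidueField B) M q ^ 2) hEq hr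
    (valuation_baseAut_gal_pow B (M * q) hσ.mem_decompositionSubgroup 2)
    (q ^ 2) (frobSq B (q := q)) (frobSq_apply B)
    (fun x hx => resOf_baseAut_gal_sq B (M * q) hσ x hx)
    (fun _ c => frobAutFullC_sq_smul_algebraMap B M c)
    (fun e => by
      rw [hch e]
      exact G4Unit.exists_hu (ch e) _ _ hEq hr)
    hm x hx

end Fermat.Agent.BR2.G4Modular
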