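import Mathlib
import Fermat.Agent.BR2.Filtration
import Fermat.Agent.BR2.FrobFixedFinite
import Fermat.Agent.BR.PicFunct
import Fermat.Agent.Val.ConstRed

/-!
# Phase 2 (S35), node (G5), abstract assembly

`S` a two-component semistable setup on `F / K` (both residue function fields `Ft₀ / k`), `C₀` a
constant reduction of `F₀ / K` with residue function field `Ft₀ / k`, `φα φβ : F₀ → F` two finite
maps (the two degeneracy maps), `σ₀` a semilinear automorphism of `Ft₀ / k` (the coefficientwise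
Frobenius), and the norm–residue formulas (named hypotheses)

* `(NRα)` : residues `g₁, g₂` of `f` on the two components ⟹ `g₁ · σ₀ g₂` is a residue of `N_α f`;
* `(NRβ)` : … ⟹ `σ₀ g₁ · g₂` is a residue of `N_β f`.

If `e₀` kills the `σ₀²`-fixed classes of `Pic⁰(Ft₀)` (node (M3)), then for `x` in the finite part
`Filt.natSub S m` with `α_* x = 0 = β_* x` the class `e₀ • x` lies in the toric part
`Filt.torSub S m` (`smul_mem_torSub_of_push_eq_zero`).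
-/

set_option autoImplicit false

noncomputable section

namespace Fermat.Agent.BR2.G5

open AlgebraicCurve Fermat.Agent.Red Fermat.Agent.BR.SS Fermat.Agent.Val Fermat.Agent.Jac
  Fermat.Agent.BR Fermat.Agent.X0

/-! ### Classes of divisors -/

section Classes

variable {k Ft : Type*} [Field k] [Field Ft] [Algebra k Ft]

theorem mk_eq_zero_iff (D : Divisor.degZero (K := k) (F := Ft)) :
    Pic0.mk D = 0 ↔ (D : Divisor k Ft) ∈ Divisor.principal (K := k) (F := Ft) := by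
  rw [Pic0.mk, QuotientAddGroup.eq_zero_iff, AddSubgroup.mem_addSubgroupOf]

theorem mk_eq_mk_iff (D D' : Divisor.degZero (K := k) (F := Ft)) :
    Pic0.mk D = Pic0.mk D' ↔
      (D : Divisor k Ft) - (D' : Divisor k Ft) ∈ Divisor.principal (K := k) (F := Ft) := by
  rw [← sub_eq_zero]
  show Pic0.mk (D - D') = 0 ↔ _
  rw [mk_eq_zero_iff]
  rfl

end Classes

/-! ### The residue side -/

section ResidueSide

variable {k Ft : Type*} [Field k] [Field Ft] [Algebra k Ft]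

/-- A function whose divisor is `m` times the divisor of `w` is a constant times `w ^ m`. -/
theorem eq_const_mul_pow_of_ord (hFt : RiemannPkg k Ft) {g w : Ft} (hg : g ≠ 0) (hw : w ≠ 0)
    (m : ℕ) (h : ∀ Q : Place k Ft, Q.ord g = (m : ℤ) * Q.ord w) :
    ∃ c : k, g = algebraMap k Ft c * w ^ m := by
  have hwm : w ^ m ≠ 0 := pow_ne_zero m hw
  obtain ⟨c, hc⟩ := exists_const_of_forall_ord_nonneg hFt (f := g / w ^ m) (fun Q => by
    rw [div_eq_mul_inv, Q.ord_mul hg (inv_ne_zero hwm), Q.ord_inv, Place.ord_pow Q, h Q]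
    simp)
  exact ⟨c, by rw [← hc, div_mul_cancel₀ _ hwm]⟩

/-- **The residue side of (G5).** -/
theorem exists_pow_eq_of_residue_relations (hFt : RiemannPkg k Ft) (σ₀ : SemilinearAut k Ft)
    (e₀ : ℕ) (he₀ : ∀ c : Pic0 k Ft, (σ₀ ^ 2) • c = c → e₀ • c = 0)
    {m : ℕ} (hm : m ≠ 0) {g₁ g₂ : Ft} (hg₁ : g₁ ≠ 0) (hg₂ : g₂ ≠ 0)
    {E₁ E₂ : Divisor k Ft} (hE₁ : ∀ Q : Place k Ft, Q.ord g₁ = (m : ℤ) * E₁ Q)
    (hE₂ : ∀ Q : Place k Ft, Q.ord g₂ = (m : ℤ) * E₂ Q)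
    {u u' : Ft} {a a' : k} (hα : g₁ * σ₀ • g₂ = algebraMap k Ft a * u ^ m)
    (hβ : σ₀ • g₁ * g₂ = algebraMap k Ft a' * u' ^ m) :
    (∃ (w : Ft) (c : k), g₁ ^ e₀ = algebraMap k Ft c * w ^ m) ∧
      ∃ (w : Ft) (c : k), g₂ ^ e₀ = algebraMap k Ft c * w ^ m := by
  have := hFt.principal
  have hm' : (m : ℤ) ≠ 0 := by exact_mod_cast hm
  have hσg₁ : σ₀ • g₁ ≠ 0 := by rwa [Ne, smul_eq_zero_iff_eq]
  have hσg₂ : σ₀ • g₂ ≠ 0 := by rwa [Ne, smul_eq_zero_iff_eq]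
  -- `a, u, a', u'` are nonzero
  have hau : algebraMap k Ft a * u ^ m ≠ 0 := hα ▸ mul_ne_zero hg₁ hσg₂
  have hau' : algebraMap k Ft a' * u' ^ m ≠ 0 := hβ ▸ mul_ne_zero hσg₁ hg₂
  have ha : a ≠ 0 := fun h => hau (by rw [h, map_zero, zero_mul])
  have ha' : a' ≠ 0 := fun h => hau' (by rw [h, map_zero, zero_mul])
  have hu : u ≠ 0 := fun h => hau (by rw [h, zero_pow hm, mul_zero])
  have hu' : u' ≠ 0 := fun h => hau' (by rw [h, zero_pow hm, mul_zero])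
  -- the divisor relations
  have hordσ : ∀ (g : Ft) (E : Divisor k Ft), (∀ Q : Place k Ft, Q.ord g = (m : ℤ) * E Q) →
      ∀ Q : Place k Ft, Q.ord (σ₀ • g) = (m : ℤ) * (σ₀ • E) Q := by
    intro g E hE Q
    rw [FrobFixed.ord_smul_eq, hE, SemilinearAut.divisor_smul_apply]
  have hrel₁ : E₁ + σ₀ • E₂ = divOf k u := by
    ext Q
    have h1 := congrArg Q.ord hα
    rw [Q.ord_mul hg₁ hσg₂, Q.ord_mul ((map_ne_zero _).mpr ha) (pow_ne_zero m hu),
      Place.ord_algebraMap Q, zero_add, Place.ord_pow Q, hE₁ Q, hordσ g₂ E₂ hE₂ Q, ← mul_add] at h1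
    rw [Finsupp.add_apply, divOf_apply]
    exact mul_left_cancel₀ hm' h1
  have hrel₂ : σ₀ • E₁ + E₂ = divOf k u' := by
    ext Q
    have h1 := congrArg Q.ord hβ
    rw [Q.ord_mul hσg₁ hg₂, Q.ord_mul ((map_ne_zero _).mpr ha') (pow_ne_zero m hu'),
      Place.ord_algebraMap Q, zero_add, Place.ord_pow Q, hordσ g₁ E₁ hE₁ Q, hE₂ Q, ← mul_add] at h1
    rw [Finsupp.add_apply, divOf_apply]
    exact mul_left_cancel₀ hm' h1
  -- degrees
  have hdeg : ∀ (g : Ft) (E : Divisor k Ft), (∀ Q : Place k Ft, Q.ord g = (m : ℤ) * E Q) →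
      Divisor.degree E = 0 := by
    intro g E hE
    have h1 : divOf k g = m • E := by
      ext Q
      rw [divOf_apply, hE Q, Finsupp.smul_apply, nsmul_eq_mul]
    have h2 := degree_divOf (K := k) g
    rw [h1, map_nsmul, nsmul_eq_mul] at h2
    exact (mul_eq_zero.mp h2).resolve_left hm'
  have hd₁ : E₁ ∈ Divisor.degZero (K := k) (F := Ft) := hdeg g₁ E₁ hE₁
  have hd₂ : E₂ ∈ Divisor.degZero (K := k) (F := Ft) := hdeg g₂ E₂ hE₂
  -- the classes are fixed by `σ₀ ^ 2`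
  have hfix₁ : (σ₀ ^ 2) • Pic0.mk ⟨E₁, hd₁⟩ = Pic0.mk ⟨E₁, hd₁⟩ := by
    rw [SemilinearAut.pic0_smul_mk, mk_eq_mk_iff]
    have h1 : (σ₀ ^ 2) • E₁ - E₁ = σ₀ • divOf k u' - divOf k u := by
      rw [← hrel₁, ← hrel₂, smul_add, pow_two, mul_smul]
      abel
    show (σ₀ ^ 2) • E₁ - E₁ ∈ _
    rw [h1, FrobFixed.smul_divOf]
    exact (Divisor.principal (K := k) (F := Ft)).sub_mem
      (divOf_mem_principal (by rwa [Ne, smul_eq_zero_iff_eq])) (divOf_mem_principal hu)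
  have hfix₂ : (σ₀ ^ 2) • Pic0.mk ⟨E₂, hd₂⟩ = Pic0.mk ⟨E₂, hd₂⟩ := by
    rw [SemilinearAut.pic0_smul_mk, mk_eq_mk_iff]
    have h1 : (σ₀ ^ 2) • E₂ - E₂ = σ₀ • divOf k u - divOf k u' := by
      rw [← hrel₁, ← hrel₂, smul_add, pow_two, mul_smul]
      abel
    show (σ₀ ^ 2) • E₂ - E₂ ∈ _
    rw [h1, FrobFixed.smul_divOf]
    exact (Divisor.principal (K := k) (F := Ft)).sub_mem
      (divOf_mem_principal (by rwa [Ne, smul_eq_zero_iff_eq])) (divOf_mem_principal hu')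
  -- hence killed by `e₀`
  have hkill : ∀ (g : Ft) (hg : g ≠ 0) (E : Divisor k Ft)
      (hE : ∀ Q : Place k Ft, Q.ord g = (m : ℤ) * E Q)
      (hd : E ∈ Divisor.degZero (K := k) (F := Ft)),
      (σ₀ ^ 2) • Pic0.mk ⟨E, hd⟩ = Pic0.mk ⟨E, hd⟩ →
      ∃ (w : Ft) (c : k), g ^ e₀ = algebraMap k Ft c * w ^ m := by
    intro g hg E hE hd hfix
    have h0 := he₀ _ hfix
    have h1 : Pic0.mk (e₀ • (⟨E, hd⟩ : Divisor.degZero (K := k) (F := Ft))) = 0 := h0
    rw [mk_eq_zero_iff] at h1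
    obtain ⟨w, hw, hEw⟩ := mem_principal_iff_exists_divOf.mp h1
    have hEw' : e₀ • E = divOf k w := hEw
    obtain ⟨c, hc⟩ := eq_const_mul_pow_of_ord hFt (pow_ne_zero e₀ hg) hw m (fun Q => by
      have h2 := congrArg (fun D : Divisor k Ft => D Q) hEw'
      simp only [Finsupp.smul_apply, nsmul_eq_mul, divOf_apply] at h2
      rw [Place.ord_pow Q, hE Q, ← h2]
      ring)
    exact ⟨w, c, hc⟩
  exact ⟨hkill g₁ hg₁ E₁ hE₁ hd₁ hfix₁, hkill g₂ hg₂ E₂ hE₂ hd₂ hfix₂⟩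

end ResidueSide

/-! ### Residues for a constant reduction -/

section ConstRedResidue

variable {K F₀ k Ft₀ : Type*} [Field K] [Field F₀] [Algebra K F₀] [Field k] [Field Ft₀]
  [Algebra k Ft₀] {A : ValuationSubring K} {π : A →+* k}

/-- `g` is a residue of `f` for the constant reduction `C`: `g ≠ 0` is the reduction of a constant
multiple of `f` lying in `C.O`. -/
def IsRes (C : ConstRed (F := F₀) (Ft := Ft₀) A π) (f : F₀) (g : Ft₀) : Prop :=
  g ≠ 0 ∧ ∃ c : K, c ≠ 0 ∧ ∃ h : c • f ∈ C.O, C.res ⟨c • f, h⟩ = g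

variable {C : ConstRed (F := F₀) (Ft := Ft₀) A π}

theorem IsRes.ne_zero {f : F₀} {g : Ft₀} (h : IsRes C f g) : g ≠ 0 := h.1

theorem isRes_one : IsRes C 1 1 := by
  refine ⟨one_ne_zero, 1, one_ne_zero, ?_, ?_⟩
  · rw [one_smul]; exact C.O.one_mem
  · have : (⟨(1 : K) • (1 : F₀), by rw [one_smul]; exact C.O.one_mem⟩ : C.O) = 1 :=
      Subtype.ext (one_smul _ _)
    rw [this, map_one]

theorem IsRes.mul {f f' : F₀} {g g' : Ft₀} (h : IsRes C f g) (h' : IsRes C f' g') :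
    IsRes C (f * f') (g * g') := by
  obtain ⟨hg, c, hc, hm, hr⟩ := h
  obtain ⟨hg', c', hc', hm', hr'⟩ := h'
  have e : (c * c') • (f * f') = (c • f) * (c' • f') := by
    rw [smul_mul_smul_comm]
  refine ⟨mul_ne_zero hg hg', c * c', mul_ne_zero hc hc', ?_, ?_⟩
  · rw [e]; exact C.O.mul_mem _ _ hm hm'
  · have : (⟨(c * c') • (f * f'), by rw [e]; exact C.O.mul_mem _ _ hm hm'⟩ : C.O) =
        ⟨c • f, hm⟩ * ⟨c' • f', hm'⟩ := Subtype.ext e
    rw [this, map_mul, hr, hr']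

theorem IsRes.pow {f : F₀} {g : Ft₀} (h : IsRes C f g) (n : ℕ) : IsRes C (f ^ n) (g ^ n) := by
  induction n with
  | zero => simpa using isRes_one (C := C)
  | succ n ih => rw [pow_succ, pow_succ]; exact ih.mul h

/-- A residue of `f` is a residue of any nonzero constant multiple of `f`. -/
theorem IsRes.const_mul {f : F₀} {g : Ft₀} (h : IsRes C f g) {b : K} (hb : b ≠ 0) :
    IsRes C (algebraMap K F₀ b * f) g := by
  obtain ⟨hg, c, hc, hm, hr⟩ := h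
  have e : (c * b⁻¹) • (algebraMap K F₀ b * f) = c • f := by
    rw [Algebra.smul_def, Algebra.smul_def, map_mul, map_inv₀]
    have hb' : algebraMap K F₀ b ≠ 0 := (map_ne_zero _).mpr hb
    field_simp
  refine ⟨hg, c * b⁻¹, mul_ne_zero hc (inv_ne_zero hb), by rw [e]; exact hm, ?_⟩
  have : (⟨(c * b⁻¹) • (algebraMap K F₀ b * f), by rw [e]; exact hm⟩ : C.O) = ⟨c • f, hm⟩ :=
    Subtype.ext e
  rw [this, hr]

/-- Every nonzero function has a residue. -/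
theorem exists_isRes (C : ConstRed (F := F₀) (Ft := Ft₀) A π) {f : F₀} (hf : f ≠ 0) :
    ∃ g : Ft₀, IsRes C f g := by
  have hfV : f ∉ (⊥ : Submodule K F₀) := by
    rw [Submodule.mem_bot]; exact hf
  obtain ⟨w, hw, c, hc, h, hz⟩ := C.approx ⊥ inferInstance f hfV
  rw [Submodule.mem_bot] at hw
  subst hw
  have h' : c • f ∈ C.O := by simpa using h
  refine ⟨C.res ⟨c • f, h'⟩, ?_, c, hc, h', rfl⟩
  have h0 := hz 0 (by simp)
  rw [map_zero] at h0
  intro hzero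
  apply h0
  have : (⟨c • (f - 0), h⟩ : C.O) = ⟨c • f, h'⟩ := by
    apply Subtype.ext
    show c • (f - 0) = c • f
    rw [sub_zero]
  rw [this, hzero]

/-- Two residues of the same function differ by a constant. -/
theorem IsRes.unique {f : F₀} {g g' : Ft₀} (h : IsRes C f g) (h' : IsRes C f g') :
    ∃ a : k, g' = algebraMap k Ft₀ a * g := by
  obtain ⟨hg, c, hc, hm, hr⟩ := h
  obtain ⟨hg', c', hc', hm', hr'⟩ := h'
  -- `c • f` is a unit of `C.O`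
  have hu : IsUnit (⟨c • f, hm⟩ : C.O) := by
    by_contra hnu
    exact hg (hr ▸ (C.res_eq_zero_iff _).mpr hnu)
  obtain ⟨u, hu⟩ := hu
  have hf : f ≠ 0 := by
    rintro rfl
    apply hg
    rw [← hr]
    have : (⟨c • (0 : F₀), hm⟩ : C.O) = 0 := Subtype.ext (smul_zero c)
    rw [this, map_zero]
  have hcf : c • f ≠ 0 := smul_ne_zero hc hf
  -- the ratio `c' / c`
  have e : algebraMap K F₀ (c' * c⁻¹) * (c • f) = c' • f := by
    rw [Algebra.smul_def, Algebra.smul_def, map_mul, map_inv₀]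
    have hc0 : algebraMap K F₀ c ≠ 0 := (map_ne_zero _).mpr hc
    field_simp
  have hmem : algebraMap K F₀ (c' * c⁻¹) ∈ C.O := by
    have h1 : algebraMap K F₀ (c' * c⁻¹) = (c' • f) * (((u⁻¹ : C.Oˣ) : C.O) : F₀) := by
      have h2 : ((u : C.O) : F₀) * (((u⁻¹ : C.Oˣ) : C.O) : F₀) = 1 := by
        have h3 : ((u : C.O) * ((u⁻¹ : C.Oˣ) : C.O) : C.O) = 1 := u.mul_inv
        exact congrArg (Subtype.val : C.O → F₀) h3
      have h4 : ((u : C.O) : F₀) = c • f := congrArg Subtype.val hu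
      rw [h4] at h2
      rw [← e, mul_assoc, h2, mul_one]
    rw [h1]
    exact C.O.mul_mem _ _ hm' ((u⁻¹ : C.Oˣ) : C.O).2
  have hA : c' * c⁻¹ ∈ A := (C.algebraMap_mem_iff _).mp hmem
  refine ⟨π ⟨c' * c⁻¹, hA⟩, ?_⟩
  have h5 : (⟨c' • f, hm'⟩ : C.O) = ⟨algebraMap K F₀ (c' * c⁻¹), hmem⟩ * ⟨c • f, hm⟩ :=
    Subtype.ext e.symm
  rw [← hr', h5, map_mul, C.res_algebraMap _ hA hmem, hr]

end ConstRedResidue

/-! ### The function-field side -/

section Upper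

variable {K F F₀ : Type*} [Field K] [Field F] [Algebra K F] [Field F₀] [Algebra K F₀]
  [HasPrincipalDivisors K F₀] [HasPrincipalDivisors K F]

/-- If `m D = div f` and `φ_* [D] = 0` then `N_φ f = c · h ^ m`. -/
theorem exists_norm_eq_const_mul_pow (hF₀ : RiemannPkg K F₀) (φ : F₀ →ₐ[K] F)
    (hφ : φ.toRingHom.IsIntegral) (hfin : FiniteAlong K φ) (hN : NormFormulaAlong K φ hfin)
    {m : ℕ} {D : Divisor.degZero (K := K) (F := F)} {f : F} (hf : f ≠ 0)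
    (hD : ∀ P : Place K F, (m • (D : Divisor K F)) P = P.ord f)
    (h0 : PicFunct.pic0Push φ hφ hfin hN (Pic0.mk D) = 0) :
    ∃ (h : F₀) (c : K), h ≠ 0 ∧ c ≠ 0 ∧ normAlong φ f = algebraMap K F₀ c * h ^ m := by
  rw [PicFunct.pic0Push_mk, mk_eq_zero_iff, PicFunct.coe_degZeroPush] at h0
  obtain ⟨h, hh, hDh⟩ := mem_principal_iff_exists_divOf.mp h0
  have h1 : divOf K f = m • (D : Divisor K F) := divOf_eq_of_forall hD
  have h2 : divOf K (normAlong φ f) = divOf K (h ^ m) := by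
    rw [← pushforwardAlong_divOf φ hφ hfin hN hf, h1, map_nsmul, hDh, divOf_pow]
  have hNf : normAlong φ f ≠ 0 := normAlong_ne_zero φ hfin hf
  have hhm : h ^ m ≠ 0 := pow_ne_zero m hh
  obtain ⟨c, hc⟩ := exists_const_of_forall_ord_nonneg hF₀ (f := normAlong φ f / h ^ m)
    (fun Q => by
      have h3 := congrArg (fun E : Divisor K F₀ => E Q) h2
      simp only [divOf_apply] at h3
      rw [div_eq_mul_inv, Q.ord_mul hNf (inv_ne_zero hhm), Q.ord_inv, h3]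
      simp)
  have hc0 : c ≠ 0 := by
    rintro rfl
    rw [map_zero] at hc
    exact div_ne_zero hNf hhm hc
  exact ⟨h, c, hh, hc0, by rw [← hc, div_mul_cancel₀ _ hhm]⟩

end Upper

/-! ### The assembly -/

section Assembly

variable {K F F₀ k Ft₀ : Type*} [Field K] [Field F] [Algebra K F] [Field F₀] [Algebra K F₀]
  [Field k] [Field Ft₀] [Algebra k Ft₀] {A : ValuationSubring K} {π : A →+* k} {ν : Type*}

theorem isResidue_pow {ι : Type*} {Ft : ι → Type*} [∀ v, Field (Ft v)] [∀ v, Algebra k (Ft v)]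
    {S : SemistableSetup (F := F) A π ι Ft ν} {v : ι} {f : F} {g : Ft v}
    (h : Filt.IsResidue S v f g) (n : ℕ) : Filt.IsResidue S v (f ^ n) (g ^ n) := by
  induction n with
  | zero => simpa using Filt.isResidue_one (S := S) v
  | succ n ih => rw [pow_succ, pow_succ]; exact ih.mul h

theorem isRep_nsmul {m : ℕ} {x : Pic0 K F} {D : Divisor.degZero (K := K) (F := F)} {f : F}
    (h : Filt.IsRep m x D f) (n : ℕ) : Filt.IsRep m (n • x) (n • D) (f ^ n) := by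
  induction n with
  | zero => simpa using Filt.isRep_zero (K := K) (F := F) m
  | succ n ih => rw [succ_nsmul, succ_nsmul, pow_succ]; exact ih.add h

/-- The norm–residue relation extracted from `φ_* x = 0`: the product of residues prescribed by
`(NR)` is a constant times an `m`-th power. -/
theorem exists_residue_eq_const_mul_pow [HasPrincipalDivisors K F₀] [HasPrincipalDivisors K F]
    (C₀ : ConstRed (F := F₀) (Ft := Ft₀) A π) (hF₀ : RiemannPkg K F₀) (φ : F₀ →ₐ[K] F)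
    (hφ : φ.toRingHom.IsIntegral) (hfin : FiniteAlong K φ) (hN : NormFormulaAlong K φ hfin)
    {m : ℕ} {D : Divisor.degZero (K := K) (F := F)} {f : F} (hf : f ≠ 0)
    (hD : ∀ P : Place K F, (m • (D : Divisor K F)) P = P.ord f)
    (h0 : PicFunct.pic0Push φ hφ hfin hN (Pic0.mk D) = 0)
    {G : Ft₀} (hG : IsRes C₀ (normAlong φ f) G) :
    ∃ (u : Ft₀) (a : k), G = algebraMap k Ft₀ a * u ^ m := by
  obtain ⟨h, c, hh, hc, hNf⟩ := exists_norm_eq_const_mul_pow hF₀ φ hφ hfin hN hf hD h0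
  obtain ⟨u, hu⟩ := exists_isRes C₀ hh
  have h1 : IsRes C₀ (normAlong φ f) (u ^ m) := by
    rw [hNf]
    exact (hu.pow m).const_mul hc
  obtain ⟨a, ha⟩ := h1.unique hG
  exact ⟨u, a, ha⟩

/-- **(G5), abstract assembly.** -/
theorem smul_mem_torSub_of_push_eq_zero
    [HasPrincipalDivisors K F₀] [HasPrincipalDivisors K F]
    (S : SemistableSetup (F := F) A π (Fin 2) (fun _ => Ft₀) ν)
    (C₀ : ConstRed (F := F₀) (Ft := Ft₀) A π)
    (hF₀ : RiemannPkg K F₀) (hFt : RiemannPkg k Ft₀)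
    (φα φβ : F₀ →ₐ[K] F)
    (hφα : φα.toRingHom.IsIntegral) (hfinα : FiniteAlong K φα) (hNα : NormFormulaAlong K φα hfinα)
    (hφβ : φβ.toRingHom.IsIntegral) (hfinβ : FiniteAlong K φβ) (hNβ : NormFormulaAlong K φβ hfinβ)
    (σ₀ : SemilinearAut k Ft₀)
    (NRα : ∀ (f : F) (g₁ g₂ : Ft₀), Filt.IsResidue S 0 f g₁ → Filt.IsResidue S 1 f g₂ →
      IsRes C₀ (normAlong φα f) (g₁ * σ₀ • g₂))
    (NRβ : ∀ (f : F) (g₁ g₂ : Ft₀), Filt.IsResidue S 0 f g₁ → Filt.IsResidue S 1 f g₂ →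
      IsRes C₀ (normAlong φβ f) (σ₀ • g₁ * g₂))
    (e₀ : ℕ) (he₀ : ∀ c : Pic0 k Ft₀, (σ₀ ^ 2) • c = c → e₀ • c = 0)
    {m : ℕ} (hm : m ≠ 0) {x : Pic0 K F} (hx : x ∈ Filt.natSub S m)
    (hα : PicFunct.pic0Push φα hφα hfinα hNα x = 0)
    (hβ : PicFunct.pic0Push φβ hφβ hfinβ hNβ x = 0) :
    e₀ • x ∈ Filt.torSub S m := by
  obtain ⟨D, f, hR, hres⟩ := hx
  obtain ⟨hDx, hf, hD⟩ := id hR
  subst hDx
  obtain ⟨g₁, hg₁, E₁, hE₁⟩ := hres 0
  obtain ⟨g₂, hg₂, E₂, hE₂⟩ := hres 1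
  obtain ⟨u, a, hu⟩ := exists_residue_eq_const_mul_pow C₀ hF₀ φα hφα hfinα hNα hf hD hα
    (NRα f g₁ g₂ hg₁ hg₂)
  obtain ⟨u', a', hu'⟩ := exists_residue_eq_const_mul_pow C₀ hF₀ φβ hφβ hfinβ hNβ hf hD hβ
    (NRβ f g₁ g₂ hg₁ hg₂)
  obtain ⟨⟨w₁, c₁, h₁⟩, ⟨w₂, c₂, h₂⟩⟩ :=
    exists_pow_eq_of_residue_relations hFt σ₀ e₀ he₀ hm hg₁.ne_zero hg₂.ne_zero hE₁ hE₂ hu hu'
  refine ⟨e₀ • D, f ^ e₀, isRep_nsmul hR e₀, fun v => ?_⟩
  have hv : v = 0 ∨ v = 1 := by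
    fin_cases v
    · exact Or.inl rfl
    · exact Or.inr rfl
  rcases hv with rfl | rfl
  · exact ⟨g₁ ^ e₀, isResidue_pow hg₁ e₀, w₁, c₁, h₁⟩
  · exact ⟨g₂ ^ e₀, isResidue_pow hg₂ e₀, w₂, c₂, h₂⟩

/-- **(G5), endomorphism form** (for `Ealpha = α^* ∘ α_*`, `Ebeta = β^* ∘ β_*`): if
`α^* α_* x = 0 = β^* β_* x` then `(e₀ · deg α · deg β) • x` lies in the toric part. -/
theorem smul_mem_torSub_of_pull_push_eq_zero
    [HasPrincipalDivisors K F₀] [HasPrincipalDivisors K F]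
    (S : SemistableSetup (F := F) A π (Fin 2) (fun _ => Ft₀) ν)
    (C₀ : ConstRed (F := F₀) (Ft := Ft₀) A π)
    (hF₀ : RiemannPkg K F₀) (hFt : RiemannPkg k Ft₀)
    (φα φβ : F₀ →ₐ[K] F)
    (hφα : φα.toRingHom.IsIntegral) (hFIα : FundamentalIdentityAlong K φα hφα)
    (hfinα : FiniteAlong K φα) (hNα : NormFormulaAlong K φα hfinα)
    (hφβ : φβ.toRingHom.IsIntegral) (hFIβ : FundamentalIdentityAlong K φβ hφβ)
    (hfinβ : FiniteAlong K φβ) (hNβ : NormFormulaAlong K φβ hfinβ)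
    (σ₀ : SemilinearAut k Ft₀)
    (NRα : ∀ (f : F) (g₁ g₂ : Ft₀), Filt.IsResidue S 0 f g₁ → Filt.IsResidue S 1 f g₂ →
      IsRes C₀ (normAlong φα f) (g₁ * σ₀ • g₂))
    (NRβ : ∀ (f : F) (g₁ g₂ : Ft₀), Filt.IsResidue S 0 f g₁ → Filt.IsResidue S 1 f g₂ →
      IsRes C₀ (normAlong φβ f) (σ₀ • g₁ * g₂))
    (e₀ : ℕ) (he₀ : ∀ c : Pic0 k Ft₀, (σ₀ ^ 2) • c = c → e₀ • c = 0)
    {m : ℕ} (hm : m ≠ 0) {x : Pic0 K F} (hx : x ∈ Filt.natSub S m)
    (hα : PicFunct.pic0Pull φα hφα hFIα (PicFunct.pic0Push φα hφα hfinα hNα x) = 0)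
    (hβ : PicFunct.pic0Pull φβ hφβ hFIβ (PicFunct.pic0Push φβ hφβ hfinβ hNβ x) = 0) :
    (e₀ * (finrankAlong K φα * finrankAlong K φβ)) • x ∈ Filt.torSub S m := by
  have hα' : PicFunct.pic0Push φα hφα hfinα hNα (finrankAlong K φα • x) = 0 := by
    have h1 := congrArg (PicFunct.pic0Push φα hφα hfinα hNα) hα
    rwa [PicFunct.pic0Push_pic0Pull φα hφα hFIα hfinα hNα hF₀, map_zero, ← map_nsmul] at h1
  have hβ' : PicFunct.pic0Push φβ hφβ hfinβ hNβ (finrankAlong K φβ • x) = 0 := by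
    have h1 := congrArg (PicFunct.pic0Push φβ hφβ hfinβ hNβ) hβ
    rwa [PicFunct.pic0Push_pic0Pull φβ hφβ hFIβ hfinβ hNβ hF₀, map_zero, ← map_nsmul] at h1
  have hx' : (finrankAlong K φα * finrankAlong K φβ) • x ∈ Filt.natSub S m :=
    (Filt.natSub S m).nsmul_mem hx _
  have hα'' : PicFunct.pic0Push φα hφα hfinα hNα
      ((finrankAlong K φα * finrankAlong K φβ) • x) = 0 := by
    rw [mul_comm, mul_nsmul', map_nsmul, hα', smul_zero]
  have hβ'' : PicFunct.pic0Push φβ hφβ hfinβ hNβ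
      ((finrankAlong K φα * finrankAlong K φβ) • x) = 0 := by
    rw [mul_nsmul', map_nsmul, hβ', smul_zero]
  have := smul_mem_torSub_of_push_eq_zero S C₀ hF₀ hFt φα φβ hφα hfinα hNα hφβ hfinβ hNβ σ₀
    NRα NRβ e₀ he₀ hm hx' hα'' hβ''
  rwa [← mul_nsmul'] at this

end Assembly

end Fermat.Agent.BR2.G5
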