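import Mathlib
import Fermat.Agent.BR2.G5
import Fermat.Agent.BR.LevelTransfer
import Fermat.Agent.BR.S0.TwoCompInput
import Fermat.Agent.Val.Deliverable
import Fermat.Agent.Val.RiemannPkgBar

/-!
# Phase 2 (S35), node (G5), modular instance (plug)

`M` a level, `q ∤ M` a prime, `B` a valuation ring of `ℚ̄` over `q`, `k` its residue field,
`I` a two-component bundle on `Fb (M * q)` with both residue function fields
`Ft = modularFunctionFieldFullC k M` (Program B), `S := I.toSetup`.

`g5_modular` : from the norm–residue formulas `(NRα)`, `(NRβ)` for the two degeneracy maps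
`heckeAlphaBar`, `heckeBetaBar : Fb M → Fb (M * q)` (named hypotheses, node (NR-inst)) there is
`e₀ ≠ 0` such that for every `m ≠ 0` and `x ∈ Filt.natSub S m` with `α_* x = 0 = β_* x` the class
`e₀ • x` lies in `Filt.torSub S m`.  Here `α_* = LevelTransfer.alphaDown M q` and `β_*` is the
push-forward along `heckeBetaBar` (`= LevelMaps.betaDown M q` by `rfl`).

`e₀` is the exponent of the `Frob_{q²}`-fixed part of `Pic⁰(Ft)` (node (M3),
`FrobFixed.exists_exponent_fixed_pic0_modL`); it depends on `M`, `q`, `k` only.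
-/

set_option autoImplicit false
set_option synthInstance.maxHeartbeats 400000

noncomputable section

namespace Fermat.Agent.BR2.G5Modular

open AlgebraicCurve ModularCurve IsLocalRing Fermat.Agent.Red Fermat.Agent.X0 Fermat.Agent.Hecke
  Fermat.Agent.Jac Fermat.Agent.Val Fermat.Agent.BR Fermat.Agent.BR.SS Fermat.Agent.BR.S0

variable (M q : ℕ) [NeZero M] [hq : Fact q.Prime]
  (B : ValuationSubring (AlgebraicClosure ℚ)) [IsAlgClosed (ResidueField B)]
  [CharP (ResidueField B) q]
  (hB : B.LiesOverPrime q) (hqM : ¬ q ∣ M) {ν : Type*}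
  (I : TwoCompInput (F := Fb (M * q)) B (residue B)
    (modularFunctionFieldFullC (ResidueField B) M) ν)

/-- The coefficientwise Frobenius `σ̄₀` of the residue function field `F̃_M / k`. -/
abbrev sigma0 : SemilinearAut (ResidueField B) (modularFunctionFieldFullC (ResidueField B) M) :=
  frobAutFullC (ResidueField B) M q

/-- The named hypothesis `(NRα)`: residues `g₁, g₂` of `f` on the two components give the residue
`g₁ · σ̄₀ g₂` of `N_α f` at the level `M`. -/
def NRAlpha : Prop :=
  ∀ (f : Fb (M * q)) (g₁ g₂ : modularFunctionFieldFullC (ResidueField B) M),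
    Filt.IsResidue I.toSetup 0 f g₁ → Filt.IsResidue I.toSetup 1 f g₂ →
    G5.IsRes (constRedBar M hqM B hB) (normAlong (heckeAlphaBar Kb M q) f)
      (g₁ * sigma0 M q B • g₂)

/-- The named hypothesis `(NRβ)`: residues `g₁, g₂` of `f` on the two components give the residue
`σ̄₀ g₁ · g₂` of `N_β f` at the level `M`. -/
def NRBeta : Prop :=
  ∀ (f : Fb (M * q)) (g₁ g₂ : modularFunctionFieldFullC (ResidueField B) M),
    Filt.IsResidue I.toSetup 0 f g₁ → Filt.IsResidue I.toSetup 1 f g₂ →
    G5.IsRes (constRedBar M hqM B hB) (normAlong (heckeBetaBar Kb M q) f)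
      (sigma0 M q B • g₁ * g₂)

set_option maxHeartbeats 1000000 in
/-- **(G5), modular instance**, from the norm–residue formulas. -/
theorem g5_modular (NRα : NRAlpha M q B hB hqM I) (NRβ : NRBeta M q B hB hqM I) :
    ∃ e₀ : ℕ, e₀ ≠ 0 ∧ ∀ m : ℕ, m ≠ 0 → ∀ x ∈ Filt.natSub I.toSetup m,
      LevelTransfer.alphaDown M q x = 0 →
      PicFunct.pic0Push (heckeBetaBar Kb M q) (heckeBetaBarIntegral M q)
        (finiteAlong_heckeBetaBar M q) (normFormulaAlong_beta M q) x = 0 →
      e₀ • x ∈ Filt.torSub I.toSetup m := by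
  obtain ⟨e₀, he₀, hkill⟩ :=
    FrobFixed.exists_exponent_fixed_pic0_modL M (ResidueField B) hqM (r := 2) two_ne_zero
  refine ⟨e₀, he₀, fun m hm x hx hα hβ => ?_⟩
  exact G5.smul_mem_torSub_of_push_eq_zero I.toSetup (constRedBar M hqM B hB)
    (riemannPkg_bar M) (riemannPkg_modL_residueField M hqM B hB)
    (heckeAlphaBar Kb M q) (heckeBetaBar Kb M q)
    (heckeAlphaBarIntegral M q) (finiteAlong_heckeAlphaBar M q) (normFormulaAlong_alpha M q)
    (heckeBetaBarIntegral M q) (finiteAlong_heckeBetaBar M q) (normFormulaAlong_beta M q)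
    (sigma0 M q B) NRα NRβ e₀ hkill hm hx hα hβ

set_option maxHeartbeats 1000000 in
/-- **(G5), modular instance, correspondence form**: with `Eα = α^* α_*`, `Eβ = β^* β_*`. -/
theorem g5_modular_corr (NRα : NRAlpha M q B hB hqM I) (NRβ : NRBeta M q B hB hqM I) :
    ∃ e₀ : ℕ, e₀ ≠ 0 ∧ ∀ m : ℕ, m ≠ 0 → ∀ x ∈ Filt.natSub I.toSetup m,
      LevelTransfer.alphaUp M q (LevelTransfer.alphaDown M q x) = 0 →
      PicFunct.pic0Pull (heckeBetaBar Kb M q) (heckeBetaBarIntegral M q)
        (fundamentalIdentityAlong_beta M q)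
        (PicFunct.pic0Push (heckeBetaBar Kb M q) (heckeBetaBarIntegral M q)
          (finiteAlong_heckeBetaBar M q) (normFormulaAlong_beta M q) x) = 0 →
      e₀ • x ∈ Filt.torSub I.toSetup m := by
  obtain ⟨e₀, he₀, hkill⟩ :=
    FrobFixed.exists_exponent_fixed_pic0_modL M (ResidueField B) hqM (r := 2) two_ne_zero
  have hdα : finrankAlong Kb (heckeAlphaBar Kb M q) ≠ 0 := LevelTransfer.alphaDeg_ne_zero M q
  have hdβ : finrankAlong Kb (heckeBetaBar Kb M q) ≠ 0 := by
    let _ := algebraAlong (heckeBetaBar Kb M q)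
    have : Module.Finite (Fb M) (Fb (M * q)) := finiteAlong_heckeBetaBar M q
    exact (Module.finrank_pos (R := Fb M) (M := Fb (M * q))).ne'
  refine ⟨e₀ * (finrankAlong Kb (heckeAlphaBar Kb M q) * finrankAlong Kb (heckeBetaBar Kb M q)),
    Nat.mul_ne_zero he₀ (Nat.mul_ne_zero hdα hdβ), fun m hm x hx hα hβ => ?_⟩
  exact G5.smul_mem_torSub_of_pull_push_eq_zero I.toSetup (constRedBar M hqM B hB)
    (riemannPkg_bar M) (riemannPkg_modL_residueField M hqM B hB)
    (heckeAlphaBar Kb M q) (heckeBetaBar Kb M q)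
    (heckeAlphaBarIntegral M q) (fundamentalIdentityAlong_alpha M q)
    (finiteAlong_heckeAlphaBar M q) (normFormulaAlong_alpha M q)
    (heckeBetaBarIntegral M q) (fundamentalIdentityAlong_beta M q)
    (finiteAlong_heckeBetaBar M q) (normFormulaAlong_beta M q)
    (sigma0 M q B) NRα NRβ e₀ hkill hm hx hα hβ

end Fermat.Agent.BR2.G5Modular
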