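import Fermat.Agent.BR2.NormResidueGen
import Fermat.Agent.BR.TwoValInst
import Fermat.Agent.BR.Inst.SpecialIso
import Fermat.Agent.Hecke.FrobPlaces
import Fermat.Agent.Jac.CorrComm

/-!
# Phase 2 (S35, conjunct 2), node (NR-inst): the norm–residue formula for `X₀(Mq) → X₀(M)`

Instance of helper21's `BR2/NormResidue(Gen)` for `E = F̄_{Mq}` over `F = F̄_M` along
`α = heckeAlphaBar` and along `β = heckeBetaBar`, `O₀ = O_M` (Gauss valuation of level `M`, good
reduction), `O₁ = w₁`, `O₂ = w₂` (the two components), residue fields all equal to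
`F̃_M = modularFunctionFieldFullC k M`:

* along `α`: `res₁ ∘ α = res_M` (degree `1`), `res₂ ∘ α = φ ∘ res_M` (degree `q`, purely
  inseparable), `φ = qExpandFullC` the relative Frobenius `y ↦ y(s^q)`;
* along `β`: the mirror, by transport along the Atkin–Lehner involution `W_q`.

With `σ̄₀ = frobAutFullC k M q` (coefficientwise Frobenius, `φ (σ̄₀ y) = y ^ q`):

* `redMF_normAlong_alpha` : for `c₁ c₂ ∈ F̄_M^×` with `α(c₁) f ∈ O₁`, `α(c₂) f ∈ O₂`:
  `N_α f · c₁ c₂^q ∈ O_M` and `res_M (N_α f · c₁ c₂^q) = res₁ (α(c₁) f) · σ̄₀ (res₂ (α(c₂) f))`;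
* `redMF_normAlong_beta` : for `β(c₁) f ∈ O₂`, `β(c₂) f ∈ O₁`:
  `res_M (N_β f · c₁ c₂^q) = res₂ (β(c₁) f) · σ̄₀ (res₁ (β(c₂) f))`;
* the unit forms `redMF_normAlong_alpha_unit`, `redMF_normAlong_beta_unit` (`c₁ = c₂ = 1`);
* the structures: `resBase_redMF`, `resOver_red1F`, `resOver_red2F`.
-/

set_option autoImplicit false
set_option linter.unusedSectionVars false
set_option linter.style.haveILetI false

noncomputable section

set_option synthInstance.maxHeartbeats 400000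

namespace Fermat.Agent.BR2.NormResidueModular

open ModularCurve AlgebraicCurve Fermat.Agent.X0 Fermat.Agent.Val Fermat.Agent.BR.TwoVal
  Fermat.Agent.BR.ResGen Fermat.Agent.BR.TwoValInst Fermat.Agent.BR.Inst.SpecIso
  Fermat.Agent.Hecke Fermat.Agent.BR2.NormResidue Fermat.Agent.Jac

/-! ### the residue field of `w₂` as an algebra over that of `O_M` through the relative
Frobenius -/

/-- `F̃_M` as an algebra over itself through the relative Frobenius `y ↦ y(s^q)`. -/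
def FtTw (k : Type*) [Field k] (M q : ℕ) : Type _ := ↥(modularFunctionFieldFullC k M)

instance (k : Type*) [Field k] (M q : ℕ) : Field (FtTw k M q) :=
  inferInstanceAs (Field ↥(modularFunctionFieldFullC k M))

section Tw

variable (k : Type*) [Field k] (M q : ℕ) [NeZero M] [hq : Fact q.Prime] [CharP k q]
  [PerfectField k]

instance : Algebra ↥(modularFunctionFieldFullC k M) (FtTw k M q) :=
  (qExpandFullC k M q).toAlgebra

theorem algebraMap_FtTw (y : ↥(modularFunctionFieldFullC k M)) :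
    algebraMap ↥(modularFunctionFieldFullC k M) (FtTw k M q) y = qExpandFullC k M q y := rfl

/-- `φ (σ̄₀ y) = y ^ q` -/
theorem qExpandFullC_frobAut (y : ↥(modularFunctionFieldFullC k M)) :
    qExpandFullC k M q (frobAutFullC k M q • y) = y ^ q := by
  rw [qExpandFullC_eq, inv_smul_smul]

end Tw

variable {M q : ℕ} [NeZero M] [hq : Fact q.Prime]
variable (A : ValuationSubring Kb) (hA : A.LiesOverPrime q) (hqM : ¬ q ∣ M)

local notation "kA" => IsLocalRing.ResidueField A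

variable [CharP (IsLocalRing.ResidueField A) q] [PerfectField (IsLocalRing.ResidueField A)]

/-- `res₂` with values in the twisted copy of `F̃_M` -/
def red2Tw : O2 A hA hqM →+* FtTw kA M q := red2F A hA hqM

theorem red2Tw_apply (x : O2 A hA hqM) : red2Tw A hA hqM x = red2F A hA hqM x := rfl

/-! ### the three residue structures -/

theorem redMF_surjective : Function.Surjective (redMF A hA hqM) :=
  (constRedBar M hqM A hA).res_surjective

theorem resBase_redMF : ResBase (redMF A hA hqM) where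
  surj := redMF_surjective A hA hqM
  ker c := redMF_eq_zero_iff A hA hqM c

theorem resOver_red1F :
    letI := algebraAlong (heckeAlphaBar Kb M q)
    ResOver (redMF A hA hqM) (red1F A hA hqM) := by
  letI := algebraAlong (heckeAlphaBar Kb M q)
  refine ⟨fun y => ?_, fun z => red1F_eq_zero_iff A hA hqM z, fun c h => ?_⟩
  · obtain ⟨x, rfl⟩ := redMF_surjective A hA hqM y
    exact ⟨⟨heckeAlphaBar Kb M q x, (alpha_mem_O1_iff A hA (x : Fb M)).2 x.2⟩,
      red1F_alpha A hA hqM x x.2⟩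
  · exact red1F_alpha A hA hqM c c.2

theorem resOver_red2Tw :
    letI := algebraAlong (heckeAlphaBar Kb M q)
    ResOver (redMF A hA hqM) (red2Tw A hA hqM) := by
  letI := algebraAlong (heckeAlphaBar Kb M q)
  refine ⟨fun y => ?_, fun z => red2F_eq_zero_iff A hA hqM z, fun c h => ?_⟩
  · obtain ⟨x, hx⟩ := redMF_surjective A hA hqM y
    refine ⟨⟨heckeBetaBar Kb M q x, (beta_mem_O2_iff A hA hqM (x : Fb M)).2 x.2⟩, ?_⟩
    rw [red2Tw_apply, red2F_beta A hA hqM x x.2]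
    exact hx
  · rw [algebraMap_FtTw]
    apply Subtype.ext
    rw [coe_qExpandFullC, coe_redMF]
    exact res2_alpha A hA hqM c c.2

/-! ### the formula along `α` -/

/-- **the norm–residue formula along `α`** -/
theorem redMF_normAlong_alpha {c₁ c₂ : Fb M} (hc₁ : c₁ ≠ 0) (hc₂ : c₂ ≠ 0) {f : Fb (M * q)}
    (hf₁ : heckeAlphaBar Kb M q c₁ * f ∈ O1 M A hA)
    (hf₂ : heckeAlphaBar Kb M q c₂ * f ∈ O2 A hA hqM) :
    ∃ h : normAlong (heckeAlphaBar Kb M q) f * (c₁ * c₂ ^ q) ∈ OM M A hA,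
      redMF A hA hqM ⟨normAlong (heckeAlphaBar Kb M q) f * (c₁ * c₂ ^ q), h⟩ =
        red1F A hA hqM ⟨heckeAlphaBar Kb M q c₁ * f, hf₁⟩ *
          (frobAutFullC kA M q • red2F A hA hqM ⟨heckeAlphaBar Kb M q c₂ * f, hf₂⟩) := by
  letI := algebraAlong (heckeAlphaBar Kb M q)
  haveI : FiniteDimensional (Fb M) (Fb (M * q)) := finiteAlong_heckeAlphaBar M q
  haveI : ExpChar ↥(modularFunctionFieldFullC kA M) q :=
    haveI : CharP ↥(modularFunctionFieldFullC kA M) q :=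
      charP_of_injective_algebraMap (algebraMap kA ↥(modularFunctionFieldFullC kA M)).injective q
    ExpChar.prime hq.out
  have hf₁' : c₁ • f ∈ O1 M A hA := hf₁
  have hf₂' : c₂ • f ∈ O2 A hA hqM := hf₂
  obtain ⟨h, z₁, z₂, hz₁, hz₂, hres⟩ :=
    norm_residue_gen_insep (res₀ := redMF A hA hqM) (res₁ := red1F A hA hqM)
      (res₂ := red2Tw A hA hqM) (twoValFull A hA hqM) (resBase_redMF A hA hqM)
      (resOver_red1F A hA hqM) (resOver_red2Tw A hA hqM) Fintype.card_unit q 1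
      (fun y => ⟨frobAutFullC kA M q • (show ↥(modularFunctionFieldFullC kA M) from y), by
        rw [algebraMap_FtTw, qExpandFullC_frobAut, pow_one]
        rfl⟩) hc₁ hc₂ hf₁' hf₂'
  have e : Fintype.card (Fin q) = q := Fintype.card_fin q
  have hmem : normAlong (heckeAlphaBar Kb M q) f * (c₁ * c₂ ^ q) ∈ OM M A hA := by
    have h' := h
    rw [e] at h'
    exact h'
  refine ⟨hmem, ?_⟩
  have e2 : (⟨normAlong (heckeAlphaBar Kb M q) f * (c₁ * c₂ ^ q), hmem⟩ : OM M A hA) =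
      ⟨Algebra.norm (Fb M) f * (c₁ * c₂ ^ Fintype.card (Fin q)), h⟩ := by
    apply Subtype.ext
    show normAlong (heckeAlphaBar Kb M q) f * (c₁ * c₂ ^ q) =
      Algebra.norm (Fb M) f * (c₁ * c₂ ^ Fintype.card (Fin q))
    rw [e]
    rfl
  rw [e2, hres]
  have hz₁' : z₁ = red1F A hA hqM ⟨heckeAlphaBar Kb M q c₁ * f, hf₁⟩ := hz₁
  rw [hz₁']
  congr 1
  apply (qExpandFullC kA M q).injective
  rw [qExpandFullC_frobAut]
  rw [e] at hz₂
  exact hz₂

/-- transport of a residue along an equality of elements -/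
theorem res_congr {E T : Type*} [Field E] [Ring T] {O : ValuationSubring E} (res : O →+* T)
    {x y : E} (hx : x ∈ O) (hy : y ∈ O) (h : x = y) : res ⟨x, hx⟩ = res ⟨y, hy⟩ := by
  subst h
  rfl

/-- the unit form along `α` -/
theorem redMF_normAlong_alpha_unit {f : Fb (M * q)} (hf₁ : f ∈ O1 M A hA)
    (hf₂ : f ∈ O2 A hA hqM) :
    ∃ h : normAlong (heckeAlphaBar Kb M q) f ∈ OM M A hA,
      redMF A hA hqM ⟨normAlong (heckeAlphaBar Kb M q) f, h⟩ =
        red1F A hA hqM ⟨f, hf₁⟩ * (frobAutFullC kA M q • red2F A hA hqM ⟨f, hf₂⟩) := by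
  have hα1 : heckeAlphaBar Kb M q (1 : Fb M) = 1 := map_one (heckeAlphaBar Kb M q)
  have e1 : heckeAlphaBar Kb M q 1 * f = f := by rw [hα1, one_mul]
  have h1 : heckeAlphaBar Kb M q 1 * f ∈ O1 M A hA := by rw [e1]; exact hf₁
  have h2 : heckeAlphaBar Kb M q 1 * f ∈ O2 A hA hqM := by rw [e1]; exact hf₂
  obtain ⟨h, e⟩ := redMF_normAlong_alpha A hA hqM (one_ne_zero (α := Fb M))
    (one_ne_zero (α := Fb M)) h1 h2
  have e0 : normAlong (heckeAlphaBar Kb M q) f * ((1 : Fb M) * 1 ^ q) =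
      normAlong (heckeAlphaBar Kb M q) f := by rw [one_pow, mul_one, mul_one]
  have hmem : normAlong (heckeAlphaBar Kb M q) f ∈ OM M A hA := by rw [← e0]; exact h
  refine ⟨hmem, ?_⟩
  rw [res_congr (redMF A hA hqM) hmem h e0.symm, res_congr (red1F A hA hqM) hf₁ h1 e1.symm,
    res_congr (red2F A hA hqM) hf₂ h2 e1.symm]
  exact e

/-- the form with constant normalisations along `α` (the shape of `Filt.IsResidue`) -/
theorem redMF_normAlong_alpha_const {a₁ a₂ : Kb} (ha₁ : a₁ ≠ 0) (ha₂ : a₂ ≠ 0)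
    {f : Fb (M * q)} (hf₁ : a₁ • f ∈ O1 M A hA) (hf₂ : a₂ • f ∈ O2 A hA hqM) :
    ∃ h : (a₁ * a₂ ^ q) • normAlong (heckeAlphaBar Kb M q) f ∈ OM M A hA,
      redMF A hA hqM ⟨(a₁ * a₂ ^ q) • normAlong (heckeAlphaBar Kb M q) f, h⟩ =
        red1F A hA hqM ⟨a₁ • f, hf₁⟩ * (frobAutFullC kA M q • red2F A hA hqM ⟨a₂ • f, hf₂⟩) := by
  have hα : ∀ a : Kb, heckeAlphaBar Kb M q (algebraMap Kb (Fb M) a) =
      algebraMap Kb (Fb (M * q)) a := fun a => (heckeAlphaBar Kb M q).commutes a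
  have e1 : heckeAlphaBar Kb M q (algebraMap Kb (Fb M) a₁) * f = a₁ • f := by
    rw [hα, Algebra.smul_def]
  have e2 : heckeAlphaBar Kb M q (algebraMap Kb (Fb M) a₂) * f = a₂ • f := by
    rw [hα, Algebra.smul_def]
  have h1 : heckeAlphaBar Kb M q (algebraMap Kb (Fb M) a₁) * f ∈ O1 M A hA := by
    rw [e1]; exact hf₁
  have h2 : heckeAlphaBar Kb M q (algebraMap Kb (Fb M) a₂) * f ∈ O2 A hA hqM := by
    rw [e2]; exact hf₂
  have hc₁ : algebraMap Kb (Fb M) a₁ ≠ 0 := (_root_.map_ne_zero _).mpr ha₁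
  have hc₂ : algebraMap Kb (Fb M) a₂ ≠ 0 := (_root_.map_ne_zero _).mpr ha₂
  obtain ⟨h, e⟩ := redMF_normAlong_alpha A hA hqM hc₁ hc₂ h1 h2
  have e0 : normAlong (heckeAlphaBar Kb M q) f *
      (algebraMap Kb (Fb M) a₁ * algebraMap Kb (Fb M) a₂ ^ q) =
      (a₁ * a₂ ^ q) • normAlong (heckeAlphaBar Kb M q) f := by
    rw [Algebra.smul_def, map_mul, map_pow, mul_comm]
  have hmem : (a₁ * a₂ ^ q) • normAlong (heckeAlphaBar Kb M q) f ∈ OM M A hA := by
    rw [← e0]; exact h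
  refine ⟨hmem, ?_⟩
  rw [res_congr (redMF A hA hqM) hmem h e0.symm, res_congr (red1F A hA hqM) hf₁ h1 e1.symm,
    res_congr (red2F A hA hqM) hf₂ h2 e2.symm]
  exact e

/-! ### the formula along `β`, by transport along `W_q` -/

/-- `N_β f = N_α (W_q f)` -/
theorem normAlong_beta_eq (f : Fb (M * q)) :
    normAlong (heckeBetaBar Kb M q) f = normAlong (heckeAlphaBar Kb M q) (Wq hqM f) := by
  have h := @Algebra.norm_eq_of_equiv_equiv (Fb M) (Fb (M * q)) (Fb M) (Fb (M * q)) _ _ _ _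
    (algebraAlong (heckeBetaBar Kb M q)) (algebraAlong (heckeAlphaBar Kb M q))
    (RingEquiv.refl (Fb M)) (Wq hqM).toRingEquiv
    (RingHom.ext fun x => (Wq_beta hqM x).symm) f
  exact h

/-- **the norm–residue formula along `β`** -/
theorem redMF_normAlong_beta {c₁ c₂ : Fb M} (hc₁ : c₁ ≠ 0) (hc₂ : c₂ ≠ 0) {f : Fb (M * q)}
    (hf₁ : heckeBetaBar Kb M q c₁ * f ∈ O2 A hA hqM)
    (hf₂ : heckeBetaBar Kb M q c₂ * f ∈ O1 M A hA) :
    ∃ h : normAlong (heckeBetaBar Kb M q) f * (c₁ * c₂ ^ q) ∈ OM M A hA,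
      redMF A hA hqM ⟨normAlong (heckeBetaBar Kb M q) f * (c₁ * c₂ ^ q), h⟩ =
        red2F A hA hqM ⟨heckeBetaBar Kb M q c₁ * f, hf₁⟩ *
          (frobAutFullC kA M q • red1F A hA hqM ⟨heckeBetaBar Kb M q c₂ * f, hf₂⟩) := by
  have e1 : Wq hqM (heckeBetaBar Kb M q c₁ * f) = heckeAlphaBar Kb M q c₁ * Wq hqM f := by
    rw [map_mul, Wq_beta]
  have e2 : Wq hqM (heckeAlphaBar Kb M q c₂ * Wq hqM f) = heckeBetaBar Kb M q c₂ * f := by
    rw [map_mul, Wq_alpha, Wq_Wq]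
  have h1 : heckeAlphaBar Kb M q c₁ * Wq hqM f ∈ O1 M A hA := by
    rw [← e1]; exact (mem_O2_iff A hA hqM).1 hf₁
  have h2 : heckeAlphaBar Kb M q c₂ * Wq hqM f ∈ O2 A hA hqM := by
    rw [mem_O2_iff, e2]; exact hf₂
  obtain ⟨h, e⟩ := redMF_normAlong_alpha A hA hqM hc₁ hc₂ h1 h2
  have e0 : normAlong (heckeBetaBar Kb M q) f * (c₁ * c₂ ^ q) =
      normAlong (heckeAlphaBar Kb M q) (Wq hqM f) * (c₁ * c₂ ^ q) := by
    rw [normAlong_beta_eq hqM]
  have hmem : normAlong (heckeBetaBar Kb M q) f * (c₁ * c₂ ^ q) ∈ OM M A hA := by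
    rw [e0]; exact h
  refine ⟨hmem, ?_⟩
  have e4 : red2F A hA hqM ⟨heckeBetaBar Kb M q c₁ * f, hf₁⟩ =
      red1F A hA hqM ⟨heckeAlphaBar Kb M q c₁ * Wq hqM f, h1⟩ := by
    rw [red2F_apply]
    exact res_congr (red1F A hA hqM) _ h1 e1
  have e5 : red1F A hA hqM ⟨heckeBetaBar Kb M q c₂ * f, hf₂⟩ =
      red2F A hA hqM ⟨heckeAlphaBar Kb M q c₂ * Wq hqM f, h2⟩ := by
    rw [red2F_apply]
    exact res_congr (red1F A hA hqM) hf₂ _ e2.symm
  rw [res_congr (redMF A hA hqM) hmem h e0, e4, e5]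
  exact e

/-- the unit form along `β` -/
theorem redMF_normAlong_beta_unit {f : Fb (M * q)} (hf₁ : f ∈ O1 M A hA)
    (hf₂ : f ∈ O2 A hA hqM) :
    ∃ h : normAlong (heckeBetaBar Kb M q) f ∈ OM M A hA,
      redMF A hA hqM ⟨normAlong (heckeBetaBar Kb M q) f, h⟩ =
        red2F A hA hqM ⟨f, hf₂⟩ * (frobAutFullC kA M q • red1F A hA hqM ⟨f, hf₁⟩) := by
  have hβ1 : heckeBetaBar Kb M q (1 : Fb M) = 1 := map_one (heckeBetaBar Kb M q)
  have e1 : heckeBetaBar Kb M q 1 * f = f := by rw [hβ1, one_mul]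
  have h1 : heckeBetaBar Kb M q 1 * f ∈ O2 A hA hqM := by rw [e1]; exact hf₂
  have h2 : heckeBetaBar Kb M q 1 * f ∈ O1 M A hA := by rw [e1]; exact hf₁
  obtain ⟨h, e⟩ := redMF_normAlong_beta A hA hqM (one_ne_zero (α := Fb M))
    (one_ne_zero (α := Fb M)) h1 h2
  have e0 : normAlong (heckeBetaBar Kb M q) f * ((1 : Fb M) * 1 ^ q) =
      normAlong (heckeBetaBar Kb M q) f := by rw [one_pow, mul_one, mul_one]
  have hmem : normAlong (heckeBetaBar Kb M q) f ∈ OM M A hA := by rw [← e0]; exact h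
  refine ⟨hmem, ?_⟩
  rw [res_congr (redMF A hA hqM) hmem h e0.symm, res_congr (red2F A hA hqM) hf₂ h1 e1.symm,
    res_congr (red1F A hA hqM) hf₁ h2 e1.symm]
  exact e

/-- the form with constant normalisations along `β` -/
theorem redMF_normAlong_beta_const {a₁ a₂ : Kb} (ha₁ : a₁ ≠ 0) (ha₂ : a₂ ≠ 0)
    {f : Fb (M * q)} (hf₁ : a₁ • f ∈ O2 A hA hqM) (hf₂ : a₂ • f ∈ O1 M A hA) :
    ∃ h : (a₁ * a₂ ^ q) • normAlong (heckeBetaBar Kb M q) f ∈ OM M A hA,
      redMF A hA hqM ⟨(a₁ * a₂ ^ q) • normAlong (heckeBetaBar Kb M q) f, h⟩ =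
        red2F A hA hqM ⟨a₁ • f, hf₁⟩ * (frobAutFullC kA M q • red1F A hA hqM ⟨a₂ • f, hf₂⟩) := by
  have hβ : ∀ a : Kb, heckeBetaBar Kb M q (algebraMap Kb (Fb M) a) =
      algebraMap Kb (Fb (M * q)) a := fun a => (heckeBetaBar Kb M q).commutes a
  have e1 : heckeBetaBar Kb M q (algebraMap Kb (Fb M) a₁) * f = a₁ • f := by
    rw [hβ, Algebra.smul_def]
  have e2 : heckeBetaBar Kb M q (algebraMap Kb (Fb M) a₂) * f = a₂ • f := by
    rw [hβ, Algebra.smul_def]
  have h1 : heckeBetaBar Kb M q (algebraMap Kb (Fb M) a₁) * f ∈ O2 A hA hqM := by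
    rw [e1]; exact hf₁
  have h2 : heckeBetaBar Kb M q (algebraMap Kb (Fb M) a₂) * f ∈ O1 M A hA := by
    rw [e2]; exact hf₂
  have hc₁ : algebraMap Kb (Fb M) a₁ ≠ 0 := (_root_.map_ne_zero _).mpr ha₁
  have hc₂ : algebraMap Kb (Fb M) a₂ ≠ 0 := (_root_.map_ne_zero _).mpr ha₂
  obtain ⟨h, e⟩ := redMF_normAlong_beta A hA hqM hc₁ hc₂ h1 h2
  have e0 : normAlong (heckeBetaBar Kb M q) f *
      (algebraMap Kb (Fb M) a₁ * algebraMap Kb (Fb M) a₂ ^ q) =
      (a₁ * a₂ ^ q) • normAlong (heckeBetaBar Kb M q) f := by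
    rw [Algebra.smul_def, map_mul, map_pow, mul_comm]
  have hmem : (a₁ * a₂ ^ q) • normAlong (heckeBetaBar Kb M q) f ∈ OM M A hA := by
    rw [← e0]; exact h
  refine ⟨hmem, ?_⟩
  rw [res_congr (redMF A hA hqM) hmem h e0.symm, res_congr (red2F A hA hqM) hf₁ h1 e1.symm,
    res_congr (red1F A hA hqM) hf₂ h2 e2.symm]
  exact e

end Fermat.Agent.BR2.NormResidueModular
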