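import Mathlib
import Fermat.Agent.BR2.G5Modular
import Fermat.Agent.BR2.NormResidueModular
import Fermat.Agent.BR2.LevelSquares
import Fermat.Agent.BR.S0.RedModularInst

/-!
# Phase 2 (S35), node (G5), modular instance, FINAL form (no named input)

`M` a level, `q ∤ M` a prime, `B` a valuation ring of `ℚ̄` over `q`, `k` its residue field
(algebraically closed), `I` a two-component bundle on `Fb (M * q)` whose two constant reductions
are the two components of the model of `X₀(qM)` at `q`: `hC : I.C = compW B hB hqM`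
(`compW = ![constRedW1, constRedW2]`, Program B).

* `nrAlpha_of_compW`, `nrBeta_of_compW` : the two named hypotheses `G5Modular.NRAlpha`,
  `G5Modular.NRBeta` of `G5Modular.g5_modular` hold — adapter from helper11's
  `NormResidueModular.redMF_normAlong_alpha_const / _beta_const` (node (NR-inst)) to the
  `Filt.IsResidue` / `G5.IsRes` shapes;
* `g5_modular_push` : `G5Modular.g5_modular` without hypotheses (`α_* x = 0 = β_* x` form);
* `g5_modular_final` : there is `e₀ ≠ 0` such that for every `m ≠ 0` and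
  `x ∈ Filt.natSub I.toSetup m` with `Ealpha M q x = 0 = Ebeta M q x` (helper13's
  `LevelSquares.Ealpha = α^* α_*`, `Ebeta = β^* β_*`) the class `e₀ • x` lies in
  `Filt.torSub I.toSetup m` — hypothesis `G5` of `GeoPlug.geoInputSpan_of_nodes` with
  `nat m := Filt.natSub I.toSetup (lam ^ m)`, `tor m := Filt.torSub I.toSetup (lam ^ m)`.
-/

set_option autoImplicit false
set_option linter.unusedSectionVars false
set_option synthInstance.maxHeartbeats 400000

noncomputable section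

namespace Fermat.Agent.BR2.G5ModularFinal

open AlgebraicCurve ModularCurve IsLocalRing Fermat.Agent.Red Fermat.Agent.X0 Fermat.Agent.Hecke
  Fermat.Agent.Jac Fermat.Agent.Val Fermat.Agent.BR Fermat.Agent.BR.SS Fermat.Agent.BR.S0
  Fermat.Agent.BR.TwoVal Fermat.Agent.BR.TwoValInst Fermat.Agent.BR.ConstRedTwo
  Fermat.Agent.BR.Inst.SpecIso Fermat.Agent.BR2.NormResidueModular
  Fermat.Agent.BR.S0.RedModular

/-- transport of a residue statement along an equality of constant reductions -/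
theorem exists_res_of_eq {K F k Ft : Type*} [Field K] [Field F] [Algebra K F] [Field k]
    [Field Ft] [Algebra k Ft] {A : ValuationSubring K} {π : A →+* k}
    {C C' : ConstRed (F := F) (Ft := Ft) A π} (h : C = C') {x : F} {g : Ft}
    (hx : ∃ hm : x ∈ C.O, C.res ⟨x, hm⟩ = g) : ∃ hm : x ∈ C'.O, C'.res ⟨x, hm⟩ = g := by
  subst h
  exact hx

variable (M q : ℕ) [NeZero M] [hq : Fact q.Prime]
  (B : ValuationSubring (AlgebraicClosure ℚ)) [IsAlgClosed (ResidueField B)]
  [CharP (ResidueField B) q]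
  (hB : B.LiesOverPrime q) (hqM : ¬ q ∣ M) {ν : Type*}
  (I : TwoCompInput (F := Fb (M * q)) B (residue B)
    (modularFunctionFieldFullC (ResidueField B) M) ν)

/-- the residue map of `constRedW1` is `red1F` -/
theorem constRedW1_res_eq (x : O1 M B hB) :
    (constRedW1 B hB hqM).res x = red1F B hB hqM x :=
  Subtype.ext ((coe_constRedW1_res B hB hqM x).trans (coe_red1F B hB hqM x).symm)

/-- the residue map of `constRedW2` is `red2F` -/
theorem constRedW2_res_eq (x : O2 B hB hqM) :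
    (constRedW2 B hB hqM).res x = red2F B hB hqM x :=
  Subtype.ext ((coe_constRedW2_res B hB hqM x).trans (coe_red2F B hB hqM x).symm)

variable {M q B hB hqM I}

/-- a residue on the component `0` is a value of `red1F` -/
theorem exists_red1F_of_isResidue (hC : I.C = compW B hB hqM) {f : Fb (M * q)}
    {g : modularFunctionFieldFullC (ResidueField B) M} (h : Filt.IsResidue I.toSetup 0 f g) :
    g ≠ 0 ∧ ∃ c : Kb, c ≠ 0 ∧ ∃ hm : c • f ∈ O1 M B hB, red1F B hB hqM ⟨c • f, hm⟩ = g := by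
  obtain ⟨hg, c, hc, hres⟩ := h
  have h0 : I.C 0 = constRedW1 B hB hqM := congrFun hC 0
  obtain ⟨hm, e⟩ := exists_res_of_eq h0 hres
  exact ⟨hg, c, hc, hm, (constRedW1_res_eq M q B hB hqM ⟨c • f, hm⟩).symm.trans e⟩

/-- a residue on the component `1` is a value of `red2F` -/
theorem exists_red2F_of_isResidue (hC : I.C = compW B hB hqM) {f : Fb (M * q)}
    {g : modularFunctionFieldFullC (ResidueField B) M} (h : Filt.IsResidue I.toSetup 1 f g) :
    g ≠ 0 ∧ ∃ c : Kb, c ≠ 0 ∧ ∃ hm : c • f ∈ O2 B hB hqM, red2F B hB hqM ⟨c • f, hm⟩ = g := by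
  obtain ⟨hg, c, hc, hres⟩ := h
  have h1 : I.C 1 = constRedW2 B hB hqM := congrFun hC 1
  obtain ⟨hm, e⟩ := exists_res_of_eq h1 hres
  exact ⟨hg, c, hc, hm, (constRedW2_res_eq M q B hB hqM ⟨c • f, hm⟩).symm.trans e⟩

variable (M q B hB hqM I)

set_option maxHeartbeats 1000000 in
/-- **`(NRα)` holds** for the two components of the model of `X₀(qM)` at `q`. -/
theorem nrAlpha_of_compW (hC : I.C = compW B hB hqM) : G5Modular.NRAlpha M q B hB hqM I := by
  intro f g₁ g₂ h₁ h₂
  obtain ⟨hg₁, c₁, hc₁, hm₁, e₁⟩ := exists_red1F_of_isResidue hC h₁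
  obtain ⟨hg₂, c₂, hc₂, hm₂, e₂⟩ := exists_red2F_of_isResidue hC h₂
  obtain ⟨hm, e⟩ := redMF_normAlong_alpha_const B hB hqM hc₁ hc₂ hm₁ hm₂
  subst e₁ e₂
  have hne : G5Modular.sigma0 M q B • red2F B hB hqM ⟨c₂ • f, hm₂⟩ ≠ 0 :=
    (smul_ne_zero_iff_ne _).2 hg₂
  exact ⟨mul_ne_zero hg₁ hne, c₁ * c₂ ^ q, mul_ne_zero hc₁ (pow_ne_zero _ hc₂), hm, e⟩

set_option maxHeartbeats 1000000 in
/-- **`(NRβ)` holds** for the two components of the model of `X₀(qM)` at `q`. -/
theorem nrBeta_of_compW (hC : I.C = compW B hB hqM) : G5Modular.NRBeta M q B hB hqM I := by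
  intro f g₁ g₂ h₁ h₂
  obtain ⟨hg₁, c₁, hc₁, hm₁, e₁⟩ := exists_red1F_of_isResidue hC h₁
  obtain ⟨hg₂, c₂, hc₂, hm₂, e₂⟩ := exists_red2F_of_isResidue hC h₂
  obtain ⟨hm, e⟩ := redMF_normAlong_beta_const B hB hqM hc₂ hc₁ hm₂ hm₁
  subst e₁ e₂
  have hne : G5Modular.sigma0 M q B • red1F B hB hqM ⟨c₁ • f, hm₁⟩ ≠ 0 :=
    (smul_ne_zero_iff_ne _).2 hg₁
  exact ⟨mul_ne_zero hne hg₂, c₂ * c₁ ^ q, mul_ne_zero hc₂ (pow_ne_zero _ hc₁), hm,
    e.trans (mul_comm _ _)⟩

/-- **(G5), modular instance, push-forward form**, no named input. -/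
theorem g5_modular_push (hC : I.C = compW B hB hqM) :
    ∃ e₀ : ℕ, e₀ ≠ 0 ∧ ∀ m : ℕ, m ≠ 0 → ∀ x ∈ Filt.natSub I.toSetup m,
      LevelTransfer.alphaDown M q x = 0 → BR2.LevelMaps.betaDown M q x = 0 →
      e₀ • x ∈ Filt.torSub I.toSetup m :=
  G5Modular.g5_modular M q B hB hqM I (nrAlpha_of_compW M q B hB hqM I hC)
    (nrBeta_of_compW M q B hB hqM I hC)

/-- **(G5), modular instance, FINAL**: hypothesis `G5` of `GeoPlug.geoInputSpan_of_nodes`. -/
theorem g5_modular_final (hC : I.C = compW B hB hqM) :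
    ∃ e₀ : ℕ, e₀ ≠ 0 ∧ ∀ m : ℕ, m ≠ 0 → ∀ x ∈ Filt.natSub I.toSetup m,
      BR2.LevelSquares.Ealpha M q x = 0 → BR2.LevelSquares.Ebeta M q x = 0 →
      e₀ • x ∈ Filt.torSub I.toSetup m :=
  G5Modular.g5_modular_corr M q B hB hqM I (nrAlpha_of_compW M q B hB hqM I hC)
    (nrBeta_of_compW M q B hB hqM I hC)

end Fermat.Agent.BR2.G5ModularFinal
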