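import Fermat.Agent.BR2.FrobSquare

/-!
# Phase 2 (S35), node (GEO), abstract assembly over two levels

`X'` = the Jacobian of the level of interest `M = M₀ q`, `X` = the Jacobian of the auxiliary level
`N = M₀ ℓ' q` on which the geometry (Program B) lives, `pull = π^*`, `push = π_*`,
`push ∘ pull = d`.  `s, s'` a Frobenius lift at `q`, `y, y'` the Hecke operator `T_ℓ`, `PN, P'` the
Hecke operator killing the level `M₀`, `Eα, Eβ` (resp. `Eα', Eβ'`) the degeneracy correspondences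
`α^* α_*`, `β^* β_*` at level `N` (resp. `M`), everything compatible with `pull` / `push`.

* `G5_of_down` : the form of (G5) for the correspondences `up ∘ down` from the form for the
  push-forwards `down` (`down ∘ up = c`, `c = q + 1`);
* `kill_of_levels` : `FrobSquare.kill_of_filtration` on `W := pull(W')` followed by
  `FrobSquare.kill_of_pullback`: if `s'² - y' s' + q = 0` on `W'`, `Eα' (P' x) = Eβ' (P' x) = 0`
  on `W'` and (G3), (G4), (G5) hold at level `N`, then `(d e₀) • b'(b'(P' x')) = 0` on `W'`,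
  `b' = y'² - (1+q)²`.
-/

set_option autoImplicit false

namespace Fermat.Agent.BR2.GeoAbstract

open Fermat.Agent.BR2.FrobSquare

variable {X X' X₀ : Type*} [AddCommGroup X] [AddCommGroup X'] [AddCommGroup X₀]

/-- (G5) for the correspondences `ua ∘ a`, `ub ∘ b` from (G5) for the push-forwards `a`, `b`. -/
theorem G5_of_down (a b : X →+ X₀) (ua ub : X₀ →+ X) (c e₀ : ℕ)
    (hua : ∀ z, a (ua z) = c • z) (hub : ∀ z, b (ub z) = c • z)
    (W nat tor : AddSubgroup X)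
    (G5 : ∀ v ∈ nat, v ∈ W → a v = 0 → b v = 0 → e₀ • v ∈ tor) :
    ∀ v ∈ nat, v ∈ W → ua (a v) = 0 → ub (b v) = 0 → (e₀ * c) • v ∈ tor := by
  intro v hv hvW ha hb
  have h1 : a (c • v) = 0 := by
    rw [map_nsmul, ← hua, ha, map_zero]
  have h2 : b (c • v) = 0 := by
    rw [map_nsmul, ← hub, hb, map_zero]
  have h3 := G5 (c • v) (nat.nsmul_mem hv c) (W.nsmul_mem hvW c) h1 h2
  rwa [← mul_nsmul, mul_comm] at h3

/-- **The abstract two-level assembly.** -/
theorem kill_of_levels (s y PN Eα Eβ : Module.End ℤ X) (s' y' P' Eα' Eβ' : Module.End ℤ X')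
    (q : ℤ) (e₀ d : ℕ) (pull : X' →+ X) (push : X →+ X')
    (hpp : ∀ x', push (pull x') = d • x')
    (hs_inj : Function.Injective s)
    (hps : ∀ x', pull (s' x') = s (pull x')) (hpy : ∀ x', pull (y' x') = y (pull x'))
    (hpP : ∀ x', pull (P' x') = PN (pull x'))
    (hpα : ∀ x', Eα (pull x') = pull (Eα' x')) (hpβ : ∀ x', Eβ (pull x') = pull (Eβ' x'))
    (hy : ∀ x, push (y x) = y' (push x)) (hP : ∀ x, push (PN x) = P' (push x))
    (hsy : ∀ x, s (y x) = y (s x))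
    (hαs : ∀ x, Eα (s x) = s (Eα x)) (hβs : ∀ x, Eβ (s x) = s (Eβ x))
    (W' : AddSubgroup X')
    (hsW' : ∀ x ∈ W', s' x ∈ W') (hyW' : ∀ x ∈ W', y' x ∈ W') (hPW' : ∀ x ∈ W', P' x ∈ W')
    (hrel' : ∀ x ∈ W', s' (s' x) - y' (s' x) + q • x = 0)
    (hαP' : ∀ x ∈ W', Eα' (P' x) = 0) (hβP' : ∀ x ∈ W', Eβ' (P' x) = 0)
    (nat tor : AddSubgroup X)
    (G3 : ∀ w ∈ W'.map pull, s (s w) - w ∈ nat)
    (G4 : ∀ v ∈ tor, theta s q v = 0)
    (G5 : ∀ v ∈ nat, v ∈ W'.map pull → Eα v = 0 → Eβ v = 0 → e₀ • v ∈ tor)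
    (x' : X') (hx' : x' ∈ W') :
    (d * e₀) • bOp y' q (bOp y' q (P' x')) = 0 := by
  have key := kill_of_filtration s y PN q e₀ (W'.map pull) nat tor
    (Eα : X →ₗ[ℤ] X).toAddMonoidHom (Eβ : X →ₗ[ℤ] X).toAddMonoidHom hs_inj
    (by
      rintro _ ⟨z, hz, rfl⟩
      exact ⟨s' z, hsW' z hz, hps z⟩)
    (by
      rintro _ ⟨z, hz, rfl⟩
      exact ⟨y' z, hyW' z hz, hpy z⟩)
    (by
      rintro _ ⟨z, hz, rfl⟩
      exact ⟨P' z, hPW' z hz, hpP z⟩)
    hsy
    (by
      rintro _ ⟨z, hz, rfl⟩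
      rw [← hps, ← hps, ← hpy, ← map_zsmul, ← map_sub, ← map_add, hrel' z hz, map_zero])
    (fun x hx => by
      show Eα (s x) = 0
      rw [hαs, show Eα x = 0 from hx, map_zero])
    (fun x hx => by
      show Eβ (s x) = 0
      rw [hβs, show Eβ x = 0 from hx, map_zero])
    (by
      rintro _ ⟨z, hz, rfl⟩
      show Eα (PN (pull z)) = 0
      rw [← hpP, hpα, hαP' z hz, map_zero])
    (by
      rintro _ ⟨z, hz, rfl⟩
      show Eβ (PN (pull z)) = 0
      rw [← hpP, hpβ, hβP' z hz, map_zero])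
    G3 G4 (fun v hv hvW ha hb => G5 v hv hvW ha hb) (pull x') ⟨x', hx', rfl⟩
  exact kill_of_pullback y PN y' P' q e₀ d pull push hpp hy hP x' key

end Fermat.Agent.BR2.GeoAbstract
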