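import Fermat.Agent.Val.ResidueFieldA
import Fermat.Agent.BR.ModUnitIntegral

/-!
# Phase 2: the instances on the residue field of a valuation ring of `ℚ̄` over `q`

For `B : ValuationSubring Kb` (`Kb = ℚ̄`) lying over the prime `q`, the residue field `kB` of `B`
is algebraically closed, perfect, of characteristic `q`.  Stated as theorems (no instance is
declared), in the argument order `(q) (B) (hB)` used by `BR/S0/Inst` (`charP_res q B hB`):

* `isAlgClosed_res B : IsAlgClosed kB`;
* `perfectField_res B : PerfectField kB`;
* `charP_res q B hB : CharP kB q` (re-export of `BR/ModUnitIntegral.charP_res`);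
* `expChar_res`, `perfectRing_res`;
* `res_instances q B hB : IsAlgClosed kB ∧ PerfectField kB ∧ CharP kB q`.

Usage: `haveI := ResInst.isAlgClosed_res B; haveI := ResInst.charP_res q B hB;
haveI := ResInst.perfectField_res B`.
-/

set_option autoImplicit false
set_option linter.style.haveILetI false

namespace Fermat.Agent.BR2.ResInst

open IsLocalRing

variable (q : ℕ) [Fact q.Prime] (B : ValuationSubring (AlgebraicClosure ℚ))

/-- The residue field of a valuation ring of `ℚ̄` is algebraically closed. -/
theorem isAlgClosed_res : IsAlgClosed (ResidueField B) :=
  Fermat.Agent.Val.residueField_isAlgClosed_algebraicClosure_rat B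

/-- The residue field of a valuation ring of `ℚ̄` is perfect. -/
theorem perfectField_res : PerfectField (ResidueField B) :=
  haveI := isAlgClosed_res B
  inferInstance

/-- The residue field of a valuation ring of `ℚ̄` over `q` has characteristic `q`. -/
theorem charP_res (hB : B.LiesOverPrime q) : CharP (ResidueField B) q :=
  Fermat.Agent.Val.charP_residueField_of_liesOverPrime B hB

theorem expChar_res (hB : B.LiesOverPrime q) : ExpChar (ResidueField B) q :=
  haveI := charP_res q B hB
  ExpChar.prime (Fact.out : q.Prime)

theorem perfectRing_res (hB : B.LiesOverPrime q) : PerfectRing (ResidueField B) q :=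
  haveI := perfectField_res B
  haveI := expChar_res q B hB
  inferInstance

/-- all three at once -/
theorem res_instances (hB : B.LiesOverPrime q) :
    IsAlgClosed (ResidueField B) ∧ PerfectField (ResidueField B) ∧ CharP (ResidueField B) q :=
  ⟨isAlgClosed_res B, perfectField_res B, charP_res q B hB⟩

/-- The `q`-power Frobenius of the residue field is bijective. -/
theorem frobenius_bijective_res (hB : B.LiesOverPrime q) :
    haveI := charP_res q B hB
    Function.Bijective (frobenius (ResidueField B) q) := by
  haveI := charP_res q B hB
  haveI := perfectRing_res q B hB
  exact PerfectRing.bijective_frobenius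

end Fermat.Agent.BR2.ResInst
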