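import Fermat.Agent.BR2.S35Final
import Fermat.Agent.BR2.SetupOfData
import Fermat.Agent.BR2.G4ModularFinal
import Fermat.Agent.BR2.G4FrobLift
import Fermat.Agent.BR2.G3Modular
import Fermat.Agent.BR2.G3PrepRModular
import Fermat.Agent.BR2.G5ModularFinal
import Fermat.Agent.BR2.ResInst

/-!
# Phase 2 (S35), node (GEO-LEVEL): the geometric inputs `(G3)`, `(G4)`, `(G5)` of the plug at the
level `M * q`, from the named inputs of S34

`Dt : Final.ModularData M q B hB hqM` (the data of Program B at the level `M * q`, `M` without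
elliptic points), `σ` a Frobenius element at `B`, `lam ≠ q` a prime.  With
`I := SetupOfData.input Dt` the two-component bundle of `Dt`,
`nat m := Filt.natSub I.toSetup (lam ^ m)`, `tor m := Filt.torSub I.toSetup (lam ^ m)`:

* `g3_of_data` : `lam ^ m • w = 0 → σ • σ • w - w ∈ nat m`;
* `g4_of_data` : `FrobSquare.theta (galEnd (JZero (M * q)) σ) q v = 0` for `v ∈ tor m`;
* `g5_of_data` : `∃ e₀ ≠ 0`, `Ealpha v = 0 → Ebeta v = 0 → e₀ • v ∈ tor m` for `v ∈ nat m`;
* `geoLevel_of_data`, `geoLevel` : `S35Final.GeoLevelProp M q lam σ`, the tuple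
  `(nat, tor, e₀, G3, G4, G5)` of `BR2/GeoPlug.geoInputSpan_of_nodes`; `geoLevel` takes the
  provider of `Final.s34_of_data` (existence of the data at all levels without elliptic points).
-/

set_option autoImplicit false
set_option linter.unusedSectionVars false
set_option linter.style.haveILetI false

noncomputable section

set_option synthInstance.maxHeartbeats 400000

namespace Fermat.Agent.BR2.GeoLevel

open ModularCurve AlgebraicCurve IsLocalRing Fermat.Agent.Red Fermat.Agent.X0 Fermat.Agent.Hecke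
  Fermat.Agent.BR.ValTwo Fermat.Agent.BR.SS Fermat.Agent.BR.Refine
  Fermat.Agent.BR.S0 Fermat.Agent.BR.S0.RedModular Fermat.Agent.BR.S0.PointDict
  Fermat.Agent.BR.Final Fermat.Agent.BR2.SetupOfData

variable {M q : ℕ} [NeZero M] [hq : Fact q.Prime]
variable {B : ValuationSubring Kb} {hB : B.LiesOverPrime q} {hqM : ¬ q ∣ M}
variable [IsAlgClosed (ResidueField B)]

local notation "kB" => IsLocalRing.ResidueField B
local notation "FtM" => modularFunctionFieldFullC (IsLocalRing.ResidueField B) M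

variable (Dt : ModularData M q B hB hqM) {σ : Kb ≃ₐ[ℚ] Kb}

/-- **(G3)** on the setup of the data. -/
theorem g3_of_data (hσ : B.IsFrobeniusAt σ q) (m : ℕ) (w : JZero (M * q)) (hw : m • w = 0) :
    σ • σ • w - w ∈ Filt.natSub (setup Dt) m := by
  haveI := ResInst.charP_res q B hB
  haveI := ResInst.perfectField_res B
  exact G3Modular.g3_of_crossing hqM B hB (input Dt) rfl rfl rfl hσ m w hw

/-- **(G4)** on the setup of the data. -/
theorem g4_of_data (h2 : nuTwo M = 0) (h3 : nuThree M = 0) (hσ : B.IsFrobeniusAt σ q)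
    {m : ℕ} (hm : (m : ResidueField B) ≠ 0) (x : JZero (M * q))
    (hx : x ∈ Filt.torSub (setup Dt) m) :
    FrobSquare.theta (galEnd (JZero (M * q)) σ) (q : ℤ) x = 0 := by
  haveI := ResInst.charP_res q B hB
  haveI := ResInst.perfectField_res B
  letI := fintypeCrossing Dt
  refine G4FrobLift.theta_galEnd_eq_zero (M * q) σ q x ?_
  exact G4Modular.theta_torSub_modular hqM h2 h3 B hB (input Dt) rfl (lower_bound Dt)
    (chainProvider Dt) (circleInputs Dt).ch (fun _ => rfl) hσ
    (fun e => G3PrepCross.frob_sq_smul_z₁ B hB hqM hσ e)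
    (fun e => G3PrepCross.frob_sq_smul_z₂ B hB hqM hσ e)
    (G3Prep.twoCompInput_frob_pow_smul hqM B hB (atlas Dt) (input Dt) rfl hσ 2)
    hm x hx

/-- **(G5)** on the setup of the data. -/
theorem g5_of_data :
    haveI : NeZero q := ⟨hq.out.ne_zero⟩
    ∃ e₀ : ℕ, e₀ ≠ 0 ∧ ∀ m : ℕ, m ≠ 0 → ∀ x ∈ Filt.natSub (setup Dt) m,
      LevelSquares.Ealpha M q x = 0 → LevelSquares.Ebeta M q x = 0 →
      e₀ • x ∈ Filt.torSub (setup Dt) m := by
  haveI := ResInst.charP_res q B hB
  exact G5ModularFinal.g5_modular_final M q B hB hqM (input Dt) rfl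

include Dt in
/-- **(GEO-LEVEL)** from the data at one valuation ring. -/
theorem geoLevel_of_data (h2 : nuTwo M = 0) (h3 : nuThree M = 0) (hσ : B.IsFrobeniusAt σ q)
    (lam : ℕ) (hlam : lam.Prime) (hqlam : q ≠ lam) :
    haveI : NeZero q := ⟨hq.out.ne_zero⟩
    S35Final.GeoLevelProp M q lam σ := by
  haveI : NeZero q := ⟨hq.out.ne_zero⟩
  haveI := ResInst.charP_res q B hB
  obtain ⟨e₀, he₀, h5⟩ := g5_of_data Dt
  have hm : ∀ m : ℕ, ((lam ^ m : ℕ) : ResidueField B) ≠ 0 := by
    intro m h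
    rw [CharP.cast_eq_zero_iff (ResidueField B) q] at h
    exact hqlam ((Nat.prime_dvd_prime_iff_eq hq.out hlam).mp (hq.out.dvd_of_dvd_pow h))
  refine ⟨fun m => Filt.natSub (setup Dt) (lam ^ m), fun m => Filt.torSub (setup Dt) (lam ^ m),
    e₀, he₀, ?_, ?_, ?_⟩
  · intro m w hw
    exact g3_of_data Dt hσ (lam ^ m) w hw
  · intro m v hv
    exact g4_of_data Dt h2 h3 hσ (hm m) v hv
  · intro m v hv ha hb
    exact h5 (lam ^ m) (pow_ne_zero m hlam.ne_zero) v hv ha hb

/-- **(GEO-LEVEL)**, in the shape consumed by `BR2/S35Final.exists_geoInputSpan`: from the provider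
of `Final.s34_of_data` (existence of the data of Program B at all levels without elliptic
points). -/
theorem geoLevel (M₁ q lam : ℕ) [NeZero M₁] [NeZero q] (hq : q.Prime) (hqM₁ : ¬ q ∣ M₁)
    (h2 : nuTwo M₁ = 0) (h3 : nuThree M₁ = 0) (hlam : lam.Prime) (hqlam : q ≠ lam)
    (B : ValuationSubring Kb) (hB : B.LiesOverPrime q) {σ : Kb ≃ₐ[ℚ] Kb}
    (hσ : B.IsFrobeniusAt σ q)
    (hMD : ∀ (M q : ℕ) [NeZero M] [Fact q.Prime] (hqM : ¬ q ∣ M),
      ModularCurve.nuTwo M = 0 → ModularCurve.nuThree M = 0 →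
      ∀ (B : ValuationSubring (AlgebraicClosure ℚ)) (hB : B.LiesOverPrime q)
        [IsAlgClosed (ResidueField B)], Nonempty (ModularData M q B hB hqM)) :
    S35Final.GeoLevelProp M₁ q lam σ := by
  haveI : Fact q.Prime := ⟨hq⟩
  haveI := ResInst.isAlgClosed_res B
  obtain ⟨Dt⟩ := hMD M₁ q hqM₁ h2 h3 B hB
  exact geoLevel_of_data Dt h2 h3 hσ lam hlam hqlam

end Fermat.Agent.BR2.GeoLevel
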