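/-
Phase 2 (S35) (helper15): `BR2/GeoPlug.geoInputSpan_of_nodes` at the literal level `M q` with the
block (E7'-OUT) DISCHARGED by `BR2/E7Plug.e7Plug`.  Remaining inputs: the polynomial `p` of the
node (E7)(e) (`hp`, `hχ`), the block (M1-OUT) and the geometric blocks (G3), (G4), (G5), with
`EαM := SpecDeg.Ealpha M q`, `EβM := SpecDeg.Ebeta M q`.
-/
import Mathlib
import Fermat.Agent.BR2.E7Plug
import Fermat.Agent.BR2.GeoPlug

set_option autoImplicit false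
set_option linter.unusedSectionVars false
set_option linter.style.haveILetI false

open ModularCurve CuspForm

namespace Fermat.Agent.BR2.GeoPlugE7

open Fermat.Agent.Pseudo Fermat.Agent.Pseudo.GQSys Fermat.Agent.Pseudo.JZ Fermat.Agent.Jac
  Fermat.Agent.BR2.FrobSquare Fermat.Agent.BR2 Fermat.Agent.BR2.E7Plug

local notation "GQ" => (AlgebraicClosure ℚ ≃ₐ[ℚ] AlgebraicClosure ℚ)

/-- **(PLUG) with (E7'-OUT) discharged.** -/
theorem geoInputSpan_of_e7 (M q N : ℕ) [NeZero M] [NeZero q] [NeZero N] (hq : q.Prime)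
    (hqM : ¬ q ∣ M) (lam : ℕ) (S' : Finset ℕ) (hqS' : q ∈ S') {O' : Type} [CommRing O']
    (χ' : heckeAlgebra (M * q) 2 (↑S' : Set ℕ) →+* O') (σ : GQ) (hlam : lam ≠ 0)
    -- (E7)(e)
    (p : FreeAlgebra ℤ (Idx S'))
    (hp : FreeAlgebra.lift ℤ (fun i : Idx S' => TLam M i.1) p = 0)
    (hχ : χ' (lamPsi (M * q) (↑S' : Set ℕ)
      ⟨E7Out.Pof M q (prS S') p, Pof_mem_TLamAlg M q S' p⟩) ≠ 0)
    -- (M1-OUT)
    (pull : JZero (M * q) →+ JZero N) (push : JZero N →+ JZero (M * q)) (d : ℕ) (hd : d ≠ 0)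
    (hpp : ∀ x, push (pull x) = d • x)
    (hpull_smul : ∀ (g : GQ) x, pull (g • x) = g • pull x)
    (hpull_hecke : letI := heckeModuleBar (M * q); letI := heckeModuleBar N
      ∀ ℓ : Nat.Primes, (ℓ : ℕ) ∉ S' → ∀ x, pull (heckeGen ℓ • x) = heckeGen ℓ • pull x)
    (hpush_hecke : letI := heckeModuleBar (M * q); letI := heckeModuleBar N
      ∀ ℓ : Nat.Primes, (ℓ : ℕ) ∉ S' → ∀ x, push (heckeGen ℓ • x) = heckeGen ℓ • push x)
    (EαN EβN : JZero N →+ JZero N)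
    (hEαN : ∀ (g : GQ) x, EαN (g • x) = g • EαN x) (hEβN : ∀ (g : GQ) x, EβN (g • x) = g • EβN x)
    (hsqα : ∀ x, EαN (pull x) = pull (SpecDeg.Ealpha M q x))
    (hsqβ : ∀ x, EβN (pull x) = pull (SpecDeg.Ebeta M q x))
    -- geometry at level `N`
    (nat tor : ℕ → AddSubgroup (JZero N)) (e₀ : ℕ) (he₀ : e₀ ≠ 0)
    (G3 : ∀ (m : ℕ) (w : JZero N), (lam ^ m) • w = 0 → σ • σ • w - w ∈ nat m)
    (G4 : ∀ (m : ℕ), ∀ v ∈ tor m, theta (galEnd (JZero N) σ) (q : ℤ) v = 0)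
    (G5 : ∀ (m : ℕ), ∀ v ∈ nat m, EαN v = 0 → EβN v = 0 → e₀ • v ∈ tor m) :
    GeoInputSpan (M * q) lam S' χ' q σ := by
  obtain ⟨rho, A, hA, Ψ, P, Q, hker, hTL, hΨ, hQ, hPQ, hχ', hE7⟩ :=
    e7Plug M q hq hqM S' hqS' χ' p hp hχ
  exact geoInputSpan_of_nodes lam S' χ' q σ hlam rho A hA Ψ P Q hker hTL hΨ hQ hPQ hχ'
    (SpecDeg.Ealpha M q) (SpecDeg.Ebeta M q) (Ealpha_smul M q) (Ebeta_smul M q) hE7
    pull push d hd hpp hpull_smul hpull_hecke hpush_hecke EαN EβN hEαN hEβN hsqα hsqβ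
    nat tor e₀ he₀ G3 G4 G5

end Fermat.Agent.BR2.GeoPlugE7
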