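import Fermat.Agent.Pseudo.TraceLimitGQ
import Fermat.Agent.BR2.FrobSquare

/-!
# Phase 2 (S35), node (LIM), `G_ℚ` layer

* `trace_eq_of_frob` : two adically continuous functions on `G_ℚ` which agree at the Frobenius
  elements of almost all primes are equal (Chebotarev);
* `traceSystemOfRho` : the twin of `Pseudo.GQSys.traceSystem` with the Kummer maps `rho m` given as
  DATA (so that extra properties of `rho m`, e.g. the equivariance for degeneracy correspondences,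
  stay available);
* `t_sq_eq_GQ` : **the limit step in `G_ℚ`-language.**  `t` an adically continuous function with
  `t (Frob_ℓ) = ξ (T_ℓ)` (`ℓ ∉ S`), `σ` a Frobenius lift at a prime `q ≠ p`, `P` an element of the
  Hecke algebra of `Lam` with `ξ (Ψ P) ≠ 0` and counterpart `PX` on `X`.  If for every `m`, every
  subgroup `W ≤ X` stable under `G_ℚ`, the Hecke operators and `PX`, killed by `p^m`, and every
  `ℓ ∉ S` with `σ² x - T_ℓ σ x + q x = 0` on `W`, the operator `e • b² PX`, `b = T_ℓ² - (1+q)²`,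
  kills `W`, then `t(σ)² = (q + 1)²`.
-/

set_option autoImplicit false
set_option linter.style.haveILetI false
set_option linter.unusedSectionVars false

open ModularCurve CuspForm

namespace Fermat.Agent.BR2.LimitGQ

open Fermat.Agent.Pseudo Fermat.Agent.Pseudo.GQSys Fermat.Agent.BR2.FrobSquare

local notation "Qb" => AlgebraicClosure ℚ
local notation "GQ" => (AlgebraicClosure ℚ ≃ₐ[ℚ] AlgebraicClosure ℚ)

/-! ### Uniqueness of continuous traces -/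

/-- Two adically continuous functions on `G_ℚ` which agree at the Frobenius elements of the primes
outside a finite set are equal. -/
theorem trace_eq_of_frob {R : Type*} [CommRing R] (𝔞 : Ideal R) [IsHausdorff 𝔞 R]
    (hcheb : Fermat.Agent.Cheb.ChebExact) (t t' : GQ → R)
    (hc : ∀ n : ℕ, ∃ L : IntermediateField ℚ Qb, FiniteDimensional ℚ L ∧
      ∀ g g' : GQ, (∀ x ∈ L, g x = g' x) → t g - t g' ∈ 𝔞 ^ n)
    (hc' : ∀ n : ℕ, ∃ L : IntermediateField ℚ Qb, FiniteDimensional ℚ L ∧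
      ∀ g g' : GQ, (∀ x ∈ L, g x = g' x) → t' g - t' g' ∈ 𝔞 ^ n)
    (T : Finset ℕ)
    (hfrob : ∀ ℓ : ℕ, ℓ.Prime → ℓ ∉ T → ∀ V : ValuationSubring Qb, V.LiesOverPrime ℓ →
      ∀ φ : GQ, V.IsFrobeniusAt φ ℓ → t φ = t' φ) (σ : GQ) : t σ = t' σ := by
  rw [← sub_eq_zero]
  refine eq_zero_of_forall_mem_pow 𝔞 fun n => ?_
  obtain ⟨L₁, hL₁, h₁⟩ := hc n
  obtain ⟨L₂, hL₂, h₂⟩ := hc' n
  have hfd : FiniteDimensional ℚ ↥(L₁ ⊔ L₂) := IntermediateField.finiteDimensional_sup L₁ L₂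
  obtain ⟨ℓ, hℓ, hℓT, V, φ, hV, hφ, hσφ⟩ := hcheb (L₁ ⊔ L₂) hfd σ T
  have e1 := h₁ σ φ fun x hx => hσφ x ((le_sup_left : L₁ ≤ L₁ ⊔ L₂) hx)
  have e2 := h₂ σ φ fun x hx => hσφ x ((le_sup_right : L₂ ≤ L₁ ⊔ L₂) hx)
  have e3 := hfrob ℓ hℓ hℓT V hV φ hφ
  have : t σ - t' σ = (t σ - t φ) - (t' σ - t' φ) := by rw [e3]; ring
  rw [this]
  exact (𝔞 ^ n).sub_mem e1 e2

/-! ### The trace system with explicit Kummer maps -/

section System

variable (N p : ℕ) [hp : Fact p.Prime] (S : Finset ℕ)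
variable (J : Type*) [AddCommGroup J] [Module HeckeAlg J] [DistribMulAction GQ J]
  [SMulCommClass GQ HeckeAlg J]
variable {Lam : Type*} [AddCommGroup Lam] (TLam : Nat.Primes → Module.End ℤ Lam)

/-- The bare `(K)` from explicit Kummer maps. -/
theorem hK_of_rho (rho : ℕ → Lam →+ J)
    (hker : ∀ M : ℕ, 0 < M → ∀ lam, rho M lam = 0 ↔ ∃ mu, lam = M • mu)
    (hTL : ∀ M : ℕ, 0 < M → ∀ (ℓ : Nat.Primes) (lam : Lam),
      rho M (TLam ℓ lam) = heckeGen ℓ • rho M lam) :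
    ∀ M : ℕ, 0 < M → ∃ r : Lam →+ J, (∀ lam, r lam = 0 ↔ ∃ mu, lam = M • mu) ∧
      ∀ (ℓ : Nat.Primes) (lam : Lam), r (TLam ℓ lam) = heckeGen ℓ • r lam :=
  fun M hM => ⟨rho M, hker M hM, hTL M hM⟩

/-- **The universal trace system of `G_ℚ` on `J` with explicit Kummer maps** `rho M : Lam →+ J`
(`M ≥ 1`; the system uses `rho (p ^ m)`). -/
noncomputable def traceSystemOfRho (hpS : p ∈ S) (hNS : ∀ q : ℕ, q.Prime → q ∣ N → q ∈ S)
    (hFQ : FrobeniusQuadratic (K := ℚ) (L := Qb) N p J)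
    (hcheb : Fermat.Agent.Cheb.ChebExact)
    (hstab : ∀ x : J, ∃ L : IntermediateField ℚ Qb, FiniteDimensional ℚ L ∧
      ∀ σ : GQ, (∀ a ∈ L, σ a = a) → σ • x = x)
    (rho : ℕ → Lam →+ J)
    (hker : ∀ M : ℕ, 0 < M → ∀ lam, rho M lam = 0 ↔ ∃ mu, lam = M • mu)
    (hTL : ∀ M : ℕ, 0 < M → ∀ (ℓ : Nat.Primes) (lam : Lam),
      rho M (TLam ℓ lam) = heckeGen ℓ • rho M lam)
    (hfg : (⊤ : AddSubgroup Lam).FG) : TraceSystem GQ Lam J (Idx S) :=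
  { traceSystem N p S J TLam hpS hNS hFQ hcheb hstab (hK_of_rho J TLam rho hker hTL) hfg with
    rho := fun m => rho (p ^ m)
    ker_rho := fun m => hker (p ^ m) (pow_pos hp.out.pos m)
    rho_TL := fun m i lam => hTL (p ^ m) (pow_pos hp.out.pos m) i.1 lam }

end System

/-! ### The limit step -/

section Main

variable {N p : ℕ} [NeZero N] [hp : Fact p.Prime] {S : Finset ℕ}
variable {X : Type*} [AddCommGroup X] [Module HeckeAlg X] [DistribMulAction GQ X]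
  [SMulCommClass GQ HeckeAlg X]
variable {Lam : Type*} [AddCommGroup Lam] [Module.Free ℤ Lam] [Module.Finite ℤ Lam]
  {TLam : Nat.Primes → Module.End ℤ Lam}
variable {R : Type*} [CommRing R] [IsDomain R] (𝔞 : Ideal R) [IsAdicComplete 𝔞 R]

/-- **The limit step in `G_ℚ`-language.** -/
theorem t_sq_eq_GQ (hpS : p ∈ S) (hNS : ∀ q : ℕ, q.Prime → q ∣ N → q ∈ S)
    (hFQ : FrobeniusQuadratic (K := ℚ) (L := Qb) N p X)
    (hcheb : Fermat.Agent.Cheb.ChebExact)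
    (hstab : ∀ x : X, ∃ L : IntermediateField ℚ Qb, FiniteDimensional ℚ L ∧
      ∀ σ : GQ, (∀ a ∈ L, σ a = a) → σ • x = x)
    (rho : ℕ → Lam →+ X)
    (hker : ∀ M : ℕ, 0 < M → ∀ lam, rho M lam = 0 ↔ ∃ mu, lam = M • mu)
    (hTL : ∀ M : ℕ, 0 < M → ∀ (ℓ : Nat.Primes) (lam : Lam),
      rho M (TLam ℓ lam) = heckeGen ℓ • rho M lam)
    (A : Subalgebra ℤ (Module.End ℤ Lam)) (hA : ∀ i : Idx S, TLam i.1 ∈ A)
    (Ψ : A →+* heckeAlgebra N 2 (↑S : Set ℕ))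
    (hΨ : ∀ (ℓ : ℕ) (hℓ : ℓ.Prime) (hℓN : ¬ ℓ ∣ N) (hℓS : ℓ ∉ (↑S : Set ℕ)),
      Ψ ⟨TLam ⟨ℓ, hℓ⟩, hA ⟨⟨ℓ, hℓ⟩, hℓS⟩⟩ = heckeAlgebra.T hℓ hℓN hℓS)
    (hp𝔞 : (p : R) ∈ 𝔞) (ξ : heckeAlgebra N 2 (↑S : Set ℕ) →+* R)
    (t : GQ → R)
    (ht_cont : ∀ n : ℕ, ∃ L : IntermediateField ℚ Qb, FiniteDimensional ℚ L ∧
      ∀ g g' : GQ, (∀ x ∈ L, g x = g' x) → t g - t g' ∈ 𝔞 ^ n)
    (ht_frob : ∀ (ℓ : ℕ) (hℓ : ℓ.Prime) (hℓN : ¬ ℓ ∣ N) (hℓS : ℓ ∉ (↑S : Set ℕ))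
      (V : ValuationSubring Qb), V.LiesOverPrime ℓ → ∀ φ : GQ, V.IsFrobeniusAt φ ℓ →
        t φ = ξ (heckeAlgebra.T hℓ hℓN hℓS))
    {q : ℕ} (hq : q.Prime) (hqp : q ≠ p) (B : ValuationSubring Qb) (hB : B.LiesOverPrime q)
    {σ : GQ} (hσ : B.IsFrobeniusAt σ q)
    (P : A) (PX : Module.End ℤ X)
    (hPX : ∀ M : ℕ, 0 < M → Intertwined (rho M) (P : Module.End ℤ Lam) PX)
    (hPXG : ∀ (g : GQ) (x : X), PX (g • x) = g • PX x)
    (hΦP : ξ (Ψ P) ≠ 0) (e : ℕ) (he : (e : R) ≠ 0)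
    (hkill : ∀ (m : ℕ) (W : AddSubgroup X), (∀ (g : GQ), ∀ x ∈ W, g • x ∈ W) →
      (∀ i : Idx S, ∀ x ∈ W, heckeGen i.1 • x ∈ W) → (∀ x ∈ W, PX x ∈ W) →
      (∀ x ∈ W, (p ^ m) • x = 0) →
      ∀ i : Idx S, (∀ x ∈ W, σ • σ • x - heckeGen i.1 • (σ • x) + (q : ℤ) • x = 0) →
      ∀ x ∈ W, e • bOp (heckeEnd X (heckeGen i.1)) (q : ℤ)
        (bOp (heckeEnd X (heckeGen i.1)) (q : ℤ) (PX x)) = 0) :
    t σ ^ 2 = ((q : R) + 1) ^ 2 := by
  have hfg := GQLimit.fg_top_of_moduleFinite Lam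
  let Y : TraceSystem GQ Lam X (Idx S) :=
    traceSystemOfRho N p S X TLam hpS hNS hFQ hcheb hstab rho hker hTL hfg
  have htf : ∀ (n : ℕ) (x : heckeAlgebra N 2 (↑S : Set ℕ)), n ≠ 0 → n • x = 0 → x = 0 :=
    fun n x hn hx => nsmul_right_injective hn (by simpa using hx)
  let D : TraceLimitInput Y R 𝔞 :=
    TraceLimitInput.ofHecke Y 𝔞 A hA Ψ ξ htf hp.out hp𝔞
      (fun g => ((Cyc.cycR 𝔞 hp𝔞 g : Rˣ) : R))
      (fun m g => Cyc.cycR_sub_cycloLift_mem 𝔞 hp𝔞 m g)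
  -- the limit trace of `D` is `t`
  have htD : t σ = D.t σ := by
    refine trace_eq_of_frob 𝔞 hcheb t D.t ht_cont ?_ S ?_ σ
    · intro n
      obtain ⟨L, hL, h⟩ := exists_finite_of_mem_openSubgroups (Y.level_mem (n + D.c))
      exact ⟨L, hL, fun g g' hgg' => D.t_level n (h g g' hgg')⟩
    · intro ℓ hℓ hℓS V hV φ hφ
      have hℓS' : ℓ ∉ (↑S : Set ℕ) := fun h => hℓS (Finset.mem_coe.mp h)
      have hℓN : ¬ ℓ ∣ N := fun h => hℓS (hNS ℓ hℓ h)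
      have hF : Y.FrobAt φ ⟨⟨ℓ, hℓ⟩, hℓS'⟩ := ⟨V, hV, hφ⟩
      rw [ht_frob ℓ hℓ hℓN hℓS' V hV φ hφ, D.t_frobAt hF]
      show _ = ξ (Ψ ⟨TLam ⟨ℓ, hℓ⟩, hA ⟨⟨ℓ, hℓ⟩, hℓS'⟩⟩)
      rw [hΨ ℓ hℓ hℓN hℓS']
  -- the kill hypothesis of `t_sq_eq`
  have hk : ∀ (m : ℕ) (lam : Lam),
      e • bOp (Y.T (Y.idx m σ)) (q : ℤ) (bOp (Y.T (Y.idx m σ)) (q : ℤ) (PX (Y.rho m lam))) = 0 := by
    intro m lam
    have hqpm : ¬ q ∣ p ^ m := fun h =>
      hqp ((Nat.prime_dvd_prime_iff_eq hq hp.out).mp (hq.dvd_of_dvd_pow h))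
    have hd : (((Y.data m).M : ℕ) : ℤ) ∣ (Y.data m).d σ - (q : ℤ) :=
      Cyclo.cycloLift_frobenius (p ^ m) hq hqpm B hB hσ
    refine hkill m (Y.data m).span (fun g x hx => (Y.data m).smul_mem g hx)
      (fun i x hx => (Y.data m).T_mem i hx) ?_ (fun x hx => (Y.data m).M_smul_eq_zero hx)
      (Y.idx m σ) ?_ (Y.rho m lam) ((Y.data m).rho_mem lam)
    · intro x hx
      refine (Y.data m).span_induction (P := fun x => PX x ∈ (Y.data m).span) ?_ ?_ ?_ ?_ hx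
      · rw [map_zero]; exact (Y.data m).span.zero_mem
      · intro y z hy hz; rw [map_add]; exact (Y.data m).span.add_mem hy hz
      · intro y hy; rw [map_neg]; exact (Y.data m).span.neg_mem hy
      · intro a lam'
        rw [hPXG]
        have h1 : PX ((Y.data m).rho lam') = (Y.data m).rho ((P : Module.End ℤ Lam) lam') :=
          (hPX (p ^ m) (pow_pos hp.out.pos m) lam').symm
        rw [h1]
        exact (Y.data m).smul_rho_mem a _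
    · intro x hx
      have h1 := Y.isFrobIndex_idx (le_refl m) σ x hx
      rw [(Y.data m).zsmul_congr hd hx] at h1
      exact h1
  have hΦP' : D.Φ P ≠ 0 := hΦP
  have hmain := t_sq_eq D σ (q : ℤ) P PX
    (fun m => hPX (p ^ m) (pow_pos hp.out.pos m)) hΦP' e he hk
  rw [htD, hmain]
  push_cast
  ring

end Main

end Fermat.Agent.BR2.LimitGQ
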