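import Fermat.Agent.Pseudo.FinalJZero
import Fermat.Agent.BR2.LimitGQ
import Fermat.Agent.BR2.S35Top

/-!
# Phase 2 (S35), node (LIM-JZ): S35 from the geometric input at `J₀(M)`

* `GeoInput M lam S χ q σ` : the exact deliverable of the geometric/Hecke nodes of Phase 2 for a
  Frobenius lift `σ` at a prime `q ∥ M`:  Kummer maps `rho K : Lam M →+ J₀(M)` (as DATA, so that the
  producer may use extra equivariances), a comparison `Ψ : A →+* heckeAlgebra M 2 S`, an element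
  `P` of the Hecke algebra `A` of `Lam M` with `χ (Ψ P) ≠ 0` and counterpart `PX` on `J₀(M)`
  commuting with `G_ℚ`, a constant `e ≠ 0`, and the **kill statement (GEO)**: for every `m`, every
  subgroup `W ≤ J₀(M)` stable under `G_ℚ`, the Hecke operators `T_ℓ` (`ℓ ∉ S`) and `PX`, killed by
  `lam^m`, and every `ℓ ∉ S` with `σ² x - T_ℓ (σ x) + q x = 0` on `W`:
  `e • b (b (PX x)) = 0` on `W`, `b = T_ℓ² - (1 + q)²`;
* `traceSq_of_geoInput` : `H.t σ ^ 2 = (q + 1) ^ 2` for every Hecke pseudo-character `H`;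
* `s35_of_geoInput` : the verbatim conclusion of the frozen statement S35.
-/

set_option autoImplicit false
set_option linter.style.haveILetI false
set_option linter.unusedSectionVars false

open ModularCurve CuspForm Polynomial

namespace Fermat.Agent.BR2

open Fermat.Agent.Pseudo Fermat.Agent.Pseudo.GQSys Fermat.Agent.Pseudo.JZ Fermat.Agent.Jac
  Fermat.Agent.BR2.FrobSquare

local notation "Qb" => AlgebraicClosure ℚ
local notation "GQ" => (AlgebraicClosure ℚ ≃ₐ[ℚ] AlgebraicClosure ℚ)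

/-- **The deliverable of the geometric and Hecke nodes of Phase 2** at a Frobenius lift `σ` at
`q`. -/
def GeoInput (M lam : ℕ) [NeZero M] (S : Finset ℕ) {O' : Type} [CommRing O']
    (χ : heckeAlgebra M 2 (↑S : Set ℕ) →+* O') (q : ℕ) (σ : GQ) : Prop :=
  letI := heckeModuleBar M
  ∃ (rho : ℕ → Lam M →+ JZero M) (A : Subalgebra ℤ (Module.End ℤ (Lam M)))
    (hA : ∀ i : Idx S, TLam M i.1 ∈ A) (Ψ : A →+* heckeAlgebra M 2 (↑S : Set ℕ))
    (P : A) (PX : Module.End ℤ (JZero M)) (e : ℕ),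
    (∀ K : ℕ, 0 < K → ∀ x, rho K x = 0 ↔ ∃ mu, x = K • mu) ∧
    (∀ K : ℕ, 0 < K → ∀ (ℓ : Nat.Primes) (x : Lam M),
      rho K (TLam M ℓ x) = heckeGen ℓ • rho K x) ∧
    (∀ (ℓ : ℕ) (hℓ : ℓ.Prime) (hℓM : ¬ ℓ ∣ M) (hℓS : ℓ ∉ (↑S : Set ℕ)),
      Ψ ⟨TLam M ⟨ℓ, hℓ⟩, hA ⟨⟨ℓ, hℓ⟩, hℓS⟩⟩ = heckeAlgebra.T hℓ hℓM hℓS) ∧
    (∀ K : ℕ, 0 < K → Intertwined (rho K) (P : Module.End ℤ (Lam M)) PX) ∧
    (∀ (g : GQ) (x : JZero M), PX (g • x) = g • PX x) ∧
    χ (Ψ P) ≠ 0 ∧ e ≠ 0 ∧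
    ∀ (m : ℕ) (W : AddSubgroup (JZero M)), (∀ (g : GQ), ∀ x ∈ W, g • x ∈ W) →
      (∀ i : Idx S, ∀ x ∈ W, heckeGen i.1 • x ∈ W) → (∀ x ∈ W, PX x ∈ W) →
      (∀ x ∈ W, (lam ^ m) • x = 0) →
      ∀ i : Idx S, (∀ x ∈ W, σ • σ • x - heckeGen i.1 • (σ • x) + (q : ℤ) • x = 0) →
      ∀ x ∈ W, e • bOp (heckeEnd (JZero M) (heckeGen i.1)) (q : ℤ)
        (bOp (heckeEnd (JZero M) (heckeGen i.1)) (q : ℤ) (PX x)) = 0

section

variable {M : ℕ} [NeZero M] (lam : ℕ) [hlam : Fact lam.Prime] (S : Finset ℕ)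
  (O' : Type) [CommRing O'] [IsDomain O'] [IsDiscreteValuationRing O']
  [IsAdicComplete (IsLocalRing.maximalIdeal O') O'] [CharZero O']

/-- **(LIM-JZ)** The trace identity from the geometric input. -/
theorem traceSq_of_geoInput (hlamO' : (lam : O') ∈ IsLocalRing.maximalIdeal O')
    (hlamS : lam ∈ S) (hMS : ∀ q : ℕ, q.Prime → q ∣ M → q ∈ S) (h37 : H37 M lam)
    (χ : heckeAlgebra M 2 (↑S : Set ℕ) →+* O') (H : HeckePseudoChar lam M S O' χ)
    {q : ℕ} (hq : q.Prime) (hqlam : q ≠ lam) (B : ValuationSubring Qb) (hB : B.LiesOverPrime q)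
    {σ : GQ} (hσ : B.IsFrobeniusAt σ q) (hgeo : GeoInput M lam S χ q σ) :
    H.t σ ^ 2 = ((q : O') + 1) ^ 2 := by
  letI := heckeModuleBar M
  haveI := smulCommClass_GQ_heckeAlg M
  haveI := finite_Lam M
  haveI := free_Lam (N := M)
  obtain ⟨rho, A, hA, Ψ, P, PX, e, hker, hTL, hΨ, hPX, hPXG, hΦP, he, hkill⟩ := hgeo
  have he' : (e : O') ≠ 0 := Nat.cast_ne_zero.mpr he
  exact LimitGQ.t_sq_eq_GQ (X := JZero M) (TLam := fun ℓ => TLam M ℓ)
    (IsLocalRing.maximalIdeal O') hlamS hMS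
    (frobeniusQuadratic_of_H37 h37) Fermat.Agent.Cheb.chebExact
    (Fermat.Agent.Res.exists_finite_fixing_JZero M) rho hker hTL A hA Ψ hΨ hlamO' χ H.t H.cont
    (fun ℓ hℓ hℓM hℓS V hV φ hφ => (H.frob ℓ hℓ hℓM hℓS V hV φ hφ).1)
    hq hqlam B hB hσ P PX hPX hPXG hΦP e he' hkill

variable [Finite (IsLocalRing.ResidueField O')]

/-- **S35 (verbatim frozen conclusion, `O'' := O'`) from the geometric input** at every Frobenius
lift at every prime `q ∥ M`, `q ≠ λ`. -/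
theorem s35_of_geoInput (hlamO' : (lam : O') ∈ IsLocalRing.maximalIdeal O')
    (hlamS : lam ∈ S) (hMS : ∀ q : ℕ, q.Prime → q ∣ M → q ∈ S)
    (hK : KummerMaps M) (h37 : H37 M lam) (hΨ : LamPsiHyp M S)
    (χ : heckeAlgebra M 2 (↑S : Set ℕ) →+* O')
    (hgeo : ∀ q : ℕ, q.Prime → q ≠ lam → q ∣ M → ¬ q ^ 2 ∣ M →
      ∀ B : ValuationSubring Qb, B.LiesOverPrime q → ∀ σ : GQ, B.IsFrobeniusAt σ q →
        GeoInput M lam S χ q σ) :
    ∃ (O'' : Type) (_ : CommRing O'') (_ : IsDomain O'') (_ : IsDiscreteValuationRing O'')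
      (_ : IsAdicComplete (IsLocalRing.maximalIdeal O'') O'')
      (_ : Finite (IsLocalRing.ResidueField O''))
      (_ : CharZero O'') (_ : Algebra O' O'') (_ : Module.Finite O' O'')
      (_ : IsLocalHom (algebraMap O' O'')),
      Function.Injective (algebraMap O' O'') ∧
      ∃ ρ : GaloisRepAdic O'',
        (∀ (ℓ : ℕ) (hℓ : ℓ.Prime) (hℓM : ¬ ℓ ∣ M) (hℓS : ℓ ∉ (↑S : Set ℕ)),
          ∀ A : ValuationSubring (AlgebraicClosure ℚ), A.LiesOverPrime ℓ →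
            ∀ σ : AlgebraicClosure ℚ ≃ₐ[ℚ] AlgebraicClosure ℚ, A.IsFrobeniusAt σ ℓ →
              LinearMap.charpoly (ρ.ρ σ) =
                X ^ 2 - C (algebraMap O' O'' (χ (CuspForm.heckeAlgebra.T hℓ hℓM hℓS))) * X
                  + C ((ℓ : O''))) ∧
        (∀ q : ℕ, q.Prime → q ≠ lam → q ∣ M → ¬ q ^ 2 ∣ M →
          ∀ A : ValuationSubring (AlgebraicClosure ℚ), A.LiesOverPrime q →
            ∀ σ : AlgebraicClosure ℚ ≃ₐ[ℚ] AlgebraicClosure ℚ, A.IsFrobeniusAt σ q →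
              LinearMap.charpoly (ρ.ρ σ) = X ^ 2 - C ((q : O'') + 1) * X + C ((q : O'')) ∨
              LinearMap.charpoly (ρ.ρ σ) = X ^ 2 + C ((q : O'') + 1) * X + C ((q : O''))) := by
  obtain ⟨H⟩ := heckePseudoChar_JZero hlamS hMS hK h37 hΨ O' hlamO' χ
  exact s35_of_heckePseudoChar lam S O' hlamO' χ H
    (fun q hq hqlam hqM hq2 B hB σ hσ =>
      traceSq_of_geoInput lam S O' hlamO' hlamS hMS h37 χ H hq hqlam B hB hσ
        (hgeo q hq hqlam hqM hq2 B hB σ hσ))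

end

end Fermat.Agent.BR2
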