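import Fermat.Agent.BR.SS.Setup
import Fermat.Agent.Red.NormalForm

/-!
# Program B, phase 2, node (G3), abstract form: `(g - 1)` maps `m`-divisible functions to natural
functions

`S : SemistableSetup` (components `O v`, `res v`, reduction of places `r`, branch points).  A
function `f ≠ 0` is *natural modulo `m`* (`IsNatFun S m f`) if for every component `v` a constant
multiple `c • f` is a unit of `O v` whose reduction has a divisor divisible by `m`.

`isNatFun_smul_div` : let `g` be a semilinear automorphism of `F / K` preserving every `O v` and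
inducing on the residue function field of `v` a semilinear automorphism `gbar v` which fixes the
branch points of the nodes.  If all orders of `f` are divisible by `m` (`div f ∈ m · Div`), then
`g • f / f` is natural modulo `m`.

(Application, Phase 2 of Program B: `g = σ²` for a Frobenius lift `σ` at `q`; the crossing points of
the two components of `X₀(N)` mod `q` are `𝔽_{q²}`-rational, hence fixed by the action of `σ²`.  This
gives `(σ² - 1) J[m] ⊆ J[m]^nat`, node (G3) of finding #706.)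
-/

set_option autoImplicit false

namespace Fermat.Agent.BR2.NatFun

open AlgebraicCurve Fermat.Agent.Red Fermat.Agent.BR.SS

variable {K F k : Type*} [Field K] [Field F] [Algebra K F] [Field k]
  {A : ValuationSubring K} {π : A →+* k} {ι : Type*} {Ft : ι → Type*}
  [∀ v, Field (Ft v)] [∀ v, Algebra k (Ft v)] {ν : Type*}

/-- `f` is natural modulo `m`: on every component a constant multiple of `f` is a unit whose
reduction has all its orders divisible by `m`. -/
def IsNatFun (S : SemistableSetup (F := F) A π ι Ft ν) (m : ℕ) (f : F) : Prop :=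
  ∀ v, ∃ (c : K) (h : c • f ∈ S.O v), c ≠ 0 ∧ S.res v ⟨c • f, h⟩ ≠ 0 ∧
    ∀ Q : Place k (Ft v), (m : ℤ) ∣ Q.ord (S.res v ⟨c • f, h⟩)

variable (S : SemistableSetup (F := F) A π ι Ft ν)

/-- every nonzero function has a constant multiple which is a unit of the component `v` -/
theorem exists_smul_mem_unit (v : ι) {f : F} (hf : f ≠ 0) :
    ∃ (c : K) (h : c • f ∈ S.O v), c ≠ 0 ∧ S.res v ⟨c • f, h⟩ ≠ 0 := by
  obtain ⟨w, hw, c, hc, h, hne⟩ := S.approx v ⊥ inferInstance f (by
    rw [Submodule.mem_bot]; exact hf)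
  rw [Submodule.mem_bot] at hw
  subst hw
  rw [sub_zero] at h
  refine ⟨c, h, hc, ?_⟩
  have := hne 0 (by simp)
  rw [map_zero] at this
  intro h0
  apply this
  rw [← h0]
  congr 1
  ext
  simp

/-- divisibility of the push-forward of a divisor all of whose coefficients are divisible -/
theorem dvd_mapDomain {α β : Type*} (r : α → β) (m : ℤ) (D : α →₀ ℤ) (hD : ∀ a, m ∣ D a) (b : β) :
    m ∣ Finsupp.mapDomain r D b := by
  classical
  rw [Finsupp.mapDomain, Finsupp.sum_apply]
  refine Finset.dvd_sum fun a _ => ?_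
  show m ∣ (Finsupp.single (r a) (D a)) b
  rw [Finsupp.single_apply]
  split_ifs
  · exact hD a
  · exact dvd_zero m

/-- conservation gives divisibility of the orders of the reduction at the non-branch points -/
theorem dvd_ord_res_of_not_branch [HasPrincipalDivisors K F] (m : ℕ) (v : ι) (y : S.O v)
    (hy : S.res v y ≠ 0) (hdiv : ∀ P : Place K F, (m : ℤ) ∣ P.ord (y : F))
    (Q : Place k (Ft v)) (hQ : ¬ S.IsBranch ⟨v, Q⟩) :
    (m : ℤ) ∣ Q.ord (S.res v y) := by
  have hy0 : (y : F) ≠ 0 := by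
    intro h0
    apply hy
    have : y = 0 := Subtype.ext h0
    rw [this, map_zero]
  obtain ⟨D, hD, -⟩ := HasPrincipalDivisors.exists_divisor (K := K) (y : F) hy0
  have hcons := S.conservation v y hy D hD Q
    (fun e h => hQ ⟨e, Or.inl h⟩) (fun e h => hQ ⟨e, Or.inr h⟩)
  rw [← hcons]
  exact dvd_mapDomain S.r (m : ℤ) D (fun P => by rw [hD P]; exact hdiv P) _

/-- **(G3), abstract form.** -/
theorem isNatFun_smul_div [HasPrincipalDivisors K F] (m : ℕ) (g : SemilinearAut K F)
    (gbar : ∀ v, SemilinearAut k (Ft v))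
    (hO : ∀ v (y : F), y ∈ S.O v → g • y ∈ S.O v)
    (hres : ∀ v (y : F) (hy : y ∈ S.O v),
      S.res v ⟨g • y, hO v y hy⟩ = gbar v • S.res v ⟨y, hy⟩)
    (hfix : ∀ x : Σ v, Place k (Ft v), S.IsBranch x →
      (⟨x.1, gbar x.1 • x.2⟩ : Σ v, Place k (Ft v)) = x)
    {f : F} (hf : f ≠ 0) (hdiv : ∀ P : Place K F, (m : ℤ) ∣ P.ord f) :
    IsNatFun S m (g • f / f) := by
  intro v
  obtain ⟨c, h, hc, hne⟩ := exists_smul_mem_unit S v hf
  set y : F := c • f with hy
  have hy0 : y ≠ 0 := by
    rw [hy]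
    exact smul_ne_zero hc hf
  have hgy : g • y ∈ S.O v := hO v y h
  -- `y` is a unit of `O v`
  have hunit : IsUnit (⟨y, h⟩ : S.O v) := by
    by_contra hnu
    exact hne ((S.res_eq_zero_iff v _).mpr hnu)
  have hyinv : y⁻¹ ∈ S.O v := by
    obtain ⟨u, hu⟩ := hunit
    have h1 : ((u⁻¹ : (S.O v)ˣ) : S.O v) * ⟨y, h⟩ = 1 := by rw [← hu]; simp
    have h2 : (((u⁻¹ : (S.O v)ˣ) : S.O v) : F) * y = 1 := by
      have := congrArg (fun z : S.O v => (z : F)) h1
      simpa using this
    have h3 : y⁻¹ = (((u⁻¹ : (S.O v)ˣ) : S.O v) : F) := by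
      field_simp
      rw [mul_comm]
      exact h2.symm
    rw [h3]
    exact SetLike.coe_mem _
  -- the constant for `g • f / f`
  set c' : K := SemilinearAut.baseAut g c / c with hc'
  have hc'0 : c' ≠ 0 := by
    rw [hc']
    exact div_ne_zero ((map_ne_zero _).mpr hc) hc
  have hquot : c' • (g • f / f) = g • y * y⁻¹ := by
    rw [hy, hc', Algebra.smul_def, Algebra.smul_def, smul_mul', SemilinearAut.smul_algebraMap,
      map_div₀]
    have hcF : algebraMap K F c ≠ 0 := (map_ne_zero _).mpr hc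
    field_simp
  have hmem : c' • (g • f / f) ∈ S.O v := by
    rw [hquot]
    exact (S.O v).mul_mem _ _ hgy hyinv
  have hresq : S.res v ⟨c' • (g • f / f), hmem⟩ =
      (gbar v • S.res v ⟨y, h⟩) * (S.res v ⟨y, h⟩)⁻¹ := by
    have e1 : (⟨c' • (g • f / f), hmem⟩ : S.O v) = ⟨g • y, hgy⟩ * ⟨y⁻¹, hyinv⟩ :=
      Subtype.ext hquot
    rw [e1, map_mul, hres v y h]
    congr 1
    have e2 : S.res v ⟨y, h⟩ * S.res v ⟨y⁻¹, hyinv⟩ = 1 := by
      rw [← map_mul]
      have : (⟨y, h⟩ : S.O v) * ⟨y⁻¹, hyinv⟩ = 1 := Subtype.ext (mul_inv_cancel₀ hy0)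
      rw [this, map_one]
    exact (eq_inv_of_mul_eq_one_right e2)
  set t := S.res v ⟨y, h⟩ with ht
  have ht0 : t ≠ 0 := hne
  have hgt0 : gbar v • t ≠ 0 := by
    intro h0
    apply ht0
    have := congrArg (fun z => (gbar v)⁻¹ • z) h0
    simpa using this
  refine ⟨c', hmem, hc'0, ?_, fun Q => ?_⟩
  · rw [hresq]
    exact mul_ne_zero hgt0 (inv_ne_zero ht0)
  · rw [hresq, Q.ord_mul hgt0 (inv_ne_zero ht0), Q.ord_inv]
    -- `ord_Q (gbar t) = ord_{gbar⁻¹ Q} t`
    have hQ' : Q.ord (gbar v • t) = ((gbar v)⁻¹ • Q).ord t := by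
      have := SemilinearAut.ord_smul (gbar v) ((gbar v)⁻¹ • Q) t
      rwa [smul_inv_smul] at this
    rw [hQ']
    have hdivy : ∀ P : Place K F, (m : ℤ) ∣ P.ord ((⟨y, h⟩ : S.O v) : F) := fun P => by
      show (m : ℤ) ∣ P.ord y
      rw [hy, Fermat.Agent.Red.NormalForm.ord_const_smul P hc]
      exact hdiv P
    by_cases hbr : S.IsBranch ⟨v, Q⟩
    · -- a branch point is fixed
      have hfixQ := hfix ⟨v, Q⟩ hbr
      have hQfix : gbar v • Q = Q := by
        have := (Sigma.mk.inj_iff.mp hfixQ).2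
        exact eq_of_heq this
      have hQfix' : (gbar v)⁻¹ • Q = Q := by
        rw [inv_smul_eq_iff, hQfix]
      rw [hQfix', add_neg_cancel]
      exact dvd_zero _
    · have hbr' : ¬ S.IsBranch ⟨v, (gbar v)⁻¹ • Q⟩ := by
        intro hb
        have hfixQ := hfix ⟨v, (gbar v)⁻¹ • Q⟩ hb
        have h1 : gbar v • ((gbar v)⁻¹ • Q) = (gbar v)⁻¹ • Q :=
          eq_of_heq (Sigma.mk.inj_iff.mp hfixQ).2
        rw [smul_inv_smul] at h1
        rw [← h1] at hb
        exact hbr hb
      exact dvd_add (dvd_ord_res_of_not_branch S m v ⟨y, h⟩ hne hdivy _ hbr')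
        ((dvd_neg).mpr (dvd_ord_res_of_not_branch S m v ⟨y, h⟩ hne hdivy _ hbr))

end Fermat.Agent.BR2.NatFun
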