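import Mathlib
import Fermat.Agent.BR2.NewQuotientIdx
import Fermat.Agent.BR2.EigenformOfRingHomFinal
import Fermat.Agent.BR2.E7Plug

/-!
# Phase 2 (S35), node (E7')(e), in the literal shape of `E7Plug.e7Plug` / `GeoPlugE7`

`exists_poly_e7` : the polynomial `p` of `NewQuotient.exists_poly_newQuotient_idx` in the shape
`p`, `hp`, `hχ` of `E7Plug.e7Plug` and `GeoPlugE7.geoInputSpan_of_e7` (helper15), with
`A := TLamAlg (M₀ q) S'`, `Ψ := lamPsi (M₀ q) S'`, `pr := E7Plug.prS S'` and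
`χ' := (iota.comp chig.rangeRestrict).comp (heckeAlgebraIncl hSS')`; the input (e3) is discharged
by helper22's `EigenformOfRingHom.exists_eigenform_of_ringHom_final`; the only named input left
is (N5)(5) (helper10's strong multiplicity one for the newform `g`).
-/

set_option autoImplicit false
set_option linter.unusedSectionVars false

noncomputable section

namespace Fermat.Agent.BR2.NewQuotientE7

open CuspForm ModularCurve Fermat.Agent.Jac Fermat.Agent.Pseudo Fermat.Agent.Pseudo.GQSys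
  Fermat.Agent.BR2

variable {M0 q : ℕ} [NeZero M0] [NeZero q] [NeZero (M0 * q)]

set_option maxHeartbeats 1000000 in
/-- **(E7')(e)** in the shape of `E7Plug.e7Plug`: `p`, `hp`, `hχ`. -/
theorem exists_poly_e7 {g : CuspForm (CongruenceSubgroup.Gamma0 (M0 * q)) 2}
    (S S' : Finset ℕ) (hSS' : S ⊆ S')
    (hMS' : ∀ r : ℕ, r.Prime → r ∣ M0 * q → r ∈ S')
    {O' : Type} [CommRing O'] [CharZero O']
    (chig : heckeAlgebra (M0 * q) 2 (↑S : Set ℕ) →+* ℂ)
    (hchig : ∀ (ℓ : ℕ) (hℓ : ℓ.Prime) (hℓM : ¬ ℓ ∣ M0 * q) (hℓS : ℓ ∉ (↑S : Set ℕ)),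
      chig (heckeAlgebra.T hℓ hℓM hℓS) = ModularFormClass.qCoeff g ℓ)
    (iota : chig.range →+* O')
    (hN5 : ¬ ∃ f : CuspForm (CongruenceSubgroup.Gamma0 M0) 2, f.IsNormalizedEigenform ∧
      ∀ r : ℕ, r.Prime → r ∉ S' → ¬ r ∣ M0 * q →
        ModularFormClass.qCoeff f r = ModularFormClass.qCoeff g r) :
    ∃ p : FreeAlgebra ℤ (Idx S'),
      FreeAlgebra.lift ℤ (fun i : Idx S' => TLam M0 i.1) p = 0 ∧
      ((iota.comp chig.rangeRestrict).comp (heckeAlgebraIncl hSS'))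
        (lamPsi (M0 * q) (↑S' : Set ℕ)
          ⟨E7Out.Pof M0 q (E7Plug.prS S') p, E7Plug.Pof_mem_TLamAlg M0 q S' p⟩) ≠ 0 := by
  obtain ⟨p, hp, h⟩ := NewQuotient.exists_poly_newQuotient_idx S S' hSS' hMS' chig hchig iota
    (fun ψ => EigenformOfRingHom.exists_eigenform_of_ringHom_final ψ) hN5
  exact ⟨p, hp, h (TLamAlg (M0 * q) (↑S' : Set ℕ))
    (fun i => TLam_mem_TLamAlg (M0 * q) (↑S' : Set ℕ) i.2) (lamPsi (M0 * q) (↑S' : Set ℕ))
    (fun ℓ hℓ hℓM hℓS =>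
      lamPsi_TLam_of_not_dvd (M0 * q) (↑S' : Set ℕ) (l := ⟨ℓ, hℓ⟩) hℓM hℓS)⟩

end Fermat.Agent.BR2.NewQuotientE7
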