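/-
Phase 2 (S35, conjunct 2), node (NR) of the blueprint (finding #706): the generic NORM–RESIDUE
formula for two valuation rings over a valuation ring (helper21).

`E / F` a finite field extension, `O₀` a valuation subring of `F`, `O₁ O₂` valuation subrings of
`E` over `O₀` in the FULL situation `D : TwoVal.Full O₀ O₁ O₂ ι κ` of `BR/TwoVal` (residue degrees
`f₁ = |ι|`, `f₂ = |κ|`, `f₁ + f₂ = [E : F]`: no ramification, no defect, `O₁ ∩ O₂` is the integral
closure of `O₀`).  Residue maps are ABSTRACT: `res₀ : O₀ →+* k₀`, `res_i : O_i →+* k_i` surjective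
with kernel the maximal ideal, `[Algebra k₀ k_i]` compatible (`ResBase`, `ResOver`).

* `algebraMap_norm_of_finrank_eq_one`, `algebraMap_norm_of_pow_mem` : the norm of an extension of
  degree one, and of a purely inseparable extension (`N y = y ^ [L : K]`);
* `exists_adapted_basis` : `TwoVal.Full.exists_basis` with the adapted family exported;
* `linearIndependent_res`, `exists_residue_basis` : a residue-independent family of maximal size
  gives a basis of the residue field; `finrank_residue₁/₂ : [k_i : k₀] = f_i`;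
* **`norm_residue`** : for `f ∈ O₁ ∩ O₂` : `N_{E/F} f ∈ O₀` and
  `res₀ (N f) = N_{k₁/k₀} (res₁ f) * N_{k₂/k₀} (res₂ f)`
  (matrix of `f` in the adapted basis: entries in `O₀`, reduction block triangular);
* `norm_notMem_nonunits` : units go to units;
* `norm_residue_insep` : the instance shape (`X₀(N) → X₀(N/q)`, degrees `1` and `q`, second residue
  extension purely inseparable): `res₀ (N f) = z₁ * z₂`, `z₁ ↦ res₁ f`, `z₂ ↦ (res₂ f) ^ q`.
-/
import Mathlib
import Fermat.Agent.BR.TwoVal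

set_option autoImplicit false

namespace Fermat.Agent.BR2.NormResidue

open Polynomial Module Matrix Fermat.Agent.Val Fermat.Agent.BR.TwoVal

section PurelyInsep

variable {K L : Type*} [Field K] [Field L] [Algebra K L] [FiniteDimensional K L]

/-- the norm of an extension of degree one is the inverse of the structure map -/
theorem algebraMap_norm_of_finrank_eq_one (h : finrank K L = 1) (y : L) :
    algebraMap K L (Algebra.norm K y) = y := by
  have hsurj : Function.Surjective (algebraMap K L) := by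
    intro z
    have h1 : (⊥ : Subalgebra K L) = ⊤ := Subalgebra.bot_eq_top_of_finrank_eq_one h
    have h2 : z ∈ (⊥ : Subalgebra K L) := by rw [h1]; exact Algebra.mem_top
    exact Algebra.mem_bot.mp h2
  obtain ⟨c, rfl⟩ := hsurj y
  rw [Algebra.norm_algebraMap, h, pow_one]

/-- **the norm of a purely inseparable extension is the power map**: if `y ^ (p ^ a)` comes from
`K` (characteristic `p`), then `N_{L/K} y = y ^ [L : K]`. -/
theorem algebraMap_norm_of_pow_mem (p : ℕ) [ExpChar K p] (a : ℕ) (y : L)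
    (hy : y ^ p ^ a ∈ (algebraMap K L).range) :
    algebraMap K L (Algebra.norm K y) = y ^ finrank K L := by
  have : ExpChar L p := expChar_of_injective_algebraMap (algebraMap K L).injective p
  obtain ⟨c, hc⟩ := hy
  have hint : IsIntegral K y := Algebra.IsIntegral.isIntegral y
  -- the minimal polynomial divides `X ^ (p ^ a) - c`
  have hdvd : minpoly K y ∣ X ^ p ^ a - C c := by
    apply minpoly.dvd
    rw [map_sub, map_pow, aeval_X, aeval_C, hc, sub_self]
  have hmap : (X ^ p ^ a - C c : K[X]).map (algebraMap K L) = (X - C y) ^ p ^ a := by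
    rw [Polynomial.map_sub, Polynomial.map_pow, map_X, map_C, hc, sub_pow_expChar_pow, ← C_pow]
  have hdvd' : (minpoly K y).map (algebraMap K L) ∣ (X - C y) ^ p ^ a := by
    rw [← hmap]
    exact Polynomial.map_dvd _ hdvd
  obtain ⟨d, hd, hassoc⟩ := (dvd_prime_pow (prime_X_sub_C y) _).mp hdvd'
  have hmonic : ((minpoly K y).map (algebraMap K L)).Monic := (minpoly.monic hint).map _
  have heq : (minpoly K y).map (algebraMap K L) = (X - C y) ^ d :=
    eq_of_monic_of_associated hmonic ((monic_X_sub_C y).pow d) hassoc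
  have hsplits : ((minpoly K y).map (algebraMap K L)).Splits := by
    rw [heq]
    exact (Splits.X_sub_C y).pow d
  have hroots : ((minpoly K y).aroots L).prod = y ^ d := by
    rw [aroots_def, heq, roots_pow, roots_X_sub_C, Multiset.nsmul_singleton,
      Multiset.prod_replicate]
  have hdeg : (minpoly K y).natDegree = d := by
    have := congrArg natDegree heq
    rwa [natDegree_map, natDegree_pow, natDegree_X_sub_C, mul_one] at this
  rw [Algebra.norm_eq_prod_roots L hsplits, hroots, ← pow_mul, ← hdeg,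
    ← IntermediateField.adjoin.finrank hint, finrank_mul_finrank]

end PurelyInsep

section Adapted

variable {F E : Type*} [Field F] [Field E] [Algebra F E]
variable {O₀ : ValuationSubring F} {O₁ O₂ : ValuationSubring E}
variable {ι κ : Type*} [Fintype ι] [Fintype κ]

/-- An adapted integral basis in the full situation: `x' i ≡ x i` at `O₁`, `≡ 0` at `O₂`;
`y' j ≡ y j` at `O₂`, `≡ 0` at `O₁`; `b = (x', y')` is an `F`-basis of `E` and an `O₀`-basis of
`O₁ ∩ O₂`.  (`TwoVal.Full.exists_basis` with the adapted family exported.) -/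
theorem exists_adapted_basis [FiniteDimensional F E] (D : Full O₀ O₁ O₂ ι κ) :
    ∃ (b : Module.Basis (ι ⊕ κ) F E) (x' : ι → E) (y' : κ → E),
      (∀ i, x' i ∈ O₁ ∧ x' i - D.x i ∈ O₁.nonunits ∧ x' i ∈ O₂.nonunits) ∧
      (∀ j, y' j ∈ O₂ ∧ y' j - D.y j ∈ O₂.nonunits ∧ y' j ∈ O₁.nonunits) ∧
      (∀ t, b t = Sum.elim x' y' t) ∧
      ∀ w : E, (w ∈ O₁ ∧ w ∈ O₂) ↔ ∀ t, b.repr w t ∈ O₀ := by
  classical
  have S := D.setup
  obtain ⟨x', y', hx', hy', hli⟩ := S.linearIndependent D.hx D.hy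
  have hcard : Fintype.card (ι ⊕ κ) = Module.finrank F E := by
    rw [Fintype.card_sum]
    exact D.card_eq
  have : Nonempty (ι ⊕ κ) := Fintype.card_pos_iff.1 (hcard ▸ Module.finrank_pos)
  set b := basisOfLinearIndependentOfCardEqFinrank hli hcard with hb
  have hbz : ∀ t, b t = Sum.elim x' y' t := fun t => by
    rw [hb, coe_basisOfLinearIndependentOfCardEqFinrank]
  refine ⟨b, x', y', hx', hy', hbz, fun w => ?_⟩
  have hz₁ : ∀ t, Sum.elim x' y' t ∈ O₁ := by
    rintro (i | j)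
    · exact (hx' i).1
    · exact mem_of_mem_nonunits O₁ (hy' j).2.2
  have hz₂ : ∀ t, Sum.elim x' y' t ∈ O₂ := by
    rintro (i | j)
    · exact mem_of_mem_nonunits O₂ (hx' i).2.2
    · exact (hy' j).1
  have hrepr : ∑ t, b.repr w t • Sum.elim x' y' t = w := by
    conv_rhs => rw [← b.sum_repr w]
    exact Finset.sum_congr rfl fun t _ => by rw [hbz]
  constructor
  · rintro ⟨hw₁, hw₂⟩
    by_contra hne
    push Not at hne
    obtain ⟨t₁, ht₁⟩ := hne
    have hex : ∃ t, b.repr w t ≠ 0 := ⟨t₁, fun h => ht₁ (h ▸ O₀.zero_mem)⟩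
    obtain ⟨t₀, ht₀, hpiv⟩ := exists_pivot O₀ (fun t => b.repr w t) hex
    have ht₀' : b.repr w t₀ ∉ O₀ := by
      intro h
      apply ht₁
      have h1 : b.repr w t₁ = (b.repr w t₁ / b.repr w t₀) * b.repr w t₀ := by
        rw [div_mul_cancel₀ _ ht₀]
      rw [h1]
      exact O₀.mul_mem _ _ (hpiv t₁) h
    have hinv : (b.repr w t₀)⁻¹ ∈ O₀.nonunits := by
      rw [mem_nonunits_iff_inv_notMem O₀ (inv_ne_zero ht₀), inv_inv]
      exact ht₀'
    have hsum : ∑ t, (b.repr w t / b.repr w t₀) • Sum.elim x' y' t = (b.repr w t₀)⁻¹ • w := by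
      have h1 : ∑ t, (b.repr w t / b.repr w t₀) • Sum.elim x' y' t =
          (b.repr w t₀)⁻¹ • ∑ t, b.repr w t • Sum.elim x' y' t := by
        rw [Finset.smul_sum]
        refine Finset.sum_congr rfl fun t _ => ?_
        rw [smul_smul, div_eq_inv_mul]
      rw [h1, hrepr]
    have h := S.coeff_mem_nonunits D.hx D.hy hx' hy' (fun t => b.repr w t / b.repr w t₀) hpiv
      (hsum ▸ S.nonunit_smul_mem_nonunits₁ hinv hw₁)
      (hsum ▸ S.nonunit_smul_mem_nonunits₂ hinv hw₂) t₀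
    rw [div_self ht₀] at h
    rw [O₀.mem_nonunits_iff, map_one] at h
    exact lt_irrefl _ h
  · intro h
    rw [← hrepr]
    exact ⟨sum_mem fun t _ => S.smul_mem₁ (h t) (hz₁ t),
      sum_mem fun t _ => S.smul_mem₂ (h t) (hz₂ t)⟩

end Adapted

section ResidueBasis

variable {F E : Type*} [Field F] [Field E] [Algebra F E]
variable {O₀ : ValuationSubring F} {O : ValuationSubring E}
variable {k₀ k : Type*} [Field k₀] [Field k] [Algebra k₀ k]

/-- `res₀` is the residue map of `O₀` -/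
structure ResBase (res₀ : O₀ →+* k₀) : Prop where
  surj : Function.Surjective res₀
  ker : ∀ c : O₀, res₀ c = 0 ↔ (c : F) ∈ O₀.nonunits

/-- `res` is the residue map of `O`, compatible with `res₀` and `k₀ → k` -/
structure ResOver (res₀ : O₀ →+* k₀) (res : O →+* k) : Prop where
  surj : Function.Surjective res
  ker : ∀ z : O, res z = 0 ↔ (z : E) ∈ O.nonunits
  compat : ∀ (c : O₀) (h : algebraMap F E (c : F) ∈ O),
    res ⟨algebraMap F E (c : F), h⟩ = algebraMap k₀ k (res₀ c)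

variable {res₀ : O₀ →+* k₀} {res : O →+* k}

theorem ResOver.res_smul (H : ResOver res₀ res) {c : F} (hc : c ∈ O₀) {z : E} (hz : z ∈ O)
    (hcz : algebraMap F E c ∈ O) (h : c • z ∈ O) :
    res ⟨c • z, h⟩ = res₀ ⟨c, hc⟩ • res ⟨z, hz⟩ := by
  have e : (⟨c • z, h⟩ : O) = ⟨algebraMap F E c, hcz⟩ * ⟨z, hz⟩ := by
    apply Subtype.ext
    show c • z = algebraMap F E c * z
    rw [Algebra.smul_def]
  rw [e, map_mul, H.compat ⟨c, hc⟩ hcz, Algebra.smul_def]

theorem ResOver.res_sum (H : ResOver res₀ res) {τ : Type*} (s : Finset τ) (c : τ → F)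
    (hc : ∀ t, c t ∈ O₀) (z : τ → E) (hz : ∀ t, z t ∈ O) (hcz : ∀ t, algebraMap F E (c t) ∈ O)
    (h : ∑ t ∈ s, c t • z t ∈ O) :
    res ⟨∑ t ∈ s, c t • z t, h⟩ = ∑ t ∈ s, res₀ ⟨c t, hc t⟩ • res ⟨z t, hz t⟩ := by
  have hmem : ∀ t, c t • z t ∈ O := fun t => by
    rw [Algebra.smul_def]
    exact O.mul_mem _ _ (hcz t) (hz t)
  have e : (⟨∑ t ∈ s, c t • z t, h⟩ : O) = ∑ t ∈ s, (⟨c t • z t, hmem t⟩ : O) := by
    apply Subtype.ext
    have := map_sum O.subtype (fun t => (⟨c t • z t, hmem t⟩ : O)) s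
    simp
  rw [e, map_sum]
  exact Finset.sum_congr rfl fun t _ => H.res_smul (hc t) (hz t) (hcz t) (hmem t)

/-- the residues of a residue-independent family are linearly independent -/
theorem linearIndependent_res (H₀ : ResBase res₀) (H : ResOver res₀ res)
    (hlies : ∀ c ∈ O₀, algebraMap F E c ∈ O) {ι : Type*} [Fintype ι] {x : ι → E}
    (hx : ResIndep O₀ O x) : LinearIndependent k₀ fun i => res ⟨x i, hx.1 i⟩ := by
  rw [Fintype.linearIndependent_iff]
  intro γ hγ i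
  choose c hc using fun i => H₀.surj (γ i)
  have hmem : ∑ i, ((c i : O₀) : F) • x i ∈ O :=
    sum_mem fun i _ => by
      rw [Algebra.smul_def]
      exact O.mul_mem _ _ (hlies _ (c i).2) (hx.1 i)
  have h1 := H.res_sum Finset.univ (fun i => ((c i : O₀) : F)) (fun i => (c i).2) x hx.1
    (fun i => hlies _ (c i).2) hmem
  have h2 : res ⟨∑ i, ((c i : O₀) : F) • x i, hmem⟩ = 0 := by
    rw [h1, ← hγ]
    exact Finset.sum_congr rfl fun i _ => by rw [← hc i]
  rw [H.ker] at h2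
  have h3 := hx.2 (fun i => ((c i : O₀) : F)) (fun i => (c i).2) h2 i
  rw [← hc i]
  exact (H₀.ker (c i)).mpr h3

/-- a residue-independent family of maximal cardinality gives a basis of the residue field -/
theorem exists_residue_basis (H₀ : ResBase res₀) (H : ResOver res₀ res)
    (hlies : ∀ c ∈ O₀, algebraMap F E c ∈ O) {ι : Type*} [Fintype ι] {x : ι → E}
    (hx : ResIndep O₀ O x)
    (hmax : ∀ {x'' : Option ι → E}, ResIndep O₀ O x'' → False) :
    ∃ b : Module.Basis ι k₀ k, ∀ i, b i = res ⟨x i, hx.1 i⟩ := by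
  have hli := linearIndependent_res H₀ H hlies hx
  have hspan : ⊤ ≤ Submodule.span k₀ (Set.range fun i => res ⟨x i, hx.1 i⟩) := by
    by_contra hne
    obtain ⟨yb, -, hyb⟩ := SetLike.not_le_iff_exists.mp hne
    obtain ⟨y, rfl⟩ := H.surj yb
    apply hmax (x'' := fun o => o.elim (y : E) x)
    refine ⟨?_, ?_⟩
    · rintro (_ | i)
      · exact y.2
      · exact hx.1 i
    · intro c hc hsum
      rw [Fintype.sum_option] at hsum
      simp only [Option.elim] at hsum
      have hmem1 : ∑ i, c (some i) • x i ∈ O :=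
        sum_mem fun i _ => by
          rw [Algebra.smul_def]
          exact O.mul_mem _ _ (hlies _ (hc _)) (hx.1 i)
      have hmem0 : c none • (y : E) ∈ O := by
        rw [Algebra.smul_def]
        exact O.mul_mem _ _ (hlies _ (hc _)) y.2
      have hmem : c none • (y : E) + ∑ i, c (some i) • x i ∈ O := O.add_mem _ _ hmem0 hmem1
      have h1 : res ⟨c none • (y : E) + ∑ i, c (some i) • x i, hmem⟩ = 0 :=
        (H.ker _).mpr hsum
      have e : (⟨c none • (y : E) + ∑ i, c (some i) • x i, hmem⟩ : O) =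
          ⟨c none • (y : E), hmem0⟩ + ⟨∑ i, c (some i) • x i, hmem1⟩ := rfl
      rw [e, map_add, H.res_smul (hc none) y.2 (hlies _ (hc _)) hmem0,
        H.res_sum Finset.univ (fun i => c (some i)) (fun i => hc _) x hx.1
          (fun i => hlies _ (hc _)) hmem1] at h1
      have hy0 : res₀ ⟨c none, hc none⟩ = 0 := by
        by_contra hne0
        apply hyb
        have h2 : res (⟨(y : E), y.2⟩ : O) = -(res₀ ⟨c none, hc none⟩)⁻¹ •
            ∑ i, res₀ ⟨c (some i), hc _⟩ • res ⟨x i, hx.1 i⟩ := by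
          have h3 : res₀ ⟨c none, hc none⟩ • res (⟨(y : E), y.2⟩ : O) =
              -∑ i, res₀ ⟨c (some i), hc _⟩ • res ⟨x i, hx.1 i⟩ := by
            rw [eq_neg_iff_add_eq_zero]
            exact h1
          rw [neg_smul, ← smul_neg, ← h3, smul_smul, inv_mul_cancel₀ hne0, one_smul]
        have h4 : (y : O) = ⟨(y : E), y.2⟩ := rfl
        rw [h4, h2]
        apply Submodule.smul_mem
        apply Submodule.sum_mem
        intro i _
        exact Submodule.smul_mem _ _ (Submodule.subset_span ⟨i, rfl⟩)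
      rw [hy0, zero_smul, zero_add] at h1
      have h5 := Fintype.linearIndependent_iff.mp hli (fun i => res₀ ⟨c (some i), hc _⟩) h1
      rintro (_ | i)
      · exact (H₀.ker ⟨c none, hc none⟩).mp hy0
      · exact (H₀.ker ⟨c (some i), hc _⟩).mp (h5 i)
  exact ⟨Module.Basis.mk hli hspan, fun i => Module.Basis.mk_apply hli hspan i⟩

end ResidueBasis

section Main

variable {F E : Type*} [Field F] [Field E] [Algebra F E]
variable {O₀ : ValuationSubring F} {O₁ O₂ : ValuationSubring E}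
variable {ι κ : Type*} [Fintype ι] [Fintype κ]

/-- residue-independence only depends on the residues -/
theorem resIndep_congr {O : ValuationSubring E} {x x' : ι → E} (hx : ResIndep O₀ O x)
    (hsmul : ∀ c ∈ O₀, ∀ z ∈ O.nonunits, c • z ∈ O.nonunits)
    (hx' : ∀ i, x' i ∈ O ∧ x' i - x i ∈ O.nonunits) : ResIndep O₀ O x' := by
  refine ⟨fun i => (hx' i).1, fun c hc hsum => ?_⟩
  apply hx.2 c hc
  have hdiff : ∑ i, c i • (x' i - x i) ∈ O.nonunits :=
    sum_mem_nonunits O _ _ fun i _ => hsmul _ (hc i) _ (hx' i).2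
  have h := sub_mem_nonunits O hsum hdiff
  rw [← Finset.sum_sub_distrib] at h
  refine (congrArg (· ∈ O.nonunits) (Finset.sum_congr rfl fun i _ => ?_)).mp h
  rw [← smul_sub, sub_sub_cancel]

variable {k₀ k₁ k₂ : Type*} [Field k₀] [Field k₁] [Field k₂] [Algebra k₀ k₁] [Algebra k₀ k₂]
variable {res₀ : O₀ →+* k₀} {res₁ : O₁ →+* k₁} {res₂ : O₂ →+* k₂}

/-- the `y`-coordinates of an element of `O₁ ∩ 𝔪₂` lie in the maximal ideal of `O₀` -/
theorem repr_inr_mem_nonunits (S : Setup O₀ O₁ O₂) {x' : ι → E} {y' : κ → E}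
    (hx'₂ : ∀ i, x' i ∈ O₂.nonunits) (hyI : ResIndep O₀ O₂ y')
    (b : Module.Basis (ι ⊕ κ) F E) (hbz : ∀ t, b t = Sum.elim x' y' t) {w : E}
    (hw : w ∈ O₂.nonunits) (hrepr : ∀ t, b.repr w t ∈ O₀) (j : κ) :
    b.repr w (Sum.inr j) ∈ O₀.nonunits := by
  have hsum : ∑ t, b.repr w t • Sum.elim x' y' t = w := by
    conv_rhs => rw [← b.sum_repr w]
    exact Finset.sum_congr rfl fun t _ => by rw [hbz]
  rw [Fintype.sum_sum_type] at hsum
  simp only [Sum.elim_inl, Sum.elim_inr] at hsum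
  have hA : ∑ i, b.repr w (Sum.inl i) • x' i ∈ O₂.nonunits :=
    sum_mem_nonunits O₂ _ _ fun i _ => S.smul_mem_nonunits₂ (hrepr _) (hx'₂ i)
  have hB : ∑ j, b.repr w (Sum.inr j) • y' j ∈ O₂.nonunits := by
    have hw' : ∑ i, b.repr w (Sum.inl i) • x' i + ∑ j, b.repr w (Sum.inr j) • y' j ∈
        O₂.nonunits := by rw [hsum]; exact hw
    have h := sub_mem_nonunits O₂ hw' hA
    rwa [add_sub_cancel_left] at h
  exact hyI.2 (fun j => b.repr w (Sum.inr j)) (fun j => hrepr _) hB j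

/-- the residue of an element of `O₁ ∩ O₂` in terms of its coordinates in an adapted basis -/
theorem res_eq_sum_repr (S : Setup O₀ O₁ O₂) (H₁ : ResOver res₀ res₁) {x' : ι → E} {y' : κ → E}
    (hx'₁ : ∀ i, x' i ∈ O₁) (hy'₁ : ∀ j, y' j ∈ O₁.nonunits)
    (b : Module.Basis (ι ⊕ κ) F E) (hbz : ∀ t, b t = Sum.elim x' y' t) {w : E}
    (hw : w ∈ O₁) (hrepr : ∀ t, b.repr w t ∈ O₀) :
    res₁ ⟨w, hw⟩ = ∑ i, res₀ ⟨b.repr w (Sum.inl i), hrepr _⟩ • res₁ ⟨x' i, hx'₁ i⟩ := by
  have hsum : ∑ t, b.repr w t • Sum.elim x' y' t = w := by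
    conv_rhs => rw [← b.sum_repr w]
    exact Finset.sum_congr rfl fun t _ => by rw [hbz]
  have hz : ∀ t, Sum.elim x' y' t ∈ O₁ := by
    rintro (i | j)
    · exact hx'₁ i
    · exact mem_of_mem_nonunits O₁ (hy'₁ j)
  have hmem : ∑ t, b.repr w t • Sum.elim x' y' t ∈ O₁ := by rw [hsum]; exact hw
  have e : (⟨w, hw⟩ : O₁) = ⟨∑ t, b.repr w t • Sum.elim x' y' t, hmem⟩ := Subtype.ext hsum.symm
  rw [e, H₁.res_sum Finset.univ (fun t => b.repr w t) hrepr (Sum.elim x' y') hz
    (fun t => S.algebraMap_mem₁ (hrepr t)) hmem, Fintype.sum_sum_type]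
  have h0 : ∑ j, res₀ ⟨b.repr w (Sum.inr j), hrepr _⟩ •
      res₁ ⟨Sum.elim x' y' (Sum.inr j), hz _⟩ = 0 := by
    apply Finset.sum_eq_zero
    intro j _
    have : res₁ ⟨Sum.elim x' y' (Sum.inr j), hz _⟩ = 0 := (H₁.ker _).mpr (hy'₁ j)
    rw [this, smul_zero]
  rw [h0, add_zero]
  rfl

/-- the residue at `O₂` of an element of `O₁ ∩ O₂` in terms of its coordinates in an adapted
basis -/
theorem res_eq_sum_repr_inr (S : Setup O₀ O₁ O₂) (H₂ : ResOver res₀ res₂) {x' : ι → E}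
    {y' : κ → E} (hy'₂ : ∀ j, y' j ∈ O₂) (hx'₂ : ∀ i, x' i ∈ O₂.nonunits)
    (b : Module.Basis (ι ⊕ κ) F E) (hbz : ∀ t, b t = Sum.elim x' y' t) {w : E}
    (hw : w ∈ O₂) (hrepr : ∀ t, b.repr w t ∈ O₀) :
    res₂ ⟨w, hw⟩ = ∑ j, res₀ ⟨b.repr w (Sum.inr j), hrepr _⟩ • res₂ ⟨y' j, hy'₂ j⟩ := by
  have hsum : ∑ t, b.repr w t • Sum.elim x' y' t = w := by
    conv_rhs => rw [← b.sum_repr w]
    exact Finset.sum_congr rfl fun t _ => by rw [hbz]
  have hz : ∀ t, Sum.elim x' y' t ∈ O₂ := by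
    rintro (i | j)
    · exact mem_of_mem_nonunits O₂ (hx'₂ i)
    · exact hy'₂ j
  have hmem : ∑ t, b.repr w t • Sum.elim x' y' t ∈ O₂ := by rw [hsum]; exact hw
  have e : (⟨w, hw⟩ : O₂) = ⟨∑ t, b.repr w t • Sum.elim x' y' t, hmem⟩ := Subtype.ext hsum.symm
  rw [e, H₂.res_sum Finset.univ (fun t => b.repr w t) hrepr (Sum.elim x' y') hz
    (fun t => S.algebraMap_mem₂ (hrepr t)) hmem, Fintype.sum_sum_type]
  have h0 : ∑ i, res₀ ⟨b.repr w (Sum.inl i), hrepr _⟩ •
      res₂ ⟨Sum.elim x' y' (Sum.inl i), hz _⟩ = 0 := by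
    apply Finset.sum_eq_zero
    intro i _
    have : res₂ ⟨Sum.elim x' y' (Sum.inl i), hz _⟩ = 0 := (H₂.ker _).mpr (hx'₂ i)
    rw [this, smul_zero]
  rw [h0, zero_add]
  rfl

/-- **the norm–residue formula** for two valuation rings `O₁, O₂` over `O₀` in the full situation
`f₁ + f₂ = [E : F]`: for `f ∈ O₁ ∩ O₂` the norm `N_{E/F} f` lies in `O₀` and its residue is the
product of the norms of the residues of `f` at `O₁` and `O₂`. -/
theorem norm_residue [FiniteDimensional F E] (D : Full O₀ O₁ O₂ ι κ) (H₀ : ResBase res₀)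
    (H₁ : ResOver res₀ res₁) (H₂ : ResOver res₀ res₂) {f : E} (hf₁ : f ∈ O₁) (hf₂ : f ∈ O₂) :
    ∃ h : Algebra.norm F f ∈ O₀, res₀ ⟨Algebra.norm F f, h⟩ =
      Algebra.norm k₀ (res₁ ⟨f, hf₁⟩) * Algebra.norm k₀ (res₂ ⟨f, hf₂⟩) := by
  classical
  have S := D.setup
  obtain ⟨b, x', y', hx', hy', hbz, hchar⟩ := exists_adapted_basis D
  have hxI : ResIndep O₀ O₁ x' := resIndep_congr D.hx
    (fun c hc z hz => S.smul_mem_nonunits₁ hc hz) (fun i => ⟨(hx' i).1, (hx' i).2.1⟩)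
  have hyI : ResIndep O₀ O₂ y' := resIndep_congr D.hy
    (fun c hc z hz => S.smul_mem_nonunits₂ hc hz) (fun j => ⟨(hy' j).1, (hy' j).2.1⟩)
  obtain ⟨b₁, hb₁⟩ := exists_residue_basis H₀ H₁ (fun c hc => S.algebraMap_mem₁ hc) hxI
    (fun {x''} h => by
      have := D.card_le₁ h
      rw [Fintype.card_option] at this
      omega)
  obtain ⟨b₂, hb₂⟩ := exists_residue_basis H₀ H₂ (fun c hc => S.algebraMap_mem₂ hc) hyI
    (fun {y''} h => by
      have := D.card_le₂ h
      rw [Fintype.card_option] at this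
      omega)
  have hb₁mem : ∀ t, b t ∈ O₁ := by
    intro t
    rw [hbz]
    rcases t with i | j
    · exact (hx' i).1
    · exact mem_of_mem_nonunits O₁ (hy' j).2.2
  have hb₂mem : ∀ t, b t ∈ O₂ := by
    intro t
    rw [hbz]
    rcases t with i | j
    · exact mem_of_mem_nonunits O₂ (hx' i).2.2
    · exact (hy' j).1
  have hcoef : ∀ s t, b.repr (f * b s) t ∈ O₀ := fun s t =>
    (hchar (f * b s)).mp ⟨O₁.mul_mem _ _ hf₁ (hb₁mem s), O₂.mul_mem _ _ hf₂ (hb₂mem s)⟩ t
  set M : Matrix (ι ⊕ κ) (ι ⊕ κ) O₀ := fun t s => ⟨b.repr (f * b s) t, hcoef s t⟩ with hM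
  have hleft : Algebra.leftMulMatrix b f = O₀.subtype.mapMatrix M := by
    ext t s
    rw [Algebra.leftMulMatrix_eq_repr_mul]
    rfl
  have hnorm : Algebra.norm F f = ((M.det : O₀) : F) := by
    rw [Algebra.norm_eq_matrix_det b f, hleft, ← RingHom.map_det]
    rfl
  have hmem : Algebra.norm F f ∈ O₀ := by
    rw [hnorm]
    exact (M.det).2
  refine ⟨hmem, ?_⟩
  have e0 : (⟨Algebra.norm F f, hmem⟩ : O₀) = M.det := Subtype.ext hnorm
  rw [e0, RingHom.map_det]
  set Mb := res₀.mapMatrix M with hMb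
  have h21 : Mb.toBlocks₂₁ = 0 := by
    ext j i
    show res₀ (M (Sum.inr j) (Sum.inl i)) = 0
    rw [H₀.ker]
    show b.repr (f * b (Sum.inl i)) (Sum.inr j) ∈ O₀.nonunits
    apply repr_inr_mem_nonunits S (fun i => (hx' i).2.2) hyI b hbz _ (hcoef _)
    rw [hbz]
    exact mul_mem_nonunits_of_mem O₂ hf₂ (hx' i).2.2
  have hblocks : Mb = fromBlocks Mb.toBlocks₁₁ Mb.toBlocks₁₂ 0 Mb.toBlocks₂₂ := by
    rw [← h21]
    exact (fromBlocks_toBlocks Mb).symm
  rw [hblocks, det_fromBlocks_zero₂₁]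
  congr 1
  · rw [Algebra.norm_eq_matrix_det b₁]
    congr 1
    ext i' i
    rw [Algebra.leftMulMatrix_eq_repr_mul]
    show res₀ (M (Sum.inl i') (Sum.inl i)) = b₁.repr (res₁ ⟨f, hf₁⟩ * b₁ i) i'
    have hw : f * b (Sum.inl i) ∈ O₁ := O₁.mul_mem _ _ hf₁ (hb₁mem _)
    have h1 := res_eq_sum_repr S H₁ (fun i => (hx' i).1) (fun j => (hy' j).2.2) b hbz hw
      (hcoef (Sum.inl i))
    have h2 : res₁ ⟨f * b (Sum.inl i), hw⟩ = res₁ ⟨f, hf₁⟩ * b₁ i := by
      rw [hb₁ i, ← map_mul]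
      congr 1
      apply Subtype.ext
      show f * b (Sum.inl i) = f * x' i
      rw [hbz]
      rfl
    rw [← h2, h1]
    have h3 : ∑ i'', res₀ ⟨b.repr (f * b (Sum.inl i)) (Sum.inl i''), hcoef _ _⟩ •
        res₁ ⟨x' i'', (hx' i'').1⟩ =
        ∑ i'', (fun i'' => res₀ ⟨b.repr (f * b (Sum.inl i)) (Sum.inl i''), hcoef _ _⟩) i'' •
          b₁ i'' := Finset.sum_congr rfl fun i'' _ => by rw [hb₁]
    rw [h3, Module.Basis.repr_sum_self]
  · rw [Algebra.norm_eq_matrix_det b₂]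
    congr 1
    ext j' j
    rw [Algebra.leftMulMatrix_eq_repr_mul]
    show res₀ (M (Sum.inr j') (Sum.inr j)) = b₂.repr (res₂ ⟨f, hf₂⟩ * b₂ j) j'
    have hw : f * b (Sum.inr j) ∈ O₂ := O₂.mul_mem _ _ hf₂ (hb₂mem _)
    have h1 := res_eq_sum_repr_inr S H₂ (fun j => (hy' j).1) (fun i => (hx' i).2.2) b hbz hw
      (hcoef (Sum.inr j))
    have h2 : res₂ ⟨f * b (Sum.inr j), hw⟩ = res₂ ⟨f, hf₂⟩ * b₂ j := by
      rw [hb₂ j, ← map_mul]
      congr 1
      apply Subtype.ext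
      show f * b (Sum.inr j) = f * y' j
      rw [hbz]
      rfl
    rw [← h2, h1]
    have h3 : ∑ j'', res₀ ⟨b.repr (f * b (Sum.inr j)) (Sum.inr j''), hcoef _ _⟩ •
        res₂ ⟨y' j'', (hy' j'').1⟩ =
        ∑ j'', (fun j'' => res₀ ⟨b.repr (f * b (Sum.inr j)) (Sum.inr j''), hcoef _ _⟩) j'' •
          b₂ j'' := Finset.sum_congr rfl fun j'' _ => by rw [hb₂]
    rw [h3, Module.Basis.repr_sum_self]

/-- the residue field of `O₁` has degree `f₁` over the residue field of `O₀` -/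
theorem exists_basis_residue₁ [FiniteDimensional F E] (D : Full O₀ O₁ O₂ ι κ) (H₀ : ResBase res₀)
    (H₁ : ResOver res₀ res₁) : Nonempty (Module.Basis ι k₀ k₁) := by
  have S := D.setup
  obtain ⟨b₁, -⟩ := exists_residue_basis H₀ H₁ (fun c hc => S.algebraMap_mem₁ hc) D.hx
    (fun {x''} h => by
      have := D.card_le₁ h
      rw [Fintype.card_option] at this
      omega)
  exact ⟨b₁⟩

/-- the residue field of `O₂` has degree `f₂` over the residue field of `O₀` -/
theorem exists_basis_residue₂ [FiniteDimensional F E] (D : Full O₀ O₁ O₂ ι κ) (H₀ : ResBase res₀)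
    (H₂ : ResOver res₀ res₂) : Nonempty (Module.Basis κ k₀ k₂) :=
  exists_basis_residue₁ D.symm H₀ H₂

theorem finrank_residue₁ [FiniteDimensional F E] (D : Full O₀ O₁ O₂ ι κ) (H₀ : ResBase res₀)
    (H₁ : ResOver res₀ res₁) : finrank k₀ k₁ = Fintype.card ι := by
  obtain ⟨b₁⟩ := exists_basis_residue₁ D H₀ H₁
  exact Module.finrank_eq_card_basis b₁

theorem finrank_residue₂ [FiniteDimensional F E] (D : Full O₀ O₁ O₂ ι κ) (H₀ : ResBase res₀)
    (H₂ : ResOver res₀ res₂) : finrank k₀ k₂ = Fintype.card κ :=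
  finrank_residue₁ D.symm H₀ H₂

/-- the norm of a function which is a unit at both valuation rings is a unit of `O₀` -/
theorem norm_notMem_nonunits [FiniteDimensional F E] (D : Full O₀ O₁ O₂ ι κ) (H₀ : ResBase res₀)
    (H₁ : ResOver res₀ res₁) (H₂ : ResOver res₀ res₂) {f : E} (hf₁ : f ∈ O₁) (hf₂ : f ∈ O₂)
    (hu₁ : f ∉ O₁.nonunits) (hu₂ : f ∉ O₂.nonunits) : Algebra.norm F f ∉ O₀.nonunits := by
  obtain ⟨h, e⟩ := norm_residue D H₀ H₁ H₂ hf₁ hf₂
  obtain ⟨b₁⟩ := exists_basis_residue₁ D H₀ H₁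
  obtain ⟨b₂⟩ := exists_basis_residue₂ D H₀ H₂
  have : Module.Finite k₀ k₁ := Module.Finite.of_basis b₁
  have : Module.Finite k₀ k₂ := Module.Finite.of_basis b₂
  intro hn
  have h0 : res₀ ⟨Algebra.norm F f, h⟩ = 0 := (H₀.ker _).mpr hn
  rw [e, mul_eq_zero, Algebra.norm_eq_zero_iff, Algebra.norm_eq_zero_iff, H₁.ker, H₂.ker] at h0
  rcases h0 with h0 | h0
  · exact hu₁ h0
  · exact hu₂ h0

/-- **the norm–residue formula, instance shape** (`X₀(N) → X₀(N/q)`): residue degrees `1` and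
`q = p ^ a`, the second residue extension purely inseparable.  Then
`res₀ (N f) = z₁ * z₂` with `z₁ ↦ res₁ f` and `z₂ ↦ (res₂ f) ^ f₂`. -/
theorem norm_residue_insep [FiniteDimensional F E] (D : Full O₀ O₁ O₂ ι κ) (H₀ : ResBase res₀)
    (H₁ : ResOver res₀ res₁) (H₂ : ResOver res₀ res₂) (hι : Fintype.card ι = 1)
    (p : ℕ) [ExpChar k₀ p] (a : ℕ) (hinsep : ∀ y : k₂, y ^ p ^ a ∈ (algebraMap k₀ k₂).range)
    {f : E} (hf₁ : f ∈ O₁) (hf₂ : f ∈ O₂) :
    ∃ (h : Algebra.norm F f ∈ O₀) (z₁ z₂ : k₀), algebraMap k₀ k₁ z₁ = res₁ ⟨f, hf₁⟩ ∧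
      algebraMap k₀ k₂ z₂ = res₂ ⟨f, hf₂⟩ ^ Fintype.card κ ∧
      res₀ ⟨Algebra.norm F f, h⟩ = z₁ * z₂ := by
  obtain ⟨h, e⟩ := norm_residue D H₀ H₁ H₂ hf₁ hf₂
  obtain ⟨b₁⟩ := exists_basis_residue₁ D H₀ H₁
  obtain ⟨b₂⟩ := exists_basis_residue₂ D H₀ H₂
  have : Module.Finite k₀ k₁ := Module.Finite.of_basis b₁
  have : Module.Finite k₀ k₂ := Module.Finite.of_basis b₂
  refine ⟨h, Algebra.norm k₀ (res₁ ⟨f, hf₁⟩), Algebra.norm k₀ (res₂ ⟨f, hf₂⟩), ?_, ?_, e⟩
  · apply algebraMap_norm_of_finrank_eq_one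
    rw [finrank_residue₁ D H₀ H₁, hι]
  · rw [algebraMap_norm_of_pow_mem p a _ (hinsep _), finrank_residue₂ D H₀ H₂]

end Main

end Fermat.Agent.BR2.NormResidue
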