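/-
Phase 2 (S35, conjunct 2), node (NR), part 2 (helper21): the NORM–RESIDUE formula with DIFFERENT
normalisations at the two valuations (the "transition element" problem of the board #727).

Setting of `BR2/NormResidue.lean`: `D : TwoVal.Full O₀ O₁ O₂ ι κ`, abstract residue maps.
In (G5) a function `f` cannot be normalised to a unit at both components simultaneously:
`f̃_i = res_i (c_i f)` with `c₁ ≠ c₂`.

* `linearIndependent_of_adapted`, `basis_of_adapted` : the integral basis attached to ANY adapted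
  family `(x', y')`; coordinates of elements of `𝔪₁ ∩ 𝔪₂` lie in `𝔪₀`;
* `exists_adapted_small`, `exists_idem_small` : adapted families / approximate idempotents which
  are moreover `a`-small at the other valuation (rank one);
* `exists_transition` : for `γ ∈ O₀ \ 0` there is `z ≡ 1` at `O₁`, `z / γ ≡ 1` at `O₂` with
  `N z = γ ^ f₂ * u`, `u ≡ 1` (matrix of `z` in a basis whose `y'`-part is `γ`-small at `O₁`:
  the `κ`-columns are divisible by `γ`, and the scaled matrix is `≡ 1`);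
* `exists_normalizer` : `g` with `c₁ g ≡ 1` at `O₁`, `c₂ g ≡ 1` at `O₂`,
  `N g * (c₁ ^ f₁ * c₂ ^ f₂) ≡ 1`;
* **`norm_residue_gen`** : `c₁ f ∈ O₁`, `c₂ f ∈ O₂` ⟹ `N f * (c₁ ^ f₁ * c₂ ^ f₂) ∈ O₀` with residue
  `N_{k₁/k₀} (res₁ (c₁ f)) * N_{k₂/k₀} (res₂ (c₂ f))`;
* `norm_residue_gen_insep` : the instance shape (degrees `1` and `q`, purely inseparable).
-/
import Mathlib
import Fermat.Agent.BR2.NormResidue

set_option autoImplicit false

namespace Fermat.Agent.BR2.NormResidue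

open Polynomial Module Matrix Fermat.Agent.Val Fermat.Agent.BR.TwoVal

section GenBasis

variable {F E : Type*} [Field F] [Field E] [Algebra F E]
variable {O₀ : ValuationSubring F} {O₁ O₂ : ValuationSubring E}
variable {ι κ : Type*} [Fintype ι] [Fintype κ]

/-- any adapted family is linearly independent (`TwoVal.Setup.linearIndependent` for a given
adapted family) -/
theorem linearIndependent_of_adapted (S : Setup O₀ O₁ O₂) {x : ι → E} {y : κ → E}
    (hx : ResIndep O₀ O₁ x) (hy : ResIndep O₀ O₂ y) {x' : ι → E} {y' : κ → E}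
    (hx' : ∀ i, x' i ∈ O₁ ∧ x' i - x i ∈ O₁.nonunits ∧ x' i ∈ O₂.nonunits)
    (hy' : ∀ j, y' j ∈ O₂ ∧ y' j - y j ∈ O₂.nonunits ∧ y' j ∈ O₁.nonunits) :
    LinearIndependent F (Sum.elim x' y') := by
  rw [Fintype.linearIndependent_iff]
  intro g hg
  by_contra hne
  push Not at hne
  obtain ⟨t₀, ht₀, hpiv⟩ := exists_pivot O₀ g hne
  have hsum : ∑ t, (g t / g t₀) • Sum.elim x' y' t = 0 := by
    have h1 : ∑ t, (g t / g t₀) • Sum.elim x' y' t = (g t₀)⁻¹ • ∑ t, g t • Sum.elim x' y' t := by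
      rw [Finset.smul_sum]
      refine Finset.sum_congr rfl fun t _ => ?_
      rw [smul_smul, div_eq_inv_mul]
    rw [h1, hg, smul_zero]
  have h := S.coeff_mem_nonunits hx hy hx' hy' (fun t => g t / g t₀) hpiv
    (hsum ▸ zero_mem_nonunits O₁) (hsum ▸ zero_mem_nonunits O₂) t₀
  rw [div_self ht₀] at h
  rw [O₀.mem_nonunits_iff, map_one] at h
  exact lt_irrefl _ h

/-- **the integral basis attached to an adapted family**: it is an `O₀`-basis of `O₁ ∩ O₂`, and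
the coordinates of an element of `𝔪₁ ∩ 𝔪₂` lie in `𝔪₀`. -/
theorem basis_of_adapted [FiniteDimensional F E] (D : Full O₀ O₁ O₂ ι κ) {x' : ι → E}
    {y' : κ → E}
    (hx' : ∀ i, x' i ∈ O₁ ∧ x' i - D.x i ∈ O₁.nonunits ∧ x' i ∈ O₂.nonunits)
    (hy' : ∀ j, y' j ∈ O₂ ∧ y' j - D.y j ∈ O₂.nonunits ∧ y' j ∈ O₁.nonunits) :
    ∃ b : Module.Basis (ι ⊕ κ) F E, (∀ t, b t = Sum.elim x' y' t) ∧
      (∀ w : E, (w ∈ O₁ ∧ w ∈ O₂) ↔ ∀ t, b.repr w t ∈ O₀) ∧
      ∀ w : E, w ∈ O₁.nonunits → w ∈ O₂.nonunits → ∀ t, b.repr w t ∈ O₀.nonunits := by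
  classical
  have S := D.setup
  have hli := linearIndependent_of_adapted S D.hx D.hy hx' hy'
  have hcard : Fintype.card (ι ⊕ κ) = Module.finrank F E := by
    rw [Fintype.card_sum]
    exact D.card_eq
  have : Nonempty (ι ⊕ κ) := Fintype.card_pos_iff.1 (hcard ▸ Module.finrank_pos)
  set b := basisOfLinearIndependentOfCardEqFinrank hli hcard with hb
  have hbz : ∀ t, b t = Sum.elim x' y' t := fun t => by
    rw [hb, coe_basisOfLinearIndependentOfCardEqFinrank]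
  have hz₁ : ∀ t, Sum.elim x' y' t ∈ O₁ := by
    rintro (i | j)
    · exact (hx' i).1
    · exact mem_of_mem_nonunits O₁ (hy' j).2.2
  have hz₂ : ∀ t, Sum.elim x' y' t ∈ O₂ := by
    rintro (i | j)
    · exact mem_of_mem_nonunits O₂ (hx' i).2.2
    · exact (hy' j).1
  have hrepr : ∀ w : E, ∑ t, b.repr w t • Sum.elim x' y' t = w := by
    intro w
    conv_rhs => rw [← b.sum_repr w]
    exact Finset.sum_congr rfl fun t _ => by rw [hbz]
  have hchar : ∀ w : E, (w ∈ O₁ ∧ w ∈ O₂) ↔ ∀ t, b.repr w t ∈ O₀ := by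
    intro w
    constructor
    · rintro ⟨hw₁, hw₂⟩
      by_contra hne
      push Not at hne
      obtain ⟨t₁, ht₁⟩ := hne
      have hex : ∃ t, b.repr w t ≠ 0 := ⟨t₁, fun h => ht₁ (h ▸ O₀.zero_mem)⟩
      obtain ⟨t₀, ht₀, hpiv⟩ := exists_pivot O₀ (fun t => b.repr w t) hex
      have ht₀' : b.repr w t₀ ∉ O₀ := by
        intro h
        apply ht₁
        have h1 : b.repr w t₁ = (b.repr w t₁ / b.repr w t₀) * b.repr w t₀ := by
          rw [div_mul_cancel₀ _ ht₀]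
        rw [h1]
        exact O₀.mul_mem _ _ (hpiv t₁) h
      have hinv : (b.repr w t₀)⁻¹ ∈ O₀.nonunits := by
        rw [mem_nonunits_iff_inv_notMem O₀ (inv_ne_zero ht₀), inv_inv]
        exact ht₀'
      have hsum : ∑ t, (b.repr w t / b.repr w t₀) • Sum.elim x' y' t =
          (b.repr w t₀)⁻¹ • w := by
        have h1 : ∑ t, (b.repr w t / b.repr w t₀) • Sum.elim x' y' t =
            (b.repr w t₀)⁻¹ • ∑ t, b.repr w t • Sum.elim x' y' t := by
          rw [Finset.smul_sum]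
          refine Finset.sum_congr rfl fun t _ => ?_
          rw [smul_smul, div_eq_inv_mul]
        rw [h1, hrepr]
      have h := S.coeff_mem_nonunits D.hx D.hy hx' hy' (fun t => b.repr w t / b.repr w t₀) hpiv
        (hsum ▸ S.nonunit_smul_mem_nonunits₁ hinv hw₁)
        (hsum ▸ S.nonunit_smul_mem_nonunits₂ hinv hw₂) t₀
      rw [div_self ht₀] at h
      rw [O₀.mem_nonunits_iff, map_one] at h
      exact lt_irrefl _ h
    · intro h
      rw [← hrepr w]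
      exact ⟨sum_mem fun t _ => S.smul_mem₁ (h t) (hz₁ t),
        sum_mem fun t _ => S.smul_mem₂ (h t) (hz₂ t)⟩
  refine ⟨b, hbz, hchar, fun w hw₁ hw₂ => ?_⟩
  have hd := (hchar w).mp ⟨mem_of_mem_nonunits O₁ hw₁, mem_of_mem_nonunits O₂ hw₂⟩
  have h1 : ∑ t, b.repr w t • Sum.elim x' y' t ∈ O₁.nonunits := by rw [hrepr]; exact hw₁
  have h2 : ∑ t, b.repr w t • Sum.elim x' y' t ∈ O₂.nonunits := by rw [hrepr]; exact hw₂
  exact S.coeff_mem_nonunits D.hx D.hy hx' hy' (fun t => b.repr w t) hd h1 h2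

/-- an adapted family which is moreover small at the other valuation -/
theorem exists_adapted_small (S : Setup O₀ O₁ O₂) {x : ι → E} (hx : ∀ i, x i ∈ O₁) (a : F) :
    ∃ x' : ι → E, ∀ i, x' i ∈ O₁ ∧ x' i - x i ∈ O₁.nonunits ∧ x' i ∈ O₂.nonunits ∧
      a • x' i ∈ O₂.nonunits := by
  obtain ⟨e, he₁, he₂⟩ := S.sep
  have hu0 : 1 - e ≠ 0 := by
    intro h
    apply one_notMem_nonunits O₁
    have h1 : (1 : E) = e := by linear_combination h
    rw [h1]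
    exact he₁
  obtain ⟨n, hn⟩ := S.arch₂.exists_forall_family (Sum.elim x fun i => a • x i) he₂ hu0
  have hu1 : (1 - e) - 1 ∈ O₁.nonunits := by
    have h1 : (1 - e) - 1 = -e := by ring
    rw [h1]
    exact neg_mem_nonunits O₁ he₁
  have hpow := pow_sub_one_mem_nonunits O₁ hu1 n
  refine ⟨fun i => x i * (1 - e) ^ n, fun i => ⟨?_, ?_, hn (Sum.inl i), ?_⟩⟩
  · exact O₁.mul_mem _ _ (hx i) (pow_mem (mem_of_sub_one_mem_nonunits O₁ hu1) n)
  · have h1 : x i * (1 - e) ^ n - x i = x i * ((1 - e) ^ n - 1) := by ring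
    rw [h1]
    exact mul_mem_nonunits_of_mem O₁ (hx i) hpow
  · have := hn (Sum.inr i)
    simp only [Sum.elim_inr] at this
    rwa [smul_mul_assoc] at this

/-- an approximate idempotent: `≡ 1` at `O₁`, small at `O₂` -/
theorem exists_idem_small (S : Setup O₀ O₁ O₂) (a : F) :
    ∃ ε : E, ε - 1 ∈ O₁.nonunits ∧ ε ∈ O₂.nonunits ∧ a • ε ∈ O₂.nonunits := by
  obtain ⟨x', hx'⟩ := exists_adapted_small (ι := Unit) S (x := fun _ => (1 : E))
    (fun _ => O₁.one_mem) a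
  exact ⟨x' (), (hx' ()).2.1, (hx' ()).2.2.1, (hx' ()).2.2.2⟩

end GenBasis

section Transition

variable {F E : Type*} [Field F] [Field E] [Algebra F E]
variable {O₀ : ValuationSubring F} {O₁ O₂ : ValuationSubring E}
variable {ι κ : Type*} [Fintype ι] [Fintype κ]
variable {k₀ : Type*} [Field k₀] {res₀ : O₀ →+* k₀}

/-- **the transition element**: for `γ ∈ O₀`, `γ ≠ 0` there is `z ≡ 1` at `O₁` with `z / γ ≡ 1` at
`O₂`, and `N_{E/F} z = γ ^ f₂ * u` with `u ≡ 1` in `O₀`. -/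
theorem exists_transition [FiniteDimensional F E] (D : Full O₀ O₁ O₂ ι κ) (H₀ : ResBase res₀)
    {γ : F} (hγ : γ ∈ O₀) (hγ0 : γ ≠ 0) :
    ∃ z : E, z - 1 ∈ O₁.nonunits ∧ γ⁻¹ • z - 1 ∈ O₂.nonunits ∧
      ∃ (u : F) (hu : u ∈ O₀), res₀ ⟨u, hu⟩ = 1 ∧
        Algebra.norm F z = γ ^ Fintype.card κ * u := by
  classical
  have S := D.setup
  obtain ⟨ε, hε₁, hε₂, hε₂'⟩ := exists_idem_small S γ⁻¹
  obtain ⟨x', hx'⟩ := S.exists_adapted D.hx.1
  obtain ⟨y', hy'⟩ := exists_adapted_small S.symm D.hy.1 γ⁻¹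
  obtain ⟨b, hbz, hchar, hker⟩ := basis_of_adapted D hx'
    (fun j => ⟨(hy' j).1, (hy' j).2.1, (hy' j).2.2.1⟩)
  set z : E := ε + γ • (1 - ε) with hz
  have hε₁mem : ε ∈ O₁ := mem_of_sub_one_mem_nonunits O₁ hε₁
  have hε₂mem : ε ∈ O₂ := mem_of_mem_nonunits O₂ hε₂
  -- `z ≡ 1` at `O₁`
  have hz₁ : z - 1 ∈ O₁.nonunits := by
    have e : z - 1 = (1 - γ) • (ε - 1) := by
      rw [hz]
      simp only [sub_smul, smul_sub, one_smul]
      ring
    rw [e]
    exact S.smul_mem_nonunits₁ (sub_mem O₀.one_mem hγ) hε₁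
  -- `z / γ ≡ 1` at `O₂`
  have hz₂ : γ⁻¹ • z - 1 ∈ O₂.nonunits := by
    have e : γ⁻¹ • z - 1 = γ⁻¹ • ε - ε := by
      rw [hz, smul_add, smul_smul, inv_mul_cancel₀ hγ0, one_smul]
      ring
    rw [e]
    exact sub_mem_nonunits O₂ hε₂' hε₂
  have hzO₁ : z ∈ O₁ := mem_of_sub_one_mem_nonunits O₁ hz₁
  have hzO₂ : z ∈ O₂ := by
    rw [hz]
    exact O₂.add_mem _ _ hε₂mem (S.smul_mem₂ hγ (sub_mem O₂.one_mem hε₂mem))
  refine ⟨z, hz₁, hz₂, ?_⟩
  -- the columns of the matrix of `z`, the `κ`-columns divided by `γ`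
  set w : ι ⊕ κ → E := Sum.elim (fun i => z * x' i) (fun j => γ⁻¹ • (z * y' j)) with hw
  have hwb : ∀ s, w s - b s ∈ O₁.nonunits ∧ w s - b s ∈ O₂.nonunits := by
    rintro (i | j)
    · have e : w (Sum.inl i) - b (Sum.inl i) = (z - 1) * x' i := by
        rw [hbz]
        simp only [hw, Sum.elim_inl]
        ring
      rw [e]
      constructor
      · rw [mul_comm]
        exact mul_mem_nonunits_of_mem O₁ (hx' i).1 hz₁
      · exact mul_mem_nonunits_of_mem O₂ (sub_mem hzO₂ O₂.one_mem) (hx' i).2.2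
    · have e : w (Sum.inr j) - b (Sum.inr j) = (γ⁻¹ • z - 1) * y' j := by
        rw [hbz]
        simp only [hw, Sum.elim_inr]
        rw [sub_mul, one_mul, smul_mul_assoc]
      have e' : w (Sum.inr j) - b (Sum.inr j) = z * (γ⁻¹ • y' j) - y' j := by
        rw [hbz]
        simp only [hw, Sum.elim_inr]
        rw [mul_smul_comm]
      constructor
      · rw [e']
        exact sub_mem_nonunits O₁ (mul_mem_nonunits_of_mem O₁ hzO₁ (hy' j).2.2.2) (hy' j).2.2.1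
      · rw [e, mul_comm]
        exact mul_mem_nonunits_of_mem O₂ (hy' j).1 hz₂
  -- the scaled matrix is `≡ 1`
  have hentry : ∀ t s, b.repr (w s) t - (if t = s then 1 else 0) ∈ O₀.nonunits := by
    intro t s
    have h1 := hker (w s - b s) (hwb s).1 (hwb s).2 t
    rw [map_sub, Finsupp.sub_apply, Module.Basis.repr_self, Finsupp.single_apply] at h1
    have e : (if s = t then (1 : F) else 0) = if t = s then 1 else 0 := by
      by_cases hts : t = s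
      · rw [if_pos hts, if_pos hts.symm]
      · rw [if_neg hts, if_neg (Ne.symm hts)]
    rwa [e] at h1
  have hentryO : ∀ t s, b.repr (w s) t ∈ O₀ := by
    intro t s
    have h1 := mem_of_mem_nonunits O₀ (hentry t s)
    have h2 : (if t = s then (1 : F) else 0) ∈ O₀ := by
      split_ifs
      · exact O₀.one_mem
      · exact O₀.zero_mem
    have := O₀.add_mem _ _ h1 h2
    rwa [sub_add_cancel] at this
  set M' : Matrix (ι ⊕ κ) (ι ⊕ κ) O₀ := fun t s => ⟨b.repr (w s) t, hentryO t s⟩ with hM'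
  have hM'res : res₀.mapMatrix M' = 1 := by
    ext t s
    show res₀ (M' t s) = (1 : Matrix (ι ⊕ κ) (ι ⊕ κ) k₀) t s
    have h1 : res₀ (M' t s - (if t = s then 1 else 0)) = 0 := by
      rw [H₀.ker]
      have e : ((M' t s - (if t = s then 1 else 0) : O₀) : F) =
          b.repr (w s) t - (if t = s then 1 else 0) := by
        split_ifs <;> simp [hM']
      rw [e]
      exact hentry t s
    rw [map_sub, sub_eq_zero] at h1
    rw [h1, Matrix.one_apply]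
    split_ifs <;> simp
  refine ⟨((M'.det : O₀) : F), (M'.det).2, ?_, ?_⟩
  · have : (⟨((M'.det : O₀) : F), (M'.det).2⟩ : O₀) = M'.det := rfl
    rw [this, RingHom.map_det, hM'res, Matrix.det_one]
  · -- the matrix of `z` is `M'` with the `κ`-columns multiplied by `γ`
    set v : ι ⊕ κ → F := Sum.elim (fun _ => 1) (fun _ => γ) with hv
    have hleft : Algebra.leftMulMatrix b z =
        Matrix.of fun t s => v s * (O₀.subtype.mapMatrix M') t s := by
      ext t s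
      rw [Algebra.leftMulMatrix_eq_repr_mul, Matrix.of_apply]
      show b.repr (z * b s) t = v s * b.repr (w s) t
      rcases s with i | j
      · simp only [hv, hw, Sum.elim_inl, one_mul]
        rw [hbz]
        rfl
      · simp only [hv, hw, Sum.elim_inr]
        rw [map_smul, Finsupp.smul_apply, smul_eq_mul, ← mul_assoc, mul_inv_cancel₀ hγ0, one_mul,
          hbz]
        rfl
    rw [Algebra.norm_eq_matrix_det b z, hleft, Matrix.det_mul_row, ← RingHom.map_det]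
    congr 1
    rw [Fintype.prod_sum_type]
    simp [hv]

end Transition

section General

variable {F E : Type*} [Field F] [Field E] [Algebra F E]
variable {O₀ : ValuationSubring F} {O₁ O₂ : ValuationSubring E}
variable {ι κ : Type*} [Fintype ι] [Fintype κ]
variable {k₀ k₁ k₂ : Type*} [Field k₀] [Field k₁] [Field k₂] [Algebra k₀ k₁] [Algebra k₀ k₂]
variable {res₀ : O₀ →+* k₀} {res₁ : O₁ →+* k₁} {res₂ : O₂ →+* k₂}

/-- **the normalizer**: for `c₁ c₂ ∈ Fˣ` there is `g ∈ E` with `c₁ g ≡ 1` at `O₁`, `c₂ g ≡ 1` at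
`O₂` and `N_{E/F} g * (c₁ ^ f₁ * c₂ ^ f₂) ≡ 1` in `O₀`. -/
theorem exists_normalizer [FiniteDimensional F E] (D : Full O₀ O₁ O₂ ι κ) (H₀ : ResBase res₀)
    {c₁ c₂ : F} (hc₁ : c₁ ≠ 0) (hc₂ : c₂ ≠ 0) :
    ∃ g : E, c₁ • g - 1 ∈ O₁.nonunits ∧ c₂ • g - 1 ∈ O₂.nonunits ∧
      ∃ (u : F) (hu : u ∈ O₀), res₀ ⟨u, hu⟩ = 1 ∧
        Algebra.norm F g * (c₁ ^ Fintype.card ι * c₂ ^ Fintype.card κ) = u := by
  have hn : Module.finrank F E = Fintype.card ι + Fintype.card κ := D.card_eq.symm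
  by_cases hγ : c₁ / c₂ ∈ O₀
  · obtain ⟨z, hz₁, hz₂, u, hu, hures, hnorm⟩ :=
      exists_transition D H₀ hγ (div_ne_zero hc₁ hc₂)
    refine ⟨c₁⁻¹ • z, ?_, ?_, u, hu, hures, ?_⟩
    · rwa [smul_smul, mul_inv_cancel₀ hc₁, one_smul]
    · have e : c₂ • c₁⁻¹ • z = (c₁ / c₂)⁻¹ • z := by
        rw [smul_smul, inv_div, div_eq_mul_inv]
      rwa [e]
    · rw [Algebra.smul_def, map_mul, Algebra.norm_algebraMap, hnorm, hn, pow_add, div_pow,
        inv_pow, inv_pow]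
      have h1 : c₁ ^ Fintype.card ι ≠ 0 := pow_ne_zero _ hc₁
      have h2 : c₁ ^ Fintype.card κ ≠ 0 := pow_ne_zero _ hc₁
      have h3 : c₂ ^ Fintype.card κ ≠ 0 := pow_ne_zero _ hc₂
      field_simp
  · have hγ' : c₂ / c₁ ∈ O₀ := by
      have := (O₀.mem_or_inv_mem (c₁ / c₂)).resolve_left hγ
      rwa [inv_div] at this
    obtain ⟨z, hz₂, hz₁, u, hu, hures, hnorm⟩ :=
      exists_transition D.symm H₀ hγ' (div_ne_zero hc₂ hc₁)
    refine ⟨c₂⁻¹ • z, ?_, ?_, u, hu, hures, ?_⟩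
    · have e : c₁ • c₂⁻¹ • z = (c₂ / c₁)⁻¹ • z := by
        rw [smul_smul, inv_div, div_eq_mul_inv]
      rwa [e]
    · rwa [smul_smul, mul_inv_cancel₀ hc₂, one_smul]
    · rw [Algebra.smul_def, map_mul, Algebra.norm_algebraMap, hnorm, hn, pow_add, div_pow,
        inv_pow, inv_pow]
      have h1 : c₁ ^ Fintype.card ι ≠ 0 := pow_ne_zero _ hc₁
      have h2 : c₂ ^ Fintype.card ι ≠ 0 := pow_ne_zero _ hc₂
      have h3 : c₂ ^ Fintype.card κ ≠ 0 := pow_ne_zero _ hc₂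
      field_simp

/-- the residue of the inverse of a `1`-unit -/
theorem ResOver.res_inv_of_sub_one {O : ValuationSubring E} {k : Type*} [Field k] [Algebra k₀ k]
    {res : O →+* k} (H : ResOver res₀ res) {a : E} (ha : a - 1 ∈ O.nonunits) :
    ∃ h : a⁻¹ ∈ O, res ⟨a⁻¹, h⟩ = 1 := by
  have hmem : a ∈ O := mem_of_sub_one_mem_nonunits O ha
  have hinv : a⁻¹ ∈ O := inv_mem_of_notMem_nonunits O (notMem_nonunits_of_sub_one_mem O ha)
  have ha0 : a ≠ 0 := by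
    rintro rfl
    apply one_notMem_nonunits O
    have := neg_mem_nonunits O ha
    simpa using this
  have h1 : res ⟨a, hmem⟩ = 1 := by
    have h2 : res (⟨a, hmem⟩ - 1) = 0 := (H.ker _).mpr ha
    rwa [map_sub, map_one, sub_eq_zero] at h2
  refine ⟨hinv, ?_⟩
  have h3 : res ⟨a, hmem⟩ * res ⟨a⁻¹, hinv⟩ = 1 := by
    rw [← map_mul]
    have : (⟨a, hmem⟩ : O) * ⟨a⁻¹, hinv⟩ = 1 := Subtype.ext (mul_inv_cancel₀ ha0)
    rw [this, map_one]
  rwa [h1, one_mul] at h3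

/-- **the norm–residue formula, general normalisation**: `c₁ c₂ ∈ Fˣ`, `c₁ f ∈ O₁`, `c₂ f ∈ O₂`.
Then `N_{E/F} f * (c₁ ^ f₁ * c₂ ^ f₂) ∈ O₀` and its residue is
`N_{k₁/k₀} (res₁ (c₁ f)) * N_{k₂/k₀} (res₂ (c₂ f))`. -/
theorem norm_residue_gen [FiniteDimensional F E] (D : Full O₀ O₁ O₂ ι κ) (H₀ : ResBase res₀)
    (H₁ : ResOver res₀ res₁) (H₂ : ResOver res₀ res₂) {c₁ c₂ : F} (hc₁ : c₁ ≠ 0) (hc₂ : c₂ ≠ 0)
    {f : E} (hf₁ : c₁ • f ∈ O₁) (hf₂ : c₂ • f ∈ O₂) :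
    ∃ h : Algebra.norm F f * (c₁ ^ Fintype.card ι * c₂ ^ Fintype.card κ) ∈ O₀,
      res₀ ⟨Algebra.norm F f * (c₁ ^ Fintype.card ι * c₂ ^ Fintype.card κ), h⟩ =
        Algebra.norm k₀ (res₁ ⟨c₁ • f, hf₁⟩) * Algebra.norm k₀ (res₂ ⟨c₂ • f, hf₂⟩) := by
  obtain ⟨g, hg₁, hg₂, u, hu, hures, hnorm⟩ := exists_normalizer D H₀ hc₁ hc₂
  obtain ⟨hi₁, hr₁⟩ := H₁.res_inv_of_sub_one hg₁
  obtain ⟨hi₂, hr₂⟩ := H₂.res_inv_of_sub_one hg₂
  have hg0 : g ≠ 0 := by
    rintro rfl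
    rw [smul_zero, zero_sub] at hg₁
    apply one_notMem_nonunits O₁
    have := neg_mem_nonunits O₁ hg₁
    simpa using this
  have hcF₁ : algebraMap F E c₁ ≠ 0 := (_root_.map_ne_zero _).mpr hc₁
  have hcF₂ : algebraMap F E c₂ ≠ 0 := (_root_.map_ne_zero _).mpr hc₂
  have e₁ : f * g⁻¹ = (c₁ • f) * (c₁ • g)⁻¹ := by
    rw [Algebra.smul_def, Algebra.smul_def, mul_inv]
    field_simp
  have e₂ : f * g⁻¹ = (c₂ • f) * (c₂ • g)⁻¹ := by
    rw [Algebra.smul_def, Algebra.smul_def, mul_inv]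
    field_simp
  have hm₁ : f * g⁻¹ ∈ O₁ := by rw [e₁]; exact O₁.mul_mem _ _ hf₁ hi₁
  have hm₂ : f * g⁻¹ ∈ O₂ := by rw [e₂]; exact O₂.mul_mem _ _ hf₂ hi₂
  obtain ⟨h, hres⟩ := norm_residue D H₀ H₁ H₂ hm₁ hm₂
  have hr₁' : res₁ ⟨f * g⁻¹, hm₁⟩ = res₁ ⟨c₁ • f, hf₁⟩ := by
    have : (⟨f * g⁻¹, hm₁⟩ : O₁) = ⟨c₁ • f, hf₁⟩ * ⟨(c₁ • g)⁻¹, hi₁⟩ := Subtype.ext e₁
    rw [this, map_mul, hr₁, mul_one]
  have hr₂' : res₂ ⟨f * g⁻¹, hm₂⟩ = res₂ ⟨c₂ • f, hf₂⟩ := by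
    have : (⟨f * g⁻¹, hm₂⟩ : O₂) = ⟨c₂ • f, hf₂⟩ * ⟨(c₂ • g)⁻¹, hi₂⟩ := Subtype.ext e₂
    rw [this, map_mul, hr₂, mul_one]
  have hkey : Algebra.norm F f * (c₁ ^ Fintype.card ι * c₂ ^ Fintype.card κ) =
      Algebra.norm F (f * g⁻¹) * u := by
    have hfg : f = f * g⁻¹ * g := by rw [mul_assoc, inv_mul_cancel₀ hg0, mul_one]
    conv_lhs => rw [hfg, map_mul, mul_assoc, hnorm]
  have hmem : Algebra.norm F f * (c₁ ^ Fintype.card ι * c₂ ^ Fintype.card κ) ∈ O₀ := by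
    rw [hkey]
    exact O₀.mul_mem _ _ h hu
  refine ⟨hmem, ?_⟩
  have e : (⟨Algebra.norm F f * (c₁ ^ Fintype.card ι * c₂ ^ Fintype.card κ), hmem⟩ : O₀) =
      ⟨Algebra.norm F (f * g⁻¹), h⟩ * ⟨u, hu⟩ := Subtype.ext hkey
  rw [e, map_mul, hures, mul_one, hres, hr₁', hr₂']

/-- **instance shape, general normalisation**: residue degrees `1` and `q = p ^ a`, second residue
extension purely inseparable. -/
theorem norm_residue_gen_insep [FiniteDimensional F E] (D : Full O₀ O₁ O₂ ι κ)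
    (H₀ : ResBase res₀) (H₁ : ResOver res₀ res₁) (H₂ : ResOver res₀ res₂)
    (hι : Fintype.card ι = 1) (p : ℕ) [ExpChar k₀ p] (a : ℕ)
    (hinsep : ∀ y : k₂, y ^ p ^ a ∈ (algebraMap k₀ k₂).range)
    {c₁ c₂ : F} (hc₁ : c₁ ≠ 0) (hc₂ : c₂ ≠ 0) {f : E} (hf₁ : c₁ • f ∈ O₁) (hf₂ : c₂ • f ∈ O₂) :
    ∃ (h : Algebra.norm F f * (c₁ * c₂ ^ Fintype.card κ) ∈ O₀) (z₁ z₂ : k₀),
      algebraMap k₀ k₁ z₁ = res₁ ⟨c₁ • f, hf₁⟩ ∧
      algebraMap k₀ k₂ z₂ = res₂ ⟨c₂ • f, hf₂⟩ ^ Fintype.card κ ∧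
      res₀ ⟨Algebra.norm F f * (c₁ * c₂ ^ Fintype.card κ), h⟩ = z₁ * z₂ := by
  obtain ⟨h, e⟩ := norm_residue_gen D H₀ H₁ H₂ hc₁ hc₂ hf₁ hf₂
  obtain ⟨b₁⟩ := exists_basis_residue₁ D H₀ H₁
  obtain ⟨b₂⟩ := exists_basis_residue₂ D H₀ H₂
  have : Module.Finite k₀ k₁ := Module.Finite.of_basis b₁
  have : Module.Finite k₀ k₂ := Module.Finite.of_basis b₂
  have hpow : c₁ ^ Fintype.card ι = c₁ := by rw [hι, pow_one]
  rw [hpow] at h
  refine ⟨h, Algebra.norm k₀ (res₁ ⟨c₁ • f, hf₁⟩), Algebra.norm k₀ (res₂ ⟨c₂ • f, hf₂⟩),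
    ?_, ?_, ?_⟩
  · apply algebraMap_norm_of_finrank_eq_one
    rw [finrank_residue₁ D H₀ H₁, hι]
  · rw [algebraMap_norm_of_pow_mem p a _ (hinsep _), finrank_residue₂ D H₀ H₂]
  · rw [← e]
    congr 1
    apply Subtype.ext
    show Algebra.norm F f * (c₁ * c₂ ^ Fintype.card κ) =
      Algebra.norm F f * (c₁ ^ Fintype.card ι * c₂ ^ Fintype.card κ)
    rw [hpow]

end General

end Fermat.Agent.BR2.NormResidue
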