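/-
Phase 2 (S35, conjunct 2), node (NR), part 3 (helper21): units go to units, general normalisation.

Corollary of `norm_residue_gen` (`BR2/NormResidueGen.lean`): if `c₁ f` is a unit of `O₁` and `c₂ f`
a unit of `O₂` then `N_{E/F} f * (c₁ ^ f₁ * c₂ ^ f₂)` is a unit of `O₀`.
-/
import Mathlib
import Fermat.Agent.BR2.NormResidueGen

set_option autoImplicit false

namespace Fermat.Agent.BR2.NormResidue

open Module Fermat.Agent.Val Fermat.Agent.BR.TwoVal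

variable {F E : Type*} [Field F] [Field E] [Algebra F E]
variable {O₀ : ValuationSubring F} {O₁ O₂ : ValuationSubring E}
variable {ι κ : Type*} [Fintype ι] [Fintype κ]
variable {k₀ k₁ k₂ : Type*} [Field k₀] [Field k₁] [Field k₂] [Algebra k₀ k₁] [Algebra k₀ k₂]
variable {res₀ : O₀ →+* k₀} {res₁ : O₁ →+* k₁} {res₂ : O₂ →+* k₂}

/-- **units go to units**: if `c₁ f` is a unit of `O₁` and `c₂ f` a unit of `O₂` then
`N f * (c₁ ^ f₁ * c₂ ^ f₂)` is a unit of `O₀`. -/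
theorem norm_gen_notMem_nonunits [FiniteDimensional F E] (D : Full O₀ O₁ O₂ ι κ)
    (H₀ : ResBase res₀) (H₁ : ResOver res₀ res₁) (H₂ : ResOver res₀ res₂) {c₁ c₂ : F}
    (hc₁ : c₁ ≠ 0) (hc₂ : c₂ ≠ 0) {f : E} (hf₁ : c₁ • f ∈ O₁) (hf₂ : c₂ • f ∈ O₂)
    (hu₁ : c₁ • f ∉ O₁.nonunits) (hu₂ : c₂ • f ∉ O₂.nonunits) :
    Algebra.norm F f * (c₁ ^ Fintype.card ι * c₂ ^ Fintype.card κ) ∉ O₀.nonunits := by
  obtain ⟨h, e⟩ := norm_residue_gen D H₀ H₁ H₂ hc₁ hc₂ hf₁ hf₂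
  obtain ⟨b₁⟩ := exists_basis_residue₁ D H₀ H₁
  obtain ⟨b₂⟩ := exists_basis_residue₂ D H₀ H₂
  have : Module.Finite k₀ k₁ := Module.Finite.of_basis b₁
  have : Module.Finite k₀ k₂ := Module.Finite.of_basis b₂
  intro hn
  have h0 : res₀ ⟨Algebra.norm F f * (c₁ ^ Fintype.card ι * c₂ ^ Fintype.card κ), h⟩ = 0 :=
    (H₀.ker _).mpr hn
  rw [e, mul_eq_zero, Algebra.norm_eq_zero_iff, Algebra.norm_eq_zero_iff, H₁.ker, H₂.ker] at h0
  rcases h0 with h0 | h0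
  · exact hu₁ h0
  · exact hu₂ h0

end Fermat.Agent.BR2.NormResidue
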