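import Fermat.Agent.BR2.NormResidueModular
import Fermat.Agent.BR2.G5
import Fermat.Agent.BR.S0.RedModularInst
import Fermat.Agent.BR.S0.TwoCompInput

/-!
# Phase 2 (S35, conjunct 2), node (NR-inst): the named hypotheses `(NRα)`, `(NRβ)` of `BR2/G5`

For a two-component semistable setup `S` on `F̄_{Mq}` whose component `0` is `w₁` (`O1`, `red1F`)
and whose component `1` is `w₂` (`O2`, `red2F`), `C₀ = constRedBar M hqM A hA` (good reduction of
`F̄_M`), `σ₀ = frobAutFullC k M q`, `φα = heckeAlphaBar`, `φβ = heckeBetaBar`: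

* `nrAlpha_of_setup` : residues `g₁, g₂` of `f` ⟹ `g₁ · σ₀ g₂` is a residue of `N_α f`;
* `nrBeta_of_setup` : … ⟹ `σ₀ g₁ · g₂` is a residue of `N_β f`;
* `nrAlpha_of_input`, `nrBeta_of_input` : the same for `S = I.toSetup`, `I.C = compW A hA hqM`.
-/

set_option autoImplicit false
set_option linter.unusedSectionVars false
set_option linter.style.haveILetI false

noncomputable section

set_option synthInstance.maxHeartbeats 400000

namespace Fermat.Agent.BR2.NormResidueModular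

open ModularCurve AlgebraicCurve Fermat.Agent.X0 Fermat.Agent.Val Fermat.Agent.BR.TwoVal
  Fermat.Agent.BR.ResGen Fermat.Agent.BR.TwoValInst Fermat.Agent.BR.Inst.SpecIso
  Fermat.Agent.Hecke Fermat.Agent.BR2.NormResidue Fermat.Agent.Jac

variable {M q : ℕ} [NeZero M] [hq : Fact q.Prime]
variable (A : ValuationSubring Kb) (hA : A.LiesOverPrime q) (hqM : ¬ q ∣ M)

local notation "kA" => IsLocalRing.ResidueField A

variable [CharP (IsLocalRing.ResidueField A) q] [PerfectField (IsLocalRing.ResidueField A)]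

/-! ### the shapes consumed by `BR2/G5` (`(NRα)`, `(NRβ)`) -/

section G5Shape

open Fermat.Agent.BR.SS Fermat.Agent.BR.S0 Fermat.Agent.BR.S0.RedModular
  Fermat.Agent.BR.ConstRedTwo

variable {ν : Type*}

/-- **`(NRα)` of `BR2/G5`** for a two-component setup on `F̄_{Mq}` whose components are `w₁`
(component `0`) and `w₂` (component `1`). -/
theorem nrAlpha_of_setup
    (S : SemistableSetup (F := Fb (M * q)) A (IsLocalRing.residue A) (Fin 2)
      (fun _ => ↥(modularFunctionFieldFullC (IsLocalRing.ResidueField A) M)) ν)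
    (h₀ : ∀ (x : Fb (M * q)) (hx : x ∈ S.O 0), ∃ hx' : x ∈ O1 M A hA,
      S.res 0 ⟨x, hx⟩ = red1F A hA hqM ⟨x, hx'⟩)
    (h₁ : ∀ (x : Fb (M * q)) (hx : x ∈ S.O 1), ∃ hx' : x ∈ O2 A hA hqM,
      S.res 1 ⟨x, hx⟩ = red2F A hA hqM ⟨x, hx'⟩)
    (f : Fb (M * q)) (g₁ g₂ : ↥(modularFunctionFieldFullC (IsLocalRing.ResidueField A) M))
    (hg₁ : Filt.IsResidue S 0 f g₁) (hg₂ : Filt.IsResidue S 1 f g₂) :
    G5.IsRes (constRedBar M hqM A hA) (normAlong (heckeAlphaBar Kb M q) f)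
      (g₁ * frobAutFullC kA M q • g₂) := by
  obtain ⟨hne₁, a₁, ha₁, hm₁, hr₁⟩ := hg₁
  obtain ⟨hne₂, a₂, ha₂, hm₂, hr₂⟩ := hg₂
  obtain ⟨hm₁', e₁⟩ := h₀ _ hm₁
  obtain ⟨hm₂', e₂⟩ := h₁ _ hm₂
  have key₀ := redMF_normAlong_alpha_const A hA hqM ha₁ ha₂ hm₁' hm₂'
  obtain ⟨h, e⟩ := key₀
  rw [e₁] at hr₁
  rw [e₂] at hr₂
  subst hr₁ hr₂
  have hne₂' : frobAutFullC kA M q • red2F A hA hqM ⟨a₂ • f, hm₂'⟩ ≠ 0 := by
    rw [Ne, smul_eq_zero_iff_eq]
    exact hne₂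
  exact ⟨mul_ne_zero hne₁ hne₂', a₁ * a₂ ^ q, mul_ne_zero ha₁ (pow_ne_zero q ha₂), h, e⟩

/-- **`(NRβ)` of `BR2/G5`**, same setup. -/
theorem nrBeta_of_setup
    (S : SemistableSetup (F := Fb (M * q)) A (IsLocalRing.residue A) (Fin 2)
      (fun _ => ↥(modularFunctionFieldFullC (IsLocalRing.ResidueField A) M)) ν)
    (h₀ : ∀ (x : Fb (M * q)) (hx : x ∈ S.O 0), ∃ hx' : x ∈ O1 M A hA,
      S.res 0 ⟨x, hx⟩ = red1F A hA hqM ⟨x, hx'⟩)
    (h₁ : ∀ (x : Fb (M * q)) (hx : x ∈ S.O 1), ∃ hx' : x ∈ O2 A hA hqM,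
      S.res 1 ⟨x, hx⟩ = red2F A hA hqM ⟨x, hx'⟩)
    (f : Fb (M * q)) (g₁ g₂ : ↥(modularFunctionFieldFullC (IsLocalRing.ResidueField A) M))
    (hg₁ : Filt.IsResidue S 0 f g₁) (hg₂ : Filt.IsResidue S 1 f g₂) :
    G5.IsRes (constRedBar M hqM A hA) (normAlong (heckeBetaBar Kb M q) f)
      (frobAutFullC kA M q • g₁ * g₂) := by
  obtain ⟨hne₁, a₁, ha₁, hm₁, hr₁⟩ := hg₁
  obtain ⟨hne₂, a₂, ha₂, hm₂, hr₂⟩ := hg₂
  obtain ⟨hm₁', e₁⟩ := h₀ _ hm₁
  obtain ⟨hm₂', e₂⟩ := h₁ _ hm₂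
  have key₀ := redMF_normAlong_beta_const A hA hqM ha₂ ha₁ hm₂' hm₁'
  obtain ⟨h, e⟩ := key₀
  rw [e₁] at hr₁
  rw [e₂] at hr₂
  subst hr₁ hr₂
  have key : red2F A hA hqM ⟨a₂ • f, hm₂'⟩ *
      (frobAutFullC kA M q • red1F A hA hqM ⟨a₁ • f, hm₁'⟩) =
      frobAutFullC kA M q • red1F A hA hqM ⟨a₁ • f, hm₁'⟩ * red2F A hA hqM ⟨a₂ • f, hm₂'⟩ :=
    mul_comm _ _
  have e' : redMF A hA hqM ⟨(a₂ * a₁ ^ q) • normAlong (heckeBetaBar Kb M q) f, h⟩ =
      frobAutFullC kA M q • red1F A hA hqM ⟨a₁ • f, hm₁'⟩ * red2F A hA hqM ⟨a₂ • f, hm₂'⟩ :=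
    e.trans key
  have hne₁' : frobAutFullC kA M q • red1F A hA hqM ⟨a₁ • f, hm₁'⟩ ≠ 0 := by
    rw [Ne, smul_eq_zero_iff_eq]
    exact hne₁
  exact ⟨mul_ne_zero hne₁' hne₂, a₂ * a₁ ^ q, mul_ne_zero ha₂ (pow_ne_zero q ha₁), h, e'⟩

/-- `(NRα)` for the setup of a two-component bundle with components `compW`. -/
theorem nrAlpha_of_input
    (I : TwoCompInput (F := Fb (M * q)) A (IsLocalRing.residue A)
      ↥(modularFunctionFieldFullC (IsLocalRing.ResidueField A) M) ν)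
    (hI : I.C = compW A hA hqM)
    (f : Fb (M * q)) (g₁ g₂ : ↥(modularFunctionFieldFullC (IsLocalRing.ResidueField A) M))
    (hg₁ : Filt.IsResidue I.toSetup 0 f g₁) (hg₂ : Filt.IsResidue I.toSetup 1 f g₂) :
    G5.IsRes (constRedBar M hqM A hA) (normAlong (heckeAlphaBar Kb M q) f)
      (g₁ * frobAutFullC kA M q • g₂) := by
  refine nrAlpha_of_setup A hA hqM I.toSetup ?_ ?_ f g₁ g₂ hg₁ hg₂
  · intro x hx
    have hC : I.C 0 = constRedW1 A hA hqM := by rw [hI]; rfl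
    have key : ∀ (C : ConstRed (F := Fb (M * q))
        (Ft := ↥(modularFunctionFieldFullC (IsLocalRing.ResidueField A) M)) A
        (IsLocalRing.residue A)) (hC : C = constRedW1 A hA hqM) (hx : x ∈ C.O),
        ∃ hx' : x ∈ O1 M A hA, C.res ⟨x, hx⟩ = red1F A hA hqM ⟨x, hx'⟩ := by
      intro C hC hx
      subst hC
      exact ⟨hx, rfl⟩
    exact key _ hC hx
  · intro x hx
    have hC : I.C 1 = constRedW2 A hA hqM := by rw [hI]; rfl
    have key : ∀ (C : ConstRed (F := Fb (M * q))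
        (Ft := ↥(modularFunctionFieldFullC (IsLocalRing.ResidueField A) M)) A
        (IsLocalRing.residue A)) (hC : C = constRedW2 A hA hqM) (hx : x ∈ C.O),
        ∃ hx' : x ∈ O2 A hA hqM, C.res ⟨x, hx⟩ = red2F A hA hqM ⟨x, hx'⟩ := by
      intro C hC hx
      subst hC
      exact ⟨hx, rfl⟩
    exact key _ hC hx

/-- `(NRβ)` for the setup of a two-component bundle with components `compW`. -/
theorem nrBeta_of_input
    (I : TwoCompInput (F := Fb (M * q)) A (IsLocalRing.residue A)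
      ↥(modularFunctionFieldFullC (IsLocalRing.ResidueField A) M) ν)
    (hI : I.C = compW A hA hqM)
    (f : Fb (M * q)) (g₁ g₂ : ↥(modularFunctionFieldFullC (IsLocalRing.ResidueField A) M))
    (hg₁ : Filt.IsResidue I.toSetup 0 f g₁) (hg₂ : Filt.IsResidue I.toSetup 1 f g₂) :
    G5.IsRes (constRedBar M hqM A hA) (normAlong (heckeBetaBar Kb M q) f)
      (frobAutFullC kA M q • g₁ * g₂) := by
  refine nrBeta_of_setup A hA hqM I.toSetup ?_ ?_ f g₁ g₂ hg₁ hg₂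
  · intro x hx
    have hC : I.C 0 = constRedW1 A hA hqM := by rw [hI]; rfl
    have key : ∀ (C : ConstRed (F := Fb (M * q))
        (Ft := ↥(modularFunctionFieldFullC (IsLocalRing.ResidueField A) M)) A
        (IsLocalRing.residue A)) (hC : C = constRedW1 A hA hqM) (hx : x ∈ C.O),
        ∃ hx' : x ∈ O1 M A hA, C.res ⟨x, hx⟩ = red1F A hA hqM ⟨x, hx'⟩ := by
      intro C hC hx
      subst hC
      exact ⟨hx, rfl⟩
    exact key _ hC hx
  · intro x hx
    have hC : I.C 1 = constRedW2 A hA hqM := by rw [hI]; rfl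
    have key : ∀ (C : ConstRed (F := Fb (M * q))
        (Ft := ↥(modularFunctionFieldFullC (IsLocalRing.ResidueField A) M)) A
        (IsLocalRing.residue A)) (hC : C = constRedW2 A hA hqM) (hx : x ∈ C.O),
        ∃ hx' : x ∈ O2 A hA hqM, C.res ⟨x, hx⟩ = red2F A hA hqM ⟨x, hx'⟩ := by
      intro C hC hx
      subst hC
      exact ⟨hx, rfl⟩
    exact key _ hC hx

end G5Shape

end Fermat.Agent.BR2.NormResidueModular
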