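import Fermat.Agent.S37
import Fermat.Agent.Pseudo.LamPsiHypProof
import Fermat.Agent.Jac.KummerMapsFinal
import Fermat.Agent.BR2.S35Span

/-!
# Phase 2 (S35): the frozen conclusion of S35 from the single remaining input `hgeo`

`s35_of_hgeo` : `s35_of_geoInputSpan` (`BR2/S35Span.lean`) with its three standing inputs discharged
(`KummerMaps M` = `Jac.KMF.kummerMaps M`, `H37 M lam` = the frozen statement S37,
`LamPsiHyp M S` = `Pseudo.JZ.lamPsiHyp M S`).  What remains for `Fermat/Agent/S35.lean` is exactly: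
for every `q ∥ M`, `q ≠ lam`, every valuation ring `B` of `ℚ̄` over `q` and every Frobenius
element `σ` at `q`, a finite `S' ⊇ S` and `GeoInputSpan M lam S' (χ ∘ incl) q σ`
(`BR2/GeoPlug.lean : geoInputSpan_of_nodes`).
-/

set_option autoImplicit false

open Polynomial CuspForm

namespace Fermat.Agent.BR2

open Fermat.Agent.Pseudo.JZ

local notation "Qb" => AlgebraicClosure ℚ
local notation "GQ" => (AlgebraicClosure ℚ ≃ₐ[ℚ] AlgebraicClosure ℚ)

/-- **S35 (verbatim frozen conclusion) from `hgeo` alone.** -/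
theorem s35_of_hgeo {M : ℕ} [NeZero M] (lam : ℕ) [Fact lam.Prime] (S : Finset ℕ)
    (O' : Type) [CommRing O'] [IsDomain O'] [IsDiscreteValuationRing O']
    [IsAdicComplete (IsLocalRing.maximalIdeal O') O'] [Finite (IsLocalRing.ResidueField O')]
    [CharZero O'] (hlamO' : (lam : O') ∈ IsLocalRing.maximalIdeal O')
    (hlamS : lam ∈ S) (hMS : ∀ q : ℕ, q.Prime → q ∣ M → q ∈ S)
    (χ : heckeAlgebra M 2 (↑S : Set ℕ) →+* O')
    (hgeo : ∀ q : ℕ, q.Prime → q ≠ lam → q ∣ M → ¬ q ^ 2 ∣ M →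
      ∀ B : ValuationSubring Qb, B.LiesOverPrime q → ∀ σ : GQ, B.IsFrobeniusAt σ q →
        ∃ (S' : Finset ℕ) (hSS' : S ⊆ S'),
          GeoInputSpan M lam S' (χ.comp (heckeAlgebraIncl hSS')) q σ) :
    ∃ (O'' : Type) (_ : CommRing O'') (_ : IsDomain O'') (_ : IsDiscreteValuationRing O'')
      (_ : IsAdicComplete (IsLocalRing.maximalIdeal O'') O'')
      (_ : Finite (IsLocalRing.ResidueField O''))
      (_ : CharZero O'') (_ : Algebra O' O'') (_ : Module.Finite O' O'')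
      (_ : IsLocalHom (algebraMap O' O'')),
      Function.Injective (algebraMap O' O'') ∧
      ∃ ρ : GaloisRepAdic O'',
        (∀ (ℓ : ℕ) (hℓ : ℓ.Prime) (hℓM : ¬ ℓ ∣ M) (hℓS : ℓ ∉ (↑S : Set ℕ)),
          ∀ A : ValuationSubring (AlgebraicClosure ℚ), A.LiesOverPrime ℓ →
            ∀ σ : AlgebraicClosure ℚ ≃ₐ[ℚ] AlgebraicClosure ℚ, A.IsFrobeniusAt σ ℓ →
              LinearMap.charpoly (ρ.ρ σ) =
                X ^ 2 - C (algebraMap O' O'' (χ (CuspForm.heckeAlgebra.T hℓ hℓM hℓS))) * X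
                  + C ((ℓ : O''))) ∧
        (∀ q : ℕ, q.Prime → q ≠ lam → q ∣ M → ¬ q ^ 2 ∣ M →
          ∀ A : ValuationSubring (AlgebraicClosure ℚ), A.LiesOverPrime q →
            ∀ σ : AlgebraicClosure ℚ ≃ₐ[ℚ] AlgebraicClosure ℚ, A.IsFrobeniusAt σ q →
              LinearMap.charpoly (ρ.ρ σ) = X ^ 2 - C ((q : O'') + 1) * X + C ((q : O'')) ∨
              LinearMap.charpoly (ρ.ρ σ) = X ^ 2 + C ((q : O'') + 1) * X + C ((q : O''))) :=
  s35_of_geoInputSpan lam S O' hlamO' hlamS hMS (Fermat.Agent.Jac.KMF.kummerMaps M)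
    (Fermat.Agent.S37.result M lam (Fermat.Agent.Jac.heckeOperatorsCommuteBar M))
    (Fermat.Agent.Pseudo.JZ.lamPsiHyp M S) χ hgeo

end Fermat.Agent.BR2
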