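import Fermat.Agent.S29
import Fermat.Agent.Cheb.Cross.ChebExactMain
import Fermat.Agent.S54.FrobExists
import Fermat.Prelude.Def_CuspForm_Newforms

/-!
# Phase 2, node (N5): strong multiplicity one from the residual representations (S29)

Two normalized eigenforms `g` (level `N`), `f` (level `N'`) of weight `2` whose Hecke eigenvalues
agree at all primes outside a finite set `S` have the same eigenvalue at EVERY prime `ℓ ∤ N`,
`ℓ ∤ N'`.

Proof.  `a_ℓ(g), a_ℓ(f)` are algebraic integers.  For a prime `p ≠ ℓ` and `φ : ℤ̄ → k`, `k` a field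
of characteristic `p`, S29 attaches to `g`, `f` residual representations `ρ_g`, `ρ_f` over `k`,
both factoring through a finite level.  By Chebotarev (`Cheb.chebExact`) every `σ ∈ G_ℚ` agrees on
the compositum of the two levels with a Frobenius element at a prime `r ∉ S ∪ {p} ∪ {r ∣ N N'}`,
where the two characteristic polynomials are `X² - φ(a_r) X + r` with the SAME `a_r`; so
`charpoly ρ_f(σ) = charpoly ρ_g(σ)` for all `σ`.  At a Frobenius element at `ℓ` this says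
`φ(a_ℓ f) = φ(a_ℓ g)`.  A nonzero algebraic integer has nonzero image under some such `φ`
(lying-over), hence `a_ℓ(f) = a_ℓ(g)`.

* `exists_ringHom_ne_zero`;
* `charpoly_eq_of_attached`;
* `qCoeff_eq_of_forall_notMem` : (N5);
* `goodEigensystemOccursAt_of_forall_notMem`, `not_exists_eigenform_of_isNewform` : the form in
  which newness is contradicted in Phase 2 ((E7)+(N5)).
-/

set_option autoImplicit false
set_option linter.style.haveILetI false

open Polynomial

namespace Fermat.Agent.BR2.StrongMultOne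

set_option quotPrecheck false in
local notation "Zb" => ↥(integralClosure ℤ ℂ)
local notation "GQ" => (AlgebraicClosure ℚ ≃ₐ[ℚ] AlgebraicClosure ℚ)

/-! ### ring homomorphisms of `ℤ̄` to fields of positive characteristic -/

/-- A nonzero algebraic integer divides a nonzero rational integer. -/
theorem exists_int_dvd {x : Zb} (hx : x ≠ 0) :
    ∃ c : ℤ, c ≠ 0 ∧ x ∣ algebraMap ℤ Zb c := by
  have hy : IsIntegral ℤ (x : ℂ) := x.2
  have hy0 : (x : ℂ) ≠ 0 := fun h => hx (Subtype.ext h)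
  have hc : (minpoly ℤ (x : ℂ)).coeff 0 ≠ 0 := by
    intro h0
    have h1 := minpoly.coeff_zero_ne_zero (A := ℚ) hy.tower_top hy0
    rw [minpoly.isIntegrallyClosed_eq_field_fractions' ℚ hy, coeff_map, h0, map_zero] at h1
    exact h1 rfl
  refine ⟨(minpoly ℤ (x : ℂ)).coeff 0, hc, ?_⟩
  have h0 : Polynomial.aeval x (minpoly ℤ (x : ℂ)) = 0 := by
    apply Subtype.ext
    rw [← Subalgebra.aeval_coe]
    exact minpoly.aeval ℤ (x : ℂ)
  rw [← Polynomial.divX_mul_X_add (minpoly ℤ (x : ℂ)), map_add, map_mul, aeval_X, aeval_C] at h0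
  refine ⟨-(Polynomial.aeval x (minpoly ℤ (x : ℂ)).divX), ?_⟩
  linear_combination h0

/-- A prime outside a finite set which does not divide a given nonzero integer. -/
theorem exists_prime_not_dvd {c : ℤ} (hc : c ≠ 0) (T : Finset ℕ) :
    ∃ p : ℕ, p.Prime ∧ p ∉ T ∧ ¬ (p : ℤ) ∣ c := by
  obtain ⟨p, hp, hpp⟩ := Nat.exists_infinite_primes (max (T.sup id) c.natAbs + 1)
  refine ⟨p, hpp, fun hT => ?_, fun hdvd => ?_⟩
  · have h1 : p ≤ T.sup id := Finset.le_sup (f := id) hT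
    have h2 : T.sup id ≤ max (T.sup id) c.natAbs := le_max_left _ _
    omega
  · have h1 : p ∣ c.natAbs := Int.natCast_dvd.mp hdvd
    have h2 : p ≤ c.natAbs := Nat.le_of_dvd (Int.natAbs_pos.mpr hc) h1
    have h3 : c.natAbs ≤ max (T.sup id) c.natAbs := le_max_right _ _
    omega

/-- **A nonzero algebraic integer survives in some residue field of `ℤ̄`** of characteristic outside
a given finite set. -/
theorem exists_ringHom_ne_zero {x : Zb} (hx : x ≠ 0) (T : Finset ℕ) :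
    ∃ (p : ℕ) (k : Type) (_ : Field k) (_ : CharP k p) (φ : Zb →+* k),
      p.Prime ∧ p ∉ T ∧ φ x ≠ 0 := by
  obtain ⟨c, hc, hxc⟩ := exists_int_dvd hx
  obtain ⟨p, hp, hpT, hpc⟩ := exists_prime_not_dvd hc T
  have hpZ : Prime (p : ℤ) := Nat.prime_iff_prime_int.mp hp
  haveI hmax : (Ideal.span {(p : ℤ)}).IsMaximal :=
    PrincipalIdealRing.isMaximal_of_irreducible hpZ.irreducible
  have hker : RingHom.ker (algebraMap ℤ Zb) ≤ Ideal.span {(p : ℤ)} := by
    have hinj : Function.Injective (algebraMap ℤ Zb) := (algebraMap ℤ Zb).injective_int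
    rw [(RingHom.injective_iff_ker_eq_bot _).mp hinj]
    exact bot_le
  obtain ⟨Q, hQmax, hQ⟩ :=
    Ideal.exists_ideal_over_maximal_of_isIntegral (S := Zb) (Ideal.span {(p : ℤ)}) hker
  haveI := hQmax
  letI : Field (Zb ⧸ Q) := Ideal.Quotient.field Q
  have hp0 : ((p : ℕ) : Zb ⧸ Q) = 0 := by
    have h1 : ((p : ℕ) : Zb ⧸ Q) = Ideal.Quotient.mk Q (algebraMap ℤ Zb (p : ℤ)) := by simp
    rw [h1, Ideal.Quotient.eq_zero_iff_mem]
    have h2 : (p : ℤ) ∈ Q.comap (algebraMap ℤ Zb) := by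
      rw [hQ]
      exact Ideal.mem_span_singleton_self _
    exact h2
  have hchar : CharP (Zb ⧸ Q) p := ringChar.of_eq (CharP.ringChar_of_prime_eq_zero hp hp0)
  refine ⟨p, Zb ⧸ Q, inferInstance, hchar, Ideal.Quotient.mk Q, hp, hpT, ?_⟩
  intro h0
  rw [Ideal.Quotient.eq_zero_iff_mem] at h0
  have h1 : algebraMap ℤ Zb c ∈ Q := Q.mem_of_dvd hxc h0
  have h2 : c ∈ Q.comap (algebraMap ℤ Zb) := h1
  rw [hQ, Ideal.mem_span_singleton] at h2
  exact hpc h2

/-- The coefficient of `X` of `X² - c X + d`. -/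
theorem coeff_one_quadratic {k : Type*} [Field k] (c d : k) :
    (X ^ 2 - C c * X + C d : k[X]).coeff 1 = -c := by
  simp [Polynomial.coeff_C]

/-! ### equality of the characteristic polynomials -/

section Attached

variable {N N' : ℕ} {g : CuspForm (CongruenceSubgroup.Gamma0 N) 2}
  {f : CuspForm (CongruenceSubgroup.Gamma0 N') 2}

/-- Two residual representations attached to eigenforms with the same eigenvalues outside a finite
set of primes have the same characteristic polynomials (Chebotarev). -/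
theorem charpoly_eq_of_attached {k : Type} [Field k] (φ : Zb →+* k) (ρg ρf : ResidualGaloisRep k)
    (hρg : ρg.IsAttachedTo g φ) (hρf : ρf.IsAttachedTo f φ) (T : Finset ℕ)
    (hT : ∀ r : ℕ, r.Prime → r ∉ T → ¬ r ∣ N ∧ ¬ r ∣ N' ∧ (r : k) ≠ 0 ∧
      ModularFormClass.qCoeff f r = ModularFormClass.qCoeff g r) (σ : GQ) :
    LinearMap.charpoly (ρf.ρ σ) = LinearMap.charpoly (ρg.ρ σ) := by
  obtain ⟨L₁, hL₁, h₁⟩ := ρg.factorsThroughFiniteLevel
  obtain ⟨L₂, hL₂, h₂⟩ := ρf.factorsThroughFiniteLevel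
  haveI := hL₁
  haveI := hL₂
  have hL : FiniteDimensional ℚ ↥(L₁ ⊔ L₂) := IntermediateField.finiteDimensional_sup L₁ L₂
  obtain ⟨r, hr, hrT, P, ψ, hP, hψ, hσψ⟩ := Fermat.Agent.Cheb.chebExact (L₁ ⊔ L₂) hL σ T
  have key : ∀ (ρ : ResidualGaloisRep k) (L : IntermediateField ℚ (AlgebraicClosure ℚ)),
      (∀ τ : GQ, (∀ x ∈ L, τ x = x) → ρ.ρ τ = 1) → L ≤ L₁ ⊔ L₂ → ρ.ρ σ = ρ.ρ ψ := by
    intro ρ L hρ hle
    have h1 : ρ.ρ (ψ⁻¹ * σ) = 1 := hρ _ fun x hx => by
      rw [AlgEquiv.mul_apply, hσψ x (hle hx)]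
      exact ψ.symm_apply_apply x
    have h2 : σ = ψ * (ψ⁻¹ * σ) := by rw [mul_inv_cancel_left]
    rw [h2, map_mul, h1, mul_one]
  obtain ⟨hrN, hrN', hrk, hqc⟩ := hT r hr hrT
  obtain ⟨a, ha, hca⟩ := hρg r hr hrN hrk P hP ψ hψ
  obtain ⟨a', ha', hca'⟩ := hρf r hr hrN' hrk P hP ψ hψ
  have haa : a' = a := Subtype.ext (ha'.trans (hqc.trans ha.symm))
  rw [key ρf L₂ h₂ le_sup_right, key ρg L₁ h₁ le_sup_left, hca, hca', haa]

/-- The Hecke eigenvalue of a normalized eigenform at a prime not dividing the level is an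
algebraic integer. -/
theorem exists_integral_qCoeff (hg : g.IsNormalizedEigenform) {ℓ : ℕ} (hℓ : ℓ.Prime)
    (hℓN : ¬ ℓ ∣ N) : ∃ a : Zb, (a : ℂ) = ModularFormClass.qCoeff g ℓ := by
  obtain ⟨p, k, _, _, φ, hp, hpT, -⟩ := exists_ringHom_ne_zero (x := (1 : Zb)) one_ne_zero {ℓ}
  obtain ⟨ρ, hρ, -⟩ := Fermat.Agent.S29.result hg hp φ
  obtain ⟨A, hA, σ, hσ⟩ := Fermat.Agent.S54.FrobExists.exists_isFrobeniusAt ℓ hℓ
  have hℓk : (ℓ : k) ≠ 0 := by
    intro h0
    have h1 : p ∣ ℓ := (CharP.cast_eq_zero_iff k p ℓ).mp h0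
    have h2 : p = ℓ := (Nat.prime_dvd_prime_iff_eq hp hℓ).mp h1
    exact hpT (by rw [h2]; exact Finset.mem_singleton_self ℓ)
  obtain ⟨a, ha, -⟩ := hρ ℓ hℓ hℓN hℓk A hA σ hσ
  exact ⟨a, ha⟩

/-- **(N5) Strong multiplicity one.** Two normalized eigenforms whose eigenvalues agree outside a
finite set of primes have the same eigenvalue at every prime not dividing the two levels. -/
theorem qCoeff_eq_of_forall_notMem (hg : g.IsNormalizedEigenform) (hf : f.IsNormalizedEigenform)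
    (S : Finset ℕ)
    (h : ∀ r : ℕ, r.Prime → r ∉ S → ¬ r ∣ N → ¬ r ∣ N' →
      ModularFormClass.qCoeff f r = ModularFormClass.qCoeff g r)
    {ℓ : ℕ} (hℓ : ℓ.Prime) (hℓN : ¬ ℓ ∣ N) (hℓN' : ¬ ℓ ∣ N') :
    ModularFormClass.qCoeff f ℓ = ModularFormClass.qCoeff g ℓ := by
  obtain ⟨a, ha⟩ := exists_integral_qCoeff hg hℓ hℓN
  obtain ⟨a', ha'⟩ := exists_integral_qCoeff hf hℓ hℓN'
  by_contra hne
  have hx : a' - a ≠ 0 := by
    intro h0
    apply hne
    rw [← ha, ← ha', sub_eq_zero.mp h0]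
  obtain ⟨p, k, _, _, φ, hp, hpT, hφ⟩ := exists_ringHom_ne_zero hx {ℓ}
  have hpℓ : p ≠ ℓ := fun h => hpT (by rw [h]; exact Finset.mem_singleton_self ℓ)
  obtain ⟨ρg, hρg, -⟩ := Fermat.Agent.S29.result hg hp φ
  obtain ⟨ρf, hρf, -⟩ := Fermat.Agent.S29.result hf hp φ
  have hN0 : N ≠ 0 := by
    rintro rfl
    exact hℓN (dvd_zero ℓ)
  have hN0' : N' ≠ 0 := by
    rintro rfl
    exact hℓN' (dvd_zero ℓ)
  have hcast : ∀ r : ℕ, r.Prime → r ≠ p → (r : k) ≠ 0 := by
    intro r hr hrp h0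
    have h1 : p ∣ r := (CharP.cast_eq_zero_iff k p r).mp h0
    exact hrp ((Nat.prime_dvd_prime_iff_eq hp hr).mp h1).symm
  have hT : ∀ r : ℕ, r.Prime → r ∉ S ∪ N.primeFactors ∪ N'.primeFactors ∪ {p} →
      ¬ r ∣ N ∧ ¬ r ∣ N' ∧ (r : k) ≠ 0 ∧
        ModularFormClass.qCoeff f r = ModularFormClass.qCoeff g r := by
    intro r hr hrT
    simp only [Finset.mem_union, Finset.mem_singleton, not_or] at hrT
    obtain ⟨⟨⟨hrS, hrN⟩, hrN'⟩, hrp⟩ := hrT
    have h1 : ¬ r ∣ N := fun hd => hrN (Nat.mem_primeFactors.mpr ⟨hr, hd, hN0⟩)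
    have h2 : ¬ r ∣ N' := fun hd => hrN' (Nat.mem_primeFactors.mpr ⟨hr, hd, hN0'⟩)
    exact ⟨h1, h2, hcast r hr hrp, h r hr hrS h1 h2⟩
  obtain ⟨A, hA, σ, hσ⟩ := Fermat.Agent.S54.FrobExists.exists_isFrobeniusAt ℓ hℓ
  have hchar := charpoly_eq_of_attached φ ρg ρf hρg hρf _ hT σ
  have hℓk : (ℓ : k) ≠ 0 := hcast ℓ hℓ hpℓ.symm
  obtain ⟨b, hb, hcb⟩ := hρg ℓ hℓ hℓN hℓk A hA σ hσ
  obtain ⟨b', hb', hcb'⟩ := hρf ℓ hℓ hℓN' hℓk A hA σ hσ
  have hba : b = a := Subtype.ext (hb.trans ha.symm)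
  have hba' : b' = a' := Subtype.ext (hb'.trans ha'.symm)
  rw [hcb, hcb', hba, hba'] at hchar
  have h1 := congrArg (fun P : k[X] => P.coeff 1) hchar
  rw [coeff_one_quadratic, coeff_one_quadratic] at h1
  apply hφ
  rw [map_sub, sub_eq_zero]
  exact neg_injective h1

end Attached

/-! ### newness -/

section Newness

variable {M M' : ℕ} {g : CuspForm (CongruenceSubgroup.Gamma0 M) 2}

/-- An eigenform of a divisor level with the eigenvalues of `g` outside a finite set carries the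
whole good eigensystem of `g`. -/
theorem goodEigensystemOccursAt_of_forall_notMem (hM' : M' ∣ M) (hg : g.IsNormalizedEigenform)
    {f : CuspForm (CongruenceSubgroup.Gamma0 M') 2} (hf : f.IsNormalizedEigenform) (S : Finset ℕ)
    (h : ∀ r : ℕ, r.Prime → r ∉ S → ¬ r ∣ M →
      ModularFormClass.qCoeff f r = ModularFormClass.qCoeff g r) :
    g.GoodEigensystemOccursAt M' :=
  ⟨f, hf, fun _ hℓ hℓM =>
    qCoeff_eq_of_forall_notMem hg hf S (fun r hr hrS hrM _ => h r hr hrS hrM) hℓ hℓM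
      fun hd => hℓM (hd.trans hM')⟩

/-- **Newness, in the form used by Phase 2**: no normalized eigenform of a proper divisor level has
the eigenvalues of a newform outside a finite set of primes. -/
theorem not_exists_eigenform_of_isNewform (hg : g.IsNewform) (hM' : M' ∣ M) (hne : M' ≠ M)
    (S : Finset ℕ) :
    ¬ ∃ f : CuspForm (CongruenceSubgroup.Gamma0 M') 2, f.IsNormalizedEigenform ∧
      ∀ r : ℕ, r.Prime → r ∉ S → ¬ r ∣ M →
        ModularFormClass.qCoeff f r = ModularFormClass.qCoeff g r := by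
  rintro ⟨f, hf, h⟩
  exact hg.2 M' hM' hne (goodEigensystemOccursAt_of_forall_notMem hM' hg.1 hf S h)

end Newness

end Fermat.Agent.BR2.StrongMultOne
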