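import Mathlib
import Fermat.Agent.Val.RankOne
import Fermat.Agent.BR.UnramTower
import Fermat.Agent.BR2.TameCore

/-!
# Phase 2, piece (T) TAME RELATION: discreteness of the valuation on number fields

`Ω` a field of characteristic zero, `A` a valuation subring over the prime `q`, `L / ℚ` a
finite-dimensional intermediate field of `Ω / ℚ`: the valuation of `A` is discrete on `L`
(`exists_discreteOn`: there is a uniformizer `π ∈ L`, `TameCore.DiscreteOn A L π`).

From `BR/UnramTower.exists_dvrField` ((h3): a finite extension of a field with cyclic value group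
has cyclic value group) applied to `K₀ = ℚ`.
-/

set_option autoImplicit false

namespace Fermat.Agent.BR2.TameDisc

open Fermat.Agent.BR2.TameCore Fermat.Agent.BR.UnramTower

variable {Ω : Type*} [Field Ω] [CharZero Ω] [Algebra ℚ Ω] (A : ValuationSubring Ω)

/-- the value group of `ℚ` is generated by `v q` -/
theorem valIn_bot {q : ℕ} (hq : q.Prime) (hA : A.valuation (q : Ω) < 1) :
    ValIn A (⊥ : IntermediateField ℚ Ω).toSubfield (A.valuation (q : Ω)) := by
  intro x hx hx0
  obtain ⟨r, rfl⟩ := IntermediateField.mem_bot.mp hx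
  rw [eq_ratCast] at hx0 ⊢
  have hr0 : r ≠ 0 := by
    rintro rfl
    exact hx0 Rat.cast_zero
  have hnum : r.num ≠ 0 := Rat.num_ne_zero.mpr hr0
  have hden : (r.den : ℤ) ≠ 0 := by exact_mod_cast r.den_nz
  obtain ⟨N1, hN1⟩ := Fermat.Agent.Val.exists_pow_eq_valuation_intCast A hq hA hnum
  obtain ⟨N2, hN2⟩ := Fermat.Agent.Val.exists_pow_eq_valuation_intCast A hq hA hden
  refine ⟨(N1 : ℤ) - N2, ?_⟩
  have hq0 : A.valuation (q : Ω) ≠ 0 :=
    (map_ne_zero _).mpr (by exact_mod_cast hq.ne_zero)
  have e : (r : Ω) = (r.num : Ω) / ((r.den : ℤ) : Ω) := by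
    rw [Int.cast_natCast]
    exact Rat.cast_def r
  rw [e, map_div₀, hN1, hN2, zpow_sub₀ hq0, zpow_natCast, zpow_natCast]

omit [CharZero Ω] in
/-- a finite-dimensional intermediate field is spanned by finitely many elements over `ℚ` -/
theorem spannedBy_bot (L : IntermediateField ℚ Ω) [FiniteDimensional ℚ L] :
    ∃ m, SpannedBy (⊥ : IntermediateField ℚ Ω).toSubfield L.toSubfield m := by
  classical
  set b := Module.finBasis ℚ L with hb
  refine ⟨Module.finrank ℚ L, fun i => ((b i : L) : Ω), fun y hy => ?_⟩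
  refine ⟨fun i => algebraMap ℚ Ω (b.repr ⟨y, hy⟩ i), fun i => ?_, ?_⟩
  · exact (⊥ : IntermediateField ℚ Ω).algebraMap_mem _
  · have h1 := b.sum_repr ⟨y, hy⟩
    have h2 := congrArg (fun z : L => (z : Ω)) h1
    simp only at h2
    refine h2.symm.trans ?_
    rw [IntermediateField.coe_sum]
    refine Finset.sum_congr rfl fun i _ => ?_
    rw [IntermediateField.coe_smul, Algebra.smul_def]

/-- **The valuation of `A` is discrete on every number field** `L ⊆ Ω`. -/
theorem exists_discreteOn {q : ℕ} (hq : q.Prime) (hA : A.LiesOverPrime q)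
    (L : IntermediateField ℚ Ω) [FiniteDimensional ℚ L] :
    ∃ π, DiscreteOn A L.toSubfield π := by
  have hA' : A.valuation (q : Ω) < 1 := A.mem_nonunits_iff.mp hA
  obtain ⟨m, hm⟩ := spannedBy_bot L
  have hle : (⊥ : IntermediateField ℚ Ω).toSubfield ≤ L.toSubfield := by
    intro x hx
    exact (bot_le : (⊥ : IntermediateField ℚ Ω) ≤ L) hx
  have hqmem : (q : Ω) ∈ (⊥ : IntermediateField ℚ Ω).toSubfield :=
    natCast_mem (⊥ : IntermediateField ℚ Ω) q
  have hq0 : (q : Ω) ≠ 0 := by exact_mod_cast hq.ne_zero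
  obtain ⟨p, hp⟩ := exists_dvrField (A := A) hle hqmem hq0 hA' (valIn_bot A hq hA') hm
  exact ⟨p, hp⟩

end Fermat.Agent.BR2.TameDisc
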