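import Mathlib

/-!
# Phase 2 (S35, conjunct 2), nodes (L1)+(L2): the `2 × 2` linear algebra of the tame relation

Pure linear algebra (Mathlib only).  `R` an integral domain, `V` a free `R`-module of rank `2`,
`S T : Module.End R V` (think `S = ρ(σ)`, `σ` a Frobenius lift at `q`, `T = ρ(τ)`, `τ` in the
inertia group at `q`) such that

* (U) `T.charpoly = (X - 1) ^ 2`  (unipotent inertia, S34),
* (R) `T ≠ 1`  (ramified),
* (T) `S * T = T ^ q * S`  (tame relation `ρ(σ τ σ⁻¹) = ρ(τ)^q`),
* (D) `det S = q`  (`det ρ` cyclotomic), `q ≠ 0` in `R`.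

Then `S.charpoly = X² - (q + 1) X + q` or `X² + (q + 1) X + q`
(`charpoly_eq_or_of_tame`; group form `charpoly_map_eq_or_of_tame`).

Proof: `N := T - 1` satisfies `N² = 0` (Cayley–Hamilton), `N ≠ 0`, `T ^ q = 1 + q N`, hence
`S N = q N S`; in a basis this forces `tr S = ± (q + 1)` (`trace_eq_or_of_mul_eq`).
-/

set_option autoImplicit false

namespace Fermat.Agent.BR2.TameLinAlg

open Polynomial Matrix

section Entries

variable {R : Type*} [CommRing R] [IsDomain R]

/-- The computation in coordinates, case `y ≠ 0`. -/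
theorem trace_aux {a b c d x y z q : R} (hy : y ≠ 0) (hq : q ≠ 0)
    (h2 : a * y - b * x = q * (b * x + d * y))
    (h4 : c * y - d * x = q * (b * z - d * x))
    (h5 : a * d - b * c = q) (h6 : x * x + y * z = 0) :
    a + d = q + 1 ∨ a + d = -(q + 1) := by
  have key : q * ((b * x + d * y) ^ 2 - y ^ 2) = 0 := by
    linear_combination (-(d * y)) * h2 + b * y * h4 + q * b ^ 2 * h6 + y ^ 2 * h5
  have h7 : (b * x + d * y - y) * (b * x + d * y + y) = 0 := by
    have h8 : (b * x + d * y) ^ 2 - y ^ 2 = 0 := (mul_eq_zero.mp key).resolve_left hq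
    linear_combination h8
  have h9 : (a + d) * y = (q + 1) * (b * x + d * y) := by linear_combination h2
  rcases mul_eq_zero.mp h7 with h | h
  · left
    have hQ : b * x + d * y = y := by linear_combination h
    rw [hQ] at h9
    exact mul_right_cancel₀ hy h9
  · right
    have hQ : b * x + d * y = -y := by linear_combination h
    rw [hQ] at h9
    have : (a + d) * y = (-(q + 1)) * y := by linear_combination h9
    exact mul_right_cancel₀ hy this

/-- **The `2 × 2` computation.** `N ≠ 0`, `N² = 0`, `S N = q N S`, `det S = q ≠ 0` force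
`tr S = ± (q + 1)`. -/
theorem trace_eq_or_of_mul_eq (S N : Matrix (Fin 2) (Fin 2) R) (q : R) (hq : q ≠ 0)
    (hN0 : N ≠ 0) (hN2 : N * N = 0) (hSN : S * N = q • (N * S)) (hdet : S.det = q) :
    S.trace = q + 1 ∨ S.trace = -(q + 1) := by
  -- entries
  have e11 := congrFun (congrFun hN2 0) 0
  have e12 := congrFun (congrFun hN2 0) 1
  have e21 := congrFun (congrFun hN2 1) 0
  have e22 := congrFun (congrFun hN2 1) 1
  simp only [Matrix.mul_apply, Fin.sum_univ_two, Matrix.zero_apply] at e11 e12 e21 e22
  have s11 := congrFun (congrFun hSN 0) 0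
  have s12 := congrFun (congrFun hSN 0) 1
  have s21 := congrFun (congrFun hSN 1) 0
  have s22 := congrFun (congrFun hSN 1) 1
  simp only [Matrix.mul_apply, Fin.sum_univ_two, Matrix.smul_apply, smul_eq_mul] at s11 s12 s21 s22
  rw [Matrix.det_fin_two] at hdet
  rw [Matrix.trace_fin_two]
  -- `tr N = 0`
  have htr : N 0 0 + N 1 1 = 0 := by
    by_contra hne
    have hy : N 0 1 = 0 := by
      have : N 0 1 * (N 0 0 + N 1 1) = 0 := by linear_combination e12
      exact (mul_eq_zero.mp this).resolve_right hne
    have hz : N 1 0 = 0 := by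
      have : N 1 0 * (N 0 0 + N 1 1) = 0 := by linear_combination e21
      exact (mul_eq_zero.mp this).resolve_right hne
    have hx : N 0 0 = 0 := by
      have : N 0 0 * N 0 0 = 0 := by rw [hy] at e11; linear_combination e11
      exact mul_self_eq_zero.mp this
    have hw : N 1 1 = 0 := by
      have : N 1 1 * N 1 1 = 0 := by rw [hy] at e22; linear_combination e22
      exact mul_self_eq_zero.mp this
    exact hne (by rw [hx, hw, add_zero])
  have hw : N 1 1 = -N 0 0 := by linear_combination htr
  have h6 : N 0 0 * N 0 0 + N 0 1 * N 1 0 = 0 := e11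
  by_cases hy : N 0 1 = 0
  · by_cases hz : N 1 0 = 0
    · exfalso
      apply hN0
      have hx : N 0 0 = 0 := by
        have : N 0 0 * N 0 0 = 0 := by rw [hy] at h6; linear_combination h6
        exact mul_self_eq_zero.mp this
      ext i j
      fin_cases i <;> fin_cases j
      · exact hx
      · exact hy
      · exact hz
      · show N 1 1 = 0
        rw [hw, hx, neg_zero]
    · -- swapped coordinates
      have h := trace_aux (a := S 1 1) (b := S 1 0) (c := S 0 1) (d := S 0 0) (x := -N 0 0)
        (y := N 1 0) (z := N 0 1) (q := q) hz hq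
        (by rw [hw] at s21; linear_combination s21)
        (by linear_combination s11)
        (by linear_combination hdet)
        (by linear_combination h6)
      rcases h with h | h
      · left; linear_combination h
      · right; linear_combination h
  · exact trace_aux (a := S 0 0) (b := S 0 1) (c := S 1 0) (d := S 1 1) (x := N 0 0)
      (y := N 0 1) (z := N 1 0) (q := q) hy hq
      (by rw [hw] at s12; linear_combination s12)
      (by rw [hw] at s22; linear_combination s22)
      (by linear_combination hdet)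
      h6

end Entries

section Ring

variable {A : Type*} [Ring A]

/-- `(1 + N)^n = 1 + n N` when `N² = 0`. -/
theorem one_add_pow_of_sq_zero {N : A} (hN : N * N = 0) (n : ℕ) :
    (1 + N) ^ n = 1 + n • N := by
  induction n with
  | zero => simp
  | succ n ih =>
    rw [pow_succ, ih, mul_add, mul_one, add_mul, one_mul, smul_mul_assoc, hN, smul_zero, add_zero,
      succ_nsmul]
    abel

end Ring

section End

variable {R V : Type*} [CommRing R] [IsDomain R] [AddCommGroup V] [Module R V] [Module.Free R V]
  [Module.Finite R V]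

/-- In rank two, `charpoly f = X² - tr(f) X + det(f)`. -/
theorem charpoly_eq_of_finrank_two (hV : Module.finrank R V = 2) (f : Module.End R V) :
    f.charpoly = X ^ 2 - C (LinearMap.trace R V f) * X + C (LinearMap.det f) := by
  let b : Module.Basis (Fin 2) R V := Module.finBasisOfFinrankEq R V hV
  rw [← LinearMap.charpoly_toMatrix f b, Matrix.charpoly_fin_two,
    LinearMap.trace_eq_matrix_trace R b f, LinearMap.det_toMatrix b f]

theorem det_eq_charpoly_coeff_zero (hV : Module.finrank R V = 2) (f : Module.End R V) :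
    LinearMap.det f = f.charpoly.coeff 0 := by
  rw [charpoly_eq_of_finrank_two hV f]
  simp

/-- **(L1)+(L2), endomorphism form.** -/
theorem charpoly_eq_or_of_tame (hV : Module.finrank R V = 2) (S T : Module.End R V) (q : ℕ)
    (hq : (q : R) ≠ 0) (hT : T.charpoly = (X - 1) ^ 2) (hT1 : T ≠ 1)
    (htame : S * T = T ^ q * S) (hdet : LinearMap.det S = (q : R)) :
    S.charpoly = X ^ 2 - C ((q : R) + 1) * X + C (q : R) ∨
      S.charpoly = X ^ 2 + C ((q : R) + 1) * X + C (q : R) := by
  set N : Module.End R V := T - 1 with hN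
  have hTN : T = 1 + N := by rw [hN]; abel
  have hN2 : N * N = 0 := by
    have h := LinearMap.aeval_self_charpoly T
    rw [hT] at h
    simp only [map_pow, map_sub, aeval_X, map_one] at h
    rw [← pow_two]
    exact h
  have hN0 : N ≠ 0 := fun h => hT1 (by rw [hTN, h, add_zero])
  have hSN : S * N = (q : R) • (N * S) := by
    have h1 : T ^ q = 1 + q • N := by rw [hTN]; exact one_add_pow_of_sq_zero hN2 q
    have h2 : S * N = T ^ q * S - S := by rw [← htame, hN, mul_sub, mul_one]
    rw [h2, h1, add_mul, one_mul, add_sub_cancel_left, smul_mul_assoc, Nat.cast_smul_eq_nsmul]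
  let b : Module.Basis (Fin 2) R V := Module.finBasisOfFinrankEq R V hV
  let e := LinearMap.toMatrixAlgEquiv b
  have hmain := trace_eq_or_of_mul_eq (e S) (e N) (q : R) hq
    (fun h => hN0 (e.injective (by rw [h, map_zero])))
    (by rw [← map_mul, hN2, map_zero])
    (by rw [← map_mul, hSN, map_smul, map_mul])
    (by
      have : (e S).det = LinearMap.det S := LinearMap.det_toMatrix b S
      rw [this, hdet])
  have htr : (e S).trace = LinearMap.trace R V S := (LinearMap.trace_eq_matrix_trace R b S).symm
  rw [charpoly_eq_of_finrank_two hV S, hdet, ← htr]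
  rcases hmain with h | h
  · left; rw [h]
  · right
    rw [h, map_neg, neg_mul, sub_neg_eq_add]

/-- **(L1)+(L2), group form.** `ρ : G →* End V` (rank two over a domain), `σ τ : G` with
(U) `charpoly ρ(τ) = (X - 1)²`, (R) `ρ(τ) ≠ 1`, (T) `ρ(σ τ σ⁻¹) = ρ(τ)^q`, (D) `det ρ(σ) = q ≠ 0`:
then `charpoly ρ(σ) = (X - 1)(X - q)` or `(X + 1)(X + q)`. -/
theorem charpoly_map_eq_or_of_tame {G : Type*} [Group G] (hV : Module.finrank R V = 2)
    (ρ : G →* Module.End R V) (σ τ : G) (q : ℕ) (hq : (q : R) ≠ 0)
    (hU : (ρ τ).charpoly = (X - 1) ^ 2) (hR : ρ τ ≠ 1)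
    (hT : ρ (σ * τ * σ⁻¹) = ρ τ ^ q) (hD : LinearMap.det (ρ σ) = (q : R)) :
    (ρ σ).charpoly = X ^ 2 - C ((q : R) + 1) * X + C (q : R) ∨
      (ρ σ).charpoly = X ^ 2 + C ((q : R) + 1) * X + C (q : R) := by
  refine charpoly_eq_or_of_tame hV (ρ σ) (ρ τ) q hq hU hR ?_ hD
  rw [← hT, ← map_mul, ← map_mul]
  congr 1
  group

/-- the same with `(D)` read on the constant coefficient of the characteristic polynomial -/
theorem charpoly_map_eq_or_of_tame' {G : Type*} [Group G] (hV : Module.finrank R V = 2)
    (ρ : G →* Module.End R V) (σ τ : G) (q : ℕ) (hq : (q : R) ≠ 0)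
    (hU : (ρ τ).charpoly = (X - 1) ^ 2) (hR : ρ τ ≠ 1)
    (hT : ρ (σ * τ * σ⁻¹) = ρ τ ^ q) (hD : (ρ σ).charpoly.coeff 0 = (q : R)) :
    (ρ σ).charpoly = X ^ 2 - C ((q : R) + 1) * X + C (q : R) ∨
      (ρ σ).charpoly = X ^ 2 + C ((q : R) + 1) * X + C (q : R) :=
  charpoly_map_eq_or_of_tame hV ρ σ τ q hq hU hR hT
    (by rw [det_eq_charpoly_coeff_zero hV, hD])

end End

end Fermat.Agent.BR2.TameLinAlg
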