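import Mathlib
import Fermat.Agent.S14.TransCore

/-!
# Phase 2 (S35, conjunct 2), node (T), part 1: wild inertia of a valuation ring of an algebraic
extension

`L/K` an algebraic field extension, `A` a valuation subring of `L`, `v = A.valuation`,
`D = A.decompositionSubgroup K`.  No discreteness, no completeness, no finite levels.

* `exists_pow_apply_eq` : every orbit `σ^j x` is periodic;
* `valuation_apply_eq` : `σ ∈ D ⟹ v (σ y) = v y`;
* `wild A : Subgroup (L ≃ₐ[K] L)` : `σ ∈ D` with `v (σ y - y) < v y` for all `y ≠ 0`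
  (`σ y / y ≡ 1 mod 𝔪`);  `wild_le_inertia`;
* **averaging** `apply_eq_of_pow_apply_eq` : `g` wild, `l` a unit of `A`, `g^l x = x ⟹ g x = x`;
* `valuation_natCast_eq_one` : `q ∤ m ⟹ v m = 1` in residue characteristic `q`;
* `exists_prime_pow_fix`, `exists_prime_pow_fix_finiteDimensional` : for `g` wild and `L₀/K`
  finite there is `a` with `g^(q^a)` the identity on `L₀` (**wild inertia is pro-`q`**).
-/

set_option autoImplicit false
set_option linter.unusedSectionVars false

open scoped Pointwise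

namespace Fermat.Agent.BR2.Tame

variable {K L : Type*} [Field K] [Field L] [Algebra K L]

section Orbit

/-- a power of an automorphism fixing `x` fixes `x` -/
theorem pow_apply_eq_of_apply_eq {σ : L ≃ₐ[K] L} {x : L} (h : σ x = x) (n : ℕ) :
    (σ ^ n) x = x := by
  induction n with
  | zero => rfl
  | succ n ih =>
    rw [pow_succ]
    show (σ ^ n) (σ x) = x
    rw [h, ih]

theorem pow_mul_apply_eq {σ : L ≃ₐ[K] L} {x : L} {n : ℕ} (h : (σ ^ n) x = x) (m : ℕ) :
    (σ ^ (n * m)) x = x := by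
  rw [pow_mul]
  exact pow_apply_eq_of_apply_eq h m

/-- **Orbits are periodic**: for `x` algebraic over `K` some positive power of `σ` fixes `x`. -/
theorem exists_pow_apply_eq [Algebra.IsAlgebraic K L] (σ : L ≃ₐ[K] L) (x : L) :
    ∃ n : ℕ, n ≠ 0 ∧ (σ ^ n) x = x := by
  have halg : IsAlgebraic K x := Algebra.IsAlgebraic.isAlgebraic x
  have hfin : ((minpoly K x).rootSet L).Finite := Polynomial.rootSet_finite _ _
  have hmem : ∀ j : ℕ, (σ ^ j) x ∈ (minpoly K x).rootSet L := by
    intro j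
    rw [Polynomial.mem_rootSet]
    refine ⟨minpoly.ne_zero halg.isIntegral, ?_⟩
    rw [Polynomial.aeval_algHom_apply (σ ^ j) x, minpoly.aeval, map_zero]
  obtain ⟨i, j, hij, heq⟩ : ∃ i j : ℕ, i < j ∧ (σ ^ i) x = (σ ^ j) x := by
    by_contra hcon
    push Not at hcon
    have hinj : Function.Injective (fun j : ℕ => (⟨(σ ^ j) x, hmem j⟩ :
        (minpoly K x).rootSet L)) := by
      intro i j h
      have h' : (σ ^ i) x = (σ ^ j) x := congrArg Subtype.val h
      rcases lt_trichotomy i j with hlt | heq | hgt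
      · exact absurd h' (hcon i j hlt)
      · exact heq
      · exact absurd h'.symm (hcon j i hgt)
    have : Finite ((minpoly K x).rootSet L) := hfin
    exact not_injective_infinite_finite _ hinj
  refine ⟨j - i, by omega, ?_⟩
  have h1 : (σ ^ i) ((σ ^ (j - i)) x) = (σ ^ i) x := by
    rw [heq]
    show ((σ ^ i) * (σ ^ (j - i))) x = _
    rw [← pow_add]
    congr 2
    omega
  exact (σ ^ i).injective h1

end Orbit

section Decomp

variable (A : ValuationSubring L)

theorem valuation_apply_lt_one_iff {σ : L ≃ₐ[K] L} (hσ : σ ∈ A.decompositionSubgroup K) (x : L) :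
    A.valuation (σ x) < 1 ↔ A.valuation x < 1 :=
  Fermat.Agent.S14.valuation_apply_lt_one_iff_of_mem_decompositionSubgroup A hσ x

theorem apply_mem {σ : L ≃ₐ[K] L} (hσ : σ ∈ A.decompositionSubgroup K) {x : L} (hx : x ∈ A) :
    σ x ∈ A := by
  have h : σ • A = A := hσ
  have h2 : σ • x ∈ σ • A := ValuationSubring.smul_mem_pointwise_smul _ _ _ hx
  rw [h] at h2
  exact h2

theorem valuation_apply_le_one {σ : L ≃ₐ[K] L} (hσ : σ ∈ A.decompositionSubgroup K) {x : L}
    (hx : A.valuation x ≤ 1) : A.valuation (σ x) ≤ 1 :=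
  (A.valuation_le_one_iff _).mpr (apply_mem A hσ ((A.valuation_le_one_iff _).mp hx))

/-- the telescoping product `∏_{j<n} σ^j(σ y / y) = σ^n y / y` -/
theorem prod_ratio (σ : L ≃ₐ[K] L) {y : L} (hy : y ≠ 0) (n : ℕ) :
    ∏ j ∈ Finset.range n, (σ ^ j) (σ y / y) = (σ ^ n) y / y := by
  induction n with
  | zero =>
    rw [Finset.prod_range_zero, pow_zero]
    exact (div_self hy).symm
  | succ n ih =>
    rw [Finset.prod_range_succ, ih, map_div₀]
    have h1 : (σ ^ n) y ≠ 0 := fun h => hy ((map_eq_zero_iff _ (σ ^ n).injective).mp h)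
    have h2 : (σ ^ n) (σ y) = (σ ^ (n + 1)) y := by
      rw [pow_succ]; rfl
    rw [h2]
    field_simp

/-- an element of the decomposition group does not decrease the valuation -/
theorem not_ratio_lt_one [Algebra.IsAlgebraic K L] {σ : L ≃ₐ[K] L}
    (hσ : σ ∈ A.decompositionSubgroup K) {y : L} (hy : y ≠ 0) :
    ¬ A.valuation (σ y / y) < 1 := by
  intro hlt
  obtain ⟨n, hn0, hn⟩ := exists_pow_apply_eq σ y
  have hprod := prod_ratio σ hy n
  rw [hn, div_self hy] at hprod
  have hj : ∀ j : ℕ, A.valuation ((σ ^ j) (σ y / y)) < 1 := fun j =>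
    (valuation_apply_lt_one_iff A (pow_mem hσ j) _).mpr hlt
  have key : ∀ m : ℕ, A.valuation (∏ j ∈ Finset.range (m + 1), (σ ^ j) (σ y / y)) < 1 := by
    intro m
    induction m with
    | zero => simpa using hlt
    | succ m ih =>
      rw [Finset.prod_range_succ, map_mul]
      exact mul_lt_one_of_nonneg_of_lt_one_left zero_le ih (hj _).le
  obtain ⟨m, rfl⟩ := Nat.exists_eq_succ_of_ne_zero hn0
  have := key m
  rw [hprod, map_one] at this
  exact lt_irrefl _ this

/-- **elements of the decomposition group preserve the valuation** -/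
theorem valuation_apply_eq [Algebra.IsAlgebraic K L] {σ : L ≃ₐ[K] L}
    (hσ : σ ∈ A.decompositionSubgroup K) (y : L) : A.valuation (σ y) = A.valuation y := by
  by_cases hy : y = 0
  · rw [hy, map_zero]
  have hσy : σ y ≠ 0 := fun h => hy ((map_eq_zero_iff _ σ.injective).mp h)
  have h1 := not_ratio_lt_one A hσ hy
  have h2 : ¬ A.valuation (y / σ y) < 1 := by
    have h3 := not_ratio_lt_one A (inv_mem hσ) hσy
    have e : (σ⁻¹ : L ≃ₐ[K] L) (σ y) = y := by
      show (σ⁻¹ * σ) y = y
      rw [inv_mul_cancel]; rfl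
    rwa [e] at h3
  rw [map_div₀] at h1 h2
  have hvy : A.valuation y ≠ 0 := (Valuation.ne_zero_iff _).mpr hy
  have hvσ : A.valuation (σ y) ≠ 0 := (Valuation.ne_zero_iff _).mpr hσy
  apply le_antisymm
  · by_contra hcon
    push Not at hcon
    exact h2 ((div_lt_one₀ (zero_lt_iff.mpr hvσ)).mpr hcon)
  · by_contra hcon
    push Not at hcon
    exact h1 ((div_lt_one₀ (zero_lt_iff.mpr hvy)).mpr hcon)

end Decomp

section Wild

variable [Algebra.IsAlgebraic K L] (A : ValuationSubring L)

/-- **The wild inertia group** of `A`: the elements of the decomposition group with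
`σ y / y ≡ 1 mod 𝔪` for all `y ≠ 0`. -/
def wild : Subgroup (L ≃ₐ[K] L) where
  carrier := {σ | σ ∈ A.decompositionSubgroup K ∧
    ∀ y : L, y ≠ 0 → A.valuation (σ y - y) < A.valuation y}
  one_mem' := by
    refine ⟨one_mem _, fun y hy => ?_⟩
    show A.valuation (y - y) < _
    rw [sub_self, map_zero]
    exact zero_lt_iff.mpr ((Valuation.ne_zero_iff _).mpr hy)
  mul_mem' := by
    rintro σ τ ⟨hσD, hσ⟩ ⟨hτD, hτ⟩
    refine ⟨mul_mem hσD hτD, fun y hy => ?_⟩
    have hτy : τ y ≠ 0 := fun h => hy ((map_eq_zero_iff _ τ.injective).mp h)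
    have h1 := hσ (τ y) hτy
    have h2 := hτ y hy
    rw [valuation_apply_eq A hτD] at h1
    have e : (σ * τ) y - y = (σ (τ y) - τ y) + (τ y - y) := by
      show σ (τ y) - y = _
      ring
    rw [e]
    exact Valuation.map_add_lt _ h1 h2
  inv_mem' := by
    rintro σ ⟨hσD, hσ⟩
    refine ⟨inv_mem hσD, fun y hy => ?_⟩
    have hz : (σ⁻¹ : L ≃ₐ[K] L) y ≠ 0 := fun h =>
      hy ((map_eq_zero_iff _ (σ⁻¹ : L ≃ₐ[K] L).injective).mp h)
    have h1 := hσ _ hz
    have e : σ ((σ⁻¹ : L ≃ₐ[K] L) y) = y := by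
      show (σ * σ⁻¹) y = y
      rw [mul_inv_cancel]; rfl
    rw [e, valuation_apply_eq A (inv_mem hσD)] at h1
    rwa [← Valuation.map_neg, neg_sub] at h1

variable {A}

theorem mem_wild_iff {σ : L ≃ₐ[K] L} : σ ∈ wild (K := K) A ↔
    σ ∈ A.decompositionSubgroup K ∧ ∀ y : L, y ≠ 0 → A.valuation (σ y - y) < A.valuation y :=
  Iff.rfl

/-- wild elements lie in the inertia group -/
theorem wild_le_inertia : wild (K := K) A ≤ A.inertiaSubgroupIn K := by
  rintro σ ⟨hD, h⟩
  rw [Fermat.Agent.S14.mem_inertiaSubgroupIn_iff]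
  refine ⟨hD, fun x hx => ?_⟩
  by_cases hx0 : x = 0
  · rw [hx0, map_zero, sub_self, map_zero]; exact zero_lt_one
  · exact lt_of_lt_of_le (h x hx0) ((A.valuation_le_one_iff _).mpr hx)

/-- **Averaging.** A wild element whose `l`-th power fixes `x`, `l` a unit of `A`, fixes `x`. -/
theorem apply_eq_of_pow_apply_eq {g : L ≃ₐ[K] L} (hg : g ∈ wild (K := K) A) {l : ℕ}
    (hl : A.valuation (l : L) = 1) {x : L} (hx : (g ^ l) x = x) : g x = x := by
  have hl0 : (l : L) ≠ 0 := by
    intro h
    rw [h, map_zero] at hl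
    exact zero_ne_one hl
  set S : L := ∑ j ∈ Finset.range l, (g ^ j) x with hS
  -- `g S = S`
  have hgS : g S = S := by
    rw [hS, map_sum]
    have h1 : ∀ j, g ((g ^ j) x) = (g ^ (j + 1)) x := fun j => by
      rw [pow_succ']; rfl
    simp_rw [h1]
    have h2 := Finset.sum_range_succ' (fun j => (g ^ j) x) l
    have h3 := Finset.sum_range_succ (fun j => (g ^ j) x) l
    rw [h3] at h2
    simp only [pow_zero] at h2
    have h4 : ((1 : L ≃ₐ[K] L)) x = x := rfl
    rw [hx, h4] at h2
    exact (add_right_cancel h2).symm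
  have hgjS : ∀ j : ℕ, (g ^ j) S = S := fun j => pow_apply_eq_of_apply_eq hgS j
  -- `x₁ := l x - S` is killed by the averaging operator
  set x₁ : L := (l : L) * x - S with hx₁
  have hsum : ∑ j ∈ Finset.range l, (g ^ j) x₁ = 0 := by
    have : ∀ j, (g ^ j) x₁ = (l : L) * (g ^ j) x - S := fun j => by
      rw [hx₁, map_sub, map_mul, map_natCast, hgjS]
    simp_rw [this]
    rw [Finset.sum_sub_distrib, ← Finset.mul_sum, ← hS, Finset.sum_const, Finset.card_range,
      nsmul_eq_mul, sub_self]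
  have hx₁0 : x₁ = 0 := by
    by_contra hne
    have hv : A.valuation x₁ ≠ 0 := (Valuation.ne_zero_iff _).mpr hne
    have hdecomp : ∑ j ∈ Finset.range l, (g ^ j) x₁ =
        (l : L) * x₁ + ∑ j ∈ Finset.range l, ((g ^ j) x₁ - x₁) := by
      rw [Finset.sum_sub_distrib, Finset.sum_const, Finset.card_range, nsmul_eq_mul]
      ring
    have hsmall : A.valuation (∑ j ∈ Finset.range l, ((g ^ j) x₁ - x₁)) < A.valuation x₁ :=
      Valuation.map_sum_lt _ hv fun j _ => (pow_mem hg j).2 x₁ hne
    have hbig : A.valuation ((l : L) * x₁) = A.valuation x₁ := by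
      rw [map_mul, hl, one_mul]
    have : A.valuation (∑ j ∈ Finset.range l, (g ^ j) x₁) = A.valuation x₁ := by
      rw [hdecomp, ← hbig]
      exact Valuation.map_add_eq_of_lt_left _ (by rw [hbig]; exact hsmall)
    rw [hsum, map_zero] at this
    exact hv this.symm
  have hlx : (l : L) * x = S := sub_eq_zero.mp hx₁0
  have : (l : L) * g x = (l : L) * x := by
    rw [hlx, ← hgS, ← hlx, map_mul, map_natCast]
  exact mul_left_cancel₀ hl0 this

variable (A)

/-- integers prime to the residue characteristic are units -/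
theorem valuation_natCast_eq_one {q : ℕ} (hq : q.Prime) (hqA : A.valuation (q : L) < 1) {m : ℕ}
    (hm : ¬ q ∣ m) : A.valuation (m : L) = 1 := by
  have hcop : Nat.Coprime q m := (Nat.Prime.coprime_iff_not_dvd hq).mpr hm
  have hbez := Int.gcd_eq_gcd_ab (q : ℤ) (m : ℤ)
  rw [Int.gcd_natCast_natCast, hcop.gcd_eq_one] at hbez
  have hbez' : (m : L) * ((Int.gcdB q m : ℤ) : L) = 1 - (q : L) * ((Int.gcdA q m : ℤ) : L) := by
    have := congrArg (fun z : ℤ => (z : L)) hbez
    push_cast at this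
    linear_combination -this
  have hint : ∀ z : ℤ, A.valuation (z : L) ≤ 1 := fun z =>
    (A.valuation_le_one_iff _).mpr (intCast_mem A z)
  have h1 : A.valuation ((q : L) * ((Int.gcdA q m : ℤ) : L)) < 1 := by
    rw [map_mul]
    exact mul_lt_one_of_nonneg_of_lt_one_left zero_le hqA (hint _)
  have h2 : A.valuation ((m : L) * ((Int.gcdB q m : ℤ) : L)) = 1 := by
    rw [hbez']
    exact Valuation.map_one_sub_of_lt _ h1
  rw [map_mul] at h2
  have hm1 : A.valuation (m : L) ≤ 1 := by
    have := hint (m : ℤ)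
    rwa [Int.cast_natCast] at this
  apply le_antisymm hm1
  by_contra hcon
  push Not at hcon
  have : A.valuation (m : L) * A.valuation ((Int.gcdB q m : ℤ) : L) < 1 :=
    mul_lt_one_of_nonneg_of_lt_one_left zero_le hcon (hint _)
  rw [h2] at this
  exact lt_irrefl _ this

variable {A}

/-- **Wild inertia is pro-`q`** (pointwise form). -/
theorem exists_prime_pow_fix {g : L ≃ₐ[K] L} (hg : g ∈ wild (K := K) A) {q : ℕ} (hq : q.Prime)
    (hqA : A.valuation (q : L) < 1) (x : L) : ∃ a : ℕ, (g ^ (q ^ a)) x = x := by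
  obtain ⟨n, hn0, hn⟩ := exists_pow_apply_eq g x
  obtain ⟨a, m, hm, rfl⟩ := Nat.exists_eq_pow_mul_and_not_dvd hn0 q hq.ne_one
  refine ⟨a, ?_⟩
  refine apply_eq_of_pow_apply_eq (pow_mem hg (q ^ a)) (valuation_natCast_eq_one A hq hqA hm) ?_
  rw [← pow_mul]
  exact hn

theorem prime_pow_fix_mono {g : L ≃ₐ[K] L} {q : ℕ} {x : L} {a b : ℕ} (hab : a ≤ b)
    (h : (g ^ (q ^ a)) x = x) : (g ^ (q ^ b)) x = x := by
  obtain ⟨c, rfl⟩ := Nat.exists_eq_add_of_le hab
  rw [pow_add]
  exact pow_mul_apply_eq h _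

/-- **Wild inertia is pro-`q`**: on a finite subextension some `q`-power of `g` is the
identity. -/
theorem exists_prime_pow_fix_finiteDimensional {g : L ≃ₐ[K] L} (hg : g ∈ wild (K := K) A) {q : ℕ}
    (hq : q.Prime) (hqA : A.valuation (q : L) < 1) (L₀ : IntermediateField K L)
    [FiniteDimensional K L₀] : ∃ a : ℕ, ∀ x ∈ L₀, (g ^ (q ^ a)) x = x := by
  classical
  let b := Module.finBasis K L₀
  choose a ha using fun i => exists_prime_pow_fix hg hq hqA ((b i : L₀) : L)
  refine ⟨Finset.univ.sup a, fun x hx => ?_⟩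
  have hrepr := b.sum_repr ⟨x, hx⟩
  have hx' : x = ∑ i, (b.repr ⟨x, hx⟩ i) • ((b i : L₀) : L) := by
    have := congrArg (fun y : L₀ => (y : L)) hrepr
    simp only [AddSubmonoidClass.coe_finsetSum, IntermediateField.coe_smul] at this
    exact this.symm
  rw [hx', map_sum]
  refine Finset.sum_congr rfl fun i _ => ?_
  rw [map_smul]
  congr 1
  exact prime_pow_fix_mono (Finset.le_sup (Finset.mem_univ i)) (ha i)

end Wild

end Fermat.Agent.BR2.Tame
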