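import Mathlib
import Fermat.Agent.BR2.TameWild
import Fermat.Agent.BR2.TameLinAlg
import Fermat.Prelude.Def_GaloisRep_Adic
import Fermat.Prelude.Def_EllipticCurve_FrobeniusTrace

/-!
# Phase 2 (S35, conjunct 2), node (T): the tame relation `ρ(s τ s⁻¹) = ρ(τ)^q`

* `Cong A a b` : `a ≡ b mod 𝔪_A`; ratios `σ y / y`;
* `cong_ratio_mul`, `cong_ratio_pow` : on the inertia group `τ ↦ τ y / y mod 𝔪` is multiplicative;
* `cong_ratio_conj` : `(s τ s⁻¹) y / y ≡ (τ y / y)^q` for a Frobenius lift `s`;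
* `conj_mul_inv_pow_mem_wild` : `s τ s⁻¹ τ^(-q)` is wild;
* `congSubgroup ρ k` : the elements acting trivially modulo `𝔪^k`; `eq_one_of_forall_mem_congSubgroup`
  (Krull intersection); `pow_mem_congSubgroup_of_sq_zero`; `mem_of_pow_mem_of_coprime`;
* **`tame_relation`** : `ρ : GaloisRepAdic O` (`O` noetherian local), `lam ∈ 𝔪_O`, `q ≠ lam` primes,
  `A` over `q`, `ρ` unipotent on the inertia group of `A`, `s` a Frobenius lift at `A`, `τ` in the
  inertia group of `A`  ⟹  `ρ (s τ s⁻¹) = ρ(τ)^q`.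
-/

set_option autoImplicit false
set_option linter.unusedSectionVars false

open scoped Pointwise

namespace Fermat.Agent.BR2.Tame

section Congruence

variable {L : Type*} [Field L] (A : ValuationSubring L)

/-- `a ≡ b mod 𝔪_A` -/
def Cong (a b : L) : Prop := A.valuation (a - b) < 1

variable {A}

theorem Cong.refl (a : L) : Cong A a a := by
  unfold Cong; rw [sub_self, map_zero]; exact zero_lt_one

theorem Cong.symm {a b : L} (h : Cong A a b) : Cong A b a := by
  unfold Cong at h ⊢; rwa [← Valuation.map_neg, neg_sub]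

theorem Cong.trans {a b c : L} (h1 : Cong A a b) (h2 : Cong A b c) : Cong A a c := by
  unfold Cong at h1 h2 ⊢
  have : a - c = (a - b) + (b - c) := by ring
  rw [this]
  exact Valuation.map_add_lt _ h1 h2

theorem Cong.mul {a a' b b' : L} (h1 : Cong A a a') (h2 : Cong A b b')
    (ha' : A.valuation a' ≤ 1) (hb : A.valuation b ≤ 1) : Cong A (a * b) (a' * b') := by
  unfold Cong at h1 h2 ⊢
  have : a * b - a' * b' = (a - a') * b + a' * (b - b') := by ring
  rw [this]
  refine Valuation.map_add_lt _ ?_ ?_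
  · rw [map_mul]
    exact mul_lt_one_of_nonneg_of_lt_one_left zero_le h1 hb
  · rw [map_mul]
    exact mul_lt_one_of_nonneg_of_lt_one_right ha' zero_le h2

theorem Cong.pow {a b : L} (h : Cong A a b) (ha : A.valuation a ≤ 1) (hb : A.valuation b ≤ 1)
    (n : ℕ) : Cong A (a ^ n) (b ^ n) := by
  induction n with
  | zero => simp only [pow_zero]; exact Cong.refl 1
  | succ n ih =>
    rw [pow_succ, pow_succ]
    exact ih.mul h (by rw [map_pow]; exact pow_le_one₀ zero_le hb) ha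

end Congruence

section Theta

variable {K L : Type*} [Field K] [Field L] [Algebra K L] [Algebra.IsAlgebraic K L]
  {A : ValuationSubring L}

theorem apply_ne_zero (σ : L ≃ₐ[K] L) {y : L} (hy : y ≠ 0) : σ y ≠ 0 :=
  fun h => hy ((map_eq_zero_iff _ σ.injective).mp h)

theorem valuation_ratio {σ : L ≃ₐ[K] L} (hσ : σ ∈ A.decompositionSubgroup K) {y : L}
    (hy : y ≠ 0) : A.valuation (σ y / y) = 1 := by
  rw [map_div₀, valuation_apply_eq A hσ, div_self ((Valuation.ne_zero_iff _).mpr hy)]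

theorem Cong.apply {σ : L ≃ₐ[K] L} (hσ : σ ∈ A.decompositionSubgroup K) {a b : L}
    (h : Cong A a b) : Cong A (σ a) (σ b) := by
  unfold Cong at h ⊢
  rw [← map_sub]
  exact (valuation_apply_lt_one_iff A hσ _).mpr h

/-- the inertia condition, elementwise -/
theorem cong_apply_of_mem_inertia {τ : L ≃ₐ[K] L} (hτ : τ ∈ A.inertiaSubgroupIn K) {a : L}
    (ha : A.valuation a ≤ 1) : Cong A (τ a) a :=
  ((Fermat.Agent.S14.mem_inertiaSubgroupIn_iff A τ).mp hτ).2 a ((A.valuation_le_one_iff _).mp ha)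

theorem mem_decomp_of_mem_inertia {τ : L ≃ₐ[K] L} (hτ : τ ∈ A.inertiaSubgroupIn K) :
    τ ∈ A.decompositionSubgroup K :=
  ((Fermat.Agent.S14.mem_inertiaSubgroupIn_iff A τ).mp hτ).1

/-- `(τ τ') y / y ≡ (τ y / y) (τ' y / y)` for `τ` in the inertia group. -/
theorem cong_ratio_mul {τ τ' : L ≃ₐ[K] L} (hτ : τ ∈ A.inertiaSubgroupIn K)
    (hτ' : τ' ∈ A.decompositionSubgroup K) {y : L} (hy : y ≠ 0) :
    Cong A ((τ * τ') y / y) (τ y / y * (τ' y / y)) := by
  have hτD := mem_decomp_of_mem_inertia hτ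
  have e : (τ * τ') y / y = τ (τ' y / y) * (τ y / y) := by
    show τ (τ' y) / y = _
    rw [map_div₀]
    have := apply_ne_zero τ hy
    field_simp
  rw [e, mul_comm (τ y / y)]
  exact (cong_apply_of_mem_inertia hτ (valuation_ratio hτ' hy).le).mul (Cong.refl _)
    (valuation_ratio hτ' hy).le (valuation_ratio hτD hy).le

/-- `(τ^n) y / y ≡ (τ y / y)^n` for `τ` in the inertia group. -/
theorem cong_ratio_pow {τ : L ≃ₐ[K] L} (hτ : τ ∈ A.inertiaSubgroupIn K) {y : L} (hy : y ≠ 0)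
    (n : ℕ) : Cong A ((τ ^ n) y / y) ((τ y / y) ^ n) := by
  have hτD := mem_decomp_of_mem_inertia hτ
  induction n with
  | zero =>
    rw [pow_zero, pow_zero]
    show Cong A (y / y) 1
    rw [div_self hy]
    exact Cong.refl 1
  | succ n ih =>
    rw [pow_succ', pow_succ']
    refine (cong_ratio_mul hτ (pow_mem hτD n) hy).trans ?_
    refine (Cong.refl _).mul ih (valuation_ratio hτD hy).le (valuation_ratio (pow_mem hτD n) hy).le

/-- the Frobenius condition, elementwise -/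
theorem cong_apply_of_isFrobeniusAt {s : L ≃ₐ[K] L} {q : ℕ} (hs : A.IsFrobeniusAt s q) {a : L}
    (ha : A.valuation a ≤ 1) : Cong A (s a) (a ^ q) := by
  obtain ⟨hD, hres⟩ := hs
  have hamem : a ∈ A := (A.valuation_le_one_iff _).mp ha
  have h1 := hres (IsLocalRing.residue A ⟨a, hamem⟩)
  rw [← IsLocalRing.ResidueField.residue_smul, ← map_pow, ← sub_eq_zero, ← map_sub,
    IsLocalRing.residue_eq_zero_iff, A.valuation_lt_one_iff] at h1
  exact h1

/-- `(s τ s⁻¹) y / y ≡ (τ y / y)^q` for a Frobenius lift `s` and `τ` in the inertia group. -/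
theorem cong_ratio_conj {s τ : L ≃ₐ[K] L} {q : ℕ} (hs : A.IsFrobeniusAt s q)
    (hτ : τ ∈ A.inertiaSubgroupIn K) {y : L} (hy : y ≠ 0) :
    Cong A ((s * τ * s⁻¹) y / y) ((τ y / y) ^ q) := by
  have hsD : s ∈ A.decompositionSubgroup K := hs.mem_decompositionSubgroup
  have hτD := mem_decomp_of_mem_inertia hτ
  set z : L := (s⁻¹ : L ≃ₐ[K] L) y with hz
  have hz0 : z ≠ 0 := apply_ne_zero _ hy
  have hsz : s z = y := by
    show (s * s⁻¹) y = y
    rw [mul_inv_cancel]; rfl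
  have e : (s * τ * s⁻¹) y / y = s (τ z / z) := by
    rw [map_div₀, hsz]
    rfl
  rw [e]
  refine (cong_apply_of_isFrobeniusAt hs (valuation_ratio hτD hz0).le).trans ?_
  refine Cong.pow ?_ (valuation_ratio hτD hz0).le (valuation_ratio hτD hy).le q
  -- `τ z / z ≡ τ y / y`
  set w : L := z / y with hw
  have hw1 : A.valuation w = 1 := valuation_ratio (inv_mem hsD) hy
  have hw0 : w ≠ 0 := by
    intro h
    rw [h, map_zero] at hw1
    exact zero_ne_one hw1
  have hzw : z = y * w := by rw [hw]; field_simp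
  have e2 : τ z / z = τ y / y * (τ w / w) := by
    rw [hzw, map_mul]
    have := apply_ne_zero τ hy
    field_simp
  have h3 : Cong A (τ w / w) 1 := by
    unfold Cong
    have : τ w / w - 1 = (τ w - w) / w := by field_simp
    rw [this, map_div₀, hw1, div_one]
    exact cong_apply_of_mem_inertia hτ hw1.le
  rw [e2]
  have := (Cong.refl (τ y / y)).mul h3 (valuation_ratio hτD hy).le
    (by rw [map_div₀, valuation_apply_eq A hτD, div_self ((Valuation.ne_zero_iff _).mpr hw0)])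
  rwa [mul_one] at this

/-- **`s τ s⁻¹ τ^(-q)` is wild.** -/
theorem conj_mul_inv_pow_mem_wild {s τ : L ≃ₐ[K] L} {q : ℕ} (hs : A.IsFrobeniusAt s q)
    (hτ : τ ∈ A.inertiaSubgroupIn K) : s * τ * s⁻¹ * (τ ^ q)⁻¹ ∈ wild (K := K) A := by
  have hsD : s ∈ A.decompositionSubgroup K := hs.mem_decompositionSubgroup
  have hτD := mem_decomp_of_mem_inertia hτ
  refine ⟨mul_mem (mul_mem (mul_mem hsD hτD) (inv_mem hsD)) (inv_mem (pow_mem hτD q)),
    fun y hy => ?_⟩
  set y' : L := ((τ ^ q)⁻¹ : L ≃ₐ[K] L) y with hy'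
  have hy'0 : y' ≠ 0 := apply_ne_zero _ hy
  have hτy' : (τ ^ q) y' = y := by
    show ((τ ^ q) * (τ ^ q)⁻¹) y = y
    rw [mul_inv_cancel]; rfl
  have hval : A.valuation y = A.valuation y' := by
    rw [← hτy', valuation_apply_eq A (pow_mem hτD q)]
  have e : (s * τ * s⁻¹ * (τ ^ q)⁻¹) y - y =
      y' * ((s * τ * s⁻¹) y' / y' - (τ ^ q) y' / y') := by
    have h1 : (s * τ * s⁻¹ * (τ ^ q)⁻¹) y = (s * τ * s⁻¹) y' := rfl
    rw [h1]
    have h2 : (s * τ * s⁻¹) y' - y = (s * τ * s⁻¹) y' - (τ ^ q) y' := by rw [hτy']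
    rw [h2]
    field_simp
  rw [e, map_mul, hval]
  have hc : Cong A ((s * τ * s⁻¹) y' / y') ((τ ^ q) y' / y') :=
    (cong_ratio_conj hs hτ hy'0).trans (cong_ratio_pow hτ hy'0 q).symm
  have hpos : 0 < A.valuation y' := zero_lt_iff.mpr ((Valuation.ne_zero_iff _).mpr hy'0)
  calc A.valuation y' * A.valuation ((s * τ * s⁻¹) y' / y' - (τ ^ q) y' / y')
      < A.valuation y' * 1 := by
        exact (mul_lt_mul_iff_right₀ hpos).mpr hc
    _ = A.valuation y' := mul_one _

end Theta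

section GroupLemma

/-- an element with two coprime powers in a subgroup lies in the subgroup -/
theorem mem_of_pow_mem_of_coprime {G : Type*} [Group G] (H : Subgroup G) {g : G} {a b : ℕ}
    (hab : Nat.Coprime a b) (ha : g ^ a ∈ H) (hb : g ^ b ∈ H) : g ∈ H := by
  have hbez := Int.gcd_eq_gcd_ab (a : ℤ) (b : ℤ)
  rw [Int.gcd_natCast_natCast, hab.gcd_eq_one] at hbez
  have h1 : g = (g ^ a) ^ (Int.gcdA a b) * (g ^ b) ^ (Int.gcdB a b) := by
    rw [← zpow_natCast, ← zpow_natCast, ← zpow_mul, ← zpow_mul, ← zpow_add, ← hbez]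
    simp
  rw [h1]
  exact H.mul_mem (H.zpow_mem ha _) (H.zpow_mem hb _)

end GroupLemma

section Rep

open IsLocalRing

variable {R V G : Type*} [CommRing R] [IsLocalRing R] [AddCommGroup V] [Module R V] [Group G]
  (ρ : G →* Module.End R V)

theorem apply_mem_smul_top (I : Ideal R) (f : Module.End R V) {v : V}
    (hv : v ∈ I • (⊤ : Submodule R V)) : f v ∈ I • (⊤ : Submodule R V) := by
  have h1 : f v ∈ (I • (⊤ : Submodule R V)).map f := Submodule.mem_map_of_mem hv
  rw [Submodule.map_smul''] at h1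
  exact Submodule.smul_mono le_rfl le_top h1

/-- the elements of `G` acting trivially on `V / 𝔪^k V` -/
def congSubgroup (k : ℕ) : Subgroup G where
  carrier := {σ | ∀ v : V, ρ σ v - v ∈ (maximalIdeal R ^ k) • (⊤ : Submodule R V)}
  one_mem' := fun v => by
    rw [map_one]
    show v - v ∈ _
    rw [sub_self]
    exact Submodule.zero_mem _
  mul_mem' := by
    intro σ τ hσ hτ v
    have e : ρ (σ * τ) v - v = ρ σ (ρ τ v - v) + (ρ σ v - v) := by
      rw [map_mul, map_sub]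
      show ρ σ (ρ τ v) - v = _
      abel
    rw [e]
    exact Submodule.add_mem _ (apply_mem_smul_top _ _ (hτ v)) (hσ v)
  inv_mem' := by
    intro σ hσ v
    have h1 : ρ σ⁻¹ (ρ σ v) = v := by
      show (ρ σ⁻¹ * ρ σ) v = v
      rw [← map_mul, inv_mul_cancel, map_one]; rfl
    have e : ρ σ⁻¹ v - v = -(ρ σ⁻¹ (ρ σ v - v)) := by
      rw [map_sub, h1]; abel
    rw [e]
    exact Submodule.neg_mem _ (apply_mem_smul_top _ _ (hσ v))

theorem mem_congSubgroup_iff {k : ℕ} {σ : G} : σ ∈ congSubgroup ρ k ↔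
    ∀ v : V, ρ σ v - v ∈ (maximalIdeal R ^ k) • (⊤ : Submodule R V) := Iff.rfl

/-- **Krull intersection**: an element acting trivially modulo every `𝔪^k` acts trivially. -/
theorem eq_one_of_forall_mem_congSubgroup [IsNoetherianRing R] [Module.Finite R V] {g : G}
    (h : ∀ k, g ∈ congSubgroup ρ k) : ρ g = 1 := by
  apply LinearMap.ext
  intro v
  have h1 : ρ g v - v ∈ (⨅ k : ℕ, (maximalIdeal R ^ k) • (⊤ : Submodule R V)) := by
    rw [Submodule.mem_iInf]
    exact fun k => h k v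
  rw [Ideal.iInf_pow_smul_eq_bot_of_isLocalRing (maximalIdeal R)
    (Ideal.IsPrime.ne_top inferInstance), Submodule.mem_bot, sub_eq_zero] at h1
  rw [h1]
  rfl

/-- unipotent elements are pro-`lam`: `(ρ τ - 1)² = 0`, `lam ∈ 𝔪` ⟹ `τ^(lam^k) ≡ 1 mod 𝔪^k`. -/
theorem pow_mem_congSubgroup_of_sq_zero {τ : G} (hN : (ρ τ - 1) * (ρ τ - 1) = 0) {lam : ℕ}
    (hlam : (lam : R) ∈ maximalIdeal R) (k : ℕ) : τ ^ (lam ^ k) ∈ congSubgroup ρ k := by
  intro v
  have h1 : ρ τ = 1 + (ρ τ - 1) := by abel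
  have h2 : ρ (τ ^ (lam ^ k)) = 1 + (lam ^ k) • (ρ τ - 1) := by
    rw [map_pow]
    nth_rewrite 1 [h1]
    exact Fermat.Agent.BR2.TameLinAlg.one_add_pow_of_sq_zero hN _
  have h3 : ρ (τ ^ (lam ^ k)) v - v = ((lam : R) ^ k) • ((ρ τ - 1) v) := by
    rw [h2, LinearMap.add_apply, LinearMap.smul_apply, ← Nat.cast_smul_eq_nsmul R, Nat.cast_pow]
    show v + _ - v = _
    abel
  rw [h3]
  exact Submodule.smul_mem_smul (Ideal.pow_mem_pow hlam k) Submodule.mem_top

end Rep

section Main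

open Polynomial IsLocalRing

local notation "Qb" => AlgebraicClosure ℚ

/-- `ℚ̄` is algebraic over `ℚ` for any `ℚ`-algebra structure. -/
theorem isAlgebraic_rat_algebraicClosure [inst : Algebra ℚ (AlgebraicClosure ℚ)] :
    Algebra.IsAlgebraic ℚ (AlgebraicClosure ℚ) := by
  have h : inst = AlgebraicClosure.instAlgebra ℚ := Subsingleton.elim _ _
  subst h
  infer_instance

/-- **(T) THE TAME RELATION.** -/
theorem tame_relation {O : Type} [CommRing O] [IsLocalRing O] [IsNoetherianRing O]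
    (ρ : GaloisRepAdic O) {lam q : ℕ} (hq : q.Prime) (hlamq : Nat.Coprime q lam)
    (hlam : (lam : O) ∈ maximalIdeal O) (A : ValuationSubring Qb) (hA : A.LiesOverPrime q)
    (hU : ∀ τ ∈ A.inertiaSubgroupIn ℚ, LinearMap.charpoly (ρ.ρ τ) = (X - 1) ^ 2)
    {s : Qb ≃ₐ[ℚ] Qb} (hs : A.IsFrobeniusAt s q) {τ : Qb ≃ₐ[ℚ] Qb}
    (hτ : τ ∈ A.inertiaSubgroupIn ℚ) : ρ.ρ (s * τ * s⁻¹) = ρ.ρ τ ^ q := by
  have hqA : A.valuation (q : Qb) < 1 := (A.mem_nonunits_iff).mp hA
  have halg : Algebra.IsAlgebraic ℚ Qb := isAlgebraic_rat_algebraicClosure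
  set g : Qb ≃ₐ[ℚ] Qb := s * τ * s⁻¹ * (τ ^ q)⁻¹ with hg
  have hgw : g ∈ wild (K := ℚ) A := conj_mul_inv_pow_mem_wild hs hτ
  have hgI : g ∈ A.inertiaSubgroupIn ℚ := wild_le_inertia hgw
  -- `(ρ g - 1)² = 0`
  have hN : (ρ.ρ g - 1) * (ρ.ρ g - 1) = 0 := by
    have h := LinearMap.aeval_self_charpoly (ρ.ρ g)
    rw [hU g hgI] at h
    simp only [map_pow, map_sub, aeval_X, map_one] at h
    rw [← pow_two]
    exact h
  have hone : ρ.ρ g = 1 := by
    refine eq_one_of_forall_mem_congSubgroup ρ.ρ fun k => ?_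
    obtain ⟨L₀, hfin, hL₀⟩ := ρ.isAdicContinuous k
    obtain ⟨a, ha⟩ := exists_prime_pow_fix_finiteDimensional hgw hq hqA L₀
    have h1 : g ^ (q ^ a) ∈ congSubgroup ρ.ρ k := fun v => hL₀ _ ha v
    have h2 : g ^ (lam ^ k) ∈ congSubgroup ρ.ρ k := pow_mem_congSubgroup_of_sq_zero ρ.ρ hN hlam k
    exact mem_of_pow_mem_of_coprime _ (Nat.Coprime.pow a k hlamq) h1 h2
  have e : s * τ * s⁻¹ = g * τ ^ q := by
    rw [hg, inv_mul_cancel_right]
  rw [e, map_mul, hone, one_mul, map_pow]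

end Main

end Fermat.Agent.BR2.Tame
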