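import Mathlib
import Fermat.Prelude.Def_GaloisRep_LocalConditions
import Fermat.Agent.S05.Val
import Fermat.Agent.BR2.TameChar
import Fermat.Agent.BR2.TameDisc

/-!
# Phase 2, piece (T) TAME RELATION for a Galois representation unipotent on inertia

`ρ : GaloisRepAdic R` (`R` noetherian local), `q` a prime invertible in `R`, `ρ` unipotent on
inertia at `q` (the Prelude's `IsUnipotentOnInertiaAt`: `charpoly (ρ τ) = (X - 1)²` for `τ` in an
inertia group at `q`).  Then for every valuation subring `A` of `ℚ̄` over `q`, every Frobenius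
element `σ` at `A` and every `τ` in the inertia group of `A`:

  `ρ (σ τ σ⁻¹) = ρ (τ) ^ q`          (`tame_relation`).

Proof: `c := σ τ σ⁻¹ τ^{-q}` lies in the inertia group, `N := ρ c - 1` has square zero, so
`ρ (c ^ k) = 1 + k N`; modulo `𝔪ⁿ` the representation factors through a finite Galois extension
`L / ℚ`, on which `c ^ (q ^ a)` is trivial (`TameChar.exists_pow_apply_eq`); hence
`q ^ a N ≡ 0` modulo `𝔪ⁿ`, `N ≡ 0` modulo `𝔪ⁿ` for all `n`, `N = 0` (Krull).
-/

set_option autoImplicit false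

namespace Fermat.Agent.BR2.TameRho

open Fermat.Agent.BR2.TameCore Fermat.Agent.BR2.TameChar Fermat.Agent.BR2.TameDisc IsLocalRing
  Polynomial

/-- powers of `1 + N` with `N² = 0` -/
theorem one_add_pow_of_sq_zero {E : Type*} [Ring E] {N : E} (hN : N * N = 0) (k : ℕ) :
    (1 + N) ^ k = 1 + (k : E) * N := by
  induction k with
  | zero => simp
  | succ k ih =>
    rw [pow_succ, ih]
    have : (1 + (k : E) * N) * (1 + N) = 1 + ((k : E) + 1) * N + (k : E) * (N * N) := by
      noncomm_ring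
    rw [this, hN, mul_zero, add_zero]
    push_cast
    rfl

/-- `ℚ̄ / ℚ` is normal, for any `ℚ`-algebra structure on `ℚ̄` -/
theorem normal_Qbar [inst : Algebra ℚ (AlgebraicClosure ℚ)] :
    Normal ℚ (AlgebraicClosure ℚ) := by
  have h : inst = AlgebraicClosure.instAlgebra ℚ := Subsingleton.elim _ _
  subst h
  exact inferInstance

/-- `ℚ̄ / ℚ` is algebraic, for any `ℚ`-algebra structure on `ℚ̄` -/
theorem isAlgebraic_Qbar [inst : Algebra ℚ (AlgebraicClosure ℚ)] :
    Algebra.IsAlgebraic ℚ (AlgebraicClosure ℚ) :=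
  ⟨fun x => Fermat.Agent.S05.isAlgebraic_rat_algebraicClosure x⟩

/-- a unipotent endomorphism (in the charpoly sense) is `1 + N` with `N² = 0` -/
theorem sub_one_mul_self_eq_zero {R : Type} [CommRing R] {V : Type} [AddCommGroup V]
    [Module R V] [Module.Free R V]
    [Module.Finite R V] (f : Module.End R V)
    (hf : LinearMap.charpoly f = (X - 1) ^ 2) : (f - 1) * (f - 1) = 0 := by
  have h := LinearMap.aeval_self_charpoly f
  rw [hf] at h
  simpa [pow_two] using h

variable {R : Type} [CommRing R] [IsLocalRing R] [IsNoetherianRing R]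

/-- **The tame relation**: `ρ (σ τ σ⁻¹) = ρ (τ) ^ q` for `σ` a Frobenius element at `q` and `τ`
in the inertia group, when `ρ` is unipotent on inertia at `q` and `q` is invertible. -/
theorem tame_relation (ρ : GaloisRepAdic R) {q : ℕ} (hq : q.Prime) (hqR : IsUnit (q : R))
    (hU : ρ.IsUnipotentOnInertiaAt q) (A : ValuationSubring (AlgebraicClosure ℚ))
    (hA : A.LiesOverPrime q) {σ τ : AlgebraicClosure ℚ ≃ₐ[ℚ] AlgebraicClosure ℚ}
    (hσ : A.IsFrobeniusAt σ q) (hτ : τ ∈ A.inertiaSubgroupIn ℚ) :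
    ρ.ρ (σ * τ * σ⁻¹) = ρ.ρ τ ^ q := by
  have := isAlgebraic_Qbar
  have := normal_Qbar
  set c := σ * τ * σ⁻¹ * (τ ^ q)⁻¹ with hc
  have hcI : c ∈ A.inertiaSubgroupIn ℚ :=
    comm_mem_inertia A hσ.mem_decompositionSubgroup hτ q
  set N : Module.End R ρ.V := ρ.ρ c - 1 with hN
  have hNN : N * N = 0 := sub_one_mul_self_eq_zero (ρ.ρ c) (hU A hA c hcI)
  have hρc : ρ.ρ c = 1 + N := by rw [hN]; abel
  -- `N` vanishes modulo every power of the maximal ideal
  have hmod : ∀ n : ℕ, ∀ w : ρ.V, N w ∈ (maximalIdeal R ^ n) • (⊤ : Submodule R ρ.V) := by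
    intro n w
    obtain ⟨L₀, hL₀fin, hL₀⟩ := ρ.isAdicContinuous n
    have := hL₀fin
    set L := IntermediateField.normalClosure ℚ L₀ (AlgebraicClosure ℚ) with hL
    have hL₀L : L₀ ≤ L := IntermediateField.le_normalClosure L₀
    obtain ⟨π, hd⟩ := exists_discreteOn A hq hA L
    obtain ⟨a, ha⟩ := exists_pow_apply_eq A hq hA L hd hσ hτ
    have h1 := hL₀ (c ^ (q ^ a)) (fun x hx => ha x (hL₀L hx)) w
    rw [map_pow, hρc, one_add_pow_of_sq_zero hNN] at h1
    have h2 : ((q ^ a : ℕ) : R) • N w ∈ (maximalIdeal R ^ n) • (⊤ : Submodule R ρ.V) := by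
      have e : ((1 : Module.End R ρ.V) + ((q ^ a : ℕ) : Module.End R ρ.V) * N) w - w =
          ((q ^ a : ℕ) : R) • N w := by
        rw [LinearMap.add_apply, Module.End.one_apply, add_sub_cancel_left, Module.End.mul_apply]
        rw [Module.End.natCast_apply, Nat.cast_smul_eq_nsmul]
      rw [← e]
      exact h1
    have hu : IsUnit ((q ^ a : ℕ) : R) := by
      rw [Nat.cast_pow]
      exact hqR.pow a
    obtain ⟨u, hu'⟩ := hu
    have h3 := Submodule.smul_mem _ (↑u⁻¹ : R) h2
    rwa [← hu', smul_smul, Units.inv_mul, one_smul] at h3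
  have hN0 : N = 0 := by
    ext w
    have hmem : N w ∈ (⨅ i : ℕ, maximalIdeal R ^ i • ⊤ : Submodule R ρ.V) := by
      rw [Submodule.mem_iInf]
      exact fun n => hmod n w
    rw [Ideal.iInf_pow_smul_eq_bot_of_isLocalRing (maximalIdeal R)
      (Ideal.IsMaximal.ne_top inferInstance)] at hmem
    exact hmem
  have hc1 : ρ.ρ c = 1 := by rw [hρc, hN0, add_zero]
  have hcτ : σ * τ * σ⁻¹ = c * τ ^ q := by
    rw [hc, inv_mul_cancel_right]
  rw [hcτ, map_mul, hc1, one_mul, map_pow]

end Fermat.Agent.BR2.TameRho
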